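import Fermat.Agent.Minkowski.Trivial
import Mathlib.NumberTheory.NumberField.Cyclotomic.Basic
import Mathlib.NumberTheory.Cyclotomic.Gal

/-!
# Inertia at `p` acts nontrivially on `μ_p`
-/

set_option autoImplicit false

noncomputable section

namespace Fermat.Agent.S33aux

open scoped Pointwise NumberField
open Fermat.Agent.Frob Fermat.Agent.Minkowski

/-- `ζ - 1` is in the maximal ideal for a `p`-th root of unity `ζ` and a place over `p`. -/
lemma sub_one_mem_centre {p : ℕ} (hp : p.Prime) {A : ValuationSubring (AlgebraicClosure ℚ)}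
    (hA : A.LiesOverPrime p) (z : Zbar) (hz : z ^ p = 1) : z - 1 ∈ centre A := by
  have hpr : (centre A).IsPrime := inferInstance
  refine hpr.mem_of_pow_mem p ?_
  have hp0 : (p : Zbar) ∈ centre A := natCast_mem_centre hA
  have : Fact p.Prime := ⟨hp⟩
  have h1 : ∃ r : Zbar, (z - 1) ^ p = (z ^ p + (-1) ^ p) + p * r := by
    have := exists_add_pow_prime_eq hp z (-1)
    obtain ⟨r, hr⟩ := this
    exact ⟨z * (-1) * r, by rw [sub_eq_add_neg, hr]; ring⟩
  obtain ⟨r, hr⟩ := h1
  rw [hr, hz]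
  refine (centre A).add_mem ?_ (Ideal.mul_mem_right _ _ hp0)
  rcases hp.eq_two_or_odd' with h | h
  · subst h
    have : (1 + (-1) ^ 2 : Zbar) = ((2 : ℕ) : Zbar) := by push_cast; ring
    rw [this]; exact hp0
  · rw [h.neg_one_pow, add_neg_cancel]; exact (centre A).zero_mem

/-- For an odd prime `p` and a place `A` of `ℚ̄` above `p` there is an element of the inertia group
of `A` inverting the `p`-th roots of unity. -/
theorem exists_inertia_inv {p : ℕ} (hp : p.Prime)
    {A : ValuationSubring (AlgebraicClosure ℚ)} (hA : A.LiesOverPrime p)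
    {ζ : AlgebraicClosure ℚ} (hζ : IsPrimitiveRoot ζ p) :
    ∃ σ ∈ A.inertiaSubgroupIn ℚ, σ ζ = ζ⁻¹ := by
  classical
  have hp0 : NeZero p := ⟨hp.ne_zero⟩
  have hpF : Fact p.Prime := ⟨hp⟩
  set F : IntermediateField ℚ (AlgebraicClosure ℚ) := IntermediateField.adjoin ℚ {ζ} with hF
  have hfin : FiniteDimensional ℚ F :=
    IntermediateField.adjoin.finiteDimensional ((Algebra.IsAlgebraic.isAlgebraic ζ).isIntegral)
  have hNF : NumberField F := ⟨⟩
  have hcyc : IsCyclotomicExtension {p} ℚ F :=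
    hζ.intermediateField_adjoin_isCyclotomicExtension ℚ
  have hgal : IsGalois ℚ F := IsCyclotomicExtension.isGalois {p} ℚ F
  set z : F := ⟨ζ, IntermediateField.mem_adjoin_simple_self ℚ ζ⟩ with hz
  have hzp : IsPrimitiveRoot z p := by
    refine IsPrimitiveRoot.of_map_of_injective (f := F.val) ?_ F.val.injective
    exact hζ
  -- the automorphism inverting `z`
  have hirr : Irreducible (Polynomial.cyclotomic p ℚ) :=
    Polynomial.cyclotomic.irreducible_rat hp.pos
  obtain ⟨τ, hτ⟩ : ∃ τ : F ≃ₐ[ℚ] F, τ z = z⁻¹ := by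
    have hspec := IsCyclotomicExtension.zeta_spec p ℚ F
    refine ⟨IsCyclotomicExtension.fromZetaAut (n := p) (K := ℚ) (L := F)
      (μ := (IsCyclotomicExtension.zeta p ℚ F)⁻¹) hspec.inv hirr, ?_⟩
    obtain ⟨i, -, hi⟩ := hspec.eq_pow_of_pow_eq_one hzp.pow_eq_one
    rw [← hi, map_pow, IsCyclotomicExtension.fromZetaAut_spec, inv_pow]
  have hcyc1 : IsCyclotomicExtension {p ^ 1} ℚ F := by rw [pow_one]; exact hcyc
  have hzp1 : IsPrimitiveRoot z (p ^ 1) := by rw [pow_one]; exact hzp
  set w : 𝓞 F := hzp1.toInteger with hw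
  have hwz : algebraMap (𝓞 F) F w = z := rfl
  have hwp : w ^ p = 1 := by
    apply FaithfulSMul.algebraMap_injective (𝓞 F) F
    rw [map_pow, hwz, hzp.pow_eq_one, map_one]
  have hτw : τ (algebraMap (𝓞 F) F w) = algebraMap (𝓞 F) F (w ^ (p - 1)) := by
    rw [map_pow, hwz, hτ]
    refine inv_eq_of_mul_eq_one_right ?_
    rw [← pow_succ', Nat.sub_add_cancel hp.one_le, hzp.pow_eq_one]
  obtain ⟨σ, hσ, hσF⟩ := exists_lift_inertia F hp hA τ (fun x => by
    obtain ⟨f, hf⟩ := hzp1.integralPowerBasisOfPrimePow.exists_eq_aeval' x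
    rw [hzp1.integralPowerBasisOfPrimePow_gen, ← hw] at hf
    refine ⟨Polynomial.aeval (w ^ (p - 1)) f - Polynomial.aeval w f, ?_, ?_⟩
    · have e1 : ∀ u : 𝓞 F, algebraMap (𝓞 F) F (Polynomial.aeval u f) =
          Polynomial.aeval (algebraMap (𝓞 F) F u) f := fun u =>
        (Polynomial.aeval_algebraMap_apply F u f).symm
      have e2 : τ (Polynomial.aeval (algebraMap (𝓞 F) F w) f) =
          Polynomial.aeval (τ (algebraMap (𝓞 F) F w)) f := by
        have := Polynomial.aeval_algHom_apply (τ.toRingHom.toIntAlgHom) (algebraMap (𝓞 F) F w) f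
        exact this.symm
      have e3 : τ (algebraMap (𝓞 F) F w) = algebraMap (𝓞 F) F (w ^ (p - 1)) := hτw
      change algebraMap (𝓞 F) F (Polynomial.aeval (w ^ (p - 1)) f - Polynomial.aeval w f) =
        τ (algebraMap (𝓞 F) F x) - algebraMap (𝓞 F) F x
      rw [hf, map_sub, e1, e1, e2, e3]
    · have hdvd : w ^ (p - 1) - w ∣ Polynomial.aeval (w ^ (p - 1)) f - Polynomial.aeval w f := by
        rw [Polynomial.aeval_def, Polynomial.aeval_def, Polynomial.eval₂_eq_eval_map,
          Polynomial.eval₂_eq_eval_map]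
        exact Polynomial.sub_dvd_eval_sub _ _ _
      obtain ⟨r, hr⟩ := hdvd
      rw [hr, map_mul]
      refine Ideal.mul_mem_right _ _ ?_
      have h1 : incl F w - 1 ∈ centre A := sub_one_mem_centre hp hA _ (by
        rw [← map_pow, hwp, map_one])
      have h2 : incl F w ^ (p - 1) - 1 ∈ centre A := by
        obtain ⟨r', hr'⟩ := sub_one_dvd_pow_sub_one (incl F w) (p - 1)
        rw [hr']
        exact Ideal.mul_mem_right _ _ h1
      have h3 : incl F (w ^ (p - 1) - w) = (incl F w ^ (p - 1) - 1) - (incl F w - 1) := by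
        rw [map_sub, map_pow]; ring
      rw [h3]
      exact (centre A).sub_mem h2 h1)
  refine ⟨σ, hσ, ?_⟩
  have := hσF z
  rw [hτ] at this
  exact this

end Fermat.Agent.S33aux

end
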