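import Fermat.Agent.S33.Ordinary

/-!
# S33: reduction to a purely geometric statement about `J[p]`
-/

set_option autoImplicit false

noncomputable section

open CuspForm ModularCurve Polynomial Fermat.Agent.GalRep
open scoped TensorProduct

namespace Fermat.Agent.S33aux

/-! ### Finite modules not killed by elements outside a prime -/

section FiniteModule

variable {R M : Type*} [CommRing R] [AddCommGroup M] [Module R M] [Finite M]

lemma exists_eventual (P : Ideal R) [hP : P.IsPrime] (h : ∀ s ∉ P, ∃ x : M, s • x ≠ 0) :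
    ∃ s₀ ∉ P, (∀ s ∉ P, ∀ x : M, s • (s₀ • x) = 0 → s₀ • x = 0) ∧
      ∃ x : M, s₀ • x ≠ 0 ∧ ∀ t ∈ P, t • (s₀ • x) = 0 := by
  classical
  -- choose `s₀` with minimal image
  have h1 : ∃ n : ℕ, ∃ s ∉ P, Nat.card (Set.range fun x : M => s • x) = n :=
    ⟨_, 1, fun h => hP.ne_top (P.eq_top_of_isUnit_mem h isUnit_one), rfl⟩
  obtain ⟨s₀, hs₀, hcard⟩ := Nat.find_spec h1
  have hmin : ∀ s ∉ P, Nat.card (Set.range fun x : M => s₀ • x) ≤
      Nat.card (Set.range fun x : M => s • x) := by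
    intro s hs
    rw [hcard]
    exact Nat.find_min' h1 ⟨s, hs, rfl⟩
  have hinj : ∀ s ∉ P, ∀ x : M, s • (s₀ • x) = 0 → s₀ • x = 0 := by
    intro s hs x hx
    have hss : s * s₀ ∉ P := fun h => (hP.mem_or_mem h).elim hs hs₀
    have himg : (Set.range fun x : M => (s * s₀) • x) =
        (fun y : M => s • y) '' (Set.range fun x : M => s₀ • x) := by
      ext y
      constructor
      · rintro ⟨z, rfl⟩
        exact ⟨s₀ • z, ⟨z, rfl⟩, (mul_smul s s₀ z).symm⟩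
      · rintro ⟨_, ⟨z, rfl⟩, rfl⟩
        exact ⟨z, mul_smul s s₀ z⟩
    have h2 := hmin _ hss
    rw [himg] at h2
    have hfin : (Set.range fun x : M => s₀ • x).Finite := Set.toFinite _
    have h3 : Set.InjOn (fun y : M => s • y) (Set.range fun x : M => s₀ • x) := by
      rw [← Set.ncard_image_iff hfin]
      refine le_antisymm (Set.ncard_image_le hfin) ?_
      exact h2
    have h4 : s • (s₀ • x) = s • (0 : M) := by rw [hx, smul_zero]
    exact h3 ⟨x, rfl⟩ ⟨0, smul_zero _⟩ h4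
  refine ⟨s₀, hs₀, hinj, ?_⟩
  -- choose `x` with minimal cyclic module
  obtain ⟨x₀, hx₀⟩ := h s₀ hs₀
  have h5 : ∃ n : ℕ, ∃ x : M, s₀ • x ≠ 0 ∧ Nat.card (Submodule.span R {s₀ • x}) = n :=
    ⟨_, x₀, hx₀, rfl⟩
  obtain ⟨x, hx, hxcard⟩ := Nat.find_spec h5
  refine ⟨x, hx, fun t ht => ?_⟩
  by_contra hne
  have h6 : s₀ • (t • x) = t • (s₀ • x) := smul_comm _ _ _
  have h7 : Nat.card (Submodule.span R {s₀ • x}) ≤ Nat.card (Submodule.span R {s₀ • (t • x)}) := by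
    rw [hxcard]
    exact Nat.find_min' h5 ⟨t • x, by rw [h6]; exact hne, rfl⟩
  have hle : Submodule.span R {s₀ • (t • x)} ≤ Submodule.span R {s₀ • x} := by
    rw [Submodule.span_singleton_le_iff_mem, h6]
    exact Submodule.smul_mem _ _ (Submodule.mem_span_singleton_self _)
  have heq : (Submodule.span R {s₀ • (t • x)} : Set M) = Submodule.span R {s₀ • x} :=
    Set.eq_of_subset_of_ncard_le hle h7 (Set.toFinite _)
  have h8 : s₀ • x ∈ Submodule.span R {s₀ • (t • x)} := by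
    have : s₀ • x ∈ (Submodule.span R {s₀ • x} : Set M) := Submodule.mem_span_singleton_self _
    rw [← heq] at this
    exact this
  obtain ⟨r, hr⟩ := Submodule.mem_span_singleton.mp h8
  rw [h6] at hr
  have h9 : (1 - r * t) • (s₀ • x) = 0 := by
    rw [sub_smul, one_smul, mul_smul, hr, sub_self]
  have h10 : (1 - r * t) ∉ P := by
    intro hmem
    apply hP.ne_top
    rw [Ideal.eq_top_iff_one]
    have : (1 : R) = (1 - r * t) + r * t := by ring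
    rw [this]
    exact P.add_mem hmem (P.mul_mem_left _ ht)
  exact hx (hinj _ h10 _ h9)

end FiniteModule

/-! ### Residual ordinarity -/

section Residual

variable {T : Type} [CommRing T] [IsLocalRing T]

/-- If the residual representation is ordinary then `tr ρ = 1 + det ρ` on inertia, residually. -/
lemma trace_sub_mem_of_residual_ordinary (ρ : GaloisRepAdic T) {p : ℕ}
    (hres : (GaloisRepAdic.ofResidualGaloisRep ρ.residual).IsOrdinaryAt p)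
    {P : ValuationSubring (AlgebraicClosure ℚ)} (hP : P.LiesOverPrime p) {τ : GQ}
    (hτ : τ ∈ P.inertiaSubgroupIn ℚ) :
    LinearMap.trace T ρ.V (ρ.ρ τ) - (1 + LinearMap.det (ρ.ρ τ)) ∈ IsLocalRing.maximalIdeal T := by
  classical
  obtain ⟨L, ⟨b, hb⟩, hD, hI⟩ := hres P hP
  let k := IsLocalRing.ResidueField T
  let f : Module.End k (k ⊗[T] ρ.V) := (ρ.ρ τ).baseChange k
  have hbV : ∃ b' : Module.Basis (Fin 2) k (k ⊗[T] ρ.V), b' = b := ⟨b, rfl⟩
  obtain ⟨b', hb'⟩ := hbV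
  have hI' : ∀ v : k ⊗[T] ρ.V, f v - v ∈ (k ∙ b' 0 : Submodule k (k ⊗[T] ρ.V)) := by
    intro v
    have := hI τ hτ v
    rw [hb] at this
    rw [hb']
    exact this
  have h1 : ∀ j : Fin 2, ∃ c : k, f (b' j) - b' j = c • b' 0 := by
    intro j
    obtain ⟨c, hc⟩ := Submodule.mem_span_singleton.mp (hI' (b' j))
    exact ⟨c, hc.symm⟩
  choose c hc using h1
  have hM : LinearMap.toMatrix b' b' f = !![1 + c 0, c 1; 0, 1] := by
    ext i j
    rw [LinearMap.toMatrix_apply]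
    have : f (b' j) = b' j + c j • b' 0 := by rw [← hc j]; abel
    rw [this, map_add, map_smul]
    fin_cases i <;> fin_cases j <;> simp
  have htr : LinearMap.trace k (k ⊗[T] ρ.V) f = 1 + LinearMap.det f := by
    rw [LinearMap.trace_eq_matrix_trace k b', ← LinearMap.det_toMatrix b', hM,
      Matrix.det_fin_two_of, Matrix.trace_fin_two]
    simp
    ring
  rw [← IsLocalRing.residue_eq_zero_iff, map_sub, map_add, map_one, sub_eq_zero]
  have e1 := LinearMap.trace_baseChange (R := T) (M := ρ.V) (ρ.ρ τ) k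
  have e2 := LinearMap.det_baseChange (R := T) (M := ρ.V) (A := k) (ρ.ρ τ)
  change IsLocalRing.residue T _ = 1 + IsLocalRing.residue T _
  have e1' : IsLocalRing.residue T (LinearMap.trace T ρ.V (ρ.ρ τ)) =
      LinearMap.trace k (k ⊗[T] ρ.V) f := e1.symm
  have e2' : IsLocalRing.residue T (LinearMap.det (ρ.ρ τ)) = LinearMap.det f := e2.symm
  rw [e1', e2', htr]

end Residual

section Main

variable {N p : ℕ} [NeZero N] {S : Finset ℕ}
  {J : Type*} [AddCommGroup J] [Module HeckeAlg J] [DistribMulAction GQ J]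
  [SMulCommClass GQ HeckeAlg J]
  {T : Type} [CommRing T] [IsLocalRing T] [IsNoetherianRing T]

/-- `τ` acts on the `p`-th roots of unity by raising to the power `a`. -/
def IsCycExp (p : ℕ) (τ : GQ) (a : ℕ) : Prop := ∀ μ : AlgebraicClosure ℚ, μ ^ p = 1 → τ μ = μ ^ a

/-- The geometric input at the place `P`: a nonzero finite Galois and Hecke stable `X ⊆ W ∩ J[p]`,
stable under the endomorphisms in `Φ` (`w_p` and `U_p`), on which inertia satisfies the relation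
`(τ - 1)(τ - ω(τ)) = 0`, contains a nonzero Galois and Hecke stable subgroup on which inertia acts
by `ω`. -/
def GeoInput (p : ℕ) (S : Set ℕ) (J : Type*) [AddCommGroup J] [Module HeckeAlg J]
    [DistribMulAction GQ J] (P : ValuationSubring (AlgebraicClosure ℚ)) (W : AddSubgroup J)
    (Φ : Set (J →+ J)) : Prop :=
  ∀ X : AddSubgroup J, X ≠ ⊥ → X ≤ W → (∀ x ∈ X, p • x = 0) →
    (∀ g : GQ, ∀ x ∈ X, g • x ∈ X) → (∀ t : HeckeAlgS S, ∀ x ∈ X, inclS S t • x ∈ X) →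
    (∀ w ∈ Φ, ∀ x ∈ X, w x ∈ X) →
    (∀ τ ∈ P.inertiaSubgroupIn ℚ, ∀ a : ℕ, IsCycExp p τ a →
      ∀ x ∈ X, τ • (τ • x) + a • x = (1 + a) • (τ • x)) →
    ∃ X' : AddSubgroup J, X' ≤ X ∧ X' ≠ ⊥ ∧ (∀ g : GQ, ∀ x ∈ X', g • x ∈ X') ∧
      (∀ t : HeckeAlgS S, ∀ x ∈ X', inclS S t • x ∈ X') ∧
      ∀ τ ∈ P.inertiaSubgroupIn ℚ, ∀ a : ℕ, IsCycExp p τ a → ∀ x ∈ X', τ • x = a • x

lemma exists_isCycExp (hp : p.Prime) (τ : GQ) : ∃ a : ℕ, IsCycExp p τ a := by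
  have : NeZero p := ⟨hp.ne_zero⟩
  obtain ⟨ζ, hζ⟩ := HasEnoughRootsOfUnity.exists_primitiveRoot (AlgebraicClosure ℚ) p
  have h1 : (τ ζ) ^ p = 1 := by rw [← map_pow, hζ.pow_eq_one, map_one]
  obtain ⟨a, -, ha⟩ := hζ.eq_pow_of_pow_eq_one h1
  refine ⟨a, fun μ hμ => ?_⟩
  obtain ⟨i, -, hi⟩ := hζ.eq_pow_of_pow_eq_one hμ
  rw [← hi, map_pow, ← ha, ← pow_mul, ← pow_mul, mul_comm]

end Main

section FormalMain

variable {N p : ℕ} [NeZero N] {S : Finset ℕ}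
  {J : Type*} [AddCommGroup J] [Module HeckeAlg J] [DistribMulAction GQ J]
  [SMulCommClass GQ HeckeAlg J]
  {T : Type} [CommRing T] [IsLocalRing T] [IsNoetherianRing T]

/-- The key non-vanishing statement: a Galois, Hecke and `w`-stable `X ⊆ W ∩ J[p]` is killed by
a Hecke operator whose image in `T` is a unit. -/
theorem exists_unit_kill (hJ : ESInput N p (↑S : Set ℕ) J) (hp : p.Prime) (hp2 : p ≠ 2)
    (hpS : p ∈ S) (hpT : (p : T) ∈ IsLocalRing.maximalIdeal T)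
    (hNS : ∀ q : ℕ, q.Prime → q ∣ N → q ∈ S) (hfin : {x : J | p • x = 0}.Finite)
    {π : heckeAlgebra N 2 (↑S : Set ℕ) →+* T} {ρ : GaloisRepAdic T}
    (hfrob : HasFrobCharpoly π ρ) (habs : ρ.residual.IsAbsolutelyIrreducible)
    (hres : (GaloisRepAdic.ofResidualGaloisRep ρ.residual).IsOrdinaryAt p)
    (Φ : Set (J →+ J)) (hwH : ∀ w ∈ Φ, ∀ (t : HeckeAlgS (↑S : Set ℕ)) (x : J),
      w (inclS (↑S : Set ℕ) t • x) = inclS (↑S : Set ℕ) t • w x)
    {P : ValuationSubring (AlgebraicClosure ℚ)} (hP : P.LiesOverPrime p) {W : AddSubgroup J}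
    (hgeo : GeoInput p (↑S : Set ℕ) J P W Φ)
    (X : AddSubgroup J) (hXW : X ≤ W) (hXp : ∀ x ∈ X, p • x = 0)
    (hXG : ∀ g : GQ, ∀ x ∈ X, g • x ∈ X)
    (hXH : ∀ t : HeckeAlgS (↑S : Set ℕ), ∀ x ∈ X, inclS (↑S : Set ℕ) t • x ∈ X)
    (hXw : ∀ w ∈ Φ, ∀ x ∈ X, w x ∈ X) :
    ∃ s : HeckeAlgS (↑S : Set ℕ), IsUnit (π (evS N (↑S : Set ℕ) s)) ∧
      ∀ x ∈ X, inclS (↑S : Set ℕ) s • x = 0 := by
  classical
  by_contra hcon
  push Not at hcon
  set ψ : HeckeAlgS (↑S : Set ℕ) →+* T := π.comp (evS N (↑S : Set ℕ)).toRingHom with hψ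
  have hψa : ∀ s, ψ s = π (evS N (↑S : Set ℕ) s) := fun _ => rfl
  set Pr : Ideal (HeckeAlgS (↑S : Set ℕ)) := Ideal.comap ψ (IsLocalRing.maximalIdeal T) with hPr
  have hPrp : Pr.IsPrime := Ideal.comap_isPrime ψ _
  have hnot : ∀ s, s ∉ Pr ↔ IsUnit (π (evS N (↑S : Set ℕ) s)) := by
    intro s
    rw [hPr, Ideal.mem_comap, IsLocalRing.mem_maximalIdeal, mem_nonunits_iff, not_not, hψa]
  let _ : Module (HeckeAlgS (↑S : Set ℕ)) X := heckeModuleS (↑S : Set ℕ) X hXH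
  have hsm : ∀ (t : HeckeAlgS (↑S : Set ℕ)) (x : X),
      ((t • x : X) : J) = inclS (↑S : Set ℕ) t • (x : J) := fun _ _ => rfl
  have hXfin : Finite X := by
    have : Set.Finite (X : Set J) := hfin.subset fun x hx => hXp x hx
    exact this.to_subtype
  obtain ⟨s₀, hs₀, hinj, x₁, hx₁, hx₁k⟩ := exists_eventual (M := X) Pr (fun s hs => by
    obtain ⟨x, hx, hx0⟩ := hcon s ((hnot s).mp hs)
    refine ⟨⟨x, hx⟩, fun h => hx0 ?_⟩
    have := congrArg (fun z : X => (z : J)) h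
    exact this)
  -- the submodule killed by the prime
  set X₀ : AddSubgroup J :=
    { carrier := {z | (∃ y ∈ X, z = inclS (↑S : Set ℕ) s₀ • y) ∧
        ∀ t ∈ Pr, inclS (↑S : Set ℕ) t • z = 0}
      add_mem' := by
        rintro a b ⟨⟨y, hy, rfl⟩, ha⟩ ⟨⟨y', hy', rfl⟩, hb⟩
        exact ⟨⟨y + y', X.add_mem hy hy', (smul_add _ _ _).symm⟩, fun t ht => by
          rw [smul_add, ha t ht, hb t ht, add_zero]⟩
      zero_mem' := ⟨⟨0, X.zero_mem, (smul_zero _).symm⟩, fun t _ => smul_zero _⟩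
      neg_mem' := by
        rintro a ⟨⟨y, hy, rfl⟩, ha⟩
        exact ⟨⟨-y, X.neg_mem hy, (smul_neg _ _).symm⟩, fun t ht => by
          rw [smul_neg, ha t ht, neg_zero]⟩ } with hX₀
  have hX₀mem : ∀ z, z ∈ X₀ ↔ (∃ y ∈ X, z = inclS (↑S : Set ℕ) s₀ • y) ∧
        ∀ t ∈ Pr, inclS (↑S : Set ℕ) t • z = 0 := fun _ => Iff.rfl
  have hX₀X : X₀ ≤ X := by
    rintro z ⟨⟨y, hy, rfl⟩, -⟩
    exact hXH _ _ hy
  have hX₀inj : ∀ s ∉ Pr, ∀ z ∈ X₀, inclS (↑S : Set ℕ) s • z = 0 → z = 0 := by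
    rintro s hs z ⟨⟨y, hy, rfl⟩, -⟩ hz
    have h1 := hinj s hs ⟨y, hy⟩ (Subtype.ext hz)
    exact congrArg (fun z : X => (z : J)) h1
  have hX₀G : ∀ g : GQ, ∀ z ∈ X₀, g • z ∈ X₀ := by
    rintro g z ⟨⟨y, hy, rfl⟩, hz⟩
    exact ⟨⟨g • y, hXG g y hy, smul_comm _ _ _⟩, fun t ht => by
      rw [← smul_comm g, hz t ht, smul_zero]⟩
  have hX₀H : ∀ t : HeckeAlgS (↑S : Set ℕ), ∀ z ∈ X₀, inclS (↑S : Set ℕ) t • z ∈ X₀ := by
    rintro t z ⟨⟨y, hy, rfl⟩, hz⟩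
    exact ⟨⟨inclS (↑S : Set ℕ) t • y, hXH t y hy, smul_comm _ _ _⟩, fun t' ht' => by
      rw [smul_comm, hz t' ht', smul_zero]⟩
  have hX₀w : ∀ w ∈ Φ, ∀ z ∈ X₀, w z ∈ X₀ := by
    rintro w hw z ⟨⟨y, hy, rfl⟩, hz⟩
    exact ⟨⟨w y, hXw w hw y hy, hwH w hw _ _⟩, fun t' ht' => by
      rw [← hwH w hw, hz t' ht', map_zero]⟩
  have hX₀bot : X₀ ≠ ⊥ := by
    intro h
    have h1 : ((s₀ • x₁ : X) : J) ∈ X₀ := ⟨⟨x₁, x₁.2, rfl⟩, fun t ht => by
      have := congrArg (fun z : X => (z : J)) (hx₁k t ht)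
      exact this⟩
    rw [h, AddSubgroup.mem_bot] at h1
    exact hx₁ (Subtype.ext h1)
  -- the quadratic relation
  have hdet := detIsCyclotomic hfrob hp hpS hpT hNS
  have : NeZero (p ^ 1) := ⟨pow_ne_zero _ hp.ne_zero⟩
  obtain ⟨ζ, hζ⟩ := HasEnoughRootsOfUnity.exists_primitiveRoot (AlgebraicClosure ℚ) (p ^ 1)
  obtain ⟨t, ht, ht'⟩ := exists_heckeApprox' hJ hp hpS hNS hfrob 1 1 hζ
  rw [pow_one] at ht'
  have hquad : ∀ τ ∈ P.inertiaSubgroupIn ℚ, ∀ a : ℕ, IsCycExp p τ a →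
      ∀ x ∈ X₀, τ • (τ • x) + a • x = (1 + a) • (τ • x) := by
    intro τ hτ a ha x hx
    have h1 := trace_sub_mem_of_residual_ordinary ρ hres hP hτ
    have h2 := hdet.2 1 τ a (fun μ hμ => ha μ (by rwa [pow_one] at hμ))
    have hpm : Ideal.span {((p ^ 1 : ℕ) : T)} ≤ IsLocalRing.maximalIdeal T := by
      rw [Ideal.span_singleton_le_iff_mem, pow_one]; exact hpT
    have h3 : t τ - ((1 + a : ℕ) : HeckeAlgS (↑S : Set ℕ)) ∈ Pr := by
      rw [hPr, Ideal.mem_comap, map_sub, map_natCast, hψa]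
      have h4 : π (evS N (↑S : Set ℕ) (t τ)) - ((1 + a : ℕ) : T) =
          (LinearMap.trace T ρ.V (ρ.ρ τ) - (1 + LinearMap.det (ρ.ρ τ))) +
          (LinearMap.det (ρ.ρ τ) - (a : T)) -
          (LinearMap.trace T ρ.V (ρ.ρ τ) - π (evS N (↑S : Set ℕ) (t τ))) := by
        push_cast; ring
      rw [h4]
      exact Ideal.sub_mem _ (Ideal.add_mem _ h1 (hpm h2)) (ht' τ)
    have hτx := hX₀G τ x hx
    have h5 := hτx.2 _ h3
    rw [map_sub, map_natCast, sub_smul, Nat.cast_smul_eq_nsmul, sub_eq_zero] at h5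
    have h6 := ht τ (τ • x) (by rw [pow_one]; exact hXp _ (hX₀X hτx))
    rw [h5, inv_smul_smul] at h6
    have h7 : cycExp p hp 1 hζ τ • x = a • x := by
      have h8 : ζ ^ a = ζ ^ (cycExp p hp 1 hζ τ) := by
        rw [← cycExp_spec p hp 1 hζ τ, ha ζ (by
          have := hζ.pow_eq_one; rwa [pow_one] at this)]
      have h9 := natCast_eq_of_pow_eq p hp 1 hζ h8
      have h10 : ((p ^ 1 : ℕ) : ℤ) ∣ (a : ℤ) - (cycExp p hp 1 hζ τ : ℤ) := by
        rw [← ZMod.intCast_zmod_eq_zero_iff_dvd]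
        push_cast
        exact sub_eq_zero.mpr h9
      obtain ⟨e, he⟩ := h10
      have h11 : (a : ℤ) • x - (cycExp p hp 1 hζ τ : ℤ) • x = 0 := by
        rw [← sub_smul, he, mul_comm, mul_smul, natCast_zsmul, pow_one, hXp _ (hX₀X hx),
          smul_zero]
      rw [natCast_zsmul, natCast_zsmul] at h11
      exact (sub_eq_zero.mp h11).symm
    rw [h7] at h6
    exact h6.symm
  obtain ⟨X', hX'X, hX'bot, hX'G, hX'H, hX'I⟩ := hgeo X₀ hX₀bot (hX₀X.trans hXW)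
    (fun x hx => hXp x (hX₀X hx)) hX₀G hX₀H hX₀w hquad
  -- transfer
  obtain ⟨ζ₁, hζ₁⟩ : ∃ ζ₁ : AlgebraicClosure ℚ, IsPrimitiveRoot ζ₁ p := by
    have : NeZero p := ⟨hp.ne_zero⟩
    exact HasEnoughRootsOfUnity.exists_primitiveRoot (AlgebraicClosure ℚ) p
  obtain ⟨σ₀, hσ₀, hσ₀ζ⟩ := exists_inertia_inv hp hP hζ₁
  have hp0 : NeZero p := ⟨hp.ne_zero⟩
  have hcyc : IsCycExp p σ₀ (p - 1) := by
    intro μ hμ
    obtain ⟨i, -, hi⟩ := hζ₁.eq_pow_of_pow_eq_one hμ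
    have hμ0 : μ ≠ 0 := by
      rintro rfl
      rw [zero_pow hp.ne_zero] at hμ
      exact zero_ne_one hμ
    have h2 : σ₀ μ = μ⁻¹ := by rw [← hi, map_pow, hσ₀ζ, inv_pow]
    rw [h2]
    refine inv_eq_of_mul_eq_one_right ?_
    rw [← pow_succ', Nat.sub_add_cancel hp.one_le, hμ]
  have htr := residual_transfer (m := 1) hJ hp hpS hNS hfrob habs X' hX'G hX'H
    (fun x hx => by rw [pow_one]; exact hXp _ (hX₀X (hX'X hx)))
    (fun s hs => by
      obtain ⟨x, hx0⟩ := AddSubgroup.ne_bot_iff_exists_ne_zero.mp hX'bot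
      exact ⟨x, x.2, fun h => hx0 (Subtype.ext
        (hX₀inj s ((hnot s).mpr hs) x (hX'X x.2) h))⟩)
    (Finset.univ : Finset (Fin 2)) ![1, -((p - 1 : ℕ) : ℤ)] ![σ₀, 1] (fun x hx => by
      rw [Fin.sum_univ_two]
      simp only [Matrix.cons_val_zero, Matrix.cons_val_one]
      rw [hX'I σ₀ hσ₀ (p - 1) hcyc x hx, one_smul, neg_smul, one_smul, natCast_zsmul, add_neg_cancel])
  have hneg : ∀ v : ρ.V, (-(ρ.ρ σ₀)) v - v ∈ (IsLocalRing.maximalIdeal T) •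
      (⊤ : Submodule T ρ.V) := by
    intro v
    have h1 := htr v
    rw [Fin.sum_univ_two] at h1
    simp only [Matrix.cons_val_zero, Matrix.cons_val_one] at h1
    rw [map_one, Module.End.one_apply, one_smul] at h1
    have h2 : (-(ρ.ρ σ₀)) v - v = -((ρ.ρ σ₀ v + -((p - 1 : ℕ) : ℤ) • v)) - (p : T) • v := by
      rw [LinearMap.neg_apply, Nat.cast_smul_eq_nsmul, neg_smul, natCast_zsmul]
      have h3 : p • v = (p - 1) • v + v := by
        conv_lhs => rw [← Nat.sub_add_cancel hp.one_le]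
        rw [add_smul, one_smul]
      rw [h3]
      abel
    rw [h2]
    exact Submodule.sub_mem _ (Submodule.neg_mem _ h1)
      (Submodule.smul_mem_smul hpT Submodule.mem_top)
  have hd1 := S34aux.det_sub_one_mem _ _ hneg
  have hd2 : LinearMap.det (-(ρ.ρ σ₀)) = LinearMap.det (ρ.ρ σ₀) := by
    rw [← neg_one_smul T (ρ.ρ σ₀), LinearMap.det_smul, ρ.finrank_eq]
    ring
  rw [hd2] at hd1
  have hd3 := hdet.2 1 σ₀ (p - 1) (fun μ hμ => hcyc μ (by rwa [pow_one] at hμ))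
  have hpm : Ideal.span {((p ^ 1 : ℕ) : T)} ≤ IsLocalRing.maximalIdeal T := by
    rw [Ideal.span_singleton_le_iff_mem, pow_one]; exact hpT
  have hd4 := Ideal.sub_mem _ (Ideal.sub_mem _ hd1 (hpm hd3)) hpT
  have hd5 : LinearMap.det (ρ.ρ σ₀) - 1 - (LinearMap.det (ρ.ρ σ₀) - ((p - 1 : ℕ) : T)) - p = -2 := by
    rw [Nat.cast_sub hp.one_le]; push_cast; ring
  rw [hd5] at hd4
  have hd6 : (2 : T) ∈ IsLocalRing.maximalIdeal T := by
    have := neg_mem hd4; rwa [neg_neg] at this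
  obtain ⟨k, hk⟩ := hp.odd_of_ne_two hp2
  have h1 : (1 : T) = p - 2 * k := by rw [hk]; push_cast; ring
  have h3 : (1 : T) ∈ IsLocalRing.maximalIdeal T := by
    rw [h1]; exact Ideal.sub_mem _ hpT (Ideal.mul_mem_right _ _ hd6)
  exact (IsLocalRing.mem_maximalIdeal _).mp h3 isUnit_one

/-- **Ordinarity from the geometric input.** -/
theorem isOrdinaryAt_of_geo (hJ : ESInput N p (↑S : Set ℕ) J) (hp : p.Prime) (hp2 : p ≠ 2)
    (hpS : p ∈ S) (hpT : (p : T) ∈ IsLocalRing.maximalIdeal T)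
    (hNS : ∀ q : ℕ, q.Prime → q ∣ N → q ∈ S) (hfin : {x : J | p • x = 0}.Finite)
    {π : heckeAlgebra N 2 (↑S : Set ℕ) →+* T} {ρ : GaloisRepAdic T}
    (hfrob : HasFrobCharpoly π ρ) (habs : ρ.residual.IsAbsolutelyIrreducible)
    (hres : (GaloisRepAdic.ofResidualGaloisRep ρ.residual).IsOrdinaryAt p)
    (Φ : Set (J →+ J)) (hwH : ∀ w ∈ Φ, ∀ (t : HeckeAlgS (↑S : Set ℕ)) (x : J),
      w (inclS (↑S : Set ℕ) t • x) = inclS (↑S : Set ℕ) t • w x)
    (hW : ∀ P : ValuationSubring (AlgebraicClosure ℚ), P.LiesOverPrime p → ∃ W : AddSubgroup J,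
      (∀ g ∈ P.decompositionSubgroup ℚ, ∀ x ∈ W, g • x ∈ W) ∧
      (∀ τ ∈ P.inertiaSubgroupIn ℚ, ∀ m : ℕ, ∀ x : J, p ^ m • x = 0 → τ • x - x ∈ W) ∧
      GeoInput p (↑S : Set ℕ) J P W Φ) :
    ρ.IsOrdinaryAt p := by
  refine isOrdinaryAt_of_W hJ hp hp2 hpS hpT hNS hfrob habs fun P hP => ?_
  obtain ⟨W, hWD, hWI, hgeo⟩ := hW P hP
  refine ⟨W, hWD, hWI, fun n => ?_⟩
  obtain ⟨m, hm⟩ := hJ.faithful n
  refine ⟨m, fun t ht => ?_⟩
  -- the subgroup `X`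
  set X : AddSubgroup J :=
    { carrier := {z | (∃ y : J, p ^ m • y = 0 ∧ z = inclS (↑S : Set ℕ) t • y) ∧ p • z = 0}
      add_mem' := by
        rintro a b ⟨⟨y, hy, rfl⟩, ha⟩ ⟨⟨y', hy', rfl⟩, hb⟩
        exact ⟨⟨y + y', by rw [smul_add, hy, hy', add_zero], (smul_add _ _ _).symm⟩, by
          rw [smul_add, ha, hb, add_zero]⟩
      zero_mem' := ⟨⟨0, smul_zero _, (smul_zero _).symm⟩, smul_zero _⟩
      neg_mem' := by
        rintro a ⟨⟨y, hy, rfl⟩, ha⟩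
        exact ⟨⟨-y, by rw [smul_neg, hy, neg_zero], (smul_neg _ _).symm⟩, by
          rw [smul_neg, ha, neg_zero]⟩ } with hX
  have hXmem : ∀ z, z ∈ X ↔ (∃ y : J, p ^ m • y = 0 ∧ z = inclS (↑S : Set ℕ) t • y) ∧
      p • z = 0 := fun _ => Iff.rfl
  have hcom : ∀ (k : ℕ) (g : GQ) (x : J), k • (g • x) = g • (k • x) := fun k g x =>
    (smul_comm g k x).symm
  have hcom' : ∀ (k : ℕ) (r : HeckeAlg) (x : J), k • (r • x) = r • (k • x) := fun k r x =>
    (smul_comm r k x).symm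
  obtain ⟨s, hs, hsX⟩ := exists_unit_kill hJ hp hp2 hpS hpT hNS hfin hfrob habs hres Φ hwH hP
    hgeo X (by
      rintro z ⟨⟨y, hy, rfl⟩, -⟩
      exact ht y hy) (fun z hz => hz.2) (by
      rintro g z ⟨⟨y, hy, rfl⟩, hz⟩
      exact ⟨⟨g • y, by rw [hcom, hy, smul_zero], smul_comm _ _ _⟩, by
        rw [hcom, hz, smul_zero]⟩) (by
      rintro t' z ⟨⟨y, hy, rfl⟩, hz⟩
      exact ⟨⟨inclS (↑S : Set ℕ) t' • y, by rw [hcom', hy, smul_zero], smul_comm _ _ _⟩, by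
        rw [hcom', hz, smul_zero]⟩) (by
      rintro w hw z ⟨⟨y, hy, rfl⟩, hz⟩
      exact ⟨⟨w y, by rw [← map_nsmul, hy, map_zero], hwH w hw _ _⟩, by
        rw [← map_nsmul, hz, map_zero]⟩)
  have hkill : ∀ j : ℕ, ∀ z : J, (∃ y : J, p ^ m • y = 0 ∧ z = inclS (↑S : Set ℕ) t • y) →
      p ^ j • z = 0 → inclS (↑S : Set ℕ) (s ^ j) • z = 0 := by
    intro j
    induction j with
    | zero =>
      intro z _ hz
      rw [pow_zero, one_smul] at hz
      rw [hz, smul_zero]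
    | succ j ih =>
      rintro z ⟨y, hy, rfl⟩ hz
      have h1 : p ^ j • (inclS (↑S : Set ℕ) t • y) ∈ X := by
        refine ⟨⟨p ^ j • y, by rw [smul_comm, hy, smul_zero], hcom' _ _ _⟩, ?_⟩
        rw [← mul_smul, ← pow_succ', hz]
      have h2 := hsX _ h1
      rw [← hcom'] at h2
      have h3 := ih (inclS (↑S : Set ℕ) s • (inclS (↑S : Set ℕ) t • y))
        ⟨inclS (↑S : Set ℕ) s • y, by rw [hcom', hy, smul_zero], smul_comm _ _ _⟩ h2
      rw [pow_succ, map_mul, mul_smul]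
      exact h3
  have h1 := hm (s ^ m * t) (fun x hx => by
    rw [map_mul, mul_smul]
    refine hkill m _ ⟨x, hx, rfl⟩ ?_
    rw [hcom', hx, smul_zero])
  have h2 : π (evS N (↑S : Set ℕ) (s ^ m * t)) ∈ Ideal.span {(p : T) ^ n} := by
    obtain ⟨c, hc⟩ := Ideal.mem_span_singleton'.mp h1
    rw [← hc, map_mul, map_pow, map_natCast]
    exact Ideal.mul_mem_left _ _ (Ideal.mem_span_singleton_self _)
  rw [map_mul, map_mul, map_pow, map_pow] at h2
  exact (Ideal.unit_mul_mem_iff_mem _ (hs.pow m)).mp h2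

/-- **S33 from the Eichler--Shimura input and the geometric input.** -/
theorem stmt33_of_geo {𝒪 : Type} [CommRing 𝒪] [IsDomain 𝒪] [IsDiscreteValuationRing 𝒪]
    [IsAdicComplete (IsLocalRing.maximalIdeal 𝒪) 𝒪]
    {θ : CuspForm.heckeAlgebra N 2 (↑S : Set ℕ) →+* IsLocalRing.ResidueField 𝒪}
    [IsAdicComplete (IsLocalRing.maximalIdeal T) T] [Algebra 𝒪 T] [IsLocalHom (algebraMap 𝒪 T)]
    [Module.Finite 𝒪 T] [Module.Free 𝒪 T]
    (hJ : ESInput N p (↑S : Set ℕ) J) (hp : p.Prime) (hp2 : p ≠ 2)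
    (hp𝒪 : (p : 𝒪) ∈ IsLocalRing.maximalIdeal 𝒪) (hpS : p ∈ S)
    (hNS : ∀ q : ℕ, q.Prime → q ∣ N → q ∈ S) (hfin : {x : J | p • x = 0}.Finite)
    (H : CuspForm.HeckeGaloisRepDatum N (↑S : Set ℕ) 𝒪 θ T)
    (hres : (GaloisRepAdic.ofResidualGaloisRep H.ρ.residual).IsOrdinaryAt p)
    (Φ : Set (J →+ J)) (hwH : ∀ w ∈ Φ, ∀ (t : HeckeAlgS (↑S : Set ℕ)) (x : J),
      w (inclS (↑S : Set ℕ) t • x) = inclS (↑S : Set ℕ) t • w x)
    (hW : ∀ P : ValuationSubring (AlgebraicClosure ℚ), P.LiesOverPrime p → ∃ W : AddSubgroup J,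
      (∀ g ∈ P.decompositionSubgroup ℚ, ∀ x ∈ W, g • x ∈ W) ∧
      (∀ τ ∈ P.inertiaSubgroupIn ℚ, ∀ m : ℕ, ∀ x : J, p ^ m • x = 0 → τ • x - x ∈ W) ∧
      GeoInput p (↑S : Set ℕ) J P W Φ) :
    H.ρ.IsOrdinaryAt p := by
  have hpT : (p : T) ∈ IsLocalRing.maximalIdeal T := by
    have h := map_nonunit (algebraMap 𝒪 T) (p : 𝒪) hp𝒪
    rwa [map_natCast] at h
  exact isOrdinaryAt_of_geo hJ hp hp2 hpS hpT hNS hfin (π := H.π) H.charpoly_frob
    H.residual_absIrr hres Φ hwH hW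

end FormalMain

end Fermat.Agent.S33aux

end
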