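import Fermat.Agent.S33.OrdN
import Fermat.Agent.S44w.Main

/-!
# (ORD-N) in the form used for level lowering at `p`
-/

set_option autoImplicit false
set_option linter.unusedSectionVars false
set_option linter.style.haveILetI false

noncomputable section

open ModularCurve AlgebraicCurve
open Fermat.Agent.GaussVal Fermat.Agent.GalRep Fermat.Agent.TwoGauss
open Fermat.Agent.ECFrob

namespace Fermat.Agent.S33aux

variable {A : ValuationSubring (AlgebraicClosure ℚ)} {p m : ℕ} [NeZero m]
  [hpf : Fact p.Prime] [CharP (IsLocalRing.ResidueField A) p]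
  (hp : p.Prime) (hm : ¬ p ∣ m) (hA : A.LiesOverPrime p)
  (H3 : S18aux.DegThm (IsLocalRing.ResidueField A) m)

/-- **(ORD)** for level lowering, unconditionally. -/
theorem ordN [IsAlgClosed (IsLocalRing.ResidueField A)] : S44w.OrdN hp hm hA H3 := by
  haveI : PerfectRing (IsLocalRing.ResidueField A) p := PerfectField.toPerfectRing p
  haveI : NeZero p := ⟨hp.ne_zero⟩
  have H2 := GoodRed.genus_le_all hp hA m hm
  intro X hX hXp hXw _ hpush hK σ hσ x hx
  refine smul_eq_of_push hp hm hA H3 H2 hX hXp hXw hpush (fun y hy => ?_) hσ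
    (fun μ hμ => ?_) hx
  · obtain ⟨f, hO, hf, hf', g, hg⟩ := hK y hy
    exact mem_WSub_of_pow hp hm hA H3 H2 hf hO hf' hg
  · exact cycMod_spec p σ hμ

end Fermat.Agent.S33aux
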