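import Fermat.Agent.S33.Geo
import Fermat.Agent.S33.Formal
import Fermat.Agent.Cofaith.ES
import Fermat.Agent.S37aux.Bare

/-!
# S33 from the statement at level `m`
-/

set_option autoImplicit false
set_option linter.unusedSectionVars false
set_option linter.style.haveILetI false

noncomputable section

open ModularCurve AlgebraicCurve
open Fermat.Agent.GaussVal Fermat.Agent.GalRep Fermat.Agent.FF
open Fermat.Agent.TwoGauss (mkData)
open Fermat.Agent.QX4 (wJ)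

namespace Fermat.Agent.S33aux

/-- the algebraic numbers -/
local notation "𝕂" => AlgebraicClosure ℚ

/-- The Eichler-Shimura input for `J₀(N)`. -/
theorem esInput_bar (N : ℕ) [NeZero N] {p : ℕ} (hp : p.Prime) (S : Set ℕ)
    (hNS : ∀ ℓ : ℕ, ℓ.Prime → ℓ ∣ N → ℓ ∈ S) :
    letI := heckeModuleBar N
    haveI := Cofaith.smulCommClass_JZero N
    ESInput N p S (JZero N) := by
  letI := heckeModuleBar N
  haveI := Cofaith.smulCommClass_JZero N
  exact Cofaith.esInput_JZero N hp S hNS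
    (Fermat.Agent.S37aux.specializationExists_of N p
      (Fermat.Agent.HeckeComm.heckeOperatorsCommuteBar N)
      (fun ℓ hℓ hN A hA => Fermat.Agent.S37aux.bareRed N ℓ hℓ A hA hN)
      (Fermat.Agent.Cofaith.smulCommClass_JZero N))

section W

variable {A : ValuationSubring (AlgebraicClosure ℚ)} {p m : ℕ} [NeZero m] [NeZero p]
  [Fact p.Prime] [CharP (IsLocalRing.ResidueField A) p]
  [IsAlgClosed (IsLocalRing.ResidueField A)] [PerfectRing (IsLocalRing.ResidueField A) p]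
  (hp : p.Prime) (hm : ¬ p ∣ m) (hA : A.LiesOverPrime p)
  (H3 : S18aux.DegThm (IsLocalRing.ResidueField A) m)
  (H2 : genusFF (AlgebraicClosure ℚ) (modularFunctionFieldBar m) ≤
    genusFF (IsLocalRing.ResidueField A) (modularFunctionFieldFullC (IsLocalRing.ResidueField A) m))

/-- `W` is stable under the decomposition group. -/
theorem smul_mem_W {g : 𝕂 ≃ₐ[ℚ] 𝕂} (hg : g ∈ A.decompositionSubgroup ℚ) {x : JZero (m * p)}
    (hx : x ∈ (mkData hp hm hA H3 H2).WSub) : g • x ∈ (mkData hp hm hA H3 H2).WSub := by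
  rw [galois_smul_pic0_def]
  exact (TwoGauss.act_mkData hp hm hA H3 H2
    (TwoGauss.residueCompat_of_decomposition ⟨g, hg⟩)).smul_mem_WSub hx

/-- `(τ - 1) J[p^j] ⊆ W`. -/
theorem inertia_sub_mem_W {τ : 𝕂 ≃ₐ[ℚ] 𝕂} (hτ : τ ∈ A.inertiaSubgroupIn ℚ) {j : ℕ}
    {x : JZero (m * p)} (hx : p ^ j • x = 0) : τ • x - x ∈ (mkData hp hm hA H3 H2).WSub := by
  haveI : IsFF 𝕂 (modularFunctionFieldBar (m * p)) := TwoGauss.isFF_m
  rw [galois_smul_pic0_def]
  exact (TwoGauss.act_mkData_inertia hp hm hA H3 H2 hτ).toAct_id.sub_mem_WSub hp.pos hx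

end W

/-- The statement at level `m` for all places. -/
def LevelMAll (p m : ℕ) [NeZero m] [NeZero p] [Fact p.Prime] : Prop :=
  ∀ (A : ValuationSubring (AlgebraicClosure ℚ)) [CharP (IsLocalRing.ResidueField A) p]
    [PerfectRing (IsLocalRing.ResidueField A) p] (hp : p.Prime) (hm : ¬ p ∣ m)
    (hA : A.LiesOverPrime p) (H3 : S18aux.DegThm (IsLocalRing.ResidueField A) m),
    LevelM hp hm hA H3

section Final

variable {p : ℕ} {N : ℕ} [NeZero N] {S : Finset ℕ}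
  {𝒪 : Type} [CommRing 𝒪] [IsDomain 𝒪] [IsDiscreteValuationRing 𝒪]
  [IsAdicComplete (IsLocalRing.maximalIdeal 𝒪) 𝒪]
  {θ : CuspForm.heckeAlgebra N 2 (↑S : Set ℕ) →+* IsLocalRing.ResidueField 𝒪}
  {T : Type} [CommRing T] [IsLocalRing T] [IsNoetherianRing T]
  [IsAdicComplete (IsLocalRing.maximalIdeal T) T] [Algebra 𝒪 T] [IsLocalHom (algebraMap 𝒪 T)]
  [Module.Finite 𝒪 T] [Module.Free 𝒪 T]

theorem stmt33_of_levelM
    (hLM : ∀ (m : ℕ) [NeZero m] [NeZero p] [Fact p.Prime], LevelMAll p m)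
    (hp : p.Prime) (hp2 : p ≠ 2) (hp𝒪 : (p : 𝒪) ∈ IsLocalRing.maximalIdeal 𝒪)
    (hN : p ∣ N ∧ ¬ p ^ 2 ∣ N) (hNS : ∀ q : ℕ, q.Prime → q ∣ N → q ∈ S)
    (H : CuspForm.HeckeGaloisRepDatum N (↑S : Set ℕ) 𝒪 θ T)
    (hres : (GaloisRepAdic.ofResidualGaloisRep H.ρ.residual).IsOrdinaryAt p) :
    H.ρ.IsOrdinaryAt p := by
  obtain ⟨m, hm'⟩ : ∃ m, N = m * p := by
    obtain ⟨m, hm⟩ := hN.1
    exact ⟨m, by rw [hm, mul_comm]⟩
  subst hm'
  have hm : ¬ p ∣ m := by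
    rintro ⟨k, rfl⟩
    exact hN.2 ⟨k, by ring⟩
  haveI : NeZero m := ⟨fun h => NeZero.ne (m * p) (by rw [h, zero_mul])⟩
  haveI : NeZero p := ⟨hp.ne_zero⟩
  haveI : Fact p.Prime := ⟨hp⟩
  letI i1 := heckeModuleBar (m * p)
  haveI i2 := Cofaith.smulCommClass_JZero (m * p)
  have hpS : p ∈ S := hNS p hp hN.1
  refine stmt33_of_geo (J := JZero (m * p)) (esInput_bar (m * p) hp (↑S : Set ℕ)
    (fun ℓ hℓ h => hNS ℓ hℓ h)) hp hp2 hp𝒪 hpS hNS
    (Cofaith.finite_torsion_set (m * p) hp.ne_zero) H hres {wJ hp hm, UJ hp hm} ?_ ?_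
  · rintro w hw t x
    rcases hw with rfl | hw
    · exact wJ_inclS_all (↑S : Set ℕ) hp hm (fun ℓ hℓ h => hNS ℓ hℓ h) t x
    · rw [Set.mem_singleton_iff] at hw
      subst hw
      exact UJ_inclS (↑S : Set ℕ) hp hm (fun ℓ hℓ h => hNS ℓ hℓ h) t x
  · intro P hP
    haveI : CharP (IsLocalRing.ResidueField P) p := TwoGauss.charP_res hp hP
    have H3 := GoodRed.degThm_res hp hP (NeZero.ne m) hm
    have H2 := GoodRed.genus_le_all hp hP m hm
    exact ⟨(mkData hp hm hP H3 H2).WSub, fun g hg x hx => smul_mem_W hp hm hP H3 H2 hg hx,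
      fun τ hτ j x hx => inertia_sub_mem_W hp hm hP H3 H2 hτ hx,
      geoInput hp hm hP H3 H2 (hLM m P hp hm hP H3) (↑S : Set ℕ) (fun ℓ hℓ h => hNS ℓ hℓ h)⟩

end Final

end Fermat.Agent.S33aux
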