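import Fermat.Agent.S33.OrdN
import Fermat.Agent.TwoGauss.ActInst
import Fermat.Agent.TW.InertiaField
import Fermat.Agent.Cofaith.Finite

/-!
# The connected part `W` of `J₀(m p)`: Frobenius and `U_p`

* `split_of_mem_WSub` : the level does not matter
* `UJ_mem_WSub` : stability under `U_p`
* `frobenius_sub_mem_WSub` : `φ x - U_p x ∈ W` for a Frobenius element `φ`
* `exists_iterate_sub_mem_WSub` : for `σ` in the decomposition group, `σ x - U_p^k x ∈ W`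
-/

set_option autoImplicit false
set_option linter.unusedSectionVars false
set_option linter.style.haveILetI false

noncomputable section

open ModularCurve AlgebraicCurve IntermediateField
open Fermat.Agent.GaussVal Fermat.Agent.GalRep Fermat.Agent.FF Fermat.Agent.TEll
open scoped Fermat.Agent.GaussVal
open Fermat.Agent.TwoGauss (wq mkData twoComp)
open Fermat.Agent.QX4 (wJ Split)

namespace Fermat.Agent.TwoComp.Data

open Fermat.Agent.S33aux

variable {K Fm F k F' : Type*} [Field K] [Field Fm] [Algebra K Fm] [Field F]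
    [Algebra K F] [Field k] [Field F'] [Algebra k F'] {q : ℕ} {D : Data K Fm F k F' q}

/-- A Kummer function which is a unit at the first component. -/
theorem exists_isKummer_unit₁ (hq : 0 < q) {n : ℕ} {x : Pic0 K F} (hx : n • x = 0) :
    ∃ (f : F) (_ : IsKummer n x f) (hf : f ∈ D.O₁), D.ρ₁ ⟨f, hf⟩ ≠ 0 := by
  obtain ⟨f, hf⟩ := exists_isKummer hx
  obtain ⟨c, hc, h1, h2⟩ := exists_unit₁ (D := D) hq hf.ne_zero
  have h3 := hf.mul_algebraMap hc
  rw [mul_comm] at h3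
  exact ⟨_, h3, h1, h2⟩

/-- The level does not matter. -/
theorem split_of_mem_WSub [IsAlgClosed K] [Fermat.Agent.FF.IsFF K F] (hq : q.Prime)
    [CharP k q] {x : Pic0 K F} (hx : x ∈ D.WSub) {j : ℕ} (hj : q ^ j • x = 0) :
    Split D.O₁ D.ρ₁ (q ^ j) x := by
  haveI : CharP F' q := charP_of_injective_algebraMap (algebraMap k F').injective q
  haveI : Fact q.Prime := ⟨hq⟩
  haveI : ExpChar F' q := ExpChar.prime hq
  obtain ⟨i, hi⟩ := hx
  obtain ⟨g, hg, hg1, hg2⟩ := exists_isKummer_unit₁ (D := D) hq.pos hj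
  have h1 := Split.mul hi (q ^ j)
  rw [split_iff] at h1
  obtain ⟨f, hf, u, hfx, hu, hr⟩ := h1
  -- `g ^ (q ^ i)` is a Kummer function for the exponent `q ^ i * q ^ j`
  have hg' : IsKummer (q ^ i * q ^ j) x (g ^ q ^ i) := by
    obtain ⟨D, rfl, h0, hD⟩ := hg
    refine ⟨D, rfl, pow_ne_zero _ h0, fun v => ?_⟩
    rw [← zpow_natCast, v.ord_zpow, ← hD v]
    push_cast
    ring
  have h2 := hg'.div hfx
  rw [sub_self] at h2
  obtain ⟨w, hw, hw'⟩ := h2.exists_pow_of_zero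
    (Nat.mul_ne_zero (pow_ne_zero _ hq.ne_zero) (pow_ne_zero _ hq.ne_zero))
  have hfg : g ^ q ^ i = f * (w ^ q ^ j) ^ q ^ i := by
    rw [← pow_mul w, mul_comm (q ^ j), ← hw', mul_div_cancel₀ _ hfx.ne_zero]
  -- `w` is a unit at `O₁`
  have hfr : D.ρ₁ ⟨f, hf⟩ ≠ 0 := by rw [hr]; exact pow_ne_zero _ hu
  have hfi := D.inv_mem_O₁ hf hfr
  have hwn : w ^ (q ^ i * q ^ j) = g ^ q ^ i * f⁻¹ := by
    rw [← hw', div_eq_mul_inv]
  have hwO : w ∈ D.O₁ := by
    have h3 : w ^ (q ^ i * q ^ j) ∈ D.O₁ := by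
      rw [hwn]; exact D.O₁.mul_mem _ _ (pow_mem hg1 _) hfi
    rw [← ValuationSubring.valuation_le_one_iff, map_pow] at h3
    rw [← ValuationSubring.valuation_le_one_iff]
    exact (pow_le_one_iff_of_nonneg zero_le
      (Nat.mul_ne_zero (pow_ne_zero _ hq.ne_zero) (pow_ne_zero _ hq.ne_zero))).mp h3
  have h4 : D.ρ₁ ⟨g, hg1⟩ ^ q ^ i = ((u * D.ρ₁ ⟨w, hwO⟩) ^ q ^ j) ^ q ^ i := by
    have h5 : (⟨g, hg1⟩ : D.O₁) ^ q ^ i = ⟨f, hf⟩ * (⟨w, hwO⟩ ^ q ^ j) ^ q ^ i :=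
      Subtype.ext hfg
    rw [← map_pow, h5, map_mul, hr, map_pow, map_pow, mul_pow, mul_pow, ← pow_mul u, mul_comm (q ^ j)]
  have h6 : D.ρ₁ ⟨g, hg1⟩ = (u * D.ρ₁ ⟨w, hwO⟩) ^ q ^ j := by
    apply iterateFrobenius_inj F' q i
    rw [iterateFrobenius_def, iterateFrobenius_def, h4]
  rw [split_iff]
  refine ⟨g, hg1, u * D.ρ₁ ⟨w, hwO⟩, hg, fun h0 => hg2 ?_, h6⟩
  rw [h6, h0, zero_pow (pow_ne_zero _ hq.ne_zero)]

end Fermat.Agent.TwoComp.Data

namespace Fermat.Agent.S33aux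

/-- the algebraic numbers -/
local notation "𝕂" => AlgebraicClosure ℚ

section

variable {A : ValuationSubring (AlgebraicClosure ℚ)} {p m : ℕ} [NeZero m] [NeZero p]
  [Fact p.Prime] [CharP (IsLocalRing.ResidueField A) p]
  [IsAlgClosed (IsLocalRing.ResidueField A)] [PerfectRing (IsLocalRing.ResidueField A) p]
  (hp : p.Prime) (hm : ¬ p ∣ m) (hA : A.LiesOverPrime p)
  (H3 : S18aux.DegThm (IsLocalRing.ResidueField A) m)
  (H2 : genusFF (AlgebraicClosure ℚ) (modularFunctionFieldBar m) ≤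
    genusFF (IsLocalRing.ResidueField A) (modularFunctionFieldFullC (IsLocalRing.ResidueField A) m))

/-- The reduction of `U_p f` is the Frobenius of the reduction of `f`. -/
theorem rho_Uop {f : modularFunctionFieldBar (m * p)} (hf : f ∈ (mkData hp hm hA H3 H2).O₁) :
    ∃ h : Uop hp hm f ∈ (mkData hp hm hA H3 H2).O₁,
      (mkData hp hm hA H3 H2).ρ₁ ⟨Uop hp hm f, h⟩ =
        (mkData hp hm hA H3 H2).σ ((mkData hp hm hA H3 H2).ρ₁ ⟨f, hf⟩) := by
  have h1 : (f : LaurentSeries 𝕂) ∈ gaussSubring A := hf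
  have h2 : (Uop hp hm f : LaurentSeries 𝕂) ∈ gaussSubring A := by
    rw [coe_Uop]
    exact QX4.secNorm_mem_gaussSubring A p h1
  refine ⟨h2, Subtype.ext ?_⟩
  rw [TwoGauss.coe_mkData_ρ₁, TwoGauss.coe_mkData_σ, TwoGauss.coe_mkData_ρ₁, ← secNorm_charP,
    ← QX4.gaussRed_secNorm A p ⟨_, h1⟩]
  congr 1
  exact Subtype.ext (coe_Uop hp hm f)

/-- `W` is stable under `U_p`. -/
theorem UJ_mem_WSub {x : JZero (m * p)} (hx : x ∈ (mkData hp hm hA H3 H2).WSub) :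
    UJ hp hm x ∈ (mkData hp hm hA H3 H2).WSub := by
  obtain ⟨j, hj⟩ := hx
  rw [split_iff] at hj
  obtain ⟨f, hf, u, hfx, hu, hr⟩ := hj
  obtain ⟨h1, h2⟩ := rho_Uop hp hm hA H3 H2 hf
  refine ⟨j, ?_⟩
  rw [split_iff]
  refine ⟨Uop hp hm f, h1, (mkData hp hm hA H3 H2).σ u, isKummer_UJ hp hm hfx, ?_, ?_⟩
  · simpa using hu
  · rw [h2, hr, map_pow]

/-- **(W3)** `φ x - U_p x ∈ W` for a Frobenius element `φ` at `A`. -/
theorem frobenius_sub_mem_WSub {φ : 𝕂 ≃ₐ[ℚ] 𝕂} (hφ : A.IsFrobeniusAt φ p) {j : ℕ}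
    {x : JZero (m * p)} (hx : p ^ j • x = 0) :
    φ • x - UJ hp hm x ∈ (mkData hp hm hA H3 H2).WSub := by
  have hact := TwoGauss.act_mkData_frobenius hp hm hA H3 H2 hφ
  obtain ⟨f, hfx, hf, hf0⟩ := TwoComp.Data.exists_isKummer_unit₁
    (D := mkData hp hm hA H3 H2) hp.pos hx
  obtain ⟨h1, h2⟩ := rho_Uop hp hm hA H3 H2 hf
  have h3 := hact.ρ₁ f hf
  rw [galois_smul_pic0_def]
  refine TwoComp.Data.sub_mem_WSub_of (hfx.smul _) (isKummer_UJ hp hm hfx) (hact.mem₁ f hf) h1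
    ?_ ?_
  · rw [h3]
    intro h0
    exact hf0 ((map_eq_zero_iff _ (RingHom.injective _)).mp h0)
  · rw [h3, h2]
    rfl

/-- iterating the congruence with `U_p` -/
theorem frobenius_pow_sub_mem_WSub {φ : 𝕂 ≃ₐ[ℚ] 𝕂} (hφ : A.IsFrobeniusAt φ p) (k : ℕ) {j : ℕ}
    {x : JZero (m * p)} (hx : p ^ j • x = 0) :
    φ ^ k • x - (UJ hp hm)^[k] x ∈ (mkData hp hm hA H3 H2).WSub := by
  induction k generalizing x with
  | zero => simpa using AddSubgroup.zero_mem _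
  | succ k ih =>
    have h1 := ih (x := UJ hp hm x) (by rw [← map_nsmul, hx, map_zero])
    have h2 := frobenius_sub_mem_WSub hp hm hA H3 H2 hφ hx
    have hD : φ ^ k ∈ A.decompositionSubgroup ℚ :=
      Subgroup.pow_mem _ hφ.mem_decompositionSubgroup k
    have h3 : φ ^ k • (φ • x - UJ hp hm x) ∈ (mkData hp hm hA H3 H2).WSub := by
      rw [galois_smul_pic0_def]
      exact (TwoGauss.act_mkData hp hm hA H3 H2
        (TwoGauss.residueCompat_of_decomposition ⟨φ ^ k, hD⟩)).smul_mem_WSub h2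
    have h4 : φ ^ (k + 1) • x - (UJ hp hm)^[k + 1] x =
        φ ^ k • (φ • x - UJ hp hm x) + (φ ^ k • UJ hp hm x - (UJ hp hm)^[k] (UJ hp hm x)) := by
      rw [Function.iterate_succ_apply, pow_succ, mul_smul, smul_sub]
      abel
    rw [h4]
    exact AddSubgroup.add_mem _ h3 h1

/-- **(W3')** every element of the decomposition group acts as a power of `U_p` modulo `W`. -/
theorem exists_iterate_sub_mem_WSub {σ : 𝕂 ≃ₐ[ℚ] 𝕂} (hσ : σ ∈ A.decompositionSubgroup ℚ)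
    (j : ℕ) : ∃ k : ℕ, ∀ x : JZero (m * p), p ^ j • x = 0 →
      σ • x - (UJ hp hm)^[k] x ∈ (mkData hp hm hA H3 H2).WSub := by
  haveI : IsFF 𝕂 (modularFunctionFieldBar (m * p)) := TwoGauss.isFF_m
  obtain ⟨φ, hφ⟩ := Fermat.Agent.Frob.exists_isFrobeniusAt hp hA
  obtain ⟨L, hL, hlev⟩ := Fermat.Agent.Cofaith.exists_level (m * p) (n := p ^ j)
    (pow_ne_zero _ hp.ne_zero)
  obtain ⟨F, hLF, hF, hG⟩ := Fermat.Agent.TW.exists_galois_ge L
  obtain ⟨k, τ, hτ, h1⟩ := Fermat.Agent.TW.exists_frob_pow_mul_inertia hp hA hφ F hσ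
  refine ⟨k, fun x hx => ?_⟩
  have h2 : σ • x = (φ ^ k * τ) • x := by
    have h3 : ((φ ^ k * τ)⁻¹ * σ) • x = x := by
      refine hlev _ (fun y hy => ?_) x hx
      rw [AlgEquiv.mul_apply, h1 y (hLF hy)]
      exact AlgEquiv.symm_apply_apply _ _
    calc σ • x = ((φ ^ k * τ) * ((φ ^ k * τ)⁻¹ * σ)) • x := by rw [mul_inv_cancel_left]
      _ = (φ ^ k * τ) • x := by rw [mul_smul, h3]
  have h4 : τ • x - x ∈ (mkData hp hm hA H3 H2).WSub := by
    rw [galois_smul_pic0_def]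
    exact (TwoGauss.act_mkData_inertia hp hm hA H3 H2 hτ).toAct_id.sub_mem_WSub hp.pos hx
  have hD : φ ^ k ∈ A.decompositionSubgroup ℚ :=
    Subgroup.pow_mem _ hφ.mem_decompositionSubgroup k
  have h5 : φ ^ k • (τ • x - x) ∈ (mkData hp hm hA H3 H2).WSub := by
    rw [galois_smul_pic0_def]
    exact (TwoGauss.act_mkData hp hm hA H3 H2
      (TwoGauss.residueCompat_of_decomposition ⟨φ ^ k, hD⟩)).smul_mem_WSub h4
  have h6 : σ • x - (UJ hp hm)^[k] x = φ ^ k • (τ • x - x) + (φ ^ k • x - (UJ hp hm)^[k] x) := by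
    rw [h2, mul_smul, smul_sub]
    abel
  rw [h6]
  exact AddSubgroup.add_mem _ h5 (frobenius_pow_sub_mem_WSub hp hm hA H3 H2 hφ k hx)

end

section TwoComp

variable {A : ValuationSubring (AlgebraicClosure ℚ)} {p m : ℕ} [NeZero m] [NeZero p]
  [Fact p.Prime] [CharP (IsLocalRing.ResidueField A) p]
  (hp : p.Prime) (hm : ¬ p ∣ m) (hA : A.LiesOverPrime p)

/-- `W` is stable under the decomposition group. -/
theorem twoComp_smul_mem {σ : 𝕂 ≃ₐ[ℚ] 𝕂} (hσ : σ ∈ A.decompositionSubgroup ℚ)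
    {x : JZero (m * p)} (hx : x ∈ (twoComp hp hm hA).WSub) :
    σ • x ∈ (twoComp hp hm hA).WSub := by
  rw [galois_smul_pic0_def]
  exact (TwoGauss.act_mkData hp hm hA _ _
    (TwoGauss.residueCompat_of_decomposition ⟨σ, hσ⟩)).smul_mem_WSub hx

/-- **(W2)** `(τ - 1) J[p^j] ⊆ W` for `τ` in the inertia group. -/
theorem twoComp_inertia {τ : 𝕂 ≃ₐ[ℚ] 𝕂} (hτ : τ ∈ A.inertiaSubgroupIn ℚ) {j : ℕ}
    {x : JZero (m * p)} (hx : p ^ j • x = 0) : τ • x - x ∈ (twoComp hp hm hA).WSub := by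
  haveI : IsFF 𝕂 (modularFunctionFieldBar (m * p)) := TwoGauss.isFF_m
  rw [galois_smul_pic0_def]
  exact (TwoGauss.act_mkData_inertia hp hm hA _ _ hτ).toAct_id.sub_mem_WSub hp.pos hx

/-- `W` is stable under `U_p`. -/
theorem twoComp_UJ_mem {x : JZero (m * p)} (hx : x ∈ (twoComp hp hm hA).WSub) :
    UJ hp hm x ∈ (twoComp hp hm hA).WSub :=
  UJ_mem_WSub hp hm hA _ _ hx

/-- **(W3)** `φ x - U_p x ∈ W` for a Frobenius element `φ` at `A`. -/
theorem twoComp_frobenius {φ : 𝕂 ≃ₐ[ℚ] 𝕂} (hφ : A.IsFrobeniusAt φ p) {j : ℕ}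
    {x : JZero (m * p)} (hx : p ^ j • x = 0) :
    φ • x - UJ hp hm x ∈ (twoComp hp hm hA).WSub :=
  frobenius_sub_mem_WSub hp hm hA _ _ hφ hx

/-- **(W3')** every element of the decomposition group acts as a power of `U_p` modulo `W`. -/
theorem twoComp_decomposition {σ : 𝕂 ≃ₐ[ℚ] 𝕂} (hσ : σ ∈ A.decompositionSubgroup ℚ)
    (j : ℕ) : ∃ k : ℕ, ∀ x : JZero (m * p), p ^ j • x = 0 →
      σ • x - (UJ hp hm)^[k] x ∈ (twoComp hp hm hA).WSub :=
  exists_iterate_sub_mem_WSub hp hm hA _ _ hσ j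

/-- The level does not matter. -/
theorem twoComp_split {x : JZero (m * p)} (hx : x ∈ (twoComp hp hm hA).WSub) {j : ℕ}
    (hj : p ^ j • x = 0) : Split (twoComp hp hm hA).O₁ (twoComp hp hm hA).ρ₁ (p ^ j) x := by
  haveI : IsFF 𝕂 (modularFunctionFieldBar (m * p)) := TwoGauss.isFF_m
  exact TwoComp.Data.split_of_mem_WSub hp hx hj

end TwoComp

end Fermat.Agent.S33aux
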