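import Fermat.Agent.S33.InjPN
import Fermat.Agent.TwoComp.Split
import Fermat.Agent.GalRep.JZ1_Kummer

/-!
# Contraction: approximation by `p`-th powers
-/

set_option autoImplicit false
set_option linter.unusedSectionVars false

open AlgebraicCurve WithZero Module
open Fermat.Agent.RR Fermat.Agent.FF Fermat.Agent.GalRep

namespace Fermat.Agent.S33aux

variable {K F : Type*} [Field K] [Field F] [Algebra K F]

/-- `f` is a `q`-th power modulo `s` at `O`. -/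
def PA (O : ValuationSubring F) (q : ℕ) (f : F) (s : K) : Prop :=
  ∃ h : F, h ≠ 0 ∧ ∃ w ∈ O, f = h ^ q * (1 + algebraMap K F s * w)

/-- A multiplicative operator with the contraction property. -/
structure ContrOp (O : ValuationSubring F) (A : ValuationSubring K) (q : ℕ) (U : F →* F) : Prop where
  mem_iff : ∀ c : K, algebraMap K F c ∈ O ↔ c ∈ A
  ne_zero : ∀ f : F, f ≠ 0 → U f ≠ 0
  near : ∀ s ∈ A, ∀ w ∈ O, ∃ a ∈ O, ∃ b ∈ O,
    U (1 + algebraMap K F s * w) = 1 + algebraMap K F (q * s) * a + algebraMap K F (s ^ q) * b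

section

variable {O : ValuationSubring F} {A : ValuationSubring K} {q : ℕ} {U : F →* F}

theorem div_mem_of_le {s s' : K} (h : A.valuation s ≤ A.valuation s') :
    s / s' ∈ A := by
  rw [← ValuationSubring.valuation_le_one_iff, map_div₀]
  exact div_le_one_of_le₀ h zero_le

theorem PA.mono (hOA : ∀ c : K, algebraMap K F c ∈ O ↔ c ∈ A) {f : F} {s s' : K}
    (h : PA O q f s) (hs' : s' ≠ 0) (hle : A.valuation s ≤ A.valuation s') : PA O q f s' := by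
  obtain ⟨g, hg, w, hw, hf⟩ := h
  refine ⟨g, hg, algebraMap K F (s / s') * w,
    O.mul_mem _ _ ((hOA _).mpr (div_mem_of_le hle)) hw, ?_⟩
  rw [hf, ← mul_assoc, ← map_mul, mul_div_cancel₀ _ hs']

theorem PA.mul_pow {f : F} {s : K} (h : PA O q f s) {u : F} (hu : u ≠ 0) :
    PA O q (f * u ^ q) s := by
  obtain ⟨g, hg, w, hw, hf⟩ := h
  exact ⟨g * u, mul_ne_zero hg hu, w, hw, by rw [hf, _root_.mul_pow]; ring⟩

theorem PA.congr [IsAlgClosed K] [IsFF K F] (hq : q ≠ 0) {f f' : F} {s : K} {x : Pic0 K F}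
    (hf : IsKummer q x f) (hf' : IsKummer q x f') (h : PA O q f s) : PA O q f' s := by
  have h1 := hf'.div hf
  rw [sub_self] at h1
  obtain ⟨u, hu, hu'⟩ := h1.exists_pow_of_zero hq
  have h2 : f' = f * u ^ q := by
    rw [← hu', mul_div_cancel₀ _ hf.ne_zero]
  rw [h2]
  exact h.mul_pow hu

theorem PA.map (hU : ContrOp O A q U) {f : F} {s s' : K} (h : PA O q f s) (hs : s ∈ A)
    (hs' : s' ≠ 0) (h1 : A.valuation (q * s) ≤ A.valuation s')
    (h2 : A.valuation (s ^ q) ≤ A.valuation s') : PA O q (U f) s' := by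
  obtain ⟨g, hg, w, hw, hf⟩ := h
  obtain ⟨a, ha, b, hb, hab⟩ := hU.near s hs w hw
  refine ⟨U g, hU.ne_zero g hg, algebraMap K F (q * s / s') * a + algebraMap K F (s ^ q / s') * b,
    O.add_mem _ _ (O.mul_mem _ _ ((hU.mem_iff _).mpr (div_mem_of_le h1)) ha)
    (O.mul_mem _ _ ((hU.mem_iff _).mpr (div_mem_of_le h2)) hb), ?_⟩
  have e1 : algebraMap K F s' * algebraMap K F (q * s / s') = algebraMap K F (q * s) := by
    rw [← map_mul, mul_div_cancel₀ _ hs']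
  have e2 : algebraMap K F s' * algebraMap K F (s ^ q / s') = algebraMap K F (s ^ q) := by
    rw [← map_mul, mul_div_cancel₀ _ hs']
  rw [hf, map_mul, map_pow, hab, mul_add (algebraMap K F s'), ← mul_assoc, ← mul_assoc, e1, e2,
    ← add_assoc]

/-- **Contraction.** -/
theorem exists_PA [IsAlgClosed K] [IsFF K F] (hq : 2 ≤ q) (hU : ContrOp O A q U)
    (arch : ∀ c ∈ A.nonunits, ∀ d : K, d ≠ 0 → ∃ n : ℕ, c ^ n / d ∈ A)
    (hq0 : (q : K) ≠ 0) (hqA : (q : K) ∈ A.nonunits)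
    {X : Set (Pic0 K F)} (hX : X.Finite) {Ux : Pic0 K F → Pic0 K F} (hUX : Set.MapsTo Ux X X)
    (hinj : Set.InjOn Ux X) (hUK : ∀ x ∈ X, ∀ f, IsKummer q x f → IsKummer q (Ux x) (U f))
    (htor : ∀ x ∈ X, q • x = 0)
    (h0 : ∀ x ∈ X, ∃ f, IsKummer q x f ∧ ∃ s ∈ A.nonunits, s ≠ 0 ∧ PA O q f s) :
    ∀ s : K, s ≠ 0 → ∀ x ∈ X, ∀ f, IsKummer q x f → PA O q f s := by
  classical
  have hq' : q ≠ 0 := by omega
  -- a common bound
  obtain ⟨s₀, hs₀A, hs₀0, hs₀⟩ : ∃ s₀ ∈ A.nonunits, s₀ ≠ 0 ∧ ∀ x ∈ X, ∀ f, IsKummer q x f →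
      PA O q f s₀ := by
    rcases X.eq_empty_or_nonempty with rfl | hne
    · exact ⟨q, hqA, hq0, fun x hx => absurd hx (Set.notMem_empty x)⟩
    choose! fx hfx sx hsx hsx0 hPA using h0
    obtain ⟨y, hy, hmax⟩ := hX.exists_maximalFor (fun x => A.valuation (sx x)) X hne
    refine ⟨sx y, hsx y hy, hsx0 y hy, fun x hx f hf => ?_⟩
    refine ((hPA x hx).congr hq' (hfx x hx) hf).mono hU.mem_iff (hsx0 y hy) ?_
    rcases le_total (A.valuation (sx x)) (A.valuation (sx y)) with h | h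
    · exact h
    · exact hmax hx h
  have hs₀v : A.valuation s₀ < 1 := (ValuationSubring.mem_nonunits_iff A).mp hs₀A
  have hqv : A.valuation (q : K) < 1 := (ValuationSubring.mem_nonunits_iff A).mp hqA
  -- the factor
  obtain ⟨t, ht0, htv, htq, hts⟩ : ∃ t : K, t ≠ 0 ∧ A.valuation t < 1 ∧
      A.valuation (q : K) ≤ A.valuation t ∧ A.valuation s₀ ^ (q - 1) ≤ A.valuation t := by
    rcases le_total (A.valuation (q : K)) (A.valuation (s₀ ^ (q - 1))) with h | h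
    · refine ⟨s₀ ^ (q - 1), pow_ne_zero _ hs₀0, ?_, h, by rw [map_pow]⟩
      rw [map_pow]
      exact pow_lt_one₀ zero_le hs₀v (by omega)
    · exact ⟨q, hq0, hqv, le_rfl, by rw [← map_pow]; exact h⟩
  have hsurj : Set.SurjOn Ux X X := by
    have h1 : Ux '' X = X := Set.eq_of_subset_of_ncard_le hUX.image_subset
      (by rw [hinj.ncard_image]) hX
    exact h1.ge
  have key : ∀ n : ℕ, ∀ x ∈ X, ∀ f, IsKummer q x f → PA O q f (s₀ * t ^ n) := by
    intro n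
    induction n with
    | zero => intro x hx f hf; rw [pow_zero, mul_one]; exact hs₀ x hx f hf
    | succ n ih =>
      intro x hx f hf
      obtain ⟨x', hx', rfl⟩ := hsurj hx
      obtain ⟨f', hf'⟩ := exists_isKummer (htor x' hx')
      have h1 := ih x' hx' f' hf'
      have htn : A.valuation (s₀ * t ^ n) ≤ A.valuation s₀ := by
        rw [map_mul, map_pow]
        exact mul_le_of_le_one_right zero_le (pow_le_one₀ zero_le htv.le)
      have hsA : s₀ * t ^ n ∈ A := by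
        rw [← ValuationSubring.valuation_le_one_iff]
        exact htn.trans hs₀v.le
      have h2 : PA O q (U f') (s₀ * t ^ (n + 1)) := by
        refine h1.map hU hsA (mul_ne_zero hs₀0 (pow_ne_zero _ ht0)) ?_ ?_
        · have e2 : s₀ * t ^ (n + 1) = t * (s₀ * t ^ n) := by ring
          rw [e2, map_mul, map_mul _ t]
          exact mul_le_mul_left htq _
        · have e1 : (s₀ * t ^ n) ^ q = (s₀ * t ^ n) * (s₀ * t ^ n) ^ (q - 1) := by
            rw [← pow_succ']; congr 1; omega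
          have e2 : s₀ * t ^ (n + 1) = (s₀ * t ^ n) * t := by ring
          rw [e1, e2, map_mul, map_mul _ (s₀ * t ^ n) t, map_pow]
          exact mul_le_mul_right ((pow_le_pow_left₀ zero_le htn _).trans hts) _
      exact h2.congr hq' (hUK x' hx' f' hf') hf
  intro s hs x hx f hf
  obtain ⟨n, hn⟩ := arch t ((ValuationSubring.mem_nonunits_iff A).mpr htv) s hs
  refine (key n x hx f hf).mono hU.mem_iff hs ?_
  have h3 : A.valuation (t ^ n) ≤ A.valuation s := by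
    rw [← ValuationSubring.valuation_le_one_iff, map_div₀] at hn
    exact (div_le_one₀ (zero_lt_iff.mpr ((Valuation.ne_zero_iff _).mpr hs))).mp hn
  rw [map_mul]
  exact (mul_le_of_le_one_left zero_le hs₀v.le).trans h3

/-- Transport by an automorphism. -/
theorem PA.of_map {O₂ : ValuationSubring F} (w : F ≃ₐ[K] F) (hww : ∀ f, w (w f) = f)
    (hw : ∀ f ∈ O, w f ∈ O₂) {f : F} {s : K} (h : PA O q (w f) s) : PA O₂ q f s := by
  obtain ⟨g, hg, u, hu, hf⟩ := h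
  refine ⟨w g, by simpa using hg, w u, hw u hu, ?_⟩
  have h1 := congrArg w hf
  rw [hww, map_mul, map_pow, map_add, map_one, map_mul, AlgEquiv.commutes] at h1
  exact h1

end

end Fermat.Agent.S33aux

namespace Fermat.Agent.TwoComp

namespace Data

open Fermat.Agent.S33aux

variable {K Fm F k F' : Type*} [Field K] [Field Fm] [Algebra K Fm] [Field F]
    [Algebra K F] [Field k] [Field F'] [Algebra k F'] {q : ℕ} {D : Data K Fm F k F' q}

theorem exists_const_mul_mem₁ (hq : 0 < q) (f : F) :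
    ∃ c : K, c ≠ 0 ∧ algebraMap K F c * f ∈ D.O₁ := by
  rcases eq_or_ne f 0 with rfl | hf
  · exact ⟨1, one_ne_zero, by rw [mul_zero]; exact D.O₁.zero_mem⟩
  · obtain ⟨c, hc, h, -⟩ := exists_unit₁ (D := D) hq hf
    exact ⟨c, hc, h⟩

theorem exists_const_mul_mem₂ (hq : 0 < q) (f : F) :
    ∃ c : K, c ≠ 0 ∧ algebraMap K F c * f ∈ D.O₂ :=
  exists_const_mul_mem₁ (D := D.swap) hq f

theorem nonunits_le₁ {f : F} (h : f ∈ D.O₁.nonunits) : f ∈ D.O₁ :=
  (D.O₁.valuation_le_one_iff f).mp ((ValuationSubring.mem_nonunits_iff _).mp h).le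

theorem nonunits_le₂ {f : F} (h : f ∈ D.O₂.nonunits) : f ∈ D.O₂ :=
  (D.O₂.valuation_le_one_iff f).mp ((ValuationSubring.mem_nonunits_iff _).mp h).le

/-- Approximate idempotents. -/
theorem exists_idem (hq : 0 < q) (arch : D.Arch) (a b : K) :
    ∃ e : F, e ∈ D.O₁ ∧ e ∈ D.O₂ ∧ algebraMap K F a⁻¹ * (1 - e) ∈ D.O₁ ∧
      algebraMap K F b⁻¹ * e ∈ D.O₂ := by
  obtain ⟨e, he₁, he₂, r₁, r₂⟩ := D.surj 1 0
  obtain ⟨N, hN⟩ := arch₂ (D := D) hq arch (mem_nonunits₁ (D := D.swap).mpr ⟨he₂, r₂⟩) b⁻¹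
  have hbN := hN N le_rfl
  have h1 : (1 - e ^ N) ∈ D.O₁.nonunits := by
    rw [mem_nonunits₁]
    refine ⟨sub_mem D.O₁.one_mem (pow_mem he₁ N), ?_⟩
    have : (⟨1 - e ^ N, sub_mem D.O₁.one_mem (pow_mem he₁ N)⟩ : D.O₁) =
      1 - (⟨e, he₁⟩ : D.O₁) ^ N := rfl
    rw [this, map_sub, map_pow, r₁, one_pow, map_one, sub_self]
  obtain ⟨M, hM⟩ := arch₁ (D := D) hq arch h1 a⁻¹
  have haM := hM M le_rfl
  have hsub₁ : 1 - e ^ N ∈ D.O₁ := nonunits_le₁ h1
  have hsub₂ : 1 - e ^ N ∈ D.O₂ := sub_mem D.O₂.one_mem (pow_mem he₂ N)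
  refine ⟨1 - (1 - e ^ N) ^ M, sub_mem D.O₁.one_mem (pow_mem hsub₁ M),
    sub_mem D.O₂.one_mem (pow_mem hsub₂ M), ?_, ?_⟩
  · rw [sub_sub_cancel]
    exact nonunits_le₁ haM
  · -- `1 - (1 - x) ^ M = x * y`
    obtain ⟨y, hy, hxy⟩ : ∃ y ∈ D.O₂, 1 - (1 - e ^ N) ^ M = e ^ N * y := by
      clear haM hM
      induction M with
      | zero => exact ⟨0, D.O₂.zero_mem, by simp⟩
      | succ M ih =>
        obtain ⟨y, hy, hxy⟩ := ih
        refine ⟨y + (1 - e ^ N) ^ M, D.O₂.add_mem _ _ hy (pow_mem hsub₂ M), ?_⟩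
        rw [pow_succ, mul_add, ← hxy]
        ring
    rw [hxy, ← mul_assoc]
    exact D.O₂.mul_mem _ _ (nonunits_le₂ hbN) hy

/-- Weak approximation to a given precision. -/
theorem exists_approx_near (hq : 0 < q) (arch : D.Arch) {g₁ g₂ : F} (h₁ : g₁ ≠ 0) (h₂ : g₂ ≠ 0)
    {s : K} (hs : s ≠ 0) : ∃ (g : F), (∃ u ∈ D.O₁, g = g₁ * (1 + algebraMap K F s * u)) ∧
      ∃ u ∈ D.O₂, g = g₂ * (1 + algebraMap K F s * u) := by
  obtain ⟨a, ha, haO⟩ := exists_const_mul_mem₁ (D := D) hq (g₂ / g₁ - 1)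
  obtain ⟨b, hb, hbO⟩ := exists_const_mul_mem₂ (D := D) hq (g₁ / g₂ - 1)
  obtain ⟨e, he₁, he₂, hea, heb⟩ := exists_idem (D := D) hq arch (s * a) (s * b)
  have hsF : algebraMap K F s ≠ 0 := (_root_.map_ne_zero _).mpr hs
  have haF : algebraMap K F a ≠ 0 := (_root_.map_ne_zero _).mpr ha
  have hbF : algebraMap K F b ≠ 0 := (_root_.map_ne_zero _).mpr hb
  refine ⟨g₁ * e + g₂ * (1 - e), ⟨(algebraMap K F a * (g₂ / g₁ - 1)) *
    (algebraMap K F (s * a)⁻¹ * (1 - e)), D.O₁.mul_mem _ _ haO hea, ?_⟩,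
    ⟨(algebraMap K F b * (g₁ / g₂ - 1)) * (algebraMap K F (s * b)⁻¹ * e),
      D.O₂.mul_mem _ _ hbO heb, ?_⟩⟩
  · rw [map_inv₀, map_mul]
    field_simp
    ring
  · rw [map_inv₀, map_mul]
    field_simp
    ring

theorem one_add_mul_mem_inv₁ {s : K} (hs : s ∈ D.G.A.nonunits) {u : F} (hu : u ∈ D.O₁) :
    1 + algebraMap K F s * u ≠ 0 ∧ (1 + algebraMap K F s * u) ∈ D.O₁ ∧
      (1 + algebraMap K F s * u)⁻¹ ∈ D.O₁ := by
  obtain ⟨hsO, hs0⟩ := mem_nonunits₁.mp (algebraMap_mem_nonunits₁.mpr hs)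
  have h1 : 1 + algebraMap K F s * u ∈ D.O₁ :=
    D.O₁.add_mem _ _ D.O₁.one_mem (D.O₁.mul_mem _ _ hsO hu)
  have h2 : D.ρ₁ ⟨_, h1⟩ = 1 := by
    have e : (⟨_, h1⟩ : D.O₁) = 1 + ⟨_, hsO⟩ * ⟨u, hu⟩ := rfl
    rw [e, map_add, map_one, map_mul, hs0, zero_mul, add_zero]
  refine ⟨?_, h1, D.inv_mem_O₁ h1 (by rw [h2]; exact one_ne_zero)⟩
  intro h0
  have e : (⟨_, h1⟩ : D.O₁) = 0 := Subtype.ext h0
  rw [e, map_zero] at h2
  exact zero_ne_one h2

theorem one_add_mul_mem_inv₂ {s : K} (hs : s ∈ D.G.A.nonunits) {u : F} (hu : u ∈ D.O₂) :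
    1 + algebraMap K F s * u ≠ 0 ∧ (1 + algebraMap K F s * u) ∈ D.O₂ ∧
      (1 + algebraMap K F s * u)⁻¹ ∈ D.O₂ :=
  one_add_mul_mem_inv₁ (D := D.swap) hs hu

/-- comparison of `1 + s w` and `(1 + s u) ^ q` -/
theorem exists_ratio₁ {s : K} (hs : s ∈ D.G.A.nonunits) {u w : F} (hu : u ∈ D.O₁) (hw : w ∈ D.O₁) :
    ∃ z ∈ D.O₁, (1 + algebraMap K F s * w) / (1 + algebraMap K F s * u) ^ q =
      1 + algebraMap K F s * z := by
  obtain ⟨h1, h2, h3⟩ := one_add_mul_mem_inv₁ hs hu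
  have hsA : s ∈ D.G.A := (D.G.A.valuation_le_one_iff s).mp
    ((ValuationSubring.mem_nonunits_iff _).mp hs).le
  have hsO := (D.mem_O₁_iff s).mpr hsA
  obtain ⟨y, hy⟩ := exists_one_add_mul_pow (⟨_, hsO⟩ : D.O₁) ⟨u, hu⟩ q
  have hy' : (1 + algebraMap K F s * u) ^ q = 1 + algebraMap K F s * (y : F) :=
    congrArg Subtype.val hy
  refine ⟨(w - y) * ((1 + algebraMap K F s * u)⁻¹) ^ q,
    D.O₁.mul_mem _ _ (sub_mem hw y.2) (pow_mem h3 q), ?_⟩
  rw [inv_pow, hy']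
  have h4 : 1 + algebraMap K F s * (y : F) ≠ 0 := by rw [← hy']; exact pow_ne_zero _ h1
  field_simp
  ring

theorem exists_ratio₂ {s : K} (hs : s ∈ D.G.A.nonunits) {u w : F} (hu : u ∈ D.O₂) (hw : w ∈ D.O₂) :
    ∃ z ∈ D.O₂, (1 + algebraMap K F s * w) / (1 + algebraMap K F s * u) ^ q =
      1 + algebraMap K F s * z :=
  exists_ratio₁ (D := D.swap) hs hu hw

/-- Approximations at both components can be combined. -/
theorem exists_joint (hq : 0 < q) (arch : D.Arch) {f : F} {s : K} (hs0 : s ≠ 0)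
    (hs : s ∈ D.G.A.nonunits) (h₁ : PA D.O₁ q f s) (h₂ : PA D.O₂ q f s) :
    ∃ h : F, h ≠ 0 ∧ ∃ w : D.R.O, f = h ^ q * (1 + algebraMap K F s * (w : F)) := by
  obtain ⟨g₁, hg₁, w₁, hw₁, hf₁⟩ := h₁
  obtain ⟨g₂, hg₂, w₂, hw₂, hf₂⟩ := h₂
  obtain ⟨g, ⟨u₁, hu₁, e₁⟩, u₂, hu₂, e₂⟩ := exists_approx_near (D := D) hq arch hg₁ hg₂ hs0
  obtain ⟨hn₁, -, -⟩ := one_add_mul_mem_inv₁ hs hu₁
  obtain ⟨hn₂, -, -⟩ := one_add_mul_mem_inv₂ hs hu₂
  have hg0 : g ≠ 0 := by rw [e₁]; exact mul_ne_zero hg₁ hn₁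
  obtain ⟨z₁, hz₁, r₁⟩ := exists_ratio₁ (q := q) hs hu₁ hw₁
  obtain ⟨z₂, hz₂, r₂⟩ := exists_ratio₂ (q := q) hs hu₂ hw₂
  have hsF : algebraMap K F s ≠ 0 := (_root_.map_ne_zero _).mpr hs0
  have t₁ : f / g ^ q = 1 + algebraMap K F s * z₁ := by
    rw [← r₁, e₁, hf₁, mul_pow, mul_div_mul_left _ _ (pow_ne_zero q hg₁)]
  have t₂ : f / g ^ q = 1 + algebraMap K F s * z₂ := by
    rw [← r₂, e₂, hf₂, mul_pow, mul_div_mul_left _ _ (pow_ne_zero q hg₂)]
  have hz : z₁ = z₂ := by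
    rw [t₁] at t₂
    exact mul_left_cancel₀ hsF (add_left_cancel t₂)
  refine ⟨g, hg0, ⟨z₁, hz₁, hz ▸ hz₂⟩, ?_⟩
  change f = g ^ q * (1 + algebraMap K F s * z₁)
  rw [← t₁, mul_div_cancel₀ _ (pow_ne_zero q hg0)]

theorem mem_R_O_of_pow {h : F} {n : ℕ} (hn : n ≠ 0) (hh : h ^ n ∈ D.R.O) : h ∈ D.R.O := by
  have key : ∀ O : ValuationSubring F, h ^ n ∈ O → h ∈ O := by
    intro O hO
    rw [← ValuationSubring.valuation_le_one_iff, map_pow] at hO
    rw [← ValuationSubring.valuation_le_one_iff]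
    exact (pow_le_one_iff_of_nonneg zero_le hn).mp hO
  exact ⟨key _ hh.1, key _ hh.2⟩

theorem one_add_inv_mem {s : K} (hs : s ∈ D.G.A.nonunits) (w : D.R.O) :
    1 + algebraMap K F s * (w : F) ≠ 0 ∧ (1 + algebraMap K F s * (w : F)) ∈ D.R.O ∧
      (1 + algebraMap K F s * (w : F))⁻¹ ∈ D.R.O := by
  obtain ⟨h1, h2, h3⟩ := one_add_mul_mem_inv₁ (D := D) hs w.2.1
  obtain ⟨-, h2', h3'⟩ := one_add_mul_mem_inv₂ (D := D) hs w.2.2
  exact ⟨h1, ⟨h2, h2'⟩, ⟨h3, h3'⟩⟩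

variable [IsFF K F] [IsFF k F'] [IsFF K Fm] [IsAlgClosed k] [CharP k q]

/-- **Classes arbitrarily close to `q`-th powers at both components.** -/
theorem smul_eq_of_PA (hq : q.Prime) (arch : D.Arch) (hqK : (q : K) ≠ 0) {lam : D.R.A}
    (hlam : lam ^ (q - 1) = -(q : D.R.A)) {g : SemilinearAut K F} {n : ℕ} (hn : n ≤ q)
    (hg : D.ActA g lam n) {x : Pic0 K F} {f : F} (hf : IsKummer q x f)
    (h₁ : ∀ s : K, s ≠ 0 → PA D.O₁ q f s) (h₂ : ∀ s : K, s ≠ 0 → PA D.O₂ q f s) :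
    g • x = n • x := by
  have hqA : (q : K) ∈ D.G.A.nonunits := by
    have h1 : D.R.res (q : D.R.A) = 0 := by rw [map_natCast, CharP.cast_eq_zero]
    have h2 := (D.R.res_eq_zero_iff _).mp h1
    simpa using! h2
  have hq0 : (q : D.R.A) ≠ 0 := by
    intro h0
    apply hqK
    have := congrArg Subtype.val h0
    simpa using! this
  -- first approximation
  obtain ⟨h₀, hh₀, w₀, hf₀⟩ := exists_joint (D := D) hq.pos arch hqK hqA (h₁ q hqK) (h₂ q hqK)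
  obtain ⟨E, rfl, hf0, hE⟩ := hf.mul_pow (inv_ne_zero hh₀)
  set f₁ : F := f * h₀⁻¹ ^ q with hf₁
  have hf₁' : f₁ = 1 + algebraMap K F (q : K) * (w₀ : F) := by
    rw [hf₁, hf₀, inv_pow, mul_assoc, mul_comm _ (h₀ ^ q)⁻¹, ← mul_assoc,
      mul_inv_cancel₀ (pow_ne_zero _ hh₀), one_mul]
  obtain ⟨-, hf₁O, hf₁O'⟩ := one_add_inv_mem (D := D) hqA w₀
  rw [← hf₁'] at hf₁O hf₁O'
  have key := isPrincipal_twist (D := D) (f := f₁) hq (E := (E : Divisor K F)) E.2 hq0 hlam hn hg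
    (fun v => (hE v).symm) (fun c hc => by
      have hc0 : (c : K) ≠ 0 := fun h0 => hc (Subtype.ext h0)
      have hs0 : (q : K) * c ≠ 0 := mul_ne_zero hqK hc0
      have hs : (q : K) * c ∈ D.G.A.nonunits := by
        rw [ValuationSubring.mem_nonunits_iff, map_mul]
        exact mul_lt_one_of_lt_of_le ((ValuationSubring.mem_nonunits_iff _).mp hqA)
          (D.G.A.valuation_le_one c)
      obtain ⟨h, hh, w, hw⟩ := exists_joint (D := D) hq.pos arch hs0 hs (h₁ _ hs0) (h₂ _ hs0)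
      obtain ⟨hne, hO, hO'⟩ := one_add_inv_mem (D := D) hs w
      have e1 : f₁ = (h * h₀⁻¹) ^ q * (1 + algebraMap K F ((q : K) * c) * (w : F)) := by
        rw [hf₁, hw, mul_pow]; ring
      have e2 : (h * h₀⁻¹) ^ q = f₁ * (1 + algebraMap K F ((q : K) * c) * (w : F))⁻¹ := by
        rw [e1, mul_assoc, mul_inv_cancel₀ hne, mul_one]
      have e3 : ((h * h₀⁻¹)⁻¹) ^ q = f₁⁻¹ * (1 + algebraMap K F ((q : K) * c) * (w : F)) := by
        rw [inv_pow, e2, mul_inv, inv_inv]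
      refine ⟨h * h₀⁻¹, (q : D.R.O) * w, ?_, ?_, mul_ne_zero hh (inv_ne_zero hh₀), ?_⟩
      · apply mem_R_O_of_pow (D := D) hq.ne_zero
        rw [e2]
        exact D.R.O.mul_mem hf₁O hO'
      · apply mem_R_O_of_pow (D := D) hq.ne_zero
        rw [e3]
        exact D.R.O.mul_mem hf₁O' hO
      · rw [e1]
        congr 1
        rw [Subring.coe_add, Subring.coe_mul, Subring.coe_mul, RedRing.coe_algA, Subring.coe_one,
          map_mul]
        push_cast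
        try rw [map_natCast]
        ring)
  -- conclusion
  have h3 : g • (Pic0.mk E) + (q - n) • Pic0.mk E = 0 := by
    rw [SemilinearAut.pic0_smul_mk]
    change Pic0.mk (SemilinearAut.degZeroSMulHom g E + (q - n) • E) = 0
    rw [Pic0_mk_eq_zero_iff]
    exact key
  have h4 : q • Pic0.mk E = 0 := hf.nsmul_eq_zero
  have h5 : (q - n) • Pic0.mk E + n • Pic0.mk E = 0 := by
    rw [← add_smul, Nat.sub_add_cancel hn, h4]
  have h6 : g • (Pic0.mk E) + (q - n) • Pic0.mk E = n • Pic0.mk E + (q - n) • Pic0.mk E := by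
    rw [h3, add_comm, h5]
  exact add_right_cancel h6

end Data

end Fermat.Agent.TwoComp
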