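import Fermat.Agent.LocE.Kummer
import Fermat.Agent.TwoGauss.QExp
import Fermat.Agent.S33.Formal

/-!
# Inertia and constants
-/

set_option autoImplicit false

noncomputable section

open Fermat.Agent.TwoGauss Fermat.Agent.LocE FermatAgent.ECVal Fermat.Agent.GalRep

namespace Fermat.Agent.S33aux

local notation "𝕂" => AlgebraicClosure ℚ

variable {A : ValuationSubring 𝕂}

theorem inertia_mem {τ : GQ} (hτ : τ ∈ A.inertiaSubgroupIn ℚ) {c : 𝕂} (hc : c ∈ A) : τ c ∈ A :=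
  (residueCompat_of_inertia hτ).mem c hc

theorem inertia_residue {τ : GQ} (hτ : τ ∈ A.inertiaSubgroupIn ℚ) {c : 𝕂} (hc : c ∈ A) :
    IsLocalRing.residue A ⟨τ c, inertia_mem hτ hc⟩ = IsLocalRing.residue A ⟨c, hc⟩ :=
  (residueCompat_of_inertia hτ).residue c hc

theorem inertia_nonunits {τ : GQ} (hτ : τ ∈ A.inertiaSubgroupIn ℚ) {c : 𝕂} (hc : c ∈ A.nonunits) :
    τ c ∈ A.nonunits := by
  have hcA : c ∈ A := (A.valuation_le_one_iff c).mp ((ValuationSubring.mem_nonunits_iff _).mp hc).le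
  have h1 := inertia_residue hτ hcA
  have h2 : IsLocalRing.residue A ⟨c, hcA⟩ = 0 := by
    rw [IsLocalRing.residue_eq_zero_iff]
    exact (A.valuation_lt_one_iff _).mpr ((ValuationSubring.mem_nonunits_iff _).mp hc)
  rw [h2, IsLocalRing.residue_eq_zero_iff] at h1
  exact (ValuationSubring.mem_nonunits_iff _).mpr ((A.valuation_lt_one_iff _).mp h1)

theorem inertia_pow_mem {τ : GQ} (hτ : τ ∈ A.inertiaSubgroupIn ℚ) {c : 𝕂} (hc : c ∈ A) (n : ℕ) :
    (τ ^ n) c ∈ A := inertia_mem (pow_mem hτ n) hc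

theorem exists_pow_fixed (τ : GQ) (c : 𝕂) : ∃ n : ℕ, 0 < n ∧ (τ ^ n) c = c := by
  have hfin : Set.Finite {x : 𝕂 | (minpoly ℚ c).aeval x = 0} := by
    have h1 : (minpoly ℚ c) ≠ 0 := minpoly.ne_zero (Algebra.IsIntegral.isIntegral c)
    have h2 := Polynomial.rootSet_finite (minpoly ℚ c) 𝕂
    refine h2.subset fun x hx => ?_
    rw [Polynomial.mem_rootSet]
    exact ⟨h1, hx⟩
  have hmap : ∀ n : ℕ, (τ ^ n) c ∈ {x : 𝕂 | (minpoly ℚ c).aeval x = 0} := by
    intro n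
    change (minpoly ℚ c).aeval ((τ ^ n) c) = 0
    rw [show (τ ^ n) c = ((τ ^ n : GQ) : 𝕂 →ₐ[ℚ] 𝕂) c from rfl,
      Polynomial.aeval_algHom_apply, minpoly.aeval, map_zero]
  obtain ⟨i, j, hij, h⟩ : ∃ i j : ℕ, i < j ∧ (τ ^ i) c = (τ ^ j) c := by
    by_contra hcon
    push Not at hcon
    have hinj : Function.Injective fun n : ℕ => (τ ^ n) c := by
      intro i j h
      rcases lt_trichotomy i j with h1 | h1 | h1
      · exact absurd h (hcon i j h1)
      · exact h1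
      · exact absurd h.symm (hcon j i h1)
    exact (Set.infinite_of_injective_forall_mem hinj hmap) hfin
  refine ⟨j - i, by omega, ?_⟩
  have h1 : τ ^ j = τ ^ i * τ ^ (j - i) := by rw [← pow_add]; congr 1; omega
  rw [h1, AlgEquiv.mul_apply] at h
  exact ((τ ^ i).injective h).symm

theorem inertia_div_mem {τ : GQ} (hτ : τ ∈ A.inertiaSubgroupIn ℚ) {c : 𝕂} (hc : c ≠ 0) :
    τ c / c ∈ A := by
  by_contra hcon
  have hτc : τ c ≠ 0 := by simpa using hc
  set r : 𝕂 := c / τ c with hr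
  have hr0 : r ≠ 0 := div_ne_zero hc hτc
  have hrn : r ∈ A.nonunits := by
    rw [ValuationSubring.mem_nonunits_iff, hr]
    rw [← A.valuation_le_one_iff, not_le, map_div₀] at hcon
    rw [map_div₀]
    have h1 : 0 < A.valuation c := zero_lt_iff.mpr ((Valuation.ne_zero_iff _).mpr hc)
    have h2 : 0 < A.valuation (τ c) := zero_lt_iff.mpr ((Valuation.ne_zero_iff _).mpr hτc)
    rw [one_lt_div₀ h1] at hcon
    exact (div_lt_one₀ h2).mpr hcon
  have hrA : r ∈ A := (A.valuation_le_one_iff r).mp ((ValuationSubring.mem_nonunits_iff _).mp hrn).le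
  obtain ⟨n, hn, hfix⟩ := exists_pow_fixed τ c
  have h1 : ∀ k : ℕ, ∏ i ∈ Finset.range k, (τ ^ i) r = c / (τ ^ k) c := by
    intro k
    induction k with
    | zero => simp [hc]
    | succ k ih =>
      rw [Finset.prod_range_succ, ih, hr, map_div₀]
      have h2 : (τ ^ k) (τ c) = (τ ^ (k + 1)) c := by rw [pow_succ, AlgEquiv.mul_apply]
      have h3 : (τ ^ k) c ≠ 0 := fun h => hc ((τ ^ k).injective (h.trans (map_zero _).symm))
      rw [h2, div_mul_div_cancel₀ h3]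
  have h2 := h1 n
  rw [hfix, div_self hc] at h2
  obtain ⟨k, rfl⟩ : ∃ k, n = k + 1 := ⟨n - 1, by omega⟩
  rw [Finset.prod_range_succ', pow_zero, AlgEquiv.one_apply] at h2
  have h3 : ∏ i ∈ Finset.range k, (τ ^ (i + 1)) r ∈ A :=
    prod_mem fun i _ => inertia_pow_mem hτ hrA _
  have h4 : A.valuation ((∏ i ∈ Finset.range k, (τ ^ (i + 1)) r) * r) < 1 := by
    rw [map_mul]
    exact (mul_le_of_le_one_left' ((A.valuation_le_one_iff _).mpr h3)).trans_lt
      ((ValuationSubring.mem_nonunits_iff _).mp hrn)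
  rw [h2, map_one] at h4
  exact lt_irrefl _ h4

/-- Inertia preserves valuations. -/
theorem inertia_valuation {τ : GQ} (hτ : τ ∈ A.inertiaSubgroupIn ℚ) (c : 𝕂) :
    A.valuation (τ c) = A.valuation c := by
  rcases eq_or_ne c 0 with rfl | hc
  · rw [map_zero]
  have key : ∀ {σ : GQ}, σ ∈ A.inertiaSubgroupIn ℚ → ∀ {d : 𝕂}, d ≠ 0 →
      A.valuation (σ d) ≤ A.valuation d := by
    intro σ hσ d hd
    have h1 := inertia_div_mem hσ hd
    rw [← A.valuation_le_one_iff, map_div₀] at h1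
    exact (div_le_one₀ (zero_lt_iff.mpr ((Valuation.ne_zero_iff _).mpr hd))).mp h1
  apply le_antisymm (key hτ hc)
  have h2 := key (inv_mem hτ) (d := τ c) (by simpa using hc)
  have h3 : τ⁻¹ (τ c) = c := by
    change (τ⁻¹ * τ) c = c
    rw [inv_mul_cancel, AlgEquiv.one_apply]
  rwa [h3] at h2

section Lambda

variable {p : ℕ} [hp : Fact p.Prime] (hA : A.LiesOverPrime p)

theorem exists_lambda : ∃ lam : 𝕂, lam ^ (p - 1) = -(p : 𝕂) :=
  IsAlgClosed.exists_pow_nat_eq _ (by have := hp.out.two_le; omega)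

include hA in
/-- `λ` and `ζ - 1` have the same valuation. -/
theorem valuation_lambda {lam : 𝕂} (hlam : lam ^ (p - 1) = -(p : 𝕂)) {ζ : 𝕂}
    (hζ : IsPrimitiveRoot ζ p) : A.valuation lam = A.valuation (ζ - 1) := by
  set w := valOf hp.out hA with hw
  have hp2 : 2 ≤ p := hp.out.two_le
  have hp0 : (p : 𝕂) ≠ 0 := by exact_mod_cast hp.out.ne_zero
  have h1 := is_zeta_sub_one (hA := hA) hζ
  have hlam0 : lam ≠ 0 := by
    rintro rfl
    rw [zero_pow (by omega)] at hlam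
    exact hp0 (by rw [← neg_eq_zero, ← hlam])
  have h2 : w.Is (1 / (p - 1)) lam := by
    have h3 := (QVal.Is.of_ne (w := w) hlam0).pow (p - 1)
    rw [hlam] at h3
    have h4 : w.Is 1 (-(p : 𝕂)) := (valOf_prime hp.out hA).neg
    have h5 := h3.unique h4
    refine ⟨hlam0, ?_⟩
    have h6 : ((p - 1 : ℕ) : ℚ) = (p : ℚ) - 1 := by push_cast [Nat.cast_sub (by omega : 1 ≤ p)]; rfl
    rw [h6] at h5
    have h7 : (p : ℚ) - 1 ≠ 0 := by
      have : (2 : ℚ) ≤ p := by exact_mod_cast hp2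
      linarith
    field_simp
    linarith
  apply le_antisymm
  · refine (qval_le_iff A.valuation hp.out (lt_one_of_liesOver hA) h2.1 h1.1).mp ?_
    exact (h1.2.trans h2.2.symm).le
  · refine (qval_le_iff A.valuation hp.out (lt_one_of_liesOver hA) h1.1 h2.1).mp ?_
    exact (h2.2.trans h1.2.symm).le

include hA in
/-- Inertia acts on `λ` by the cyclotomic character. -/
theorem inertia_lambda {lam : 𝕂} (hlam : lam ^ (p - 1) = -(p : 𝕂)) {τ : GQ}
    (hτ : τ ∈ A.inertiaSubgroupIn ℚ) {a : ℕ} (ha : IsCycExp p τ a) :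
    ∃ (r : 𝕂) (hr : r ∈ A), τ lam = r * lam ∧
      IsLocalRing.residue A ⟨r, hr⟩ = (a : IsLocalRing.ResidueField A) := by
  have hp2 : 2 ≤ p := hp.out.two_le
  have : NeZero p := ⟨hp.out.ne_zero⟩
  obtain ⟨ζ, hζ⟩ := HasEnoughRootsOfUnity.exists_primitiveRoot 𝕂 p
  have hval := valuation_lambda hA hlam hζ
  have hπ0 : ζ - 1 ≠ 0 := sub_ne_zero.mpr (hζ.ne_one hp.out.one_lt)
  have hp0 : (p : 𝕂) ≠ 0 := by exact_mod_cast hp.out.ne_zero
  have hlam0 : lam ≠ 0 := by
    rintro rfl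
    rw [zero_pow (by omega)] at hlam
    exact hp0 (by rw [← neg_eq_zero, ← hlam])
  -- `ζ - 1` is a nonunit
  have hζA : ζ ∈ A := by
    have h1 : A.valuation (ζ ^ p) = 1 := by rw [hζ.pow_eq_one, map_one]
    rw [map_pow] at h1
    rw [← A.valuation_le_one_iff]
    exact ((pow_eq_one_iff_of_nonneg zero_le hp.out.ne_zero).mp h1).le
  have hlt : A.valuation (ζ - 1) < 1 := by
    rw [← hval]
    by_contra hcon
    rw [not_lt] at hcon
    have h1 : 1 ≤ A.valuation (lam ^ (p - 1)) := by rw [map_pow]; exact one_le_pow₀ hcon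
    rw [hlam, Valuation.map_neg] at h1
    exact absurd ((ValuationSubring.mem_nonunits_iff _).mp hA) (not_lt.mpr h1)
  have hresζ : IsLocalRing.residue A ⟨ζ, hζA⟩ = 1 := by
    have h1 : (⟨ζ, hζA⟩ : A) = 1 + ⟨ζ - 1, sub_mem hζA A.one_mem⟩ := Subtype.ext (by
      change ζ = 1 + (ζ - 1); ring)
    rw [h1, map_add, map_one, (IsLocalRing.residue_eq_zero_iff _).mpr
      ((A.valuation_lt_one_iff _).mpr hlt), add_zero]
  -- `u = λ / (ζ - 1)` is a unit
  set u : 𝕂 := lam / (ζ - 1) with hu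
  have hu0 : u ≠ 0 := div_ne_zero hlam0 hπ0
  have huv : A.valuation u = 1 := by
    rw [hu, map_div₀, hval, div_self ((Valuation.ne_zero_iff _).mpr hπ0)]
  have huA : u ∈ A := (A.valuation_le_one_iff u).mp huv.le
  have huA' : u⁻¹ ∈ A := (A.valuation_le_one_iff _).mp (by rw [map_inv₀, huv, inv_one])
  -- the geometric sum
  set s : 𝕂 := ∑ i ∈ Finset.range a, ζ ^ i with hs
  have hsA : s ∈ A := sum_mem fun i _ => pow_mem hζA i
  have hsres : IsLocalRing.residue A ⟨s, hsA⟩ = (a : IsLocalRing.ResidueField A) := by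
    have h1 : (⟨s, hsA⟩ : A) = ∑ i ∈ Finset.range a, (⟨ζ, hζA⟩ : A) ^ i := by
      apply Subtype.ext
      rw [AddSubmonoidClass.coe_finsetSum]
      rfl
    rw [h1, map_sum]
    simp only [map_pow, hresζ, one_pow, Finset.sum_const, Finset.card_range, nsmul_eq_mul, mul_one]
  have hτζ : τ ζ = ζ ^ a := ha ζ hζ.pow_eq_one
  have hτπ : τ (ζ - 1) = s * (ζ - 1) := by
    rw [map_sub, map_one, hτζ, hs, geom_sum_mul]
  have hτuA := inertia_mem hτ huA
  refine ⟨s * (τ u * u⁻¹), mul_mem hsA (mul_mem hτuA huA'), ?_, ?_⟩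
  · have h1 : lam = u * (ζ - 1) := by rw [hu, div_mul_cancel₀ _ hπ0]
    rw [h1, map_mul, hτπ]
    field_simp
  · have h1 : (⟨s * (τ u * u⁻¹), mul_mem hsA (mul_mem hτuA huA')⟩ : A) =
      ⟨s, hsA⟩ * (⟨τ u, hτuA⟩ * ⟨u⁻¹, huA'⟩) := rfl
    rw [h1, map_mul, map_mul, hsres, inertia_residue hτ huA, ← map_mul]
    have h2 : (⟨u, huA⟩ : A) * ⟨u⁻¹, huA'⟩ = 1 := Subtype.ext (mul_inv_cancel₀ hu0)
    rw [h2, map_one, mul_one]

end Lambda

end Fermat.Agent.S33aux
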