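import Fermat.Agent.QX4.SecGauss

/-!
# Contraction property of `secNorm` at the residue characteristic

`secNorm (Y₂ + s Y₁) = secNorm Y₂ + (p s) a + s ^ p secNorm Y₁`.
-/

set_option autoImplicit false

noncomputable section

open HahnSeries ModularCurve Fermat.Agent.GaussVal Fermat.Agent.TEll

namespace Fermat.Agent.S33aux

section Universal

variable (p : ℕ) [hp : Fact p.Prime]

/-- The universal coefficient ring. -/
abbrev UR (Z : Type*) [CommRing Z] : Type _ := MvPolynomial (Bool × ℤ) Z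

/-- The universal series with coefficients in degrees `≥ n₀`. -/
def uSeries (Z : Type*) [CommRing Z] (b : Bool) (n₀ : ℤ) : LaurentSeries (UR Z) :=
  HahnSeries.ofSuppBddBelow (fun n => if n₀ ≤ n then MvPolynomial.X (b, n) else 0)
    ⟨n₀, by
      rintro n hn
      rw [Function.mem_support] at hn
      by_contra h
      exact hn (if_neg h)⟩

lemma uSeries_coeff (Z : Type*) [CommRing Z] (b : Bool) (n₀ n : ℤ) :
    (uSeries Z b n₀).coeff n = if n₀ ≤ n then MvPolynomial.X (b, n) else 0 := rfl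

lemma coeffMap_uSeries (Z : Type*) [CommRing Z] {R : Type*} [CommRing R] [Algebra Z R]
    (Y : Bool → LaurentSeries R) (n₀ : ℤ) (hY : ∀ b n, n < n₀ → (Y b).coeff n = 0) (b : Bool) :
    coeffMap (MvPolynomial.aeval (R := Z) (fun i : Bool × ℤ => (Y i.1).coeff i.2)).toRingHom
      (uSeries Z b n₀) = Y b := by
  ext n
  rw [coeffMap_coeff, uSeries_coeff]
  split_ifs with h
  · exact MvPolynomial.aeval_X _ _
  · rw [map_zero, hY b n (not_le.mp h)]

/-- Division of a series by a nonzero constant. -/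
lemma exists_C_mul {R : Type*} [CommRing R] [IsDomain R] {d : R} (hd : d ≠ 0)
    (z : LaurentSeries R) (h : ∀ n, d ∣ z.coeff n) :
    ∃ a : LaurentSeries R, z = HahnSeries.C d * a := by
  choose a ha using h
  refine ⟨⟨a, z.isPWO_support.mono fun n hn => ?_⟩, ?_⟩
  · rw [Function.mem_support] at hn
    rw [HahnSeries.mem_support, ha n]
    exact mul_ne_zero hd hn
  · ext n
    rw [HahnSeries.C_apply, HahnSeries.coeff_single_zero_mul]
    exact ha n

lemma secNorm_C (R : Type*) [CommRing R] (ℓ : ℕ) [NeZero ℓ] (c : R) :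
    secNorm R ℓ (HahnSeries.C c) = HahnSeries.C (c ^ ℓ) := by
  rcases subsingleton_or_nontrivial R with h | h
  · exact Subsingleton.elim _ _
  have h1 : (HahnSeries.C c : LaurentSeries R) = qExpand R ℓ (HahnSeries.C c) := by
    rw [HahnSeries.C_apply, qExpand_single, mul_zero]
  rw [h1, secNorm_apply, ← algebraMap_cov, Algebra.norm_algebraMap, finrank_cov, map_pow]

lemma coeffMap_C {R S : Type*} [CommRing R] [CommRing S] (f : R →+* S) (c : R) :
    coeffMap f (HahnSeries.C c) = HahnSeries.C (f c) := by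
  rw [HahnSeries.C_apply, HahnSeries.C_apply, coeffMap_single]

/-- The universal identity. -/
lemma exists_universal (n₀ : ℤ) : ∃ a : LaurentSeries (Polynomial (UR ℤ)),
    secNorm (Polynomial (UR ℤ)) p (coeffMap Polynomial.C (uSeries ℤ false n₀) +
      HahnSeries.C Polynomial.X * coeffMap Polynomial.C (uSeries ℤ true n₀)) =
    secNorm (Polynomial (UR ℤ)) p (coeffMap Polynomial.C (uSeries ℤ false n₀)) +
      HahnSeries.C ((p : Polynomial (UR ℤ)) * Polynomial.X) * a +
      HahnSeries.C (Polynomial.X ^ p) *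
        secNorm (Polynomial (UR ℤ)) p (coeffMap Polynomial.C (uSeries ℤ true n₀)) := by
  set Y₂ := coeffMap (Polynomial.C (R := UR ℤ)) (uSeries ℤ false n₀) with hY₂
  set Y₁ := coeffMap (Polynomial.C (R := UR ℤ)) (uSeries ℤ true n₀) with hY₁
  set Z := secNorm (Polynomial (UR ℤ)) p (Y₂ + HahnSeries.C Polynomial.X * Y₁) -
    secNorm (Polynomial (UR ℤ)) p Y₂ -
    HahnSeries.C (Polynomial.X ^ p) * secNorm (Polynomial (UR ℤ)) p Y₁ with hZ
  -- reduction modulo `p`
  have hmod : ∀ n, (p : Polynomial (UR ℤ)) ∣ Z.coeff n := by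
    set f : Polynomial (UR ℤ) →+* Polynomial (UR (ZMod p)) :=
      Polynomial.mapRingHom (MvPolynomial.map (Int.castRingHom (ZMod p))) with hf
    have h1 : coeffMap f Z = 0 := by
      have hch : CharP (Polynomial (UR (ZMod p))) p := inferInstance
      rw [hZ, map_sub, map_sub, map_mul, coeffMap_secNorm, coeffMap_secNorm, coeffMap_secNorm,
        map_add, map_mul, secNorm_charP, secNorm_charP, secNorm_charP, map_add, map_mul,
        coeffMap_C, coeffMap_C, coeffMap_C, frobenius_def, map_pow f]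
      ring
    intro n
    have h2 : f (Z.coeff n) = 0 := by
      rw [← coeffMap_coeff, h1, HahnSeries.coeff_zero]
    have h3 : (p : Polynomial (UR ℤ)) = Polynomial.C (MvPolynomial.C (p : ℤ)) := by
      simp
    rw [h3, Polynomial.C_dvd_iff_dvd_coeff]
    intro i
    rw [MvPolynomial.C_dvd_iff_map_hom_eq_zero (Int.castRingHom (ZMod p)) (p : ℤ) (fun r' => by
      rw [eq_intCast]
      exact ZMod.intCast_zmod_eq_zero_iff_dvd r' p)]
    have h4 := congrArg (fun P => Polynomial.coeff P i) h2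
    simp only [hf, Polynomial.coe_mapRingHom, Polynomial.coeff_map, Polynomial.coeff_zero] at h4
    exact h4
  -- evaluation at zero
  have hzero : ∀ n, (Z.coeff n).eval 0 = 0 := by
    intro n
    have h1 : coeffMap (Polynomial.evalRingHom (0 : UR ℤ)) Z = 0 := by
      rw [hZ, map_sub, map_sub, map_mul, coeffMap_secNorm, coeffMap_secNorm, coeffMap_secNorm,
        map_add, map_mul, coeffMap_C, coeffMap_C]
      simp [hp.out.ne_zero]
    have h2 := congrArg (fun z => HahnSeries.coeff z n) h1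
    simp only [coeffMap_coeff, HahnSeries.coeff_zero] at h2
    exact h2
  have hp0 : (p : Polynomial (UR ℤ)) ≠ 0 := by exact_mod_cast hp.out.ne_zero
  have hdvd : ∀ n, ((p : Polynomial (UR ℤ)) * Polynomial.X) ∣ Z.coeff n := by
    intro n
    obtain ⟨z, hz⟩ := hmod n
    have h1 := hzero n
    rw [hz, Polynomial.eval_mul, Polynomial.eval_natCast, mul_eq_zero] at h1
    have h2 : z.eval 0 = 0 := h1.resolve_left (by exact_mod_cast hp.out.ne_zero)
    rw [← Polynomial.coeff_zero_eq_eval_zero, ← Polynomial.X_dvd_iff] at h2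
    rw [hz]
    exact mul_dvd_mul_left _ h2
  obtain ⟨a, ha⟩ := exists_C_mul (mul_ne_zero hp0 Polynomial.X_ne_zero) Z hdvd
  refine ⟨a, ?_⟩
  rw [← ha, hZ]
  ring

/-- **Contraction identity** for `secNorm`. -/
theorem secNorm_add (R : Type*) [CommRing R] (s : R) (Y₁ Y₂ : LaurentSeries R) :
    ∃ a : LaurentSeries R, secNorm R p (Y₂ + HahnSeries.C s * Y₁) =
      secNorm R p Y₂ + HahnSeries.C ((p : R) * s) * a +
        HahnSeries.C (s ^ p) * secNorm R p Y₁ := by
  obtain ⟨n₁, h₁⟩ : ∃ n₁ : ℤ, ∀ n < n₁, Y₁.coeff n = 0 :=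
    ⟨Y₁.order, fun n hn => HahnSeries.coeff_eq_zero_of_lt_order hn⟩
  obtain ⟨n₂, h₂⟩ : ∃ n₂ : ℤ, ∀ n < n₂, Y₂.coeff n = 0 :=
    ⟨Y₂.order, fun n hn => HahnSeries.coeff_eq_zero_of_lt_order hn⟩
  set n₀ := min n₁ n₂ with hn₀
  obtain ⟨a, ha⟩ := exists_universal p n₀
  set Y : Bool → LaurentSeries R := fun b => if b then Y₁ else Y₂ with hY
  have hYn : ∀ b n, n < n₀ → (Y b).coeff n = 0 := by
    rintro (_ | _) n hn
    · exact h₂ n (lt_of_lt_of_le hn (min_le_right _ _))
    · exact h₁ n (lt_of_lt_of_le hn (min_le_left _ _))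
  set g : UR ℤ →+* R := (MvPolynomial.aeval (R := ℤ)
    (fun i : Bool × ℤ => (Y i.1).coeff i.2)).toRingHom with hg
  set f : Polynomial (UR ℤ) →+* R := Polynomial.eval₂RingHom g s with hf
  have hfC : ∀ b, coeffMap f (coeffMap Polynomial.C (uSeries ℤ b n₀)) = Y b := by
    intro b
    rw [coeffMap_coeffMap]
    have : f.comp Polynomial.C = g := by
      ext x <;> simp [hf]
    rw [coeffMap_congr this]
    exact coeffMap_uSeries ℤ Y n₀ hYn b
  have h := congrArg (coeffMap f) ha
  have hX : f Polynomial.X = s := by simp [hf]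
  have e0 : ∀ x, coeffMap f (secNorm (Polynomial (UR ℤ)) p x) = secNorm R p (coeffMap f x) :=
    coeffMap_secNorm p f
  have e1 : coeffMap f (coeffMap Polynomial.C (uSeries ℤ false n₀) +
      HahnSeries.C Polynomial.X * coeffMap Polynomial.C (uSeries ℤ true n₀)) =
      Y₂ + HahnSeries.C s * Y₁ := by
    rw [(coeffMap f).map_add, (coeffMap f).map_mul, coeffMap_C, hfC, hfC, hX]
    rfl
  rw [e0, e1, (coeffMap f).map_add, (coeffMap f).map_add, (coeffMap f).map_mul,
    (coeffMap f).map_mul, e0, e0, coeffMap_C, coeffMap_C, hfC, hfC, f.map_mul, f.map_pow, hX,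
    map_natCast] at h
  exact ⟨coeffMap f a, h⟩

end Universal

section Gauss

variable {K : Type*} [Field K] (A : ValuationSubring K) (p : ℕ) [hp : Fact p.Prime]

lemma algebraMap_eq_C (c : K) : algebraMap K (LaurentSeries K) c = HahnSeries.C c := by
  rw [algebraMap_laurentSeries_eq_single, HahnSeries.C_apply]

lemma incl_C (c : A) : incl A (HahnSeries.C c) = HahnSeries.C (c : K) := coeffMap_C _ _

/-- **Contraction**: `secNorm (1 + s x) = 1 + (p s) a + s ^ p b` on the Gauss ring. -/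
theorem secNorm_near {s : K} (hs : s ∈ A) {x : LaurentSeries K} (hx : x ∈ gaussSubring A) :
    ∃ a ∈ gaussSubring A, ∃ b ∈ gaussSubring A,
      secNorm K p (1 + HahnSeries.C s * x) =
        1 + HahnSeries.C ((p : K) * s) * a + HahnSeries.C (s ^ p) * b := by
  obtain ⟨Y₁, Y₂, hY, h⟩ := hx
  obtain ⟨a, ha⟩ := secNorm_add p A (⟨s, hs⟩ : A) Y₁ Y₂
  have hN : redS A (secNorm A p Y₂) ≠ 0 := Fermat.Agent.QX4.redS_secNorm_ne_zero A p hY
  have hN0 := incl_ne_zero hN
  have hinv := inv_mem_of_primitive hN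
  have hrel : secNorm K p (1 + HahnSeries.C s * x) * incl A (secNorm A p Y₂) =
      incl A (secNorm A p (Y₂ + HahnSeries.C (⟨s, hs⟩ : A) * Y₁)) := by
    apply Fermat.Agent.QX4.secNorm_rel
    rw [map_add, map_mul, incl_C, ← h]
    ring
  refine ⟨incl A a * (incl A (secNorm A p Y₂))⁻¹, mul_mem (incl_mem a) hinv,
    incl A (secNorm A p Y₁) * (incl A (secNorm A p Y₂))⁻¹, mul_mem (incl_mem _) hinv, ?_⟩
  apply mul_right_cancel₀ hN0
  rw [hrel, ha]
  simp only [map_add, map_mul, incl_C]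
  push_cast
  field_simp

/-- `T_p` near `1`. -/
theorem TSer_near {s : K} (hs : s ∈ A) (hs0 : A.valuation s < 1) (hpA : A.valuation (p : K) < 1)
    {x : LaurentSeries K} (hx : x ∈ gaussSubring A) :
    ∃ x' : LaurentSeries K, ∃ hx' : x' ∈ gaussSubring A,
      TSer K p (1 + HahnSeries.C s * x) = 1 + HahnSeries.C s * x' ∧
      gaussRed A ⟨x', hx'⟩ = qExpand (IsLocalRing.ResidueField A) p (gaussRed A ⟨x, hx⟩) := by
  obtain ⟨a, ha, b, hb, hab⟩ := secNorm_near A p hs hx
  have hpm : (p : K) ∈ A := natCast_mem _ _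
  have h2 : 2 ≤ p := hp.out.two_le
  have hsp : s ^ p = s * s ^ (p - 1) := by
    rw [← pow_succ', Nat.sub_add_cancel (by omega)]
  have hCm : ∀ {c : K}, c ∈ A → HahnSeries.C c ∈ gaussSubring A := fun {c} hc => by
    rw [← algebraMap_eq_C]; exact algebraMap_mem_gaussSubring hc
  have hCr : ∀ {c : K} (hc : c ∈ A), A.valuation c < 1 →
      gaussRed A ⟨HahnSeries.C c, hCm hc⟩ = 0 := by
    intro c hc hc1
    have h1 := gaussRed_algebraMap hc
    have h3 : IsLocalRing.residue A ⟨c, hc⟩ = 0 := by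
      rw [IsLocalRing.residue_eq_zero_iff]
      exact (A.valuation_lt_one_iff _).mpr hc1
    rw [h3, map_zero] at h1
    rw [← h1]
    congr 1
    exact Subtype.ext (algebraMap_eq_C c).symm
  have hq := qExpand_mem_gaussSubring A p hx
  set e : LaurentSeries K := HahnSeries.C (p : K) * a + HahnSeries.C (s ^ (p - 1)) * b with he
  have hsp1 : s ^ (p - 1) ∈ A := pow_mem hs _
  have hsp1' : A.valuation (s ^ (p - 1)) < 1 := by
    rw [map_pow]; exact pow_lt_one₀ zero_le hs0 (by omega)
  have heO : e ∈ gaussSubring A := add_mem (mul_mem (hCm hpm) ha) (mul_mem (hCm hsp1) hb)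
  have her : gaussRed A ⟨e, heO⟩ = 0 := by
    have h1 : (⟨e, heO⟩ : gaussSubring A) = ⟨HahnSeries.C (p : K), hCm hpm⟩ * ⟨a, ha⟩ +
        ⟨HahnSeries.C (s ^ (p - 1)), hCm hsp1⟩ * ⟨b, hb⟩ := Subtype.ext he
    rw [h1, map_add, map_mul, map_mul, hCr hpm hpA, hCr hsp1 hsp1', zero_mul, zero_mul, add_zero]
  have hres : qExpand K p x + e + HahnSeries.C s * (qExpand K p x * e) ∈ gaussSubring A :=
    add_mem (add_mem hq heO) (mul_mem (hCm hs) (mul_mem hq heO))
  refine ⟨qExpand K p x + e + HahnSeries.C s * (qExpand K p x * e), hres, ?_, ?_⟩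
  · rw [TSer_apply, hab, map_add, map_one, map_mul, hsp]
    have h3 : qExpand K p (HahnSeries.C s) = HahnSeries.C s := by
      rw [HahnSeries.C_apply, qExpand_single, mul_zero]
    rw [h3, he]
    simp only [map_mul]
    ring
  · have h1 : (⟨_, hres⟩ : gaussSubring A) = ⟨qExpand K p x, hq⟩ + ⟨e, heO⟩ +
        ⟨HahnSeries.C s, hCm hs⟩ * (⟨qExpand K p x, hq⟩ * ⟨e, heO⟩) := rfl
    rw [h1, map_add, map_add, map_mul, map_mul, her, mul_zero, mul_zero, add_zero, add_zero]
    exact gaussRed_qExpand A p ⟨x, hx⟩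

end Gauss

end Fermat.Agent.S33aux

end
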