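import Fermat.Agent.S33.WSub
import Fermat.Agent.S33.Contract
import Fermat.Agent.S33.Inertia
import Fermat.Agent.S33.SecNorm
import Fermat.Agent.S34.Descent
import Fermat.Agent.QX4.Input
import Fermat.Agent.TwoGauss.Uncond

/-!
# (ORD-N): inertia at `p` acts by the cyclotomic character on `U`-injective subgroups of `W[p]`
-/

set_option autoImplicit false
set_option linter.unusedSectionVars false
set_option linter.style.haveILetI false

noncomputable section

open ModularCurve AlgebraicCurve IntermediateField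
open Fermat.Agent.GaussVal Fermat.Agent.GalRep Fermat.Agent.FF Fermat.Agent.TEll
open scoped Fermat.Agent.GaussVal
open Fermat.Agent.TwoGauss (wq mkData twoComp wq_wq)
open Fermat.Agent.QX4 (wJ wJ_apply wJ_wJ pushPic0 pushDegZero coe_pushDegZero pushPic0_mk
  coe_normAlong_bar Compat compat_mkData pushA)
open Fermat.Agent.S34aux (pullN pushN pullPic0 pullDegZero coe_pullDegZero pullPic0_mk)

namespace Fermat.Agent.S33aux

section Kummer

variable {K E F : Type*} [Field K] [Field E] [Field F] [Algebra K E] [Algebra K F]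

theorem isKummer_push (φ : E →ₐ[K] F) (hφ : φ.toRingHom.IsIntegral) (hfin : FiniteAlong K φ)
    (hN : NormFormulaAlong K φ hfin) {n : ℕ} {x : Pic0 K F} {f : F} (hx : IsKummer n x f) :
    IsKummer n (pushPic0 φ hφ hfin hN x) (normAlong φ f) := by
  obtain ⟨D, rfl, h0, hD⟩ := hx
  refine ⟨pushDegZero φ hφ D, (pushPic0_mk _ _ _ _ D).symm, normAlong_ne_zero φ hfin h0,
    fun v => ?_⟩
  have h1 : ∀ v' : Place K F, ((n : ℤ) • (D : Divisor K F)) v' = v'.ord f := by
    intro v'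
    rw [← hD v']
    simp
  have h2 := pushforwardAlong_eq_ord φ hφ hfin hN h0 h1 v
  rw [← h2, map_zsmul, coe_pushDegZero]
  simp

theorem isKummer_pull [HasPrincipalDivisors K F] (φ : E →ₐ[K] F) (hφ : φ.toRingHom.IsIntegral)
    (hFI : FundamentalIdentityAlong K φ hφ) {n : ℕ} {x : Pic0 K E} {f : E}
    (hx : IsKummer n x f) : IsKummer n (pullPic0 φ hφ hFI x) (φ f) := by
  obtain ⟨D, rfl, h0, hD⟩ := hx
  refine ⟨pullDegZero φ hφ hFI D, (pullPic0_mk _ _ _ D).symm,
    (map_ne_zero_iff (φ : E →+* F) (RingHom.injective _)).mpr h0, fun v => ?_⟩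
  have h1 : ∀ v' : Place K E, ((n : ℤ) • (D : Divisor K E)) v' = v'.ord f := by
    intro v'
    rw [← hD v']
    simp
  have h2 := pullbackAlong_eq_ord φ hφ h1 v
  rw [← h2, map_zsmul, coe_pullDegZero]
  simp

end Kummer

/-- the algebraic numbers -/
local notation "𝕂" => AlgebraicClosure ℚ

section Operator

variable {m p : ℕ} [NeZero m] [NeZero p] (hp : p.Prime) (hm : ¬ p ∣ m)

/-- The operator `U_p` on functions of level `m p`. -/
def Uop : modularFunctionFieldBar (m * p) →* modularFunctionFieldBar (m * p) where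
  toFun f := heckeAlphaBar 𝕂 m p (normAlong (heckeAlphaBar 𝕂 m p) (wq hp hm f)) *
    (wq hp hm f)⁻¹
  map_one' := by simp
  map_mul' f g := by
    rw [map_mul (wq hp hm), map_mul, map_mul (heckeAlphaBar 𝕂 m p), mul_inv]
    ring

theorem Uop_apply (f : modularFunctionFieldBar (m * p)) :
    Uop hp hm f = heckeAlphaBar 𝕂 m p (normAlong (heckeAlphaBar 𝕂 m p) (wq hp hm f)) *
      (wq hp hm f)⁻¹ := rfl

theorem coe_mul_bar {N : ℕ} [NeZero N] (f g : modularFunctionFieldBar N) :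
    ((f * g : modularFunctionFieldBar N) : LaurentSeries 𝕂) = (f : LaurentSeries 𝕂) * g := rfl

theorem secNorm_zero : secNorm 𝕂 p (0 : LaurentSeries 𝕂) = 0 := by
  have h := secNorm_C 𝕂 p 0
  rwa [map_zero HahnSeries.C, zero_pow (NeZero.ne p), map_zero HahnSeries.C] at h

/-- On `q`-expansions `U_p` is the norm to `q ^ (1/p)`. -/
theorem coe_Uop (f : modularFunctionFieldBar (m * p)) :
    (Uop hp hm f : LaurentSeries 𝕂) = secNorm 𝕂 p (f : LaurentSeries 𝕂) := by
  rcases eq_or_ne f 0 with rfl | hf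
  · have h : Uop hp hm (0 : modularFunctionFieldBar (m * p)) = 0 := by
      rw [Uop_apply, map_zero (wq hp hm), inv_zero, mul_zero]
    rw [h]
    exact (secNorm_zero (p := p)).symm
  · have hw : wq hp hm f ≠ 0 := by simpa using hf
    have h1 : Uop hp hm f * wq hp hm f =
        heckeAlphaBar 𝕂 m p (normAlong (heckeAlphaBar 𝕂 m p) (wq hp hm f)) := by
      rw [Uop_apply, mul_assoc, inv_mul_cancel₀ hw, mul_one]
    have h2 : (Uop hp hm f : LaurentSeries 𝕂) * (wq hp hm f : LaurentSeries 𝕂) =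
        (wq hp hm f : LaurentSeries 𝕂) * secNorm 𝕂 p (f : LaurentSeries 𝕂) := by
      rw [← coe_mul_bar, h1, coe_heckeAlphaBar, coe_normAlong_bar hp hm, wq_wq]
    have h3 : (wq hp hm f : LaurentSeries 𝕂) ≠ 0 := fun h => hw (Subtype.ext h)
    rw [mul_comm] at h2
    exact mul_left_cancel₀ h3 h2

theorem Uop_ne_zero {f : modularFunctionFieldBar (m * p)} (hf : f ≠ 0) : Uop hp hm f ≠ 0 := by
  intro h
  have h1 := coe_Uop hp hm f
  rw [h] at h1
  exact secNorm_ne_zero p (fun h2 => hf (Subtype.ext h2)) h1.symm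

/-- The operator `U_p = α^* α_* w - w` on `J₀(m p)`. -/
def UJ : JZero (m * p) →+ JZero (m * p) :=
  ((pullN m p).comp (pushN m p)).comp (wJ hp hm) - wJ hp hm

theorem UJ_apply (x : JZero (m * p)) :
    UJ hp hm x = pullN m p (pushN m p (wJ hp hm x)) - wJ hp hm x := rfl

theorem isKummer_wJ {n : ℕ} {x : JZero (m * p)} {f : modularFunctionFieldBar (m * p)}
    (hx : IsKummer n x f) : IsKummer n (wJ hp hm x) (wq hp hm f) := by
  have h := hx.smul (SemilinearAut.ofAlgAut (wq hp hm))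
  rw [SemilinearAut.ofAlgAut_smul] at h
  exact h

theorem isKummer_pushN {n : ℕ} {x : JZero (m * p)} {f : modularFunctionFieldBar (m * p)}
    (hx : IsKummer n x f) : IsKummer n (pushN m p x) (normAlong (heckeAlphaBar 𝕂 m p) f) :=
  isKummer_push (heckeAlphaBar 𝕂 m p) _ _ _ hx

theorem isKummer_pullN {n : ℕ} {x : JZero m} {f : modularFunctionFieldBar m}
    (hx : IsKummer n x f) : IsKummer n (pullN m p x) (heckeAlphaBar 𝕂 m p f) :=
  isKummer_pull (heckeAlphaBar 𝕂 m p) _ _ hx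

theorem isKummer_UJ {n : ℕ} {x : JZero (m * p)} {f : modularFunctionFieldBar (m * p)}
    (hx : IsKummer n x f) : IsKummer n (UJ hp hm x) (Uop hp hm f) := by
  have h1 := isKummer_wJ hp hm hx
  have h2 := isKummer_pullN (m := m) (p := p) (isKummer_pushN h1)
  have h3 := h2.div h1
  rw [div_eq_mul_inv] at h3
  exact h3

end Operator

section Main

variable {A : ValuationSubring (AlgebraicClosure ℚ)} {p m : ℕ} [NeZero m] [NeZero p]
  [Fact p.Prime] [CharP (IsLocalRing.ResidueField A) p]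
  [IsAlgClosed (IsLocalRing.ResidueField A)] [PerfectRing (IsLocalRing.ResidueField A) p]
  (hp : p.Prime) (hm : ¬ p ∣ m) (hA : A.LiesOverPrime p)
  (H3 : S18aux.DegThm (IsLocalRing.ResidueField A) m)
  (H2 : genusFF (AlgebraicClosure ℚ) (modularFunctionFieldBar m) ≤
    genusFF (IsLocalRing.ResidueField A) (modularFunctionFieldFullC (IsLocalRing.ResidueField A) m))

/-- the residue field -/
local notation "κ" => IsLocalRing.ResidueField A

theorem coe_smul_bar' {N : ℕ} [NeZero N] (c : 𝕂) (x : modularFunctionFieldBar N) :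
    ((algebraMap 𝕂 (modularFunctionFieldBar N) c * x : modularFunctionFieldBar N) :
      LaurentSeries 𝕂) = HahnSeries.C c * (x : LaurentSeries 𝕂) := by
  rw [← algebraMap_eq_C]
  rfl

theorem coe_one_bar {N : ℕ} [NeZero N] :
    ((1 : modularFunctionFieldBar N) : LaurentSeries 𝕂) = 1 := rfl

theorem coe_add_bar {N : ℕ} [NeZero N] (f g : modularFunctionFieldBar N) :
    ((f + g : modularFunctionFieldBar N) : LaurentSeries 𝕂) = (f : LaurentSeries 𝕂) + g := rfl

/-- descent of an expansion `1 + t y` to the function field -/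
theorem exists_of_expansion {N : ℕ} [NeZero N] {g : modularFunctionFieldBar N} {t : 𝕂}
    (ht : t ≠ 0) {y : LaurentSeries 𝕂} (hg : (g : LaurentSeries 𝕂) = 1 + HahnSeries.C t * y) :
    ∃ y' : modularFunctionFieldBar N, (y' : LaurentSeries 𝕂) = y ∧
      g = 1 + algebraMap 𝕂 (modularFunctionFieldBar N) t * y' := by
  refine ⟨algebraMap 𝕂 (modularFunctionFieldBar N) t⁻¹ * (g - 1), ?_, ?_⟩
  · rw [coe_smul_bar']
    have h1 : ((g - 1 : modularFunctionFieldBar N) : LaurentSeries 𝕂) =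
        (g : LaurentSeries 𝕂) - 1 := rfl
    rw [h1, hg, add_sub_cancel_left, ← mul_assoc, ← map_mul, inv_mul_cancel₀ ht, map_one, one_mul]
  · rw [← mul_assoc, ← map_mul, mul_inv_cancel₀ ht, map_one, one_mul, add_sub_cancel]

/-- `U_p` has the contraction property at the first component. -/
theorem contrOp_Uop : ContrOp (mkData hp hm hA H3 H2).O₁ A p (Uop hp hm) where
  mem_iff c := (mkData hp hm hA H3 H2).mem_O₁_iff c
  ne_zero _ hf := Uop_ne_zero hp hm hf
  near s hs w hw := by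
    have hw' : (w : LaurentSeries 𝕂) ∈ gaussSubring A := hw
    rcases eq_or_ne s 0 with rfl | hs0
    · refine ⟨0, ValuationSubring.zero_mem _, 0, ValuationSubring.zero_mem _, ?_⟩
      rw [map_zero, zero_mul, add_zero, map_one, mul_zero, mul_zero, add_zero, add_zero]
    obtain ⟨a, ha, b, hb, hab⟩ := secNorm_near A p hs hw'
    have hU : (Uop hp hm (1 + algebraMap 𝕂 (modularFunctionFieldBar (m * p)) s * w) :
        LaurentSeries 𝕂) = 1 + HahnSeries.C ((p : 𝕂) * s) * a + HahnSeries.C (s ^ p) * b := by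
      rw [coe_Uop, ← hab, coe_add_bar, coe_one_bar, coe_smul_bar']
    have hp0 : (p : 𝕂) * s ≠ 0 := mul_ne_zero (by exact_mod_cast hp.ne_zero) hs0
    have hsp : s ^ p ≠ 0 := pow_ne_zero _ hs0
    have hCm : ∀ {c : 𝕂}, c ∈ A → HahnSeries.C c ∈ gaussSubring A := fun {c} hc => by
      rw [← algebraMap_eq_C]; exact algebraMap_mem_gaussSubring hc
    rcases le_total (A.valuation ((p : 𝕂) * s)) (A.valuation (s ^ p)) with h | h
    · have hr : (p : 𝕂) * s / s ^ p ∈ A := div_mem_of_le h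
      have h1 : (Uop hp hm (1 + algebraMap 𝕂 (modularFunctionFieldBar (m * p)) s * w) :
          LaurentSeries 𝕂) = 1 + HahnSeries.C (s ^ p) *
            (HahnSeries.C ((p : 𝕂) * s / s ^ p) * a + b) := by
        rw [hU, mul_add, ← mul_assoc, ← map_mul, mul_div_cancel₀ _ hsp]
        ring
      obtain ⟨y, hy, hy'⟩ := exists_of_expansion hsp h1
      refine ⟨0, ValuationSubring.zero_mem _, y, ?_, ?_⟩
      · change (y : LaurentSeries 𝕂) ∈ gaussSubring A
        rw [hy]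
        exact add_mem (mul_mem (hCm hr) ha) hb
      · rw [mul_zero, add_zero]
        exact hy'
    · have hr : s ^ p / ((p : 𝕂) * s) ∈ A := div_mem_of_le h
      have h1 : (Uop hp hm (1 + algebraMap 𝕂 (modularFunctionFieldBar (m * p)) s * w) :
          LaurentSeries 𝕂) = 1 + HahnSeries.C ((p : 𝕂) * s) *
            (a + HahnSeries.C (s ^ p / ((p : 𝕂) * s)) * b) := by
        rw [hU, mul_add, ← mul_assoc, ← map_mul, mul_div_cancel₀ _ hp0]
        ring
      obtain ⟨y, hy, hy'⟩ := exists_of_expansion hp0 h1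
      refine ⟨y, ?_, 0, ValuationSubring.zero_mem _, ?_⟩
      · change (y : LaurentSeries 𝕂) ∈ gaussSubring A
        rw [hy]
        exact add_mem ha (mul_mem (hCm hr) hb)
      · rw [mul_zero, add_zero]
        exact hy'

include hA in
theorem natCast_mem_nonunits : (p : 𝕂) ∈ A.nonunits := hA

/-- functions congruent to `1` are in the shape required for the contraction. -/
theorem exists_PA_of_one {K Fm F k F' : Type*} [Field K] [Field Fm] [Algebra K Fm] [Field F]
    [Algebra K F] [Field k] [Field F'] [Algebra k F'] {q : ℕ}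
    {D : TwoComp.Data K Fm F k F' q} (hq : 0 < q) {c₀ : K} (hc₀ : c₀ ∈ D.G.A.nonunits)
    (hc₀0 : c₀ ≠ 0) {f : F} (hf : f ∈ D.O₁) (h : D.ρ₁ ⟨f, hf⟩ = 1) :
    ∃ s ∈ D.G.A.nonunits, s ≠ 0 ∧ PA D.O₁ q f s := by
  rcases eq_or_ne f 1 with rfl | hf1
  · exact ⟨c₀, hc₀, hc₀0, 1, one_ne_zero, 0, D.O₁.zero_mem, by simp⟩
  · obtain ⟨c, hc0, hc, hρ⟩ := TwoComp.Data.exists_unit₁ (D := D) hq (sub_ne_zero.mpr hf1)
    have hm : f - 1 ∈ D.O₁.nonunits := by
      rw [TwoComp.Data.mem_nonunits₁]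
      refine ⟨sub_mem hf D.O₁.one_mem, ?_⟩
      have e : (⟨f - 1, sub_mem hf D.O₁.one_mem⟩ : D.O₁) = ⟨f, hf⟩ - 1 := rfl
      rw [e, map_sub, h, map_one, sub_self]
    have hcF : algebraMap K F c ≠ 0 := (_root_.map_ne_zero _).mpr hc0
    refine ⟨c⁻¹, ?_, inv_ne_zero hc0, 1, one_ne_zero, algebraMap K F c * (f - 1), hc, ?_⟩
    · rw [← TwoComp.Data.algebraMap_mem_nonunits₁ (D := D), ValuationSubring.mem_nonunits_iff]
      have h1 : D.O₁.valuation (algebraMap K F c * (f - 1)) = 1 := by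
        rw [ne_eq, D.ρ₁_eq_zero_iff, D.O₁.mem_nonunits_iff, not_lt] at hρ
        exact le_antisymm ((D.O₁.valuation_le_one_iff _).mpr hc) hρ
      rw [map_mul] at h1
      rw [map_inv₀, map_inv₀, inv_eq_of_mul_eq_one_right h1]
      exact (ValuationSubring.mem_nonunits_iff _).mp hm
    · rw [one_pow, one_mul, map_inv₀, ← mul_assoc, inv_mul_cancel₀ hcF, one_mul, add_sub_cancel]

/-- The action of inertia on the data. -/
theorem actA_mkData {τ : 𝕂 ≃ₐ[ℚ] 𝕂} (hτ : τ ∈ A.inertiaSubgroupIn ℚ) {a : ℕ}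
    (ha : IsCycExp p τ a) {lam : A} (hlam : (lam : 𝕂) ^ (p - 1) = -(p : 𝕂)) :
    (mkData hp hm hA H3 H2).ActA (arithmeticGalois (modularFunctionFieldFull (m * p)) τ) lam a where
  act := (TwoGauss.act_mkData_inertia hp hm hA H3 H2 hτ).toAct_id
  scale c := by
    rcases eq_or_ne (c : 𝕂) 0 with h0 | h0
    · refine ⟨0, ?_⟩
      rw [h0, map_zero, mul_zero]
    · refine ⟨⟨τ c / c, inertia_div_mem hτ h0⟩, ?_⟩
      change τ c = τ c / c * c
      rw [div_mul_cancel₀ _ h0]
  lam := by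
    obtain ⟨r, hr, h1, h2⟩ := inertia_lambda hA hlam hτ ha
    exact ⟨⟨r, hr⟩, h1, h2⟩

/-- **(ORD-N)**, set version. -/
theorem smul_eq_of_contract {X : Set (JZero (m * p))} (hX : X.Finite) (hXp : ∀ x ∈ X, p • x = 0)
    (hXw : ∀ x ∈ X, wJ hp hm x ∈ X) (hXU : ∀ x ∈ X, UJ hp hm x ∈ X)
    (hinj : Set.InjOn (UJ hp hm) X) (hXW : ∀ x ∈ X, x ∈ (mkData hp hm hA H3 H2).WSub)
    {τ : 𝕂 ≃ₐ[ℚ] 𝕂} (hτ : τ ∈ A.inertiaSubgroupIn ℚ) {a : ℕ} (ha : IsCycExp p τ a)
    {x : JZero (m * p)} (hx : x ∈ X) : τ • x = a • x := by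
  haveI : IsFF 𝕂 (modularFunctionFieldBar m) := TwoGauss.isFF_m
  haveI : IsFF (IsLocalRing.ResidueField A)
    (modularFunctionFieldFullC (IsLocalRing.ResidueField A) m) := TwoGauss.isFF_m' (m := m) H3
  haveI : IsFF 𝕂 (modularFunctionFieldBar (m * p)) := TwoGauss.isFF_m
  set D := mkData hp hm hA H3 H2 with hD
  have hpK : (p : 𝕂) ≠ 0 := by exact_mod_cast hp.ne_zero
  have arch : D.Arch := TwoGauss.arch_mkData hp hm hA H3 H2
  -- approximation at the first component
  have h₁ : ∀ s : 𝕂, s ≠ 0 → ∀ x ∈ X, ∀ f, IsKummer p x f → PA D.O₁ p f s := by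
    refine exists_PA hp.two_le (contrOp_Uop hp hm hA H3 H2) arch hpK hA hX hXU hinj
      (fun x _ f hf => isKummer_UJ hp hm hf) hXp fun x hx => ?_
    obtain ⟨f, hf, hfO, hf1⟩ := TwoComp.Data.exists_near_of_mem_WSub (D := D) hp (hXW x hx)
      (hXp x hx)
    obtain ⟨s, hs, hs0, hPA⟩ := exists_PA_of_one (D := D) hp.pos (c₀ := (p : 𝕂)) hA hpK hfO hf1
    exact ⟨f, hf, s, hs, hs0, hPA⟩
  -- approximation at the second component
  have h₂ : ∀ s : 𝕂, s ≠ 0 → ∀ x ∈ X, ∀ f, IsKummer p x f → PA D.O₂ p f s := by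
    intro s hs x hx f hf
    refine (h₁ s hs _ (hXw x hx) _ (isKummer_wJ hp hm hf)).of_map (wq hp hm)
      (wq_wq hp hm) fun g hg => ?_
    change ((wq hp hm (wq hp hm g) : modularFunctionFieldBar (m * p)) : LaurentSeries 𝕂) ∈
      gaussSubring A
    rw [wq_wq]
    exact hg
  -- the element `λ`
  obtain ⟨lam, hlam⟩ := exists_lambda (p := p)
  have hlamA : lam ∈ A := by
    have h1 : A.valuation (lam ^ (p - 1)) ≤ 1 := by
      rw [hlam, Valuation.map_neg]
      exact ((ValuationSubring.mem_nonunits_iff _).mp hA).le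
    rw [map_pow] at h1
    rw [← A.valuation_le_one_iff]
    have := hp.two_le
    exact (pow_le_one_iff_of_nonneg zero_le (by omega)).mp h1
  -- normalise the exponent
  have ha' : IsCycExp p τ (a % p) := by
    intro μ hμ
    rw [ha μ hμ]
    conv_lhs => rw [← Nat.div_add_mod a p, pow_add, pow_mul, hμ, one_pow, one_mul]
  obtain ⟨f, hf⟩ := exists_isKummer (hXp x hx)
  have key := TwoComp.Data.smul_eq_of_PA (D := D) hp arch hpK (lam := ⟨lam, hlamA⟩)
    (Subtype.ext (by push_cast; exact hlam)) (Nat.mod_lt a hp.pos).le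
    (actA_mkData hp hm hA H3 H2 hτ ha' hlam) hf (fun s hs => h₁ s hs x hx f hf)
    (fun s hs => h₂ s hs x hx f hf)
  have h3 : a • x = (a % p) • x := by
    have h4 : a = (a / p) * p + a % p := by rw [mul_comm]; exact (Nat.div_add_mod a p).symm
    have h5 : ∀ b c : ℕ, b = (b / p) * p + c → b • x = c • x := by
      intro b c hbc
      have h6 : ∀ d : ℕ, b = d * p + c → b • x = c • x := by
        rintro d rfl
        rw [add_smul, mul_smul, hXp x hx, smul_zero, zero_add]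
      exact h6 _ hbc
    exact h5 a _ h4
  rw [h3, ← key, galois_smul_pic0_def]

/-- classes whose Kummer function reduces to a `p`-th power are in `W` -/
theorem mem_WSub_of_pow {x : JZero (m * p)} {f : modularFunctionFieldBar (m * p)}
    (hx : IsKummer p x f) (hf : f ∈ (mkData hp hm hA H3 H2).O₁)
    (hf' : f⁻¹ ∈ (mkData hp hm hA H3 H2).O₁)
    {g : modularFunctionFieldFullC (IsLocalRing.ResidueField A) m}
    (hg : (mkData hp hm hA H3 H2).ρ₁ ⟨f, hf⟩ = g ^ p) : x ∈ (mkData hp hm hA H3 H2).WSub := by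
  refine ⟨1, ?_⟩
  rw [pow_one, split_iff]
  refine ⟨f, hf, g, hx, ?_, hg⟩
  rintro rfl
  rw [zero_pow hp.ne_zero] at hg
  have h1 : (mkData hp hm hA H3 H2).ρ₁ ⟨f, hf⟩ * (mkData hp hm hA H3 H2).ρ₁ ⟨f⁻¹, hf'⟩ = 1 := by
    rw [← map_mul, ← map_one (mkData hp hm hA H3 H2).ρ₁]
    exact congrArg _ (Subtype.ext (mul_inv_cancel₀ hx.ne_zero))
  rw [hg, zero_mul] at h1
  exact zero_ne_one h1

/-- **(ORD-N)** for classes killed by `α_*`. -/
theorem smul_eq_of_push {X : AddSubgroup (JZero (m * p))}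
    (hX : (X : Set (JZero (m * p))).Finite) (hXp : ∀ x ∈ X, p • x = 0)
    (hXw : ∀ x ∈ X, wJ hp hm x ∈ X) (hpush : ∀ x ∈ X, pushA m p x = 0)
    (hXW : X ≤ (mkData hp hm hA H3 H2).WSub) {τ : 𝕂 ≃ₐ[ℚ] 𝕂}
    (hτ : τ ∈ A.inertiaSubgroupIn ℚ) {a : ℕ} (ha : IsCycExp p τ a)
    {x : JZero (m * p)} (hx : x ∈ X) : τ • x = a • x := by
  have hU : ∀ x ∈ X, UJ hp hm x = -wJ hp hm x := by
    intro x hx
    have h1 : pushN m p (wJ hp hm x) = 0 := hpush _ (hXw x hx)
    rw [UJ_apply, h1, map_zero, zero_sub]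
  refine smul_eq_of_contract hp hm hA H3 H2 (X := (X : Set (JZero (m * p)))) hX hXp hXw
    (fun x hx => ?_) (fun x hx y hy hxy => ?_) hXW hτ ha hx
  · rw [hU x hx]
    exact X.neg_mem (hXw x hx)
  · rw [hU x hx, hU y hy, neg_inj] at hxy
    have h2 := congrArg (wJ hp hm) hxy
    rwa [wJ_wJ, wJ_wJ] at h2

end Main

section Unconditional

variable {A : ValuationSubring (AlgebraicClosure ℚ)} {p m : ℕ} [NeZero m] [NeZero p]
  [Fact p.Prime] [CharP (IsLocalRing.ResidueField A) p]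
  (hp : p.Prime) (hm : ¬ p ∣ m) (hA : A.LiesOverPrime p)

/-- **(ORD-N)**, unconditional: `X` finite, killed by `p`, stable under `w_p` and `U_p`, with `U_p`
injective on `X`, contained in `W`: inertia acts on `X` by the cyclotomic character. -/
theorem ordN_twoComp {X : Set (JZero (m * p))} (hX : X.Finite) (hXp : ∀ x ∈ X, p • x = 0)
    (hXw : ∀ x ∈ X, wJ hp hm x ∈ X) (hXU : ∀ x ∈ X, UJ hp hm x ∈ X)
    (hinj : Set.InjOn (UJ hp hm) X) (hXW : ∀ x ∈ X, x ∈ (twoComp hp hm hA).WSub)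
    {τ : 𝕂 ≃ₐ[ℚ] 𝕂} (hτ : τ ∈ A.inertiaSubgroupIn ℚ) {a : ℕ} (ha : IsCycExp p τ a)
    {x : JZero (m * p)} (hx : x ∈ X) : τ • x = a • x :=
  smul_eq_of_contract hp hm hA _ _ hX hXp hXw hXU hinj hXW hτ ha hx

/-- **(ORD-N)**, unconditional, for classes killed by `α_*`. -/
theorem ordN_twoComp_push {X : AddSubgroup (JZero (m * p))}
    (hX : (X : Set (JZero (m * p))).Finite) (hXp : ∀ x ∈ X, p • x = 0)
    (hXw : ∀ x ∈ X, wJ hp hm x ∈ X) (hpush : ∀ x ∈ X, pushA m p x = 0)
    (hXW : X ≤ (twoComp hp hm hA).WSub) {τ : 𝕂 ≃ₐ[ℚ] 𝕂}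
    (hτ : τ ∈ A.inertiaSubgroupIn ℚ) {a : ℕ} (ha : IsCycExp p τ a)
    {x : JZero (m * p)} (hx : x ∈ X) : τ • x = a • x :=
  smul_eq_of_push hp hm hA _ _ hX hXp hXw hpush hXW hτ ha hx

end Unconditional

end Fermat.Agent.S33aux
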