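import Fermat.Agent.S33.Disc
import Fermat.Agent.S33.SecNorm
import Fermat.Agent.TwoGauss.Instance
import Fermat.Agent.RedInj.OfGauss
import Fermat.Agent.QX4.NormHecke

/-!
# The operator `T_p` on functions of level `m`, near `1`
-/

set_option autoImplicit false

noncomputable section

open ModularCurve HahnSeries Module AlgebraicCurve
open scoped IntermediateField
open Fermat.Agent.GaussVal Fermat.Agent.FF Fermat.Agent.RR Fermat.Agent.RedInj Fermat.Agent.TwoGauss
  Fermat.Agent.TEll
open scoped Fermat.Agent.GaussVal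

namespace Fermat.Agent.S33aux

/-- the algebraic numbers -/
local notation "𝕂" => AlgebraicClosure ℚ

section VConst

variable {k : Type*} [Field k] (p : ℕ) [hp : Fact p.Prime]

lemma coeff_iterate (j : ℕ) (y : LaurentSeries k) (n : ℤ) :
    (((qExpand k p)^[j] y).coeff ((p : ℤ) ^ j * n) = y.coeff n) ∧
      (¬ (p : ℤ) ^ j ∣ n → ((qExpand k p)^[j] y).coeff n = 0) := by
  induction j generalizing n with
  | zero => simp
  | succ j ih =>
    rw [Function.iterate_succ_apply']
    refine ⟨?_, fun h => ?_⟩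
    · rw [pow_succ', mul_assoc, qExpand_coeff_mul]
      exact (ih n).1
    · by_cases hpn : (p : ℤ) ∣ n
      · obtain ⟨m, rfl⟩ := hpn
        rw [qExpand_coeff_mul]
        refine (ih m).2 fun h' => h ?_
        rw [pow_succ']
        exact mul_dvd_mul_left _ h'
      · exact qExpand_coeff_of_not_dvd p _ hpn

/-- `y(t) - y(t^(p^r))` constant implies `y` constant. -/
lemma eq_C_of_sub_iterate {r : ℕ} (hr : 0 < r) (y : LaurentSeries k) (c : k)
    (h : y - (qExpand k p)^[r] y = HahnSeries.C c) : y = HahnSeries.C (y.coeff 0) := by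
  have hp1 : (1 : ℤ) < (p : ℤ) ^ r := one_lt_pow₀ (by exact_mod_cast hp.out.one_lt) (by omega)
  have key : ∀ N : ℕ, ∀ n : ℤ, n ≠ 0 → n.natAbs ≤ N → y.coeff n = 0 := by
    intro N
    induction N with
    | zero =>
      intro n hn hN
      exact absurd (Int.natAbs_eq_zero.mp (Nat.le_zero.mp hN)) hn
    | succ N ih =>
      intro n hn hN
      have h1 : y.coeff n = ((qExpand k p)^[r] y).coeff n := by
        have h2 := congrArg (fun z => HahnSeries.coeff z n) h
        simp only [HahnSeries.coeff_sub, HahnSeries.C_apply, HahnSeries.coeff_single_of_ne hn] at h2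
        exact sub_eq_zero.mp h2
      rw [h1]
      by_cases hd : (p : ℤ) ^ r ∣ n
      · obtain ⟨m, rfl⟩ := hd
        rw [(coeff_iterate p r y m).1]
        have hm0 : m ≠ 0 := by rintro rfl; simp at hn
        apply ih m hm0
        rw [Int.natAbs_mul] at hN
        have h3 : 1 < ((p : ℤ) ^ r).natAbs := by omega
        have h4 : 0 < m.natAbs := Int.natAbs_pos.mpr hm0
        nlinarith
      · exact (coeff_iterate p r y n).2 hd
  ext n
  by_cases hn : n = 0
  · subst hn
    rw [HahnSeries.C_apply, HahnSeries.coeff_single_same]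
  · rw [HahnSeries.C_apply, HahnSeries.coeff_single_of_ne hn]
    exact key _ n hn le_rfl

end VConst

section Inst

variable {A : ValuationSubring (AlgebraicClosure ℚ)} {p m : ℕ} [NeZero m]
  [Fact p.Prime] [CharP (IsLocalRing.ResidueField A) p]
  (hp : p.Prime) (hm : ¬ p ∣ m) (hA : A.LiesOverPrime p)
  (H3 : S18aux.DegThm (IsLocalRing.ResidueField A) m)

/-- the residue field -/
local notation "κ" => IsLocalRing.ResidueField A

/-- The reduction field at level `m`. -/
abbrev RF : RedField 𝕂 (modularFunctionFieldBar m) κ (modularFunctionFieldFullC κ m) :=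
  RedField.ofGauss (Gm hp hA H3)

lemma coe_iterate_verMap (r : ℕ) (y : modularFunctionFieldFullC κ m) :
    (((verMap κ p m)^[r] y : modularFunctionFieldFullC κ m) : LaurentSeries κ) =
      (qExpand κ p)^[r] (y : LaurentSeries κ) := by
  induction r with
  | zero => rfl
  | succ r ih => rw [Function.iterate_succ_apply', Function.iterate_succ_apply', coe_verMap, ih]

lemma res_RF {c : 𝕂} (hc : c ∈ A) : (RF hp hA H3).res c = IsLocalRing.residue A ⟨c, hc⟩ :=
  (RF hp hA H3).res_of_mem hc

lemma coe_red_RF {x : modularFunctionFieldBar m} (hx : (x : LaurentSeries 𝕂) ∈ gaussSubring A) :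
    ((RF hp hA H3).red x : LaurentSeries κ) = gaussRed A ⟨(x : LaurentSeries 𝕂), hx⟩ := by
  rw [RedField.ofGauss_red (Gm hp hA H3) (x := x) hx]
  exact coe_Gm_ρ hp hA H3 x hx

lemma coe_smul_bar (c : 𝕂) (x : modularFunctionFieldBar m) :
    ((c • x : modularFunctionFieldBar m) : LaurentSeries 𝕂) =
      HahnSeries.C c * (x : LaurentSeries 𝕂) := by
  rw [← algebraMap_eq_C, ← Algebra.smul_def]
  rfl

lemma TSer_C (c : 𝕂) : TSer 𝕂 p (HahnSeries.C c) = HahnSeries.C (c ^ (p + 1)) := by
  rw [TSer_apply, secNorm_C, HahnSeries.C_apply, qExpand_single, mul_zero, ← HahnSeries.C_apply,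
    ← map_mul, pow_succ']

variable [PerfectRing (IsLocalRing.ResidueField A) p]

/-- The operator `T_p` on functions of level `m`. -/
def heckeP : HeckeP (RF hp hA H3) p where
  T := TEll 𝕂 m p
  V := verMap κ p m
  σ := frobAut κ p m
  V_σ := verMap_frobAut κ p m
  T_const c := by
    apply Subtype.ext
    rw [coe_TEll_bar m p hp hm]
    change TSer 𝕂 p (algebraMap 𝕂 (LaurentSeries 𝕂) c) = algebraMap 𝕂 (LaurentSeries 𝕂) (c ^ (p + 1))
    rw [algebraMap_eq_C, algebraMap_eq_C, TSer_C]
  T_ne_zero f hf := by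
    intro h
    have h1 : (TEll 𝕂 m p f : LaurentSeries 𝕂) = 0 := by rw [h]; rfl
    rw [coe_TEll_bar m p hp hm] at h1
    exact TSer_ne_zero p (fun h2 => hf (Subtype.ext h2)) h1
  T_near s hs hs0 x hx := by
    have hx' : (x : LaurentSeries 𝕂) ∈ gaussSubring A := hx
    have hs1 : A.valuation s < 1 := ((RF hp hA H3).res_eq_zero_iff hs).mp hs0
    obtain ⟨y, hy, h1, h2⟩ := TSer_near A p hs hs1 hA hx'
    have hT : (TEll 𝕂 m p (1 + s • x) : LaurentSeries 𝕂) = 1 + HahnSeries.C s * y := by
      rw [coe_TEll_bar m p hp hm, ← h1]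
      congr 1
      change (1 : LaurentSeries 𝕂) + ((s • x : modularFunctionFieldBar m) : LaurentSeries 𝕂) = _
      rw [coe_smul_bar]
    by_cases hs' : s = 0
    · obtain ⟨x', hx'O, hx'r⟩ := (RF hp hA H3).exists_red (verMap κ p m ((RF hp hA H3).red x))
      refine ⟨x', hx'O, ?_, hx'r⟩
      rw [hs', zero_smul, zero_smul, add_zero, map_one]
    · have hyF : y ∈ modularFunctionFieldBar m := by
        have h3 : y = ((s⁻¹ • (TEll 𝕂 m p (1 + s • x) - 1) : modularFunctionFieldBar m) :
            LaurentSeries 𝕂) := by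
          rw [coe_smul_bar]
          change y = HahnSeries.C s⁻¹ * ((TEll 𝕂 m p (1 + s • x) : LaurentSeries 𝕂) - 1)
          rw [hT, add_sub_cancel_left, ← mul_assoc, ← map_mul, inv_mul_cancel₀ hs', map_one,
            one_mul]
        rw [h3]
        exact Subtype.mem _
      refine ⟨⟨y, hyF⟩, hy, ?_, ?_⟩
      · apply Subtype.ext
        rw [hT]
        change _ = (1 : LaurentSeries 𝕂) + ((s • (⟨y, hyF⟩ : modularFunctionFieldBar m) :
          modularFunctionFieldBar m) : LaurentSeries 𝕂)
        rw [coe_smul_bar]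
      · apply Subtype.ext
        rw [coe_red_RF hp hA H3 (x := ⟨y, hyF⟩) hy, coe_verMap, coe_red_RF hp hA H3 hx']
        exact h2
  V_const r hr y hy := by
    obtain ⟨c, hc⟩ := hy
    have h1 : (y : LaurentSeries κ) - (qExpand κ p)^[r] (y : LaurentSeries κ) =
        HahnSeries.C c := by
      have h2 := congrArg (fun z : modularFunctionFieldFullC κ m => (z : LaurentSeries κ)) hc
      rw [← coe_iterate_verMap]
      refine Eq.trans ?_ (h2.trans (algebraMap_eq_C (K := κ) c))
      rfl
    have h3 := eq_C_of_sub_iterate p hr _ c h1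
    refine ⟨(y : LaurentSeries κ).coeff 0, ?_⟩
    apply Subtype.ext
    exact h3.trans (algebraMap_eq_C (K := κ) _).symm

end Inst

end Fermat.Agent.S33aux
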