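import Fermat.Agent.S33.BetaSer
import Fermat.Agent.S33.HeckeInst
import Fermat.Agent.S33.Inertia
import Fermat.Agent.LocE.K0
import Fermat.Agent.TwoGauss.Galois

/-!
# The discretely valued subfields attached to subgroups of inertia
-/

set_option autoImplicit false

noncomputable section

open ModularCurve HahnSeries Module AlgebraicCurve
open scoped IntermediateField
open Fermat.Agent.GaussVal Fermat.Agent.FF Fermat.Agent.RR Fermat.Agent.RedInj
  Fermat.Agent.TwoGauss Fermat.Agent.TriVal Fermat.Agent.LocE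
open scoped Fermat.Agent.GaussVal

namespace Fermat.Agent.S33aux

/-- the algebraic numbers -/
local notation "𝕂" => AlgebraicClosure ℚ

open Fermat.Agent.GalRep (GQ)

section Fields

variable (H : Subgroup GQ)

/-- the field of constants fixed by `H` -/
def KHf : Subfield 𝕂 := (IntermediateField.fixedField H).toSubfield

theorem mem_KHf {c : 𝕂} : c ∈ KHf H ↔ ∀ τ ∈ H, τ c = c := by
  change c ∈ IntermediateField.fixedField H ↔ _
  rw [IntermediateField.mem_fixedField_iff]

/-- the field of functions fixed by `H` -/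
def FHf (m : ℕ) : Subfield (modularFunctionFieldBar m) where
  carrier := {f | ∀ τ ∈ H, ga m τ f = f}
  mul_mem' hx hy τ hτ := by rw [map_mul, hx τ hτ, hy τ hτ]
  one_mem' τ _ := map_one _
  add_mem' hx hy τ hτ := by rw [map_add, hx τ hτ, hy τ hτ]
  zero_mem' τ _ := map_zero _
  neg_mem' hx τ hτ := by rw [map_neg, hx τ hτ]
  inv_mem' x hx τ hτ := by rw [map_inv₀, hx τ hτ]

theorem mem_FHf {m : ℕ} {f : modularFunctionFieldBar m} :
    f ∈ FHf H m ↔ ∀ τ ∈ H, ga m τ f = f := Iff.rfl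

theorem mem_FHf_iff_coeff {m : ℕ} {f : modularFunctionFieldBar m} :
    f ∈ FHf H m ↔ ∀ n, (f : LaurentSeries 𝕂).coeff n ∈ KHf H := by
  rw [mem_FHf]
  constructor
  · intro h n
    rw [mem_KHf]
    intro τ hτ
    have h1 := congrArg (fun z : modularFunctionFieldBar m => (z : LaurentSeries 𝕂).coeff n) (h τ hτ)
    simp only [coe_ga] at h1
    exact h1
  · intro h τ hτ
    apply Subtype.ext
    rw [coe_ga]
    ext n
    exact (mem_KHf H).mp (h n) τ hτ

theorem coe_mem_ratSer {m : ℕ} {f : modularFunctionFieldBar m} (hf : f ∈ FHf H m) :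
    (f : LaurentSeries 𝕂) ∈ ratSer (KHf H) :=
  mem_ratSer_of_coeff (N := m) ((S18aux.bar_eq m).le f.2) ((mem_FHf_iff_coeff H).mp hf)

theorem algebraMap_mem_FHf {m : ℕ} {c : 𝕂} (hc : c ∈ KHf H) :
    algebraMap 𝕂 (modularFunctionFieldBar m) c ∈ FHf H m := by
  rw [mem_FHf_iff_coeff]
  intro n
  change (algebraMap 𝕂 (LaurentSeries 𝕂) c).coeff n ∈ KHf H
  rw [algebraMap_laurentSeries_eq_single, HahnSeries.coeff_single]
  split_ifs
  · exact hc
  · exact zero_mem _

end Fields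

section Val

variable {A : ValuationSubring 𝕂} {p : ℕ} (hp : p.Prime) (hA : A.LiesOverPrime p)
  {H : Subgroup GQ}

include hp hA in
/-- values of `K^H` -/
theorem val_KHf {e : ℕ} (he : (H.subgroupOf (A.inertiaSubgroupIn ℚ)).index ∣ e) {c : 𝕂}
    (hc : c ∈ KHf H) (hc0 : c ≠ 0) :
    ∃ n : ℤ, A.valuation c ^ e = A.valuation (p : 𝕂) ^ n := by
  classical
  rcases Nat.eq_zero_or_pos e with rfl | hepos
  · exact ⟨0, by simp⟩
  set I := A.inertiaSubgroupIn ℚ with hI
  have hst : H.subgroupOf I ≤ MulAction.stabilizer I c := by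
    intro τ hτ
    rw [MulAction.mem_stabilizer_iff]
    exact (mem_KHf H).mp hc τ (Subgroup.mem_subgroupOf.mp hτ)
  have hdvd : (MulAction.stabilizer I c).index ∣ e :=
    (Subgroup.index_dvd_of_le hst).trans he
  have hidx0 : (MulAction.stabilizer I c).index ≠ 0 := by
    intro h
    rw [h, zero_dvd_iff] at hdvd
    omega
  have hfin : (MulAction.orbit I c).Finite := by
    rw [← Set.finite_coe_iff]
    have := MulAction.index_stabilizer I c
    rw [this] at hidx0
    exact Set.finite_coe_iff.mpr (Set.finite_of_ncard_ne_zero hidx0)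
  have hcard : hfin.toFinset.card = (MulAction.stabilizer I c).index := by
    rw [MulAction.index_stabilizer, Set.ncard_eq_toFinset_card _ hfin]
  set N : 𝕂 := ∏ x ∈ hfin.toFinset, x with hN
  have hmem : ∀ x ∈ hfin.toFinset, A.valuation x = A.valuation c ∧ x ≠ 0 := by
    intro x hx
    rw [Set.Finite.mem_toFinset] at hx
    obtain ⟨τ, rfl⟩ := hx
    refine ⟨inertia_valuation τ.2 c, ?_⟩
    intro h
    exact hc0 ((τ : GQ).injective (h.trans (map_zero _).symm))
  have hNfix : IsFixed A N := by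
    intro σ hσ
    rw [hN, map_prod]
    refine Finset.prod_bij (fun x _ => σ x) ?_ ?_ ?_ ?_
    · intro x hx
      rw [Set.Finite.mem_toFinset] at hx ⊢
      obtain ⟨τ, rfl⟩ := hx
      exact ⟨⟨σ, hσ⟩ * τ, rfl⟩
    · intro x _ y _ h
      exact σ.injective h
    · intro x hx
      rw [Set.Finite.mem_toFinset] at hx
      obtain ⟨τ, rfl⟩ := hx
      refine ⟨(⟨σ, hσ⟩⁻¹ * τ : I) • c, ?_, ?_⟩
      · rw [Set.Finite.mem_toFinset]
        exact ⟨_, rfl⟩
      · change σ (((σ : GQ)⁻¹ * (τ : GQ)) c) = (τ : GQ) c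
        rw [AlgEquiv.mul_apply]
        change (σ * σ⁻¹) ((τ : GQ) c) = (τ : GQ) c
        rw [mul_inv_cancel, AlgEquiv.one_apply]
    · intro x _
      rfl
  have hN0 : N ≠ 0 := Finset.prod_ne_zero_iff.mpr fun x hx => (hmem x hx).2
  obtain ⟨n, hn⟩ := exists_valuation_eq_zpow hp hA hNfix hN0
  have hNval : A.valuation N = A.valuation c ^ (MulAction.stabilizer I c).index := by
    rw [hN, map_prod, Finset.prod_congr rfl fun x hx => (hmem x hx).1, Finset.prod_const, hcard]
  obtain ⟨e', he'⟩ := hdvd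
  refine ⟨n * e', ?_⟩
  rw [he', pow_mul, ← hNval, hn, zpow_mul, zpow_natCast]

end Val

section Inst

variable {A : ValuationSubring (AlgebraicClosure ℚ)} {p m : ℕ} [NeZero m]
  [Fact p.Prime] [CharP (IsLocalRing.ResidueField A) p]
  (hp : p.Prime) (hA : A.LiesOverPrime p)
  (H3 : S18aux.DegThm (IsLocalRing.ResidueField A) m)

/-- the residue field -/
local notation "κ" => IsLocalRing.ResidueField A

/-- red of an element with normal form -/
theorem red_of_normal {f : modularFunctionFieldBar m} {Y₁ Y₂ : LaurentSeries A}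
    (h₂ : redS A Y₂ ≠ 0) (h : (f : LaurentSeries 𝕂) * incl A Y₂ = incl A Y₁) :
    f ∈ (RF hp hA H3).O ∧
      ((RF hp hA H3).red f : LaurentSeries κ) * redS A Y₂ = redS A Y₁ := by
  have hf : (f : LaurentSeries 𝕂) ∈ gaussSubring A := ⟨Y₁, Y₂, h₂, h⟩
  refine ⟨hf, ?_⟩
  rw [coe_red_RF hp hA H3 hf]
  have e1 : (⟨(f : LaurentSeries 𝕂), hf⟩ : gaussSubring A) * ⟨incl A Y₂, incl_mem Y₂⟩ =
      ⟨incl A Y₁, incl_mem Y₁⟩ := Subtype.ext h
  have e2 := congrArg (gaussRed A) e1
  rw [map_mul, gaussRed_incl, gaussRed_incl] at e2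
  exact e2

omit [NeZero m] in
theorem coe_algebraMap_κ (c : κ) :
    ((algebraMap κ (modularFunctionFieldFullC κ m) c : modularFunctionFieldFullC κ m) :
      LaurentSeries κ) = algebraMap κ (LaurentSeries κ) c := rfl

variable {H : Subgroup GQ} (hH : H ≤ A.inertiaSubgroupIn ℚ)

include hH in
theorem surj_KHf (y : κ) : ∃ c ∈ KHf H, c ∈ A ∧ (RF (m := m) hp hA H3).res c = y := by
  obtain ⟨⟨a, ha⟩, rfl⟩ := IsLocalRing.residue_surjective y
  obtain ⟨b, hb, hbf, hab⟩ := exists_fixed_sub_mem_nonunits hp hA ha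
  refine ⟨b, (mem_KHf H).mpr fun τ hτ => hbf τ (hH hτ), hb, ?_⟩
  rw [res_RF hp hA H3 hb, eq_comm, ← sub_eq_zero, ← map_sub, IsLocalRing.residue_eq_zero_iff]
  rw [ValuationSubring.mem_nonunits_iff_exists_mem_maximalIdeal] at hab
  obtain ⟨h1, h2⟩ := hab
  exact h2

include hH in
/-- every element of the residue field is the reduction of an `H`-fixed function -/
theorem surj_FHf (y : modularFunctionFieldFullC κ m) :
    ∃ x ∈ FHf H m, x ∈ (RF hp hA H3).O ∧ (RF hp hA H3).red x = y := by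
  have key : ∀ z : LaurentSeries κ, z ∈ modularFunctionFieldFullC κ m →
      ∃ x ∈ FHf H m, x ∈ (RF hp hA H3).O ∧ ((RF hp hA H3).red x : LaurentSeries κ) = z := by
    intro z hz
    rw [modularFunctionFieldFullC] at hz
    induction hz using IntermediateField.adjoin_induction with
    | mem z hz =>
      obtain ⟨d, hne, hd, rfl⟩ := hz
      have hmem : qExpand 𝕂 d (jqModC 𝕂) ∈ modularFunctionFieldBar m := by
        rw [S18aux.bar_eq m, modularFunctionFieldFullC]
        exact IntermediateField.subset_adjoin _ _ ⟨d, hne, hd, rfl⟩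
      have hY : incl A (coeffMap (Int.castRingHom A) (qExpand ℤ d (jqModC ℤ))) =
          qExpand 𝕂 d (jqModC 𝕂) := by
        have h1 : coeffMap (Int.castRingHom 𝕂) (qExpand ℤ d (jqModC ℤ)) =
            qExpand 𝕂 d (jqModC 𝕂) := by rw [coeffMap_qExpand, coeffMap_jqModC]
        rw [← h1]
        ext n
        simp
      have hYr : redS A (coeffMap (Int.castRingHom A) (qExpand ℤ d (jqModC ℤ))) =
          qExpand κ d (jqModC κ) := by
        have h1 : coeffMap (Int.castRingHom κ) (qExpand ℤ d (jqModC ℤ)) =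
            qExpand κ d (jqModC κ) := by rw [coeffMap_qExpand, coeffMap_jqModC]
        rw [← h1]
        ext n
        simp
      obtain ⟨h1, h2⟩ := red_of_normal hp hA H3 (f := ⟨qExpand 𝕂 d (jqModC 𝕂), hmem⟩)
        (Y₁ := coeffMap (Int.castRingHom A) (qExpand ℤ d (jqModC ℤ))) (Y₂ := 1)
        (by rw [map_one]; exact one_ne_zero) (by rw [map_one, mul_one, hY])
      refine ⟨_, ?_, h1, ?_⟩
      · rw [mem_FHf_iff_coeff]
        intro n
        rw [mem_KHf]
        intro τ _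
        have h3 : (qExpand 𝕂 d (jqModC 𝕂)).coeff n =
            (((qExpand ℤ d (jqModC ℤ)).coeff n : ℤ) : 𝕂) := by
          have h4 : coeffMap (Int.castRingHom 𝕂) (qExpand ℤ d (jqModC ℤ)) =
              qExpand 𝕂 d (jqModC 𝕂) := by rw [coeffMap_qExpand, coeffMap_jqModC]
          rw [← h4]
          rfl
        change τ ((qExpand 𝕂 d (jqModC 𝕂)).coeff n) = (qExpand 𝕂 d (jqModC 𝕂)).coeff n
        rw [h3, map_intCast]
      · rw [map_one, mul_one, hYr] at h2
        exact h2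
    | algebraMap c =>
      obtain ⟨b, hb, hbA, hbc⟩ := surj_KHf (m := m) hp hA H3 hH c
      refine ⟨algebraMap 𝕂 _ b, algebraMap_mem_FHf H hb, (RF hp hA H3).algebraMap_mem hbA, ?_⟩
      rw [(RF hp hA H3).red_algebraMap hbA, hbc]
      rfl
    | add x y _ _ hx hy =>
      obtain ⟨a, ha, haO, har⟩ := hx
      obtain ⟨b, hb, hbO, hbr⟩ := hy
      refine ⟨a + b, add_mem ha hb, add_mem haO hbO, ?_⟩
      rw [(RF hp hA H3).red_add haO hbO, ← har, ← hbr]
      rfl
    | mul x y _ _ hx hy =>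
      obtain ⟨a, ha, haO, har⟩ := hx
      obtain ⟨b, hb, hbO, hbr⟩ := hy
      refine ⟨a * b, mul_mem ha hb, mul_mem haO hbO, ?_⟩
      rw [(RF hp hA H3).red_mul haO hbO, ← har, ← hbr]
      rfl
    | inv x _ hx =>
      obtain ⟨a, ha, haO, har⟩ := hx
      by_cases h0 : (RF hp hA H3).red a = 0
      · refine ⟨0, zero_mem _, zero_mem _, ?_⟩
        rw [(RF hp hA H3).red_zero, ← har, h0]
        change (0 : LaurentSeries κ) = (0 : LaurentSeries κ)⁻¹
        rw [inv_zero]
      · refine ⟨a⁻¹, inv_mem ha, (RF hp hA H3).inv_mem_of_red_ne haO h0, ?_⟩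
        rw [(RF hp hA H3).red_inv haO h0, ← har]
        rfl
  obtain ⟨x, h1, h2, h3⟩ := key y y.2
  exact ⟨x, h1, h2, Subtype.ext h3⟩

omit [NeZero m] [Fact p.Prime] [CharP κ p] in
/-- descent of `n`-th powers -/
theorem pow_FHf {n : ℕ} (hn : n ≠ 0) {f : modularFunctionFieldBar m} (hf : f ∈ FHf H m)
    (hf0 : f ≠ 0) (c : 𝕂) (h : modularFunctionFieldBar m) (hfh : f = c • h ^ n) :
    ∃ c' ∈ KHf H, ∃ h' ∈ FHf H m, f = c' • h' ^ n := by
  have hh0 : h ≠ 0 := by
    rintro rfl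
    rw [zero_pow hn, smul_zero] at hfh
    exact hf0 hfh
  have hh0' : (h : LaurentSeries 𝕂) ≠ 0 := fun h' => hh0 (Subtype.ext h')
  set l : 𝕂 := HahnSeries.leadingCoeff (h : LaurentSeries 𝕂) with hl
  have hl0 : l ≠ 0 := HahnSeries.leadingCoeff_ne_zero.mpr hh0'
  set h' : modularFunctionFieldBar m := algebraMap 𝕂 _ l⁻¹ * h with hh'
  have hh'c : (h' : LaurentSeries 𝕂) = algebraMap 𝕂 (LaurentSeries 𝕂) l⁻¹ *
      (h : LaurentSeries 𝕂) := rfl
  have hh'l : HahnSeries.leadingCoeff (h' : LaurentSeries 𝕂) = 1 := by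
    rw [hh'c, HahnSeries.leadingCoeff_mul, algebraMap_laurentSeries_eq_single,
      HahnSeries.leadingCoeff_of_single, ← hl, inv_mul_cancel₀ hl0]
  have hfe : f = (c * l ^ n) • h' ^ n := by
    rw [hfh, hh']
    simp only [Algebra.smul_def, map_mul, map_pow, map_inv₀, mul_pow, inv_pow]
    have : algebraMap 𝕂 (modularFunctionFieldBar m) l ^ n ≠ 0 :=
      pow_ne_zero _ ((map_ne_zero _).mpr hl0)
    field_simp
  have hfs : (f : LaurentSeries 𝕂) = algebraMap 𝕂 (LaurentSeries 𝕂) (c * l ^ n) *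
      (h' : LaurentSeries 𝕂) ^ n := by
    have h1 : (f : LaurentSeries 𝕂) = ((algebraMap 𝕂 (modularFunctionFieldBar m) (c * l ^ n) *
        h' ^ n : modularFunctionFieldBar m) : LaurentSeries 𝕂) := by
      rw [← Algebra.smul_def, ← hfe]
    rw [h1]
    rfl
  have hh'0 : (h' : LaurentSeries 𝕂) ≠ 0 := by
    intro h1
    rw [h1, HahnSeries.leadingCoeff_zero] at hh'l
    exact zero_ne_one hh'l
  have hcl : c * l ^ n = HahnSeries.leadingCoeff (f : LaurentSeries 𝕂) := by
    rw [hfs, HahnSeries.leadingCoeff_mul, algebraMap_laurentSeries_eq_single,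
      HahnSeries.leadingCoeff_of_single]
    have h2 : ∀ k : ℕ, HahnSeries.leadingCoeff ((h' : LaurentSeries 𝕂) ^ k) = 1 := by
      intro k
      induction k with
      | zero => rw [pow_zero]; exact HahnSeries.leadingCoeff_one
      | succ k ih => rw [pow_succ, HahnSeries.leadingCoeff_mul, ih, hh'l, mul_one]
    rw [h2, mul_one]
  have hclK : c * l ^ n ∈ KHf H := by
    rw [hcl, HahnSeries.leadingCoeff_eq]
    exact (mem_FHf_iff_coeff H).mp hf _
  have hcl0 : c * l ^ n ≠ 0 := by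
    rw [hcl, HahnSeries.leadingCoeff_ne_zero]
    exact fun h1 => hf0 (Subtype.ext h1)
  refine ⟨c * l ^ n, hclK, h', ?_, hfe⟩
  -- `h'` is fixed
  intro τ hτ
  apply Subtype.ext
  have hcoe : ((ga m τ h' : modularFunctionFieldBar m) : LaurentSeries 𝕂) =
      coeffMap (τ : 𝕂 →+* 𝕂) (h' : LaurentSeries 𝕂) := coe_ga m τ h'
  have hne : coeffMap (τ : 𝕂 →+* 𝕂) (h' : LaurentSeries 𝕂) ≠ 0 := by
    rw [Ne, map_eq_zero]
    exact hh'0
  rw [hcoe]
  apply eq_of_pow_eq_of_leadingCoeff hn hne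
  · have h1 : ga m τ (h' ^ n) = h' ^ n := by
      have h2 : h' ^ n = algebraMap 𝕂 (modularFunctionFieldBar m) (c * l ^ n)⁻¹ * f := by
        rw [hfe, Algebra.smul_def, ← mul_assoc, ← map_mul, inv_mul_cancel₀ hcl0, map_one, one_mul]
      have h3 : h' ^ n ∈ FHf H m := by
        rw [h2]
        exact mul_mem (algebraMap_mem_FHf H (inv_mem hclK)) hf
      exact h3 τ hτ
    have h4 := congrArg (fun z : modularFunctionFieldBar m => (z : LaurentSeries 𝕂)) h1
    simp only [map_pow] at h4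
    have h5 : ((ga m τ h' ^ n : modularFunctionFieldBar m) : LaurentSeries 𝕂) =
        ((ga m τ h' : modularFunctionFieldBar m) : LaurentSeries 𝕂) ^ n := rfl
    rw [h5, hcoe] at h4
    exact h4
  · have h1 : HahnSeries.order (coeffMap (τ : 𝕂 →+* 𝕂) (h' : LaurentSeries 𝕂)) =
        HahnSeries.order (h' : LaurentSeries 𝕂) := order_coeffMap_aux τ _
    rw [HahnSeries.leadingCoeff_eq, HahnSeries.leadingCoeff_eq, h1, coeffMap_coeff,
      ← HahnSeries.leadingCoeff_eq, hh'l]
    exact map_one _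
  where
    order_coeffMap_aux (τ : GQ) (x : LaurentSeries 𝕂) :
        HahnSeries.order (coeffMap (τ : 𝕂 →+* 𝕂) x) = HahnSeries.order x := by
      by_cases hx : x = 0
      · rw [hx, map_zero]
      have hx' : coeffMap (τ : 𝕂 →+* 𝕂) x ≠ 0 := by rwa [Ne, map_eq_zero]
      apply le_antisymm
      · apply HahnSeries.order_le_of_coeff_ne_zero
        rw [coeffMap_coeff, Ne, map_eq_zero, HahnSeries.coeff_order_eq_zero]
        exact hx
      · apply HahnSeries.order_le_of_coeff_ne_zero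
        have h1 := (HahnSeries.coeff_order_eq_zero (x := coeffMap (τ : 𝕂 →+* 𝕂) x)).not.mpr hx'
        rw [coeffMap_coeff] at h1
        intro h2
        rw [h2, map_zero] at h1
        exact h1 rfl

/-- **The discretely valued subfield attached to a subgroup of inertia.** -/
def discSub {e : ℕ} (he : (H.subgroupOf (A.inertiaSubgroupIn ℚ)).index ∣ e) :
    DiscSub (RF (m := m) hp hA H3) p e where
  KH := KHf H
  FH := FHf H m
  algebraMap_mem _ hc := algebraMap_mem_FHf H hc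
  val c hc hc0 := by
    obtain ⟨n, hn⟩ := val_KHf hp hA he hc hc0
    have hp0 : (p : 𝕂) ≠ 0 := by exact_mod_cast hp.ne_zero
    have hv : A.valuation (p : 𝕂) ≠ 0 := (Valuation.ne_zero_iff _).mpr hp0
    refine ⟨n, ?_, ?_⟩
    · change ((p : 𝕂) ^ n)⁻¹ * c ^ e ∈ A
      rw [← A.valuation_le_one_iff, map_mul, map_inv₀, map_zpow₀, map_pow, hn,
        inv_mul_cancel₀ (zpow_ne_zero _ hv)]
    · change (p : 𝕂) ^ n * (c ^ e)⁻¹ ∈ A
      rw [← A.valuation_le_one_iff, map_mul, map_inv₀, map_zpow₀, map_pow, hn,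
        mul_inv_cancel₀ (zpow_ne_zero _ hv)]
  scale f hf hf0 := by
    have hf0' : (f : LaurentSeries 𝕂) ≠ 0 := fun h => hf0 (Subtype.ext h)
    obtain ⟨c, Y₁, Y₂, hc, hc0, h₁, h₂, h⟩ := exists_normalForm hp hA (coe_mem_ratSer H hf) hf0'
    have h3 : ((c⁻¹ • f : modularFunctionFieldBar m) : LaurentSeries 𝕂) * incl A Y₂ =
        incl A Y₁ := by
      have h4 : ((c⁻¹ • f : modularFunctionFieldBar m) : LaurentSeries 𝕂) =
          algebraMap 𝕂 (LaurentSeries 𝕂) c⁻¹ * (f : LaurentSeries 𝕂) := by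
        rw [Algebra.smul_def]; rfl
      rw [h4, mul_assoc, h, ← mul_assoc, ← map_mul, inv_mul_cancel₀ hc0, map_one, one_mul]
    obtain ⟨h5, h6⟩ := red_of_normal hp hA H3 h₂ h3
    refine ⟨c⁻¹, inv_mem hc, inv_ne_zero hc0, h5, fun h7 => h₁ ?_⟩
    rw [← h6, h7]
    exact zero_mul _
  approx f hf hfc := by
    obtain ⟨a, s, Y₁, Y₂, ha, hs, hs0, h₁, h₂, h₃, h⟩ := exists_best hp hA (coe_mem_ratSer H hf)
      (fun c h => hfc c (Subtype.ext h))
    set η : modularFunctionFieldBar m := algebraMap 𝕂 _ s⁻¹ * (f - algebraMap 𝕂 _ a) with hη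
    have hsF : algebraMap 𝕂 (modularFunctionFieldBar m) s ≠ 0 := (map_ne_zero _).mpr hs0
    have h4 : (η : LaurentSeries 𝕂) * incl A Y₂ = incl A Y₁ := by
      have h5 : (η : LaurentSeries 𝕂) = algebraMap 𝕂 (LaurentSeries 𝕂) s⁻¹ *
          ((f : LaurentSeries 𝕂) - algebraMap 𝕂 (LaurentSeries 𝕂) a) := rfl
      rw [h5, mul_assoc, h, ← mul_assoc, ← map_mul, inv_mul_cancel₀ hs0, map_one, one_mul]
    obtain ⟨h5, h6⟩ := red_of_normal hp hA H3 h₂ h4
    refine ⟨a, ha, s, hs, η, mul_mem (algebraMap_mem_FHf H (inv_mem hs))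
      (sub_mem hf (algebraMap_mem_FHf H ha)), hs0, h5, fun c hc => ?_, ?_⟩
    · rw [hc] at h6
      exact h₃ c h6.symm
    · rw [hη, Algebra.smul_def, ← mul_assoc, ← map_mul, mul_inv_cancel₀ hs0, map_one, one_mul]
      ring
  surj y := surj_FHf hp hA H3 hH y
  surj' y := surj_KHf hp hA H3 hH y
  pow f hf hf0 c h hfh := pow_FHf hp.ne_zero hf hf0 c h hfh

theorem discSub_KH {e : ℕ} (he : (H.subgroupOf (A.inertiaSubgroupIn ℚ)).index ∣ e) :
    (discSub (m := m) hp hA H3 hH he).KH = KHf H := rfl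

theorem discSub_FH {e : ℕ} (he : (H.subgroupOf (A.inertiaSubgroupIn ℚ)).index ∣ e) :
    (discSub (m := m) hp hA H3 hH he).FH = FHf H m := rfl

omit [CharP κ p] in
include hp in
/-- `T_p` preserves the functions fixed by `H`. -/
theorem TEll_mem_FHf (hm : ¬ p ∣ m) {f : modularFunctionFieldBar m} (hf : f ∈ FHf H m) :
    TEll.TEll 𝕂 m p f ∈ FHf H m := by
  intro τ hτ
  apply Subtype.ext
  have h1 := congrArg (fun z : modularFunctionFieldBar m => (z : LaurentSeries 𝕂)) (hf τ hτ)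
  simp only [coe_ga] at h1
  rw [coe_ga, TEll.coe_TEll_bar m p hp hm, TEll.coeffMap_TSer, h1]

/-- the operator of `heckeP` preserves the functions fixed by `H`. -/
theorem heckeP_mem_FHf [PerfectRing κ p] (hm : ¬ p ∣ m) {f : modularFunctionFieldBar m}
    (hf : f ∈ FHf H m) : (heckeP hp hm hA H3).T f ∈ FHf H m :=
  TEll_mem_FHf hp hm hf

end Inst

end Fermat.Agent.S33aux
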