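import Mathlib

/-!
# A fixed vector for a group acting unipotently
-/

set_option autoImplicit false

namespace Fermat.Agent.S33aux

section

variable {G J : Type*} [Group G] [AddCommGroup J] [DistribMulAction G J]

theorem pow_smul_of_unip {g : G} {y : J} (h : g • (g • y) + y = 2 • (g • y)) (k : ℕ) :
    g ^ k • y = y + k • (g • y - y) := by
  have h1 : g • (g • y - y) = g • y - y := by
    rw [smul_sub, sub_eq_sub_iff_add_eq_add, h, two_smul]
  induction k with
  | zero => simp
  | succ k ih =>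
    have h2 : g • (k • (g • y - y)) = k • (g • y - y) := by
      rw [smul_comm, h1]
    rw [pow_succ', mul_smul, ih, smul_add, h2, add_smul, one_smul]
    abel

/-- **Fixed vector lemma**: a group acting on a nonzero finite elementary abelian `p`-group with
`(g - 1)² = 0` for all `g` has a nonzero fixed vector. -/
theorem exists_fixed_vector {p : ℕ} [hp : Fact p.Prime] (I : Subgroup G) (Y : AddSubgroup J)
    (hfin : (Y : Set J).Finite) (hY0 : Y ≠ ⊥) (hYp : ∀ y ∈ Y, p • y = 0)
    (hst : ∀ g ∈ I, ∀ y ∈ Y, g • y ∈ Y)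
    (hunip : ∀ g ∈ I, ∀ y ∈ Y, g • (g • y) + y = 2 • (g • y)) :
    ∃ y ∈ Y, y ≠ 0 ∧ ∀ g ∈ I, g • y = y := by
  haveI : Finite Y := hfin.to_subtype
  letI act : MulAction I Y :=
    { smul := fun g y => ⟨(g : G) • (y : J), hst g g.2 y y.2⟩
      one_smul := fun y => Subtype.ext (one_smul G (y : J))
      mul_smul := fun g h y => Subtype.ext (mul_smul (g : G) (h : G) (y : J)) }
  have hsm : ∀ (g : I) (y : Y), ((g • y : Y) : J) = (g : G) • (y : J) := fun _ _ => rfl
  -- the image in the permutations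
  set P : Subgroup (Equiv.Perm Y) := (MulAction.toPermHom I Y).range with hP
  have hPg : IsPGroup p P := by
    rintro ⟨_, ⟨g, rfl⟩⟩
    refine ⟨1, Subtype.ext (Equiv.ext fun y => Subtype.ext ?_)⟩
    rw [pow_one]
    change ((((MulAction.toPermHom I Y) g) ^ p) y : J) = y
    rw [← map_pow]
    change (((g ^ p : I) • y : Y) : J) = y
    rw [hsm]
    change ((g : G) ^ p) • (y : J) = y
    rw [pow_smul_of_unip (hunip g g.2 y y.2)]
    have h2 : (g : G) • (y : J) - y ∈ Y := Y.sub_mem (hst g g.2 y y.2) y.2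
    rw [hYp _ h2, add_zero]
  have h0 : (0 : Y) ∈ MulAction.fixedPoints P Y := by
    rintro ⟨_, ⟨g, rfl⟩⟩
    exact Subtype.ext (smul_zero (g : G))
  have hcard : p ∣ Nat.card Y := by
    obtain ⟨y, hy⟩ := AddSubgroup.ne_bot_iff_exists_ne_zero.mp hY0
    have h1 : addOrderOf y = p :=
      addOrderOf_eq_prime (Subtype.ext (hYp y y.2)) hy
    rw [← h1]
    exact addOrderOf_dvd_natCard y
  obtain ⟨b, hb, hb0⟩ := hPg.exists_fixed_point_of_prime_dvd_card_of_fixed_point Y hcard h0
  refine ⟨b, b.2, fun h => hb0 (Subtype.ext h.symm), fun g hg => ?_⟩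
  have h1 := hb ⟨_, ⟨⟨g, hg⟩, rfl⟩⟩
  exact congrArg Subtype.val h1

/-- an injective self-map of a finite subgroup has a power equal to the identity -/
theorem exists_iterate_eq {Y : Set J} (hfin : Y.Finite) {f : J → J} (hf : Set.MapsTo f Y Y)
    (hinj : Set.InjOn f Y) : ∃ r : ℕ, 0 < r ∧ ∀ y ∈ Y, f^[r] y = y := by
  haveI : Finite Y := hfin.to_subtype
  set F : Y → Y := fun y => ⟨f y, hf y.2⟩ with hF
  have hFinj : Function.Injective F := by
    intro a b hab
    exact Subtype.ext (hinj a.2 b.2 (congrArg Subtype.val hab))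
  have hFb : Function.Bijective F := Finite.injective_iff_bijective.mp hFinj
  set e : Equiv.Perm Y := Equiv.ofBijective F hFb with he
  have hpos : 0 < orderOf e := orderOf_pos e
  refine ⟨orderOf e, hpos, fun y hy => ?_⟩
  have h1 : ∀ (k : ℕ) (z : Y), (((e ^ k) z : Y) : J) = f^[k] z := by
    intro k
    induction k with
    | zero => intro z; rfl
    | succ k ih =>
      intro z
      rw [pow_succ, Equiv.Perm.mul_apply, ih, Function.iterate_succ_apply]
      rfl
  have h2 := h1 (orderOf e) ⟨y, hy⟩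
  rw [pow_orderOf_eq_one] at h2
  exact h2.symm

end

end Fermat.Agent.S33aux
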