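import Fermat.Agent.S33.Geo
import Fermat.Agent.S33.LevFix

/-!
# The statement at level `m` from the ordinary and supersingular cases
-/

set_option autoImplicit false
set_option linter.unusedSectionVars false
set_option linter.style.haveILetI false

noncomputable section

open ModularCurve AlgebraicCurve
open Fermat.Agent.GaussVal Fermat.Agent.GalRep Fermat.Agent.FF
open Fermat.Agent.TwoGauss (mkData)
open Fermat.Agent.QX4 (wJ wJ_galois)
open Fermat.Agent.S34aux (pullN pushN pullN_smul pushN_smul)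

namespace Fermat.Agent.S33aux

/-- the algebraic numbers -/
local notation "𝕂" => AlgebraicClosure ℚ

/-- the inertia elements fixing the `p`-th roots of unity -/
def inertiaOne (A : ValuationSubring (AlgebraicClosure ℚ)) (p : ℕ) :
    Subgroup (AlgebraicClosure ℚ ≃ₐ[ℚ] AlgebraicClosure ℚ) where
  carrier := {τ | τ ∈ A.inertiaSubgroupIn ℚ ∧ IsCycExp p τ 1}
  one_mem' := ⟨one_mem _, fun μ _ => by rw [pow_one]; rfl⟩
  mul_mem' := by
    rintro a b ⟨ha, ha'⟩ ⟨hb, hb'⟩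
    refine ⟨mul_mem ha hb, fun μ hμ => ?_⟩
    rw [AlgEquiv.mul_apply, hb' μ hμ, pow_one, ha' μ hμ, pow_one]
  inv_mem' := by
    rintro a ⟨ha, ha'⟩
    refine ⟨inv_mem ha, fun μ hμ => ?_⟩
    have h1 := ha' μ hμ
    rw [pow_one] at h1 ⊢
    conv_lhs => rw [← h1]
    change (a⁻¹ * a) μ = μ
    rw [inv_mul_cancel, AlgEquiv.one_apply]

theorem mem_inertiaOne {A : ValuationSubring (AlgebraicClosure ℚ)} {p : ℕ} {τ : 𝕂 ≃ₐ[ℚ] 𝕂} :
    τ ∈ inertiaOne A p ↔ τ ∈ A.inertiaSubgroupIn ℚ ∧ IsCycExp p τ 1 := Iff.rfl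

section Fix

variable {G J : Type*} [Group G] [AddCommGroup J] [DistribMulAction G J]

theorem smul_zero_gen (g : G) : g • (0 : J) = 0 := smul_zero g

/-- the pointwise stabiliser of a set inside a subgroup -/
def fixIn (I : Subgroup G) (Y : Set J) : Subgroup G where
  carrier := {g | g ∈ I ∧ ∀ y ∈ Y, g • y = y}
  one_mem' := ⟨one_mem _, fun y _ => one_smul _ y⟩
  mul_mem' := by
    rintro a b ⟨ha, ha'⟩ ⟨hb, hb'⟩
    exact ⟨mul_mem ha hb, fun y hy => by rw [mul_smul, hb' y hy, ha' y hy]⟩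
  inv_mem' := by
    rintro a ⟨ha, ha'⟩
    refine ⟨inv_mem ha, fun y hy => ?_⟩
    conv_lhs => rw [← ha' y hy]
    rw [inv_smul_smul]

theorem mem_fixIn {I : Subgroup G} {Y : Set J} {g : G} :
    g ∈ fixIn I Y ↔ g ∈ I ∧ ∀ y ∈ Y, g • y = y := Iff.rfl

/-- the stabiliser of a finite stable set has finite index -/
theorem index_fixIn_ne_zero (I : Subgroup G) {Y : Set J} (hfin : Y.Finite)
    (hst : ∀ g ∈ I, ∀ y ∈ Y, g • y ∈ Y) : ((fixIn I Y).subgroupOf I).index ≠ 0 := by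
  haveI : Finite Y := hfin.to_subtype
  letI act : MulAction I Y :=
    { smul := fun g y => ⟨(g : G) • (y : J), hst g g.2 y y.2⟩
      one_smul := fun y => Subtype.ext (one_smul G (y : J))
      mul_smul := fun g h y => Subtype.ext (mul_smul (g : G) (h : G) (y : J)) }
  have hker : (fixIn I Y).subgroupOf I = (MulAction.toPermHom I Y).ker := by
    ext g
    rw [Subgroup.mem_subgroupOf, mem_fixIn, MonoidHom.mem_ker]
    constructor
    · rintro ⟨-, h⟩
      exact Equiv.ext fun y => Subtype.ext (h y y.2)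
    · intro h
      refine ⟨g.2, fun y hy => ?_⟩
      have h1 := DFunLike.congr_fun h (⟨y, hy⟩ : Y)
      exact congrArg Subtype.val h1
  rw [hker]
  exact Subgroup.FiniteIndex.index_ne_zero

end Fix

section Main

variable {A : ValuationSubring (AlgebraicClosure ℚ)} {p m : ℕ} [NeZero m] [NeZero p]
  [Fact p.Prime] [CharP (IsLocalRing.ResidueField A) p]
  [IsAlgClosed (IsLocalRing.ResidueField A)] [PerfectRing (IsLocalRing.ResidueField A) p]
  (hp : p.Prime) (hm : ¬ p ∣ m) (hA : A.LiesOverPrime p)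
  (H3 : S18aux.DegThm (IsLocalRing.ResidueField A) m)

/-- the residue field -/
local notation "κ" => IsLocalRing.ResidueField A

/-- the Kummer functions of `x` reduce to `p`-th powers -/
def RedPow (x : JZero m) : Prop :=
  ∀ f, IsKummer p x f → ∃ c : 𝕂, c ≠ 0 ∧ c • f ∈ (RF hp hA H3).O ∧
      ∃ g : modularFunctionFieldFullC κ m, g ≠ 0 ∧ (RF hp hA H3).red (c • f) = g ^ p

/-- the ordinary case -/
def LevelOrd : Prop :=
  ∀ H : Subgroup (𝕂 ≃ₐ[ℚ] 𝕂), H ≤ A.inertiaSubgroupIn ℚ →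
    (H.subgroupOf (A.inertiaSubgroupIn ℚ)).index ≠ 0 → ∀ x : JZero m, p • x = 0 →
    (∀ τ ∈ H, τ • x = x) → ∀ r : ℕ, 0 < r → (TJ hp hm)^[r] x = x → RedPow hp hA H3 x →
    ∀ τ ∈ A.inertiaSubgroupIn ℚ, ∀ a : ℕ, IsCycExp p τ a → τ • x = a • x

/-- the supersingular case -/
def LevelSS : Prop :=
  ∀ x : JZero m, p • x = 0 → (∀ τ ∈ A.inertiaSubgroupIn ℚ, IsCycExp p τ 1 → τ • x = x) →
    TJ hp hm x = 0 → RedPow hp hA H3 x → x = 0

theorem TJ_smul (σ : 𝕂 ≃ₐ[ℚ] 𝕂) (x : JZero m) : TJ hp hm (σ • x) = σ • TJ hp hm x := by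
  rw [TJ_apply, TJ_apply, pullN_smul, wJ_galois, pushN_smul]

theorem levelM_of (h1 : LevelOrd hp hm hA H3) (h2 : LevelSS hp hm hA H3) :
    LevelM hp hm hA H3 := by
  intro Y hYfin hYp hYI hYT hquad hYW
  -- `T_p` is injective on `Y`
  have hker : ∀ y ∈ Y, TJ hp hm y = 0 → y = 0 := by
    by_contra hcon
    push Not at hcon
    obtain ⟨y₀, hy₀, hTy₀, hy₀0⟩ := hcon
    set Y₀ : AddSubgroup (JZero m) := Y ⊓ (TJ hp hm).ker with hY₀
    have hmem : ∀ y, y ∈ Y₀ ↔ y ∈ Y ∧ TJ hp hm y = 0 := fun y => Iff.rfl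
    obtain ⟨y, hy, hy0, hyfix⟩ := exists_fixed_vector (p := p) (inertiaOne A p) Y₀
      (hYfin.subset fun y hy => hy.1) (fun hbot => by
        have h3 : y₀ ∈ Y₀ := ⟨hy₀, hTy₀⟩
        rw [hbot, AddSubgroup.mem_bot] at h3
        exact hy₀0 h3)
      (fun y hy => hYp y hy.1) (fun g hg y hy => ⟨hYI g hg.1 y hy.1, by
        change TJ hp hm (g • y) = 0
        have h4 : TJ hp hm y = 0 := hy.2
        rw [TJ_smul, h4]
        exact smul_zero_gen (J := JZero m) g⟩)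
      (fun g hg y hy => by
        have h3 := hquad g hg.1 1 hg.2 y hy.1
        rwa [one_smul, one_add_one_eq_two] at h3)
    exact hy0 (h2 y (hYp y hy.1) (fun τ hτ hτ1 => hyfix τ ⟨hτ, hτ1⟩) hy.2 (hYW y hy.1))
  obtain ⟨r, hr, hiter⟩ := exists_iterate_eq (Y := (Y : Set (JZero m))) hYfin
    (f := TJ hp hm) (fun y hy => hYT y hy) (fun x hx y hy hxy => by
      rw [← sub_eq_zero]
      exact hker _ (Y.sub_mem hx hy) (by rw [map_sub, sub_eq_zero]; exact hxy))
  intro τ hτ a ha y hy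
  exact h1 (fixIn (A.inertiaSubgroupIn ℚ) (Y : Set (JZero m))) (fun g hg => hg.1)
    (index_fixIn_ne_zero _ hYfin hYI) y (hYp y hy) (fun g hg => hg.2 y hy) r hr (hiter y hy)
    (hYW y hy) τ hτ a ha

end Main

end Fermat.Agent.S33aux
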