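import Fermat.Agent.S33.LevAsm
import Fermat.Agent.S33.BetaInst

/-!
# The index of the inertia elements fixing the `p`-th roots of unity
-/

set_option autoImplicit false

noncomputable section

open ModularCurve AlgebraicCurve
open Fermat.Agent.GaussVal Fermat.Agent.GalRep Fermat.Agent.FF

namespace Fermat.Agent.S33aux

/-- the algebraic numbers -/
local notation "𝕂" => AlgebraicClosure ℚ

/-- the underlying ring automorphism of a Galois element, as a homomorphism -/
def toRingAut : (𝕂 ≃ₐ[ℚ] 𝕂) →* (𝕂 ≃+* 𝕂) where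
  toFun σ := (σ : 𝕂 ≃+* 𝕂)
  map_one' := rfl
  map_mul' _ _ := rfl

@[simp] theorem toRingAut_apply (σ : 𝕂 ≃ₐ[ℚ] 𝕂) (x : 𝕂) : toRingAut σ x = σ x := rfl

/-- **the index of `{τ ∈ I_A | τ fixes the p-th roots of unity}` in `I_A` divides `p - 1`** -/
theorem index_inertiaOne_dvd (A : ValuationSubring 𝕂) {p : ℕ} (hp : p.Prime) :
    ((inertiaOne A p).subgroupOf (A.inertiaSubgroupIn ℚ)).index ∣ p - 1 := by
  have : NeZero p := ⟨hp.ne_zero⟩
  have : Fact p.Prime := ⟨hp⟩
  obtain ⟨ζ, hζ⟩ := HasEnoughRootsOfUnity.exists_primitiveRoot 𝕂 p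
  have hcard : Nat.card (rootsOfUnity p 𝕂) = p := hζ.card_rootsOfUnity
  let χ : (A.inertiaSubgroupIn ℚ) →* (ZMod p)ˣ :=
    ((modularCyclotomicCharacter 𝕂 hcard).comp toRingAut).comp (A.inertiaSubgroupIn ℚ).subtype
  have hker : (inertiaOne A p).subgroupOf (A.inertiaSubgroupIn ℚ) = χ.ker := by
    ext g
    rw [Subgroup.mem_subgroupOf, mem_inertiaOne, MonoidHom.mem_ker]
    have hspec : ∀ μ : 𝕂, μ ^ p = 1 → (g : 𝕂 ≃ₐ[ℚ] 𝕂) μ = μ ^ ((χ g : (ZMod p)ˣ) : ZMod p).val := by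
      intro μ hμ
      have hμ0 : μ ≠ 0 := by
        rintro rfl
        rw [zero_pow hp.ne_zero] at hμ
        exact zero_ne_one hμ
      obtain ⟨z, hz⟩ : IsUnit μ := isUnit_iff_ne_zero.2 hμ0
      have h1 : z ∈ rootsOfUnity p 𝕂 := by
        rw [mem_rootsOfUnity]
        ext
        rw [Units.val_pow_eq_pow_val, hz, hμ]
        rfl
      have h2 := modularCyclotomicCharacter.spec 𝕂 hcard (toRingAut (g : 𝕂 ≃ₐ[ℚ] 𝕂)) h1
      rw [hz] at h2
      exact h2
    constructor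
    · intro h
      have h1 := h.2 ζ hζ.pow_eq_one
      rw [hspec ζ hζ.pow_eq_one] at h1
      have h3 := hζ.pow_inj (ZMod.val_lt _) hp.one_lt h1
      ext
      rw [← ZMod.natCast_zmod_val ((χ g : (ZMod p)ˣ) : ZMod p), h3]
      simp
    · intro h
      refine ⟨g.2, fun μ hμ => ?_⟩
      rw [hspec μ hμ, h, Units.val_one, ZMod.val_one]
  rw [hker, Subgroup.index_ker]
  have h1 : Nat.card χ.range ∣ Nat.card (ZMod p)ˣ := Subgroup.card_subgroup_dvd_card _
  rwa [Nat.card_eq_fintype_card (α := (ZMod p)ˣ), ZMod.card_units] at h1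

theorem inertiaOne_le (A : ValuationSubring 𝕂) (p : ℕ) :
    inertiaOne A p ≤ A.inertiaSubgroupIn ℚ := fun _ h => h.1

section Disc

variable {A : ValuationSubring (AlgebraicClosure ℚ)} {p m : ℕ} [NeZero m] [NeZero p]
  [Fact p.Prime] [CharP (IsLocalRing.ResidueField A) p]
  [IsAlgClosed (IsLocalRing.ResidueField A)] [PerfectRing (IsLocalRing.ResidueField A) p]
  (hp : p.Prime) (hA : A.LiesOverPrime p)
  (H3 : S18aux.DegThm (IsLocalRing.ResidueField A) m)

/-- the sub-valuation of the supersingular case: `e = p - 1` -/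
def discOne : DiscSub (RF (m := m) hp hA H3) p (p - 1) :=
  discSub hp hA H3 (inertiaOne_le A p) (index_inertiaOne_dvd A hp)

end Disc

end Fermat.Agent.S33aux
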