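import Fermat.Agent.S33.LadFinal
import Fermat.Agent.S33.BetaInst
import Fermat.Agent.S33.LevIndex
import Fermat.Agent.S33.LevAsm
import Fermat.Agent.S33.Inertia
import Fermat.Agent.RedInj.Newton
import Fermat.Agent.S36.Descent

/-!
# Conclusion of the level `m` arguments
-/

set_option autoImplicit false
set_option linter.unusedSectionVars false
set_option linter.style.haveILetI false

noncomputable section

open ModularCurve AlgebraicCurve Module
open Fermat.Agent.GaussVal Fermat.Agent.GalRep Fermat.Agent.FF Fermat.Agent.RedInj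
open Fermat.Agent.TwoGauss (mkData)
open Fermat.Agent.QX4 (wJ wJ_galois)
open Fermat.Agent.S34aux (pullN pushN pullN_smul pushN_smul)

namespace Fermat.Agent.S33aux

section Abstract

variable {K F k F' : Type*} [Field K] [Field F] [Field k] [Field F'] [Algebra K F] [Algebra k F']

theorem isPrincipal_of_lam [IsFF K F] [IsFF k F'] [IsAlgClosed K] [IsAlgClosed k]
    (R : RedData K F k F') (hg : genusFF K F ≤ genusFF k F') (hArch : R.Arch) {p : ℕ}
    (hp : p.Prime) (hp0 : (p : K) ≠ 0) (hpk : (p : k) = 0) {lam : K}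
    (hl : lam ^ (p - 1) = -(p : K)) {D : Divisor K F} (hD : Divisor.degree D = 0) {f g w : F}
    {c ε : K} (hc : c ≠ 0) (hg0 : g ≠ 0) (hw : w ∈ R.O) (hε : ε ∈ R.A) (hε0 : R.res ε = 0)
    (hf : f = c • g ^ p * (1 + (lam ^ p * ε) • w))
    (hdiv : ∀ v : Place K F, v.ord f = p * D v) : Divisor.IsPrincipal D := by
  have hp1 := hp.one_lt
  obtain ⟨d, hd, hdO, hdr⟩ := Lad.exists_scale R.toRedField hg0
  have hc' : c⁻¹ * d ^ p ≠ 0 := mul_ne_zero (inv_ne_zero hc) (pow_ne_zero _ hd)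
  have hlp : lam ^ p = -(p : K) * lam := by
    rw [← hl, ← pow_succ, Nat.sub_add_cancel hp.one_le]
  have hlA : lam ∈ R.A := by
    have hpA : (p : K) ∈ R.A := natCast_mem _ _
    have h1 : lam ^ (p - 1) ∈ R.A := by rw [hl]; exact neg_mem hpA
    rw [← R.A.valuation_le_one_iff, map_pow] at h1
    rw [← R.A.valuation_le_one_iff]
    exact (pow_le_one_iff_of_nonneg zero_le (by omega)).mp h1
  have e1 : (p : K)⁻¹ * (lam ^ p * ε) = -(lam * ε) := by
    rw [hlp]; field_simp
  have hf' : (c⁻¹ * d ^ p) • f = (d • g) ^ p * (1 + (lam ^ p * ε) • w) := by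
    rw [hf, smul_pow, ← smul_mul_assoc, smul_smul]
    congr 2
    field_simp
  have hneg1 : (-1 : K) ∈ R.A := neg_mem (one_mem _)
  refine R.isPrincipal_of_close hg hArch hp hp0 hpk hD hdO hdr hw hf' ?_ ?_ ?_ ?_ fun v => ?_
  · rw [e1]; exact neg_mem (mul_mem hlA hε)
  · rw [e1, ← neg_one_mul, R.res_mul hneg1 (mul_mem hlA hε), R.res_mul hlA hε, hε0, mul_zero,
      mul_zero]
  · have e2 : (p : K)⁻¹ * ((p : K)⁻¹ * (lam ^ p * ε)) ^ (p - 1) =
        -((-1) ^ (p - 1) * ε ^ (p - 1)) := by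
      rw [e1, neg_pow, mul_pow, hl]; field_simp
    rw [e2]
    exact neg_mem (mul_mem (pow_mem hneg1 _) (pow_mem hε _))
  · have e2 : (p : K)⁻¹ * ((p : K)⁻¹ * (lam ^ p * ε)) ^ (p - 1) =
        -((-1) ^ (p - 1)) * ε ^ (p - 2) * ε := by
      rw [e1, neg_pow, mul_pow, hl]
      have h2 : ε ^ (p - 1) = ε ^ (p - 2) * ε := by
        rw [← pow_succ]; congr 1; omega
      rw [h2]
      field_simp
    rw [e2, R.res_mul (mul_mem (neg_mem (pow_mem hneg1 _)) (pow_mem hε _)) hε, hε0, mul_zero]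
  · rw [Algebra.smul_def, v.ord_mul ((_root_.map_ne_zero _).mpr hc') (by
      rw [hf]
      intro h0
      have h1 := hf'
      rw [hf, h0, smul_zero] at h1
      have h2 : (d • g) ^ p ≠ 0 := pow_ne_zero _ (smul_ne_zero hd hg0)
      have h3 : 1 + (lam ^ p * ε) • w ≠ 0 := by
        intro h4
        have hs : R.res (lam ^ p * ε) = 0 := by
          rw [R.res_mul (pow_mem hlA _) hε, hε0, mul_zero]
        have hsA : lam ^ p * ε ∈ R.A := mul_mem (pow_mem hlA _) hε
        have h5 : R.red (1 + (lam ^ p * ε) • w) = 1 := by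
          rw [R.red_add (one_mem _) (R.smul_mem hsA hw), R.red_smul hsA hw, hs, zero_smul,
            R.red_one, add_zero]
        rw [h4, R.red_zero] at h5
        exact zero_ne_one h5
      exact mul_ne_zero h2 h3 h1.symm), QX4.ord_algebraMap_eq_zero v hc', zero_add]
    exact hdiv v

variable (R : RedField K F k F')

theorem one_add_smul_pow {s : K} (hs : s ∈ R.A) (hs0 : R.res s = 0) {w : F} (hw : w ∈ R.O)
    (a : ℕ) : ∃ y ∈ R.O, (1 + s • w) ^ a = 1 + s • y ∧ R.red y = (a : F') * R.red w := by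
  induction a with
  | zero => exact ⟨0, zero_mem _, by simp, by simp⟩
  | succ a ih =>
    obtain ⟨y, hy, h1, h2⟩ := ih
    refine ⟨y + w + s • (y * w), add_mem (add_mem hy hw) (R.smul_mem hs (mul_mem hy hw)), ?_, ?_⟩
    · rw [pow_succ, h1]
      simp only [Algebra.smul_def]
      ring
    · rw [R.red_add (add_mem hy hw) (R.smul_mem hs (mul_mem hy hw)), R.red_add hy hw,
        R.red_smul hs (mul_mem hy hw), hs0, zero_smul, add_zero, h2]
      push_cast
      ring

theorem ratio_one_add {s : K} (hs : s ∈ R.A) (hs0 : R.res s = 0) {u v : F} (hu : u ∈ R.O)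
    (hv : v ∈ R.O) : 1 + s • v ≠ 0 ∧ ∃ z ∈ R.O, (1 + s • u) * (1 + s • v)⁻¹ = 1 + s • z ∧
      R.red z = R.red u - R.red v := by
  have hO : 1 + s • v ∈ R.O := add_mem (one_mem _) (R.smul_mem hs hv)
  have hr : R.red (1 + s • v) = 1 := by
    rw [R.red_add (one_mem _) (R.smul_mem hs hv), R.red_smul hs hv, hs0, zero_smul, add_zero,
      R.red_one]
  have hne : 1 + s • v ≠ 0 := by
    intro h0
    rw [h0, R.red_zero] at hr
    exact zero_ne_one hr
  have hi := R.inv_mem_of_red_ne hO (by rw [hr]; exact one_ne_zero)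
  have hri : R.red (1 + s • v)⁻¹ = 1 := by
    have h1 := R.red_mul hO hi
    rw [mul_inv_cancel₀ hne, R.red_one, hr, one_mul] at h1
    exact h1.symm
  refine ⟨hne, (u - v) * (1 + s • v)⁻¹, mul_mem (sub_mem hu hv) hi, ?_, ?_⟩
  · rw [← smul_mul_assoc, smul_sub]
    field_simp
    ring
  · rw [R.red_mul (sub_mem hu hv) hi, hri, mul_one, R.red_sub hu hv]

/-- the computation for the ordinary case -/
theorem ratio_eq {K F : Type*} [Field K] [Field F] [Algebra K F] {f f' g g' U V W : F}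
    {c c' : K} {p a : ℕ} (hf : f = c • g ^ p * V) (hf' : f' = c' • g' ^ p * U)
    (hW : U * (V ^ a)⁻¹ = W) :
    f' / f ^ a = (c' * (c ^ a)⁻¹) • (g' * (g ^ a)⁻¹) ^ p * W := by
  rw [← hW, hf, hf']
  simp only [Algebra.smul_def, map_mul, map_inv₀, map_pow]
  rw [div_eq_mul_inv, mul_pow, mul_pow, mul_inv, mul_inv, mul_pow, inv_pow, ← pow_mul, ← pow_mul,
    mul_comm p a]
  ring

end Abstract

/-- the algebraic numbers -/
local notation "𝕂" => AlgebraicClosure ℚ

section Main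

variable {A : ValuationSubring (AlgebraicClosure ℚ)} {p m : ℕ} [NeZero m] [NeZero p]
  [Fact p.Prime] [CharP (IsLocalRing.ResidueField A) p]
  [IsAlgClosed (IsLocalRing.ResidueField A)] [PerfectRing (IsLocalRing.ResidueField A) p]
  (hp : p.Prime) (hm : ¬ p ∣ m) (hA : A.LiesOverPrime p)
  (H3 : S18aux.DegThm (IsLocalRing.ResidueField A) m)
  (H2 : genusFF (AlgebraicClosure ℚ) (modularFunctionFieldBar m) ≤
    genusFF (IsLocalRing.ResidueField A) (modularFunctionFieldFullC (IsLocalRing.ResidueField A) m))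

/-- the residue field -/
local notation "κ" => IsLocalRing.ResidueField A

theorem arch_RF : ∀ a ∈ A, (RF (m := m) hp hA H3).res a = 0 → ∀ b : 𝕂, b ≠ 0 →
    ∃ n : ℕ, b⁻¹ * a ^ n ∈ A := by
  intro a ha ha0 b hb
  have ha' : a ∈ A.nonunits := by
    rw [ValuationSubring.mem_nonunits_iff]
    exact Lad.lt_of_res (RF (m := m) hp hA H3) ha ha0
  obtain ⟨n, hn⟩ := TwoGauss.exists_pow_div_mem hp hA ha' hb
  refine ⟨n, ?_⟩
  rw [mul_comm, ← div_eq_mul_inv]
  exact hn

include H2 in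
theorem eq_zero_of_lam {lam : 𝕂} (hl : lam ^ (p - 1) = -(p : 𝕂)) {x : JZero m}
    {f g w : modularFunctionFieldBar m} (hx : IsKummer p x f) {c ε : 𝕂} (hc : c ≠ 0)
    (hg0 : g ≠ 0) (hw : w ∈ (RF hp hA H3).O) (hε : ε ∈ A)
    (hε0 : (RF (m := m) hp hA H3).res ε = 0)
    (hf : f = c • g ^ p * (1 + (lam ^ p * ε) • w)) : x = 0 := by
  haveI : IsFF 𝕂 (modularFunctionFieldBar m) := TwoGauss.isFF_m
  haveI : IsFF κ (modularFunctionFieldFullC κ m) := TwoGauss.isFF_m' (m := m) H3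
  obtain ⟨R, -⟩ := (TwoGauss.Gm hp hA H3).exists_redMap_of_le H2
  obtain ⟨D, rfl, h0, hD⟩ := hx
  rw [Pic0_mk_eq_zero_iff]
  exact isPrincipal_of_lam (RedData.ofRedMap R) H2 (arch_RF hp hA H3) hp
    (by exact_mod_cast hp.ne_zero) (CharP.cast_eq_zero κ p) hl (Divisor.mem_degZero.mp D.2)
    hc hg0 hw hε hε0 hf (fun v => (hD v).symm)

theorem isKummer_iter {n : ℕ} {x : JZero m} {f : modularFunctionFieldBar m}
    (hx : IsKummer n x f) (r : ℕ) : IsKummer n ((TJ hp hm)^[r] x)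
      ((heckeP hp hm hA H3).T^[r] f) := by
  induction r with
  | zero => exact hx
  | succ r ih =>
    rw [Function.iterate_succ_apply', Function.iterate_succ_apply']
    exact isKummer_TJ hp hm ih

/-- a Kummer function fixed by `H` -/
theorem exists_kummer_FHf (H : Subgroup (𝕂 ≃ₐ[ℚ] 𝕂)) {x : JZero m} (hpx : p • x = 0)
    (hfix : ∀ τ ∈ H, τ • x = x) : ∃ f : modularFunctionFieldBar m, IsKummer p x f ∧
      f ∈ FHf H m := by
  obtain ⟨D, f, hf0, hxD, hord, hG⟩ := S36desc.exists_fixed_rep m H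
    (Nat.pos_of_ne_zero (NeZero.ne p)) x hpx hfix
  exact ⟨f, ⟨D, hxD.symm, hf0, fun v => (hord v).symm⟩, fun τ hτ => hG ⟨τ, hτ⟩⟩

/-- **The supersingular case.** -/
theorem levelSS : LevelSS hp hm hA H3 := by
  intro x hpx hfix hTx hred
  haveI : IsFF 𝕂 (modularFunctionFieldBar m) := TwoGauss.isFF_m
  have H2 := GoodRed.genus_le_all hp hA m hm
  obtain ⟨lam, hlam⟩ := exists_lambda (p := p)
  obtain ⟨f, hf, hfH⟩ := exists_kummer_FHf (p := p) (inertiaOne A p) hpx
    (fun τ hτ => hfix τ hτ.1 hτ.2)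
  have hT0 := isKummer_TJ hp hm hf
  rw [hTx] at hT0
  obtain ⟨u, hu, hu'⟩ := hT0.exists_pow_of_zero hp.ne_zero
  obtain ⟨c, hc, g, hg, w, hw, ε, hε, hε0, hfe⟩ := supersingular hp
    (by exact_mod_cast hp.ne_zero) (CharP.cast_eq_zero κ p) hlam
    (discOne (m := m) hp hA H3) (heckeP hp hm hA H3)
    (fun f hf => heckeP_mem_FHf hp hA H3 hm hf) hfH hf.ne_zero (hred f hf)
    ⟨1, u, by rw [one_smul]; exact hu'⟩
  exact eq_zero_of_lam hp hA H3 H2 hlam hf hc hg hw hε hε0 hfe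

/-- inertia acts trivially on the reduction at level `m` -/
theorem ga_RF {τ : 𝕂 ≃ₐ[ℚ] 𝕂} (hτ : τ ∈ A.inertiaSubgroupIn ℚ) {w : modularFunctionFieldBar m}
    (hw : w ∈ (RF hp hA H3).O) : TwoGauss.ga m τ w ∈ (RF hp hA H3).O ∧
      (RF hp hA H3).red (TwoGauss.ga m τ w) = (RF hp hA H3).red w := by
  have hR := TwoGauss.residueCompat_of_inertia hτ
  have h1 : (w : LaurentSeries 𝕂) ∈ gaussSubring A := hw
  have h2 := hR.coeffMap_mem h1
  have h3 : ((TwoGauss.ga m τ w : modularFunctionFieldBar m) : LaurentSeries 𝕂) ∈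
      gaussSubring A := by
    rw [TwoGauss.coe_ga]; exact h2
  refine ⟨h3, Subtype.ext ?_⟩
  rw [coe_red_RF hp hA H3 h3, coe_red_RF hp hA H3 h1]
  have h4 := hR.gaussRed_coeffMap ⟨_, h1⟩ h2
  rw [coeffMap_id] at h4
  refine Eq.trans ?_ h4
  congr 1

/-- **The ordinary case.** -/
theorem levelOrd : LevelOrd hp hm hA H3 := by
  intro H hH hidx x hpx hfix r hr hT hred τ hτ a ha
  haveI : IsFF 𝕂 (modularFunctionFieldBar m) := TwoGauss.isFF_m
  have H2 := GoodRed.genus_le_all hp hA m hm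
  have hpK : (p : 𝕂) ≠ 0 := by exact_mod_cast hp.ne_zero
  obtain ⟨lam, hlam⟩ := exists_lambda (p := p)
  obtain ⟨f, hf, hfH⟩ := exists_kummer_FHf (p := p) H hpx hfix
  have hTf := isKummer_iter hp hm hA H3 hf r
  rw [hT] at hTf
  have hrel := hf.div hTf
  rw [sub_self] at hrel
  obtain ⟨u, hu, hu'⟩ := hrel.exists_pow_of_zero hp.ne_zero
  obtain ⟨c, hc, g, hg, w, hw, hfe⟩ := ladder hp hpK (CharP.cast_eq_zero κ p) hlam
    (discSub (m := m) hp hA H3 hH (dvd_refl _)) (Nat.pos_of_ne_zero hidx) (heckeP hp hm hA H3)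
    (fun f hf => heckeP_mem_FHf hp hA H3 hm hf) hfH hf.ne_zero (hred f hf) hr
    ⟨1, u, by rw [one_smul, ← hu', mul_div_cancel₀ _ hTf.ne_zero]⟩
  -- the element `λ`
  obtain ⟨t, ht, hlt, hrt⟩ := inertia_lambda hA hlam hτ ha
  set R := RF (m := m) hp hA H3 with hR
  have hlA : lam ∈ A := by
    have h1 : A.valuation (lam ^ (p - 1)) ≤ 1 := by
      rw [hlam, Valuation.map_neg]
      exact ((ValuationSubring.mem_nonunits_iff _).mp hA).le
    rw [map_pow] at h1
    rw [← A.valuation_le_one_iff]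
    have := hp.two_le
    exact (pow_le_one_iff_of_nonneg zero_le (by omega)).mp h1
  have hl0 : lam ≠ 0 := by
    rintro rfl
    have := hp.two_le
    rw [zero_pow (by omega)] at hlam
    exact hpK (neg_eq_zero.mp hlam.symm)
  have hlr : R.res lam = 0 := by
    have h1 : R.res lam ^ (p - 1) = 0 := by
      have h2 : R.res (lam ^ (p - 1)) = R.res lam ^ (p - 1) := by
        have h3 : ∀ n : ℕ, R.res (lam ^ n) = R.res lam ^ n := by
          intro n
          induction n with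
          | zero => rw [pow_zero, pow_zero, R.res_one]
          | succ n ih => rw [pow_succ, pow_succ, R.res_mul (pow_mem hlA n) hlA, ih]
        exact h3 _
      rw [← h2, hlam]
      have h3 : (-(p : 𝕂)) = (-1) * (p : 𝕂) := by ring
      have hpA : (p : 𝕂) ∈ A := natCast_mem _ _
      rw [h3, R.res_mul (neg_mem (one_mem _)) hpA]
      have h4 : R.res (p : 𝕂) = 0 := by
        rw [res_RF hp hA H3 hpA]
        have h5 : (⟨(p : 𝕂), hpA⟩ : A) = (p : A) := Subtype.ext (by push_cast; rfl)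
        rw [h5, map_natCast, CharP.cast_eq_zero]
      rw [h4, mul_zero]
    exact pow_eq_zero_iff (by have := hp.two_le; omega) |>.mp h1
  set s : 𝕂 := lam ^ p with hs
  have hsA : s ∈ R.A := pow_mem hlA p
  have hsr : R.res s = 0 := by
    obtain ⟨k, hk⟩ : ∃ k, p = k + 1 := ⟨p - 1, (Nat.sub_add_cancel hp.one_le).symm⟩
    rw [hs, hk, pow_succ, R.res_mul (pow_mem hlA k) hlA, hlr, mul_zero]
  -- the Kummer function of `τ x - a x`
  have hcast : ∀ n : ℕ, ∀ {z : 𝕂}, z ∈ A → R.res (z ^ n) = R.res z ^ n := by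
    intro n z hz
    induction n with
    | zero => rw [pow_zero, pow_zero, R.res_one]
    | succ n ih => rw [pow_succ, pow_succ, R.res_mul (pow_mem hz n) hz, ih]
  have htr : R.res (t ^ p) = (a : κ) := by
    rw [hcast p ht, res_RF hp hA H3 ht, hrt]
    have := ZMod.pow_card (a : ZMod p)
    have h2 := congrArg (ZMod.castHom (dvd_refl p) κ) this
    rwa [map_pow, map_natCast] at h2
  obtain ⟨hτw, hτwr⟩ := ga_RF hp hA H3 hτ hw
  have htA : t ^ p ∈ R.A := pow_mem ht p
  obtain ⟨y, hy, hy1, hy2⟩ := one_add_smul_pow R hsA hsr hw a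
  obtain ⟨hne, z, hz, hz1, hz2⟩ := ratio_one_add R hsA hsr (R.smul_mem htA hτw) hy
  have hz0 : R.red z = 0 := by
    rw [hz2, R.red_smul htA hτw, hτwr, hy2, htr, sub_eq_zero, Algebra.smul_def, map_natCast]
  obtain ⟨ε, hε, hε0, w', hw', hzw⟩ := Lad.exists_eps R hz hz0
  have hK : IsKummer p (τ • x - a • x) (TwoGauss.ga m τ f / f ^ a) := by
    have h1 := hf.smul (arithmeticGalois (modularFunctionFieldFull m) τ)
    rw [galois_smul_pic0_def]
    exact h1.div (hf.pow a)
  have hgaf : TwoGauss.ga m τ f = (τ c) • (TwoGauss.ga m τ g) ^ p *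
      (1 + s • ((t ^ p) • TwoGauss.ga m τ w)) := by
    have hga : ∀ (b : 𝕂) (v : modularFunctionFieldBar m),
        TwoGauss.ga m τ (b • v) = (τ b) • TwoGauss.ga m τ v := by
      intro b v
      apply Subtype.ext
      rw [TwoGauss.coe_ga, coe_smul_bar, coe_smul_bar, map_mul, coeffMap_C, TwoGauss.coe_ga]
      rfl
    rw [hfe, map_mul, hga, map_pow, map_add, map_one, hga, smul_smul]
    congr 3
    rw [hs, map_pow, hlt, mul_pow]
    ring
  have hW : (1 + s • ((t ^ p) • TwoGauss.ga m τ w)) * ((1 + s • w) ^ a)⁻¹ =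
      (1 : modularFunctionFieldBar m) + (lam ^ p * ε) • w' := by
    rw [hy1, hz1, hzw, smul_smul]
  have hfa := ratio_eq hfe hgaf hW
  have hτc : τ c * (c ^ a)⁻¹ ≠ 0 :=
    mul_ne_zero (fun h => hc (τ.injective (h.trans (map_zero τ).symm)))
      (inv_ne_zero (pow_ne_zero _ hc))
  have hgg : TwoGauss.ga m τ g * (g ^ a)⁻¹ ≠ 0 := by
    refine mul_ne_zero (fun h => hg ?_) (inv_ne_zero (pow_ne_zero _ hg))
    exact (TwoGauss.ga m τ).injective (h.trans (map_zero (TwoGauss.ga m τ)).symm)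
  have h0 := eq_zero_of_lam hp hA H3 H2 hlam hK hτc hgg hw' hε hε0 hfa
  exact sub_eq_zero.mp h0

/-- **The statement at level `m`.** -/
theorem levelM : LevelM hp hm hA H3 := levelM_of hp hm hA H3 (levelOrd hp hm hA H3)
  (levelSS hp hm hA H3)

end Main

end Fermat.Agent.S33aux
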