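import Fermat.Agent.GalRep.Density
import Fermat.Agent.S34.Reduction

/-!
# Hecke approximations of Galois elements, the cyclotomic determinant, and the mod-`p` transfer

* `exists_heckeApprox` : on `J[p^m]`, `g + χ(g) g⁻¹` is a Hecke operator whose image in `T` is
  the trace of `ρ(g)` up to `𝔪^n`.
* `detIsCyclotomic` : the determinant of `ρ` is the cyclotomic character.
* `residual_transfer` : if `X ⊆ J` is a nonzero-at-`𝔪` Galois and Hecke stable submodule of
  `J[p]` and `y ∈ ℤ[G]` kills `X`, then `ρ(y)` vanishes residually.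
-/

set_option autoImplicit false

noncomputable section

open CuspForm ModularCurve Polynomial Fermat.Agent.GalRep

namespace Fermat.Agent.S33aux

section Approx

variable {N p : ℕ} [NeZero N] {S : Finset ℕ}
  {J : Type*} [AddCommGroup J] [Module HeckeAlg J] [DistribMulAction GQ J]
  [SMulCommClass GQ HeckeAlg J]
  {T : Type} [CommRing T] [IsLocalRing T] [IsNoetherianRing T]

/-- On `J[p^m]`, `g + χ(g) g⁻¹` is given by a Hecke operator away from `S`. -/
theorem exists_heckeApprox (hJ : ESInput N p (↑S : Set ℕ) J) (hp : p.Prime)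
    (hpS : p ∈ S) (hNS : ∀ q : ℕ, q.Prime → q ∣ N → q ∈ S)
    {π : heckeAlgebra N 2 (↑S : Set ℕ) →+* T} {ρ : GaloisRepAdic T}
    (hfrob : HasFrobCharpoly π ρ) (m n' : ℕ) {ζ : AlgebraicClosure ℚ}
    (hζ : IsPrimitiveRoot ζ (p ^ m)) :
    ∃ t : GQ → HeckeAlgS (↑S : Set ℕ),
      (∀ g : GQ, actTors J p m g +
        algebraMap HeckeAlg (Module.End HeckeAlg (torsSub J p m))
          (cycExp p hp m hζ g : HeckeAlg) * actTors J p m g⁻¹ =
        algebraMap HeckeAlg (Module.End HeckeAlg (torsSub J p m)) (inclS (↑S : Set ℕ) (t g))) ∧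
      (∀ g : GQ, LinearMap.trace T ρ.V (ρ.ρ g) - π (evS N (↑S : Set ℕ) (t g)) ∈
        IsLocalRing.maximalIdeal T ^ n') := by
  classical
  have hpm0 : p ^ m ≠ 0 := pow_ne_zero _ hp.ne_zero
  have : NeZero (p ^ m) := ⟨hpm0⟩
  obtain ⟨L₁, hL₁fin, hL₁⟩ := ρ.isAdicContinuous n'
  obtain ⟨L₂, hL₂fin, hL₂⟩ := hJ.finiteLevel m
  set L₃ : IntermediateField ℚ (AlgebraicClosure ℚ) := IntermediateField.adjoin ℚ {ζ} with hL₃
  have hL₃fin : FiniteDimensional ℚ L₃ :=
    IntermediateField.adjoin.finiteDimensional ((Algebra.IsAlgebraic.isAlgebraic ζ).isIntegral)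
  set L : IntermediateField ℚ (AlgebraicClosure ℚ) := L₁ ⊔ L₂ ⊔ L₃ with hLdef
  have hle₁ : L₁ ≤ L := le_sup_left.trans le_sup_left
  have hle₂ : L₂ ≤ L := le_sup_right.trans le_sup_left
  have hle₃ : L₃ ≤ L := le_sup_right
  have hζL : ζ ∈ L := hle₃ (IntermediateField.mem_adjoin_simple_self ℚ ζ)
  choose ℓ hℓ hℓS A hA φ hφ k hk using fun h : GQ => frobeniusDensity L inferInstance h S
  have hnd : ∀ {ℓ : ℕ}, ℓ.Prime → ℓ ∉ S → ¬ ℓ ∣ N * p := by
    intro ℓ hℓ hℓS hdvd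
    rcases (Nat.Prime.dvd_mul hℓ).mp hdvd with h | h
    · exact hℓS (hNS ℓ hℓ h)
    · exact hℓS (((Nat.prime_dvd_prime_iff_eq hℓ hp).mp h) ▸ hpS)
  have hne : ∀ {ℓ : ℕ}, ℓ ∉ S → ℓ ≠ p := fun h h' => h (h' ▸ hpS)
  refine ⟨fun h => tracePoly S (ℓ h) (hℓ h) (hℓS h) (k h), fun h => ?_, fun h => ?_⟩
  · have hg : actTors J p m ((φ h) ^ (k h)) = actTors J p m h :=
      actTors_eq_of_agree hL₂ fun x hx => hk h x (hle₂ hx)
    have e := actTors_quadratic (N := N) (J := J) hJ.frobenius m (hℓ h) (hnd (hℓ h) (hℓS h))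
      (hA h) (hφ h) (k h)
    rw [hg] at e
    have hz : ζ ^ (ℓ h ^ k h) = ζ ^ (cycExp p hp m hζ h) := by
      rw [← frobenius_pow_zeta p hp m hζ (hℓ h) (hne (hℓS h)) (hA h) (hφ h), hk h ζ hζL,
        ← cycExp_spec]
    have hz' := algebraMap_eq_of_congr (J := J) (p := p) m (natCast_eq_of_pow_eq p hp m hζ hz)
    rw [Nat.cast_pow] at hz'
    rw [hz'] at e
    have e3 : inclS (↑S : Set ℕ) (tracePoly S (ℓ h) (hℓ h) (hℓS h) (k h)) =
        tk (heckeGen ⟨ℓ h, hℓ h⟩) ((ℓ h : ℕ) : HeckeAlg) (k h) :=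
      inclS_tracePoly _ _ _ _
    rw [← e3] at e
    have e4 : actTors J p m h * actTors J p m h⁻¹ = 1 := by
      rw [← map_mul, mul_inv_cancel, map_one]
    exact scalar_of_quadratic (P := HeckeAlg) (E := Module.End HeckeAlg (torsSub J p m))
      (actTors J p m h) (actTors J p m h⁻¹) _ _ e e4
  · have d := trace_sub_mem ρ hL₁ (σ := (φ h) ^ (k h)) (σ' := h)
      fun x hx => hk h x (hle₁ hx)
    rw [trace_frobenius_pow hfrob hNS (hℓ h) (hℓS h) (hA h) (hφ h)] at d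
    rw [← neg_sub]
    exact neg_mem d

/-- Element form of `exists_heckeApprox`. -/
theorem exists_heckeApprox' (hJ : ESInput N p (↑S : Set ℕ) J) (hp : p.Prime)
    (hpS : p ∈ S) (hNS : ∀ q : ℕ, q.Prime → q ∣ N → q ∈ S)
    {π : heckeAlgebra N 2 (↑S : Set ℕ) →+* T} {ρ : GaloisRepAdic T}
    (hfrob : HasFrobCharpoly π ρ) (m n' : ℕ) {ζ : AlgebraicClosure ℚ}
    (hζ : IsPrimitiveRoot ζ (p ^ m)) :
    ∃ t : GQ → HeckeAlgS (↑S : Set ℕ),
      (∀ g : GQ, ∀ x : J, p ^ m • x = 0 →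
        inclS (↑S : Set ℕ) (t g) • x = g • x + cycExp p hp m hζ g • (g⁻¹ • x)) ∧
      (∀ g : GQ, LinearMap.trace T ρ.V (ρ.ρ g) - π (evS N (↑S : Set ℕ) (t g)) ∈
        IsLocalRing.maximalIdeal T ^ n') := by
  obtain ⟨t, ht, ht'⟩ := exists_heckeApprox hJ hp hpS hNS hfrob m n' hζ
  refine ⟨t, fun g x hx => ?_, ht'⟩
  have h := congrArg (fun f : Module.End HeckeAlg (torsSub J p m) =>
    ((f (⟨x, hx⟩ : torsSub J p m) : torsSub J p m) : J)) (ht g)
  have e2 : ((algebraMap HeckeAlg (Module.End HeckeAlg (torsSub J p m))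
      (cycExp p hp m hζ g : HeckeAlg) * actTors J p m g⁻¹) (⟨x, hx⟩ : torsSub J p m) : J) =
      cycExp p hp m hζ g • (g⁻¹ • x) := by
    have : ((algebraMap HeckeAlg (Module.End HeckeAlg (torsSub J p m))
      (cycExp p hp m hζ g : HeckeAlg) * actTors J p m g⁻¹) (⟨x, hx⟩ : torsSub J p m) : J) =
      (cycExp p hp m hζ g : HeckeAlg) • (g⁻¹ • x) := rfl
    rw [this, Nat.cast_smul_eq_nsmul]
  have e1 : ((actTors J p m g (⟨x, hx⟩ : torsSub J p m) : torsSub J p m) : J) = g • x := rfl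
  have e3 : ((algebraMap HeckeAlg (Module.End HeckeAlg (torsSub J p m))
      (inclS (↑S : Set ℕ) (t g)) (⟨x, hx⟩ : torsSub J p m) : torsSub J p m) : J) =
      inclS (↑S : Set ℕ) (t g) • x := rfl
  rw [← e3, ← e1, ← e2]
  exact h.symm

end Approx

section Det

variable {N p : ℕ} [NeZero N] {S : Finset ℕ}
  {T : Type} [CommRing T] [IsLocalRing T] [IsNoetherianRing T]

/-- The determinant is the cyclotomic character. -/
theorem detIsCyclotomic {π : heckeAlgebra N 2 (↑S : Set ℕ) →+* T} {ρ : GaloisRepAdic T}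
    (hfrob : HasFrobCharpoly π ρ) (hp : p.Prime) (hpS : p ∈ S)
    (hpT : (p : T) ∈ IsLocalRing.maximalIdeal T)
    (hNS : ∀ q : ℕ, q.Prime → q ∣ N → q ∈ S) : ρ.DetIsCyclotomic p := by
  refine ⟨hpT, fun n σ a ha => ?_⟩
  have hpn0 : p ^ n ≠ 0 := pow_ne_zero _ hp.ne_zero
  have : NeZero (p ^ n) := ⟨hpn0⟩
  obtain ⟨ζ, hζ⟩ := HasEnoughRootsOfUnity.exists_primitiveRoot (AlgebraicClosure ℚ) (p ^ n)
  refine mem_of_forall_mem_sup_pow _ _ fun n' => ?_
  obtain ⟨L₁, hL₁fin, hL₁⟩ := ρ.isAdicContinuous n'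
  set L₃ : IntermediateField ℚ (AlgebraicClosure ℚ) := IntermediateField.adjoin ℚ {ζ} with hL₃
  have hL₃fin : FiniteDimensional ℚ L₃ :=
    IntermediateField.adjoin.finiteDimensional ((Algebra.IsAlgebraic.isAlgebraic ζ).isIntegral)
  obtain ⟨ℓ, hℓ, hℓS, B, hB, φ, hφ, k, hk⟩ := frobeniusDensity (L₁ ⊔ L₃) inferInstance σ S
  have hℓN : ¬ ℓ ∣ N := fun h => hℓS (hNS ℓ hℓ h)
  have hℓp : ℓ ≠ p := fun h => hℓS (h ▸ hpS)
  have hφζ : ζ ^ (ℓ ^ k) = ζ ^ a := by
    rw [← frobenius_pow_zeta p hp n hζ hℓ hℓp hB hφ k,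
      hk ζ ((le_sup_right : L₃ ≤ L₁ ⊔ L₃) (IntermediateField.mem_adjoin_simple_self ℚ ζ)),
      ha ζ hζ.pow_eq_one]
  have hcong : ((ℓ ^ k : ℕ) : ZMod (p ^ n)) = ((a : ℕ) : ZMod (p ^ n)) :=
    natCast_eq_of_pow_eq p hp n hζ hφζ
  have hcongT : ((ℓ : T) ^ k) - a ∈ Ideal.span {((p ^ n : ℕ) : T)} := by
    have h1 : ((p ^ n : ℕ) : ℤ) ∣ ((ℓ ^ k : ℕ) : ℤ) - ((a : ℕ) : ℤ) := by
      rw [← ZMod.intCast_zmod_eq_zero_iff_dvd]
      push_cast
      have := sub_eq_zero.mpr hcong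
      push_cast at this
      exact this
    obtain ⟨c, hc⟩ := h1
    have h2 := congrArg (Int.cast : ℤ → T) hc
    push_cast at h2
    rw [h2]
    push_cast
    exact Ideal.mul_mem_right _ _ (Ideal.mem_span_singleton_self _)
  have hdetφ : LinearMap.det (ρ.ρ φ) = (ℓ : T) := by
    have h1 := hfrob ℓ hℓ hℓN (by simpa using hℓS) B hB φ hφ
    have h2 := LinearMap.det_eq_sign_charpoly_coeff (ρ.ρ φ)
    rw [h1, ρ.finrank_eq] at h2
    simpa using h2
  have hd := S34aux.det_sub_mem ρ hL₁ (σ := σ) (σ' := φ ^ k)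
    fun x hx => (hk x ((le_sup_left : L₁ ≤ L₁ ⊔ L₃) hx)).symm
  rw [map_pow, map_pow, hdetφ] at hd
  have : LinearMap.det (ρ.ρ σ) - a = ((ℓ : T) ^ k - a) + (LinearMap.det (ρ.ρ σ) - (ℓ : T) ^ k) := by
    ring
  rw [this]
  exact Submodule.add_mem_sup hcongT hd

end Det

section ModP

variable {N p : ℕ} [NeZero N] {S : Finset ℕ}
  {J : Type*} [AddCommGroup J] [Module HeckeAlg J] [DistribMulAction GQ J]
  [SMulCommClass GQ HeckeAlg J]
  {T : Type} [CommRing T] [IsLocalRing T] [IsNoetherianRing T]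

/-- A subgroup stable under the Hecke operators away from `S`, as a module. -/
abbrev heckeModuleS (S : Set ℕ) (X : AddSubgroup J)
    (hH : ∀ t : HeckeAlgS S, ∀ x ∈ X, inclS S t • x ∈ X) : Module (HeckeAlgS S) X where
  smul t x := ⟨inclS S t • (x : J), hH t x x.2⟩
  one_smul x := Subtype.ext (by
    change inclS S 1 • (x : J) = x
    rw [map_one, one_smul])
  mul_smul a b x := Subtype.ext (by
    change inclS S (a * b) • (x : J) = inclS S a • (inclS S b • (x : J))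
    rw [map_mul, mul_smul])
  smul_zero a := Subtype.ext (smul_zero (inclS S a))
  smul_add a x y := Subtype.ext (smul_add (inclS S a) (x : J) (y : J))
  add_smul a b x := Subtype.ext (by
    change inclS S (a + b) • (x : J) = inclS S a • (x : J) + inclS S b • (x : J)
    rw [map_add, add_smul])
  zero_smul x := Subtype.ext (by
    change inclS S 0 • (x : J) = 0
    rw [map_zero, zero_smul])

/-- **Residual transfer principle** : `X ⊆ J[p^m]` Hecke and Galois stable, not killed by any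
Hecke operator `s` (away from `S`) with `π(s)` a unit.  If `∑ c_i g_i` kills `X` then
`∑ c_i ρ(g_i)` vanishes modulo the maximal ideal. -/
theorem residual_transfer (hJ : ESInput N p (↑S : Set ℕ) J) (hp : p.Prime)
    (hpS : p ∈ S) (hNS : ∀ q : ℕ, q.Prime → q ∣ N → q ∈ S)
    {π : heckeAlgebra N 2 (↑S : Set ℕ) →+* T} {ρ : GaloisRepAdic T}
    (hfrob : HasFrobCharpoly π ρ) (habs : ρ.residual.IsAbsolutelyIrreducible) {m : ℕ}
    (X : AddSubgroup J) (hG : ∀ g : GQ, ∀ x ∈ X, g • x ∈ X)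
    (hH : ∀ t : HeckeAlgS (↑S : Set ℕ), ∀ x ∈ X, inclS (↑S : Set ℕ) t • x ∈ X)
    (hXp : ∀ x ∈ X, p ^ m • x = 0)
    (hX : ∀ s : HeckeAlgS (↑S : Set ℕ), IsUnit (π (evS N (↑S : Set ℕ) s)) →
      ∃ x ∈ X, inclS (↑S : Set ℕ) s • x ≠ 0)
    {ι : Type*} (I : Finset ι) (c : ι → ℤ) (g : ι → GQ)
    (h0 : ∀ x ∈ X, ∑ i ∈ I, c i • (g i • x) = 0) (v : ρ.V) :
    ∑ i ∈ I, c i • ρ.ρ (g i) v ∈ (IsLocalRing.maximalIdeal T) • (⊤ : Submodule T ρ.V) := by
  classical
  obtain ⟨g₀, g₁, g₂, hu⟩ := exists_isUnit_trace_commutator ρ habs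
  have : NeZero (p ^ m) := ⟨pow_ne_zero _ hp.ne_zero⟩
  obtain ⟨ζ, hζ⟩ := HasEnoughRootsOfUnity.exists_primitiveRoot (AlgebraicClosure ℚ) (p ^ m)
  obtain ⟨t, ht, ht'⟩ := exists_heckeApprox' hJ hp hpS hNS hfrob m 1 hζ
  rw [pow_one] at ht'
  letI : Module (HeckeAlgS (↑S : Set ℕ)) X := heckeModuleS (↑S : Set ℕ) X hH
  have hsm : ∀ (t : HeckeAlgS (↑S : Set ℕ)) (x : X),
      ((t • x : X) : J) = inclS (↑S : Set ℕ) t • (x : J) := fun _ _ => rfl
  let a : GQ →* Module.End (HeckeAlgS (↑S : Set ℕ)) X :=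
    { toFun := fun g =>
        { toFun := fun x => ⟨g • (x : J), hG g x x.2⟩
          map_add' := fun x y => Subtype.ext (smul_add g (x : J) (y : J))
          map_smul' := fun r x => Subtype.ext (smul_comm g (inclS (↑S : Set ℕ) r) (x : J)) }
      map_one' := LinearMap.ext fun x => Subtype.ext (one_smul GQ (x : J))
      map_mul' := fun g h => LinearMap.ext fun x => Subtype.ext (mul_smul g h (x : J)) }
  have hac : ∀ (g : GQ) (x : X), ((a g x : X) : J) = g • (x : J) := fun _ _ => rfl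
  set s : GQ → Module.End (HeckeAlgS (↑S : Set ℕ)) X := fun h =>
    algebraMap (HeckeAlgS (↑S : Set ℕ)) (Module.End (HeckeAlgS (↑S : Set ℕ)) X)
      (cycExp p hp m hζ h : HeckeAlgS (↑S : Set ℕ)) * a h⁻¹ with hs
  have hcast : ∀ (n : ℕ) (x : X), ((n : HeckeAlgS (↑S : Set ℕ)) • x) = n • x :=
    fun n x => Nat.cast_smul_eq_nsmul _ _ _
  have hscal : ∀ {a b : ℕ}, ((a : ℕ) : ZMod (p ^ m)) = b →
      algebraMap (HeckeAlgS (↑S : Set ℕ)) (Module.End (HeckeAlgS (↑S : Set ℕ)) X)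
        (a : HeckeAlgS (↑S : Set ℕ)) =
        algebraMap (HeckeAlgS (↑S : Set ℕ)) (Module.End (HeckeAlgS (↑S : Set ℕ)) X)
          (b : HeckeAlgS (↑S : Set ℕ)) := by
    intro a b hab
    refine LinearMap.ext fun x => Subtype.ext ?_
    rw [Module.algebraMap_end_apply, Module.algebraMap_end_apply, hcast, hcast]
    have h1 : ((p ^ m : ℕ) : ℤ) ∣ (a : ℤ) - (b : ℤ) := by
      rw [← ZMod.intCast_zmod_eq_zero_iff_dvd]
      push_cast
      exact sub_eq_zero.mpr hab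
    obtain ⟨e, he⟩ := h1
    have h2 : (a : ℤ) • (x : J) - (b : ℤ) • (x : J) = 0 := by
      rw [← sub_smul, he, mul_comm, mul_smul, natCast_zsmul, hXp _ x.2, smul_zero]
    rw [natCast_zsmul, natCast_zsmul] at h2
    exact sub_eq_zero.mp h2
  have hsmul : ∀ g h, s (g * h) = s h * s g := by
    intro g h
    have h1 := hscal (cycExp_mul p hp m hζ g h)
    rw [Nat.cast_mul, map_mul] at h1
    simp only [hs]
    rw [h1, mul_inv_rev, map_mul]
    rw [mul_assoc, mul_assoc, ← mul_assoc (a h⁻¹), ← Algebra.commutes _ (a h⁻¹), mul_assoc]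
  have hat : ∀ h, a h + s h = algebraMap (HeckeAlgS (↑S : Set ℕ))
      (Module.End (HeckeAlgS (↑S : Set ℕ)) X) (t h) := by
    intro h
    refine LinearMap.ext fun x => Subtype.ext ?_
    have e := ht h x (hXp _ x.2)
    have e1 : (s h x : X) = (cycExp p hp m hζ h : HeckeAlgS (↑S : Set ℕ)) • (a h⁻¹ x) := rfl
    rw [LinearMap.add_apply, e1, hcast, AddSubgroup.coe_add, AddSubgroup.coe_nsmul, hac, hac,
      Module.algebraMap_end_apply, hsm, e]
  -- trace vanishes mod `𝔪`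
  have htrh : ∀ h : GQ, ∑ i ∈ I, c i • LinearMap.trace T ρ.V (ρ.ρ (g i * h)) ∈
      IsLocalRing.maximalIdeal T := by
    intro h
    have h0' : ∑ i ∈ I, c i • a (g i * h) = 0 := by
      refine LinearMap.ext fun x => Subtype.ext ?_
      have := h0 (h • (x : J)) (hG h x x.2)
      rw [LinearMap.sum_apply, LinearMap.zero_apply, AddSubgroup.coe_zero, ← this,
        ← AddSubgroup.subtype_apply, map_sum]
      refine Finset.sum_congr rfl fun i _ => ?_
      rw [LinearMap.smul_apply, map_zsmul, AddSubgroup.subtype_apply, hac, ← mul_smul (g i)]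
    have hkey := star_key a s t hsmul hat I c
      (fun i => g i * h) h0' g₀ g₁ g₂
    set u : HeckeAlgS (↑S : Set ℕ) := (∑ i ∈ I, c i • t (g i * h)) *
      (t (g₀ * (g₁ * g₂)) - t (g₀ * (g₂ * g₁))) with hu'
    have hnu : ¬ IsUnit (π (evS N (↑S : Set ℕ) u)) := by
      intro hun
      obtain ⟨x, hxX, hx0⟩ := hX u hun
      apply hx0
      have h1 := congrArg (fun f : Module.End (HeckeAlgS (↑S : Set ℕ)) X =>
        ((f (⟨x, hxX⟩ : X) : X) : J)) hkey
      exact h1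
    have hmem : π (evS N (↑S : Set ℕ) u) ∈ IsLocalRing.maximalIdeal T :=
      (IsLocalRing.mem_maximalIdeal _).mpr hnu
    have hq : ∀ h, IsLocalRing.residue T (LinearMap.trace T ρ.V (ρ.ρ h)) =
        IsLocalRing.residue T (π (evS N (↑S : Set ℕ) (t h))) := by
      intro h
      have := (IsLocalRing.residue_eq_zero_iff _).mpr (ht' h)
      rwa [map_sub, sub_eq_zero] at this
    have h3 := (IsLocalRing.residue_eq_zero_iff _).mpr hmem
    rw [hu', map_mul, map_mul, map_mul, map_sub, map_sub, map_sub, map_sum, map_sum, map_sum,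
      ← hq, ← hq, ← map_sub] at h3
    rcases mul_eq_zero.mp h3 with h4 | h4
    · rw [← IsLocalRing.residue_eq_zero_iff, map_sum, ← h4]
      refine Finset.sum_congr rfl fun i _ => ?_
      rw [map_zsmul, map_zsmul, map_zsmul, map_zsmul, hq]
    · exact absurd ((IsLocalRing.residue_eq_zero_iff _).mp h4)
        (fun h5 => (IsLocalRing.mem_maximalIdeal _).mp h5 hu)
  set F : Module.End T ρ.V := ∑ i ∈ I, c i • ρ.ρ (g i) with hF
  have htrX : ∀ Y : Module.End T ρ.V, LinearMap.trace T ρ.V (F * Y) ∈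
      IsLocalRing.maximalIdeal T := by
    intro Y
    have hY : Y ∈ Submodule.span T (Set.range ρ.ρ) := by rw [span_range_eq_top ρ habs]; trivial
    induction hY using Submodule.span_induction with
    | mem x hx =>
      obtain ⟨h, rfl⟩ := hx
      have h3 : LinearMap.trace T ρ.V (F * ρ.ρ h) =
          ∑ i ∈ I, c i • LinearMap.trace T ρ.V (ρ.ρ (g i * h)) := by
        rw [hF, Finset.sum_mul, map_sum]
        refine Finset.sum_congr rfl fun i _ => ?_
        rw [smul_mul_assoc, map_zsmul, map_mul ρ.ρ]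
      rw [h3]
      exact htrh h
    | zero => simp
    | add x y _ _ hx hy => rw [mul_add, map_add]; exact Ideal.add_mem _ hx hy
    | smul c x _ hx =>
      rw [mul_smul_comm, map_smul, smul_eq_mul]
      exact Ideal.mul_mem_left _ _ hx
  have h4 := mem_smul_top_of_trace _ F htrX v
  have h5 : F v = ∑ i ∈ I, c i • ρ.ρ (g i) v := by
    rw [hF, LinearMap.sum_apply]
    refine Finset.sum_congr rfl fun g _ => ?_
    rw [LinearMap.smul_apply]
  rwa [h5] at h4

end ModP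

end Fermat.Agent.S33aux

end
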