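import Fermat.Agent.TriVal.GaussDV
import Fermat.Agent.TriVal.Base

/-!
# Series with coefficients in a subfield: normal forms and best approximation by constants
-/

set_option autoImplicit false

noncomputable section

open ModularCurve HahnSeries Module
open Fermat.Agent.GaussVal Fermat.Agent.TriVal

namespace Fermat.Agent.S33aux

section Rat

variable {K : Type*} [Field K] {L : Subfield K} {N : ℕ}

/-- An element of the function field of `X₀(N)` with coefficients in `L` is a quotient of bounded
series with coefficients in `L`. -/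
theorem mem_ratSer_of_coeff {x : LaurentSeries K} (hx : x ∈ modularFunctionFieldFullC K N)
    (h : ∀ n, x.coeff n ∈ L) : x ∈ ratSer L := by
  obtain ⟨y, hy⟩ := (mem_range_bc_iff (L := L) (K := K) (N := N) (x := ⟨x, hx⟩)).mpr
    (fun n => ⟨⟨x.coeff n, h n⟩, rfl⟩)
  have hxy : x = coeffMap (algebraMap L K) (y : LaurentSeries L) := by
    have := congrArg (fun z : modularFunctionFieldFullC K N => (z : LaurentSeries K)) hy
    exact this.symm
  rw [hxy]
  have hmem : (y : LaurentSeries L) ∈ IntermediateField.adjoin L (divisorExpansionsC L N) := y.2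
  generalize (y : LaurentSeries L) = Y at hmem
  induction hmem using IntermediateField.adjoin_induction with
  | mem z hz =>
    obtain ⟨d, hne, hd, rfl⟩ := hz
    rw [coeffMap_qExpand, coeffMap_jqModC]
    exact jqd_mem_ratSer d
  | algebraMap c =>
    rw [coeffMap_algebraMap']
    exact algebraMap_mem_ratSer c.2
  | add x y _ _ hx hy => rw [map_add]; exact add_mem hx hy
  | mul x y _ _ hx hy => rw [map_mul]; exact mul_mem hx hy
  | inv x _ hx => rw [map_inv₀]; exact inv_mem hx

end Rat

section Approx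

variable {K : Type*} [Field K] {L : Subfield K} {A : ValuationSubring K} {ℓ : ℕ}
  [CharZero K] [Algebra.IsAlgebraic ℚ K]

/-- best approximation of an element of `ratSer L` by a constant of `L` -/
theorem exists_best (hℓ : ℓ.Prime) (hA : A.LiesOverPrime ℓ) {y : LaurentSeries K}
    (hy : y ∈ ratSer L) (hc : ∀ c : K, y ≠ algebraMap K (LaurentSeries K) c) :
    ∃ (a s : K) (Y₁ Y₂ : LaurentSeries A), a ∈ L ∧ s ∈ L ∧ s ≠ 0 ∧ redS A Y₁ ≠ 0 ∧
      redS A Y₂ ≠ 0 ∧ (∀ c, redS A Y₁ ≠ algebraMap (IsLocalRing.ResidueField A)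
        (LaurentSeries (IsLocalRing.ResidueField A)) c * redS A Y₂) ∧
      (y - algebraMap K (LaurentSeries K) a) * incl A Y₂ =
        algebraMap K (LaurentSeries K) s * incl A Y₁ := by
  obtain ⟨a, ha, b, hb, hb0, hab⟩ := hy
  obtain ⟨d, Z, n₀, hd0, hdZ, hZ, hZ1, hd⟩ :=
    (scalable_of_mem_intAlg hℓ hA hb.1 hb0).exists_primitive
  have hdL : d ∈ L := hd ▸ hb.2 n₀
  set α : K := a.coeff n₀ / d with hα
  have hαL : α ∈ L := div_mem (ha.2 n₀) hdL
  set w : LaurentSeries K := a - algebraMap K (LaurentSeries K) α * b with hw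
  have hyw : (y - algebraMap K (LaurentSeries K) α) * b = w := by
    rw [sub_mul, hab]
  have hw0 : w ≠ 0 := by
    rw [← hyw]
    exact mul_ne_zero (sub_ne_zero.mpr (hc α)) hb0
  have hwA : w ∈ intAlg K := sub_mem ha.1 (mul_mem (Subalgebra.algebraMap_mem _ _) hb.1)
  have hwL : ∀ n, w.coeff n ∈ L := by
    intro n
    rw [hw, HahnSeries.coeff_sub, coeff_algebraMap_mul]
    exact sub_mem (ha.2 n) (mul_mem hαL (hb.2 n))
  have hwn₀ : w.coeff n₀ = 0 := by
    rw [hw, HahnSeries.coeff_sub, coeff_algebraMap_mul, hα, ← hd, div_mul_cancel₀ _ hd0, sub_self]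
  obtain ⟨s, W, n₁, hs0, hsW, hW, hW1, hs⟩ := (scalable_of_mem_intAlg hℓ hA hwA hw0).exists_primitive
  have hsL : s ∈ L := hs ▸ hwL n₁
  have hdF : algebraMap K (LaurentSeries K) d ≠ 0 :=
    (map_ne_zero_iff _ (algebraMap K (LaurentSeries K)).injective).mpr hd0
  refine ⟨α, s / d, W, Z, hαL, div_mem hsL hdL, div_ne_zero hs0 hd0, hW, hZ, ?_, ?_⟩
  · intro c h
    have h1 := congrArg (fun z : LaurentSeries (IsLocalRing.ResidueField A) => z.coeff n₀) h
    simp only [coeff_algebraMap_mul, coeffMap_coeff, hZ1, map_one, mul_one] at h1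
    have h2 : W.coeff n₀ = 0 := by
      apply Subtype.ext
      have h3 := congrArg (fun z : LaurentSeries K => z.coeff n₀) hsW
      simp only [coeff_algebraMap_mul, coeffMap_coeff, hwn₀] at h3
      exact (mul_eq_zero.mp h3).resolve_left hs0
    rw [h2, map_zero] at h1
    rw [← h1, map_zero, zero_mul] at h
    exact hW h
  · apply mul_left_cancel₀ hdF
    rw [map_div₀ (algebraMap K (LaurentSeries K)) s d]
    calc algebraMap K (LaurentSeries K) d * ((y - algebraMap K (LaurentSeries K) α) * incl A Z)
        = (y - algebraMap K (LaurentSeries K) α) *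
            (algebraMap K (LaurentSeries K) d * incl A Z) := by ring
      _ = algebraMap K (LaurentSeries K) s * incl A W := by rw [hdZ, hyw, hsW]
      _ = algebraMap K (LaurentSeries K) d * (algebraMap K (LaurentSeries K) s /
          algebraMap K (LaurentSeries K) d * incl A W) := by field_simp

end Approx

section Lead

variable {K : Type*} [Field K]

/-- `u ^ n = 1` and leading coefficient `1` imply `u = 1`. -/
theorem eq_of_pow_eq_of_leadingCoeff {x y : LaurentSeries K} {n : ℕ} (hn : n ≠ 0)
    [IsAlgClosed K] (hx : x ≠ 0) (h : x ^ n = y ^ n) (hl : x.leadingCoeff = y.leadingCoeff) :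
    x = y := by
  have hy : y ≠ 0 := by
    rintro rfl
    rw [zero_pow hn] at h
    exact hx (pow_eq_zero_iff hn |>.mp h)
  set u := x / y with hu
  have hun : u ^ n = 1 := by rw [hu, div_pow, h, div_self (pow_ne_zero _ hy)]
  have hint : IsIntegral K u := by
    refine ⟨Polynomial.X ^ n - 1, Polynomial.monic_X_pow_sub_C (1 : K) hn, ?_⟩
    simp [hun]
  obtain ⟨c, hc⟩ : ∃ c : K, algebraMap K (LaurentSeries K) c = u := by
    obtain ⟨c, hc⟩ := minpoly.mem_range_of_degree_eq_one K u
      (IsAlgClosed.degree_eq_one_of_irreducible K (minpoly.irreducible hint))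
    exact ⟨c, hc⟩
  have hxy : x = algebraMap K (LaurentSeries K) c * y := by
    rw [hc, hu, div_mul_cancel₀ _ hy]
  have hc1 : c = 1 := by
    have hc0 : c ≠ 0 := by
      rintro rfl
      rw [map_zero, zero_mul] at hxy
      exact hx hxy
    have h1 : x.leadingCoeff = c * y.leadingCoeff := by
      rw [hxy, HahnSeries.leadingCoeff_mul, algebraMap_laurentSeries_eq_single,
        HahnSeries.leadingCoeff_of_single]
    rw [hl] at h1
    have h2 : y.leadingCoeff ≠ 0 := HahnSeries.leadingCoeff_ne_zero.mpr hy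
    exact (mul_right_cancel₀ h2 (by rw [one_mul]; exact h1)).symm
  rw [hxy, hc1, map_one, one_mul]

end Lead

end Fermat.Agent.S33aux
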