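import Fermat.Agent.RedInj.Newton

/-!
# S33, good reduction at `p`: the interface

* `DiscSub R e` : a "discretely valued" subfield `FH ⊆ F` over `KH ⊆ K` with the full residue
  field (fixed fields of an open subgroup of index `e` of an inertia group);
* `HeckeP R p` : the operator `T_p` on functions near `1`.
-/

set_option autoImplicit false

open Module

namespace Fermat.Agent.S33aux

open Fermat.Agent.RedInj

variable {K F k F' : Type*} [Field K] [Field F] [Field k] [Field F'] [Algebra K F] [Algebra k F']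

/-- A discretely valued subfield `FH ⊆ F` over `KH ⊆ K` with the same residue fields. -/
structure DiscSub (R : RedField K F k F') (p e : ℕ) where
  KH : Subfield K
  FH : Subfield F
  algebraMap_mem : ∀ c ∈ KH, algebraMap K F c ∈ FH
  /-- the value group of `KH` is contained in `(1/e) ℤ` -/
  val : ∀ c ∈ KH, c ≠ 0 → ∃ n : ℤ, ((p : K) ^ n)⁻¹ * c ^ e ∈ R.A ∧ (p : K) ^ n * (c ^ e)⁻¹ ∈ R.A
  /-- scaling inside `FH` -/
  scale : ∀ f ∈ FH, f ≠ 0 → ∃ c ∈ KH, c ≠ 0 ∧ c • f ∈ R.O ∧ R.red (c • f) ≠ 0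
  /-- best approximation by constants inside `FH` -/
  approx : ∀ f ∈ FH, (∀ c : K, f ≠ algebraMap K F c) → ∃ a ∈ KH, ∃ s ∈ KH, ∃ η ∈ FH,
    s ≠ 0 ∧ η ∈ R.O ∧ (∀ c : k, R.red η ≠ algebraMap k F' c) ∧ f = algebraMap K F a + s • η
  /-- the residue fields are the full ones -/
  surj : ∀ y : F', ∃ x ∈ FH, x ∈ R.O ∧ R.red x = y
  surj' : ∀ y : k, ∃ c ∈ KH, c ∈ R.A ∧ R.res c = y
  /-- descent of `p`-th powers -/
  pow : ∀ f ∈ FH, f ≠ 0 → ∀ (c : K) (h : F), f = c • h ^ p → ∃ c' ∈ KH, ∃ h' ∈ FH, f = c' • h' ^ p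

/-- The operator `T_p` on functions. -/
structure HeckeP (R : RedField K F k F') (p : ℕ) where
  T : F →* F
  V : F' →ₐ[k] F'
  σ : F' ≃+* F'
  V_σ : ∀ x : F', V (σ x) = x ^ p
  T_const : ∀ c : K, T (algebraMap K F c) = algebraMap K F (c ^ (p + 1))
  T_ne_zero : ∀ f : F, f ≠ 0 → T f ≠ 0
  /-- `T (1 + s x) = 1 + s x'` with `x' ≡ V x` -/
  T_near : ∀ s ∈ R.A, R.res s = 0 → ∀ x ∈ R.O, ∃ x' ∈ R.O, T (1 + s • x) = 1 + s • x' ∧
    R.red x' = V (R.red x)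
  /-- `V` multiplies the pole orders by `p` -/
  V_const : ∀ r : ℕ, 0 < r → ∀ y : F', (∃ c : k, y - (V^[r]) y = algebraMap k F' c) →
    ∃ c : k, y = algebraMap k F' c

/-
TARGET STATEMENTS (`p` prime, `K`, `k` algebraically closed, `(p : k) = 0`, `(p : K) ≠ 0`,
`λ ^ (p - 1) = -p`, `R.Arch`):

(LADDER) theorem ladder (D : DiscSub R p e) (he : 0 < e) (H : HeckeP R p)
  (hT : ∀ f ∈ D.FH, H.T f ∈ D.FH) {f : F} (hf : f ∈ D.FH) (hf0 : f ≠ 0)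
  (h0 : ∃ c : K, c ≠ 0 ∧ c • f ∈ R.O ∧ ∃ g : F', g ≠ 0 ∧ R.red (c • f) = g ^ p)
  {r : ℕ} (hr : 0 < r) (hrel : ∃ c : K, ∃ h : F, f = (H.T^[r] f) * c • h ^ p) :
  ∃ c : K, c ≠ 0 ∧ ∃ g : F, g ≠ 0 ∧ ∃ w ∈ R.O, f = c • g ^ p * (1 + (λ ^ p) • w)

(SS) theorem supersingular (D : DiscSub R p (p - 1)) (H : HeckeP R p)
  (hT : ∀ f ∈ D.FH, H.T f ∈ D.FH) {f : F} (hf : f ∈ D.FH) (hf0 : f ≠ 0)
  (h0 : ∃ c : K, c ≠ 0 ∧ c • f ∈ R.O ∧ ∃ g : F', g ≠ 0 ∧ R.red (c • f) = g ^ p)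
  (hrel : ∃ c : K, ∃ h : F, H.T f = c • h ^ p) :
  ∃ c : K, c ≠ 0 ∧ ∃ g : F, g ≠ 0 ∧ ∃ w ∈ R.O, ∃ ε ∈ R.A, R.res ε = 0 ∧
    f = c • g ^ p * (1 + (λ ^ p * ε) • w)
-/

end Fermat.Agent.S33aux
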