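import Fermat.Agent.S33.HeckeEq
import Fermat.Agent.S33.HeckeInst
import Fermat.Agent.Cofaith.Finite
import Fermat.Agent.TEll.Inputs

/-!
# The geometric input at `p` for `J₀(m p)`
-/

set_option autoImplicit false
set_option linter.unusedSectionVars false
set_option linter.style.haveILetI false

noncomputable section

open ModularCurve AlgebraicCurve IntermediateField
open Fermat.Agent.GaussVal Fermat.Agent.GalRep Fermat.Agent.FF Fermat.Agent.TEll
open scoped Fermat.Agent.GaussVal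
open Fermat.Agent.TwoGauss (wq mkData twoComp wq_wq)
open Fermat.Agent.QX4 (wJ wJ_apply wJ_wJ wJ_galois Compat compat_mkData pushA)
open Fermat.Agent.S34aux (pullN pushN pullN_smul pushN_smul pushN_pullN degN)

namespace Fermat.Agent.S33aux

/-- the algebraic numbers -/
local notation "𝕂" => AlgebraicClosure ℚ

section Generic

variable {G J : Type*} [Monoid G] [AddCommGroup J] [DistribMulAction G J]

theorem nsmul_smul_comm (g : G) (n : ℕ) (x : J) : n • (g • x) = g • (n • x) :=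
  (smul_comm g n x).symm

theorem nsmul_smul_eq_zero (g : G) {n : ℕ} {x : J} (h : n • x = 0) : n • (g • x) = 0 := by
  rw [nsmul_smul_comm, h, smul_zero]

end Generic

/-- The operator `T_p` on `J₀(m)`. -/
def TJ {m p : ℕ} [NeZero m] [NeZero p] (hp : p.Prime) (hm : ¬ p ∣ m) : JZero m →+ JZero m :=
  (pushN m p).comp ((wJ hp hm).comp (pullN m p))

theorem TJ_apply {m p : ℕ} [NeZero m] [NeZero p] (hp : p.Prime) (hm : ¬ p ∣ m) (y : JZero m) :
    TJ hp hm y = pushN m p (wJ hp hm (pullN m p y)) := rfl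

theorem isKummer_TJ {m p : ℕ} [NeZero m] [NeZero p] (hp : p.Prime) (hm : ¬ p ∣ m) {n : ℕ}
    {y : JZero m} {f : modularFunctionFieldBar m} (hy : IsKummer n y f) :
    IsKummer n (TJ hp hm y) (TEll 𝕂 m p f) := by
  have h1 := isKummer_pushN (m := m) (p := p)
    (isKummer_wJ hp hm (isKummer_pullN (m := m) (p := p) hy))
  rw [TwoGauss.wq_alpha] at h1
  exact h1

section Main

variable {A : ValuationSubring (AlgebraicClosure ℚ)} {p m : ℕ} [NeZero m] [NeZero p]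
  [Fact p.Prime] [CharP (IsLocalRing.ResidueField A) p]
  [IsAlgClosed (IsLocalRing.ResidueField A)] [PerfectRing (IsLocalRing.ResidueField A) p]
  (hp : p.Prime) (hm : ¬ p ∣ m) (hA : A.LiesOverPrime p)
  (H3 : S18aux.DegThm (IsLocalRing.ResidueField A) m)
  (H2 : genusFF (AlgebraicClosure ℚ) (modularFunctionFieldBar m) ≤
    genusFF (IsLocalRing.ResidueField A) (modularFunctionFieldFullC (IsLocalRing.ResidueField A) m))

/-- the residue field -/
local notation "κ" => IsLocalRing.ResidueField A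

/-- The statement at level `m`: inertia acts by the cyclotomic character. -/
def LevelM : Prop :=
  ∀ Y : AddSubgroup (JZero m), (Y : Set (JZero m)).Finite → (∀ y ∈ Y, p • y = 0) →
    (∀ τ ∈ A.inertiaSubgroupIn ℚ, ∀ y ∈ Y, τ • y ∈ Y) → (∀ y ∈ Y, TJ hp hm y ∈ Y) →
    (∀ τ ∈ A.inertiaSubgroupIn ℚ, ∀ a : ℕ, IsCycExp p τ a → ∀ y ∈ Y,
      τ • (τ • y) + a • y = (1 + a) • (τ • y)) →
    (∀ y ∈ Y, ∀ f, IsKummer p y f → ∃ c : 𝕂, c ≠ 0 ∧ c • f ∈ (RF hp hA H3).O ∧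
      ∃ g : modularFunctionFieldFullC κ m, g ≠ 0 ∧ (RF hp hA H3).red (c • f) = g ^ p) →
    ∀ τ ∈ A.inertiaSubgroupIn ℚ, ∀ a : ℕ, IsCycExp p τ a → ∀ y ∈ Y, τ • y = a • y

include hp hm in
theorem eq_zero_of_pullN {y : JZero m} (hy : p • y = 0) (h : pullN m p y = 0) : y = 0 := by
  have h1 := pushN_pullN m p y
  have h2 : degN m p = p + 1 := finrankAlong_alpha m p hp hm
  rw [h, map_zero, h2, add_smul, hy, zero_add, one_smul] at h1
  exact h1.symm

/-- The Kummer functions of classes pulled back into `W`. -/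
theorem exists_red_pow_of_pull {y : JZero m} (hy : p • y = 0)
    (hW : pullN m p y ∈ (mkData hp hm hA H3 H2).WSub) {f : modularFunctionFieldBar m}
    (hf : IsKummer p y f) : ∃ c : 𝕂, c ≠ 0 ∧ c • f ∈ (RF hp hA H3).O ∧
      ∃ g : modularFunctionFieldFullC κ m, g ≠ 0 ∧ (RF hp hA H3).red (c • f) = g ^ p := by
  haveI : IsFF 𝕂 (modularFunctionFieldBar (m * p)) := TwoGauss.isFF_m
  set D := mkData hp hm hA H3 H2 with hD
  obtain ⟨c, hc0, hcO, hcr⟩ := (compat_mkData hp hm hA H3 H2).scale hA f hf.ne_zero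
  refine ⟨c, hc0, hcO, ?_⟩
  obtain ⟨f', hf', hf'O, hf'1⟩ := TwoComp.Data.exists_near_of_mem_WSub (D := D) hp hW
    (by rw [← map_nsmul, hy, map_zero])
  have h1 := (isKummer_pullN (m := m) (p := p) hf).div hf'
  rw [sub_self] at h1
  obtain ⟨u, hu, hu'⟩ := h1.exists_pow_of_zero hp.ne_zero
  obtain ⟨d, hd⟩ := IsAlgClosed.exists_pow_nat_eq c hp.pos
  have hf'i := D.inv_mem_O₁ hf'O (by rw [hf'1]; exact one_ne_zero)
  have hαO : D.α (c • f) ∈ D.O₁ := D.α_mem₁ _ hcO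
  have hpow : (algebraMap 𝕂 (modularFunctionFieldBar (m * p)) d * u) ^ p =
      D.α (c • f) * f'⁻¹ := by
    rw [mul_pow, ← map_pow, hd, ← hu']
    have e : D.α (c • f) = algebraMap 𝕂 (modularFunctionFieldBar (m * p)) c *
        heckeAlphaBar 𝕂 m p f := by
      rw [Algebra.smul_def, map_mul, AlgHom.commutes]
      rfl
    rw [e, div_eq_mul_inv, mul_assoc]
  have hmem : algebraMap 𝕂 (modularFunctionFieldBar (m * p)) d * u ∈ D.O₁ := by
    have h2 : (algebraMap 𝕂 (modularFunctionFieldBar (m * p)) d * u) ^ p ∈ D.O₁ := by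
      rw [hpow]; exact D.O₁.mul_mem _ _ hαO hf'i
    rw [← ValuationSubring.valuation_le_one_iff, map_pow] at h2
    rw [← ValuationSubring.valuation_le_one_iff]
    exact (pow_le_one_iff_of_nonneg zero_le hp.ne_zero).mp h2
  have hinv1 : D.ρ₁ ⟨f'⁻¹, hf'i⟩ = 1 := by
    have h3 : D.ρ₁ ⟨f'⁻¹, hf'i⟩ * D.ρ₁ ⟨f', hf'O⟩ = 1 := by
      rw [← map_mul, ← map_one D.ρ₁]
      exact congrArg _ (Subtype.ext (inv_mul_cancel₀ hf'.ne_zero))
    rwa [hf'1, mul_one] at h3
  have hρ : D.ρ₁ ⟨_, hmem⟩ ^ p = D.G.ρ ⟨c • f, hcO⟩ := by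
    rw [← D.ρ₁_α (c • f) hcO, ← map_pow]
    have h4 : (⟨_, hmem⟩ : D.O₁) ^ p = ⟨_, hαO⟩ * ⟨f'⁻¹, hf'i⟩ := Subtype.ext hpow
    rw [h4, map_mul, hinv1, mul_one]
  refine ⟨D.ρ₁ ⟨_, hmem⟩, fun h0 => hcr ?_, ?_⟩
  · rw [← hρ, h0, zero_pow hp.ne_zero]
  · rw [hρ]
    exact RedInj.RedField.ofGauss_red (TwoGauss.Gm hp hA H3) hcO

/-- **The geometric input at `p`** on `J₀(m p)`. -/
theorem geoInput (hLM : LevelM hp hm hA H3) (S : Set ℕ)
    (hS : ∀ ℓ : ℕ, ℓ.Prime → ℓ ∣ m * p → ℓ ∈ S) :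
    letI := heckeModuleBar (m * p)
    GeoInput p S (JZero (m * p)) A (mkData hp hm hA H3 H2).WSub {wJ hp hm, UJ hp hm} := by
  letI i1 := heckeModuleBar (m * p)
  intro X hXbot hXW hXp hXG hXH hXΦ hquad
  have hXw : ∀ x ∈ X, wJ hp hm x ∈ X := hXΦ _ (Set.mem_insert _ _)
  have hXU : ∀ x ∈ X, UJ hp hm x ∈ X := hXΦ _ (Set.mem_insert_of_mem _ rfl)
  have hXfin : (X : Set (JZero (m * p))).Finite :=
    (Cofaith.finite_torsion_set (m * p) hp.ne_zero).subset fun x hx => hXp x hx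
  by_cases hU : ∀ x ∈ X, UJ hp hm x = 0 → x = 0
  · refine ⟨X, le_rfl, hXbot, hXG, hXH, fun τ hτ a ha x hx => ?_⟩
    refine smul_eq_of_contract hp hm hA H3 H2 (X := (X : Set (JZero (m * p)))) hXfin hXp hXw hXU
      (fun x hx y hy hxy => ?_) hXW hτ ha hx
    rw [← sub_eq_zero]
    exact hU _ (X.sub_mem hx hy) (by rw [map_sub, sub_eq_zero]; exact hxy)
  · push Not at hU
    obtain ⟨x₀, hx₀, hUx₀, hx₀0⟩ := hU
    -- the subgroup `Y`
    set Y : AddSubgroup (JZero m) :=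
      { carrier := {y | p • y = 0 ∧ pullN m p y ∈ X}
        add_mem' := by
          rintro a b ⟨ha, ha'⟩ ⟨hb, hb'⟩
          exact ⟨by rw [nsmul_add, ha, hb, add_zero], by rw [map_add]; exact X.add_mem ha' hb'⟩
        zero_mem' := ⟨smul_zero _, by rw [map_zero]; exact X.zero_mem⟩
        neg_mem' := by
          rintro a ⟨ha, ha'⟩
          exact ⟨by rw [neg_nsmul, ha, neg_zero], by rw [map_neg]; exact X.neg_mem ha'⟩ } with hY
    have hYmem : ∀ y, y ∈ Y ↔ p • y = 0 ∧ pullN m p y ∈ X := fun _ => Iff.rfl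
    have hYfin : (Y : Set (JZero m)).Finite :=
      (Cofaith.finite_torsion_set m hp.ne_zero).subset fun x hx => hx.1
    have hYG : ∀ (g : 𝕂 ≃ₐ[ℚ] 𝕂), ∀ y ∈ Y, g • y ∈ Y := fun g y hy =>
      ⟨nsmul_smul_eq_zero g hy.1, by rw [pullN_smul]; exact hXG g _ hy.2⟩
    have hYT : ∀ y ∈ Y, TJ hp hm y ∈ Y := by
      intro y hy
      refine ⟨by rw [← map_nsmul, hy.1, map_zero], ?_⟩
      have h1 : pullN m p (TJ hp hm y) = UJ hp hm (pullN m p y) + wJ hp hm (pullN m p y) := by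
        rw [UJ_apply, TJ_apply, sub_add_cancel]
      rw [h1]
      exact X.add_mem (hXU _ hy.2) (hXw _ hy.2)
    have hYq : ∀ τ ∈ A.inertiaSubgroupIn ℚ, ∀ a : ℕ, IsCycExp p τ a → ∀ y ∈ Y,
        τ • (τ • y) + a • y = (1 + a) • (τ • y) := by
      intro τ hτ a ha y hy
      rw [← sub_eq_zero]
      refine eq_zero_of_pullN hp hm ?_ ?_
      · have h2 : τ • (τ • y) + a • y - (1 + a) • (τ • y) ∈ Y :=
          Y.sub_mem (Y.add_mem (hYG τ _ (hYG τ y hy)) (Y.nsmul_mem hy a))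
            (Y.nsmul_mem (hYG τ y hy) _)
        exact h2.1
      · rw [map_sub, map_add, pullN_smul, pullN_smul, map_nsmul, map_nsmul, pullN_smul,
          hquad τ hτ a ha _ hy.2, sub_self]
    have hYω := hLM Y hYfin (fun y hy => hy.1) (fun τ _ => hYG τ) hYT hYq
      (fun y hy f hf => exists_red_pow_of_pull hp hm hA H3 H2 hy.1 (hXW hy.2) hf)
    refine ⟨Y.map (pullN m p), ?_, ?_, ?_, ?_, ?_⟩
    · rintro _ ⟨y, hy, rfl⟩
      exact hy.2
    · intro hbot
      have h1 : pullN m p (pushN m p (wJ hp hm x₀)) = wJ hp hm x₀ := by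
        rw [UJ_apply, sub_eq_zero] at hUx₀
        exact hUx₀
      have h2 : pushN m p (wJ hp hm x₀) ∈ Y :=
        ⟨by rw [← map_nsmul, ← map_nsmul, hXp x₀ hx₀, map_zero, map_zero], by
          rw [h1]; exact hXw x₀ hx₀⟩
      have h3 : wJ hp hm x₀ ∈ Y.map (pullN m p) := ⟨_, h2, h1⟩
      rw [hbot, AddSubgroup.mem_bot] at h3
      apply hx₀0
      rw [← wJ_wJ hp hm x₀, h3, map_zero]
    · rintro g _ ⟨y, hy, rfl⟩
      exact ⟨g • y, hYG g y hy, pullN_smul m p g y⟩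
    · rintro t _ ⟨y, hy, rfl⟩
      letI i2 := heckeModuleBar m
      refine ⟨inclS S t • y, ⟨?_, ?_⟩, pullN_inclS S hS t y⟩
      · exact nsmul_smul_eq_zero (inclS S t) hy.1
      · have h2 := hXH t _ hy.2
        rw [← pullN_inclS S hS t y] at h2
        exact h2
    · rintro τ hτ a ha _ ⟨y, hy, rfl⟩
      rw [← pullN_smul, hYω τ hτ a ha y hy, map_nsmul]

end Main

end Fermat.Agent.S33aux
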