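import Fermat.Agent.S33.OrdN
import Fermat.Agent.QX4.Poly

/-!
# Equivariance of `w`, `α^*`, `α_*`, `U_p` for the Hecke operators, on all of `J₀`
-/

set_option autoImplicit false
set_option linter.unusedSectionVars false
set_option linter.style.haveILetI false

noncomputable section

open ModularCurve AlgebraicCurve IntermediateField
open Fermat.Agent.RR Fermat.Agent.TEll Fermat.Agent.HeckeComm Fermat.Agent.GalRep
open Fermat.Agent.QX4 hiding smul_div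
open Fermat.Agent.TwoGauss (wq wq_wq)
open Fermat.Agent.S34aux (pullN pushN pullPic0 pullDegZero coe_pullDegZero pullPic0_mk pullN_mk
  pushN_mk)

namespace Fermat.Agent.S33aux

/-- the algebraic numbers -/
local notation "𝕂" => AlgebraicClosure ℚ

variable {m q : ℕ} [NeZero m] [NeZero q]

theorem finiteRows_heckeDiv (N ℓ : ℕ) [NeZero N] [NeZero ℓ] : FiniteRows (heckeDiv N ℓ) :=
  finiteRows_correspondence _ _ _ _

theorem not_dvd_of_mul {ℓ : ℕ} (h : ¬ ℓ ∣ m * q) : ¬ ℓ ∣ m := fun h' => h (h'.mul_right q)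

theorem TEll_alpha {ℓ : ℕ} [NeZero ℓ] (hℓ : ℓ.Prime) (hℓm : ¬ ℓ ∣ m * q)
    (f : modularFunctionFieldBar m) :
    TEll 𝕂 (m * q) ℓ (heckeAlphaBar 𝕂 m q f) = heckeAlphaBar 𝕂 m q (TEll 𝕂 m ℓ f) := by
  apply Subtype.ext
  rw [coe_TEll_bar (m * q) ℓ hℓ hℓm, coe_heckeAlphaBar, coe_heckeAlphaBar,
    coe_TEll_bar m ℓ hℓ (not_dvd_of_mul hℓm)]

/-- `T_ℓ α^* = α^* T_ℓ` on divisors. -/
theorem pull_heckeDiv {ℓ : ℕ} [NeZero ℓ] (hℓ : ℓ.Prime) (hℓm : ¬ ℓ ∣ m * q)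
    (D : Divisor 𝕂 (modularFunctionFieldBar m)) :
    Divisor.pullbackAlong (heckeAlphaBar 𝕂 m q) (intA m q) (heckeDiv m ℓ D) =
      heckeDiv (m * q) ℓ (Divisor.pullbackAlong (heckeAlphaBar 𝕂 m q) (intA m q) D) := by
  have h1 : (Divisor.pullbackAlong (heckeAlphaBar 𝕂 m q) (intA m q)).comp (heckeDiv m ℓ) =
      (heckeDiv (m * q) ℓ).comp (Divisor.pullbackAlong (heckeAlphaBar 𝕂 m q) (intA m q)) := by
    refine eq_of_principal ((finiteRows_pullbackAlong _ _).comp (finiteRows_heckeDiv m ℓ))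
      ((finiteRows_heckeDiv (m * q) ℓ).comp (finiteRows_pullbackAlong _ _)) fun f hf => ?_
    have hf' : heckeAlphaBar 𝕂 m q f ≠ 0 := (map_ne_zero_iff _ (RingHom.injective
      (heckeAlphaBar 𝕂 m q : modularFunctionFieldBar m →+* modularFunctionFieldBar (m * q)))).mpr hf
    rw [AddMonoidHom.comp_apply, AddMonoidHom.comp_apply, heckeDiv_div hf, pullbackAlong_div,
      pullbackAlong_div, heckeDiv_div hf', TEll_alpha hℓ hℓm]
  exact DFunLike.congr_fun h1 D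

/-- `α_* T_ℓ = T_ℓ α_*` on divisors. -/
theorem push_heckeDiv (hq : q.Prime) (hm : ¬ q ∣ m) {ℓ : ℕ} [NeZero ℓ] (hℓ : ℓ.Prime)
    (hℓm : ¬ ℓ ∣ m * q) (D : Divisor 𝕂 (modularFunctionFieldBar (m * q))) :
    Divisor.pushforwardAlong (heckeAlphaBar 𝕂 m q) (intA m q) (heckeDiv (m * q) ℓ D) =
      heckeDiv m ℓ (Divisor.pushforwardAlong (heckeAlphaBar 𝕂 m q) (intA m q) D) := by
  have h1 : (Divisor.pushforwardAlong (heckeAlphaBar 𝕂 m q) (intA m q)).comp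
      (heckeDiv (m * q) ℓ) =
      (heckeDiv m ℓ).comp (Divisor.pushforwardAlong (heckeAlphaBar 𝕂 m q) (intA m q)) := by
    refine eq_of_principal ((finiteRows_pushforwardAlong _ _).comp
      (finiteRows_heckeDiv (m * q) ℓ))
      ((finiteRows_heckeDiv m ℓ).comp (finiteRows_pushforwardAlong _ _)) fun f hf => ?_
    have hT0 : TEll 𝕂 (m * q) ℓ f ≠ 0 := TEll_ne_zero _ _ _ (finAlpha _ _) hf
    have hN0 : normAlong (heckeAlphaBar 𝕂 m q) f ≠ 0 := normAlong_ne_zero _ (finAlpha m q) hf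
    rw [AddMonoidHom.comp_apply, AddMonoidHom.comp_apply, heckeDiv_div hf,
      pushforwardAlong_div _ _ (finAlpha m q) (nfAlpha m q) hT0,
      pushforwardAlong_div _ _ (finAlpha m q) (nfAlpha m q) hf, heckeDiv_div hN0,
      normAlong_TEll hq hm hℓ hℓm]
  exact DFunLike.congr_fun h1 D

/-- `w T_ℓ = T_ℓ w` on divisors. -/
theorem w_heckeDiv (hq : q.Prime) (hm : ¬ q ∣ m) {ℓ : ℕ} [NeZero ℓ] (hℓ : ℓ.Prime)
    (hℓm : ¬ ℓ ∣ m * q) (D : Divisor 𝕂 (modularFunctionFieldBar (m * q))) :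
    SemilinearAut.ofAlgAut (wq hq hm) • heckeDiv (m * q) ℓ D =
      heckeDiv (m * q) ℓ (SemilinearAut.ofAlgAut (wq hq hm) • D) := by
  have hqℓ : Nat.Coprime q ℓ := ((Nat.Prime.coprime_iff_not_dvd hℓ).mpr
    fun h => hℓm (h.mul_left m)).symm
  have h1 : (smulHom (SemilinearAut.ofAlgAut (wq hq hm))).comp (heckeDiv (m * q) ℓ) =
      (heckeDiv (m * q) ℓ).comp (smulHom (SemilinearAut.ofAlgAut (wq hq hm))) := by
    refine eq_of_principal ((finiteRows_smulHom _).comp (finiteRows_heckeDiv (m * q) ℓ))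
      ((finiteRows_heckeDiv (m * q) ℓ).comp (finiteRows_smulHom _)) fun f hf => ?_
    have hw0 : wq hq hm f ≠ 0 := by simpa using hf
    rw [AddMonoidHom.comp_apply, AddMonoidHom.comp_apply, smulHom_apply, smulHom_apply,
      heckeDiv_div hf, HeckeComm.smul_div, HeckeComm.smul_div, SemilinearAut.ofAlgAut_smul,
      SemilinearAut.ofAlgAut_smul, heckeDiv_div hw0, TEll_wq hq hm hqℓ]
  exact DFunLike.congr_fun h1 D

theorem pullN_hecke (ℓ : Nat.Primes) (hℓ : ¬ (ℓ : ℕ) ∣ m * q) (x : JZero m) :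
    pullN m q (heckeOperatorBar m ℓ x) = heckeOperatorBar (m * q) ℓ (pullN m q x) := by
  haveI : NeZero (ℓ : ℕ) := ⟨ℓ.2.ne_zero⟩
  obtain ⟨D, rfl⟩ := Pic0.mk_surjective x
  obtain ⟨D1, hD1, e1⟩ := heckeOperatorBar_mk ℓ D
  rw [pullN_mk]
  obtain ⟨D2, hD2, e2⟩ := heckeOperatorBar_mk ℓ
    (S34aux.pullDegZero (heckeAlphaBar 𝕂 m q) (S34aux.intN m q) (S34aux.fiN m q) D)
  rw [e1, pullN_mk, e2]
  congr 1
  apply Subtype.ext
  rw [S34aux.coe_pullDegZero, hD1, hD2, S34aux.coe_pullDegZero]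
  exact pull_heckeDiv ℓ.2 hℓ _

theorem pushN_hecke (hq : q.Prime) (hm : ¬ q ∣ m) (ℓ : Nat.Primes) (hℓ : ¬ (ℓ : ℕ) ∣ m * q)
    (x : JZero (m * q)) :
    pushN m q (heckeOperatorBar (m * q) ℓ x) = heckeOperatorBar m ℓ (pushN m q x) := by
  haveI : NeZero (ℓ : ℕ) := ⟨ℓ.2.ne_zero⟩
  obtain ⟨D, rfl⟩ := Pic0.mk_surjective x
  obtain ⟨D1, hD1, e1⟩ := heckeOperatorBar_mk ℓ D
  rw [pushN_mk]
  obtain ⟨D2, hD2, e2⟩ := heckeOperatorBar_mk ℓ
    (pushDegZero (heckeAlphaBar 𝕂 m q) (S34aux.intN m q) D)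
  rw [e1, pushN_mk, e2]
  congr 1
  apply Subtype.ext
  rw [coe_pushDegZero, hD1, hD2, coe_pushDegZero]
  exact push_heckeDiv hq hm ℓ.2 hℓ _

theorem wJ_hecke_all (hq : q.Prime) (hm : ¬ q ∣ m) (ℓ : Nat.Primes) (hℓ : ¬ (ℓ : ℕ) ∣ m * q)
    (x : JZero (m * q)) :
    wJ hq hm (heckeOperatorBar (m * q) ℓ x) = heckeOperatorBar (m * q) ℓ (wJ hq hm x) := by
  haveI : NeZero (ℓ : ℕ) := ⟨ℓ.2.ne_zero⟩
  obtain ⟨D, rfl⟩ := Pic0.mk_surjective x
  obtain ⟨D1, hD1, e1⟩ := heckeOperatorBar_mk ℓ D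
  obtain ⟨D2, hD2, e2⟩ := heckeOperatorBar_mk ℓ
    (SemilinearAut.degZeroSMulHom (SemilinearAut.ofAlgAut (wq hq hm)) D)
  rw [e1, wJ_mk, wJ_mk, e2]
  congr 1
  apply Subtype.ext
  rw [SemilinearAut.coe_degZeroSMulHom, hD1, hD2, SemilinearAut.coe_degZeroSMulHom]
  exact w_heckeDiv hq hm ℓ.2 hℓ _

variable (S : Set ℕ)

/-- `α^*` commutes with the Hecke operators away from the level. -/
theorem pullN_inclS (hS : ∀ ℓ : ℕ, ℓ.Prime → ℓ ∣ m * q → ℓ ∈ S) (t : HeckeAlgS S) (x : JZero m) :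
    pullN m q ((letI := heckeModuleBar m; inclS S t • x)) =
      (letI := heckeModuleBar (m * q); inclS S t • pullN m q x) := by
  letI i1 := heckeModuleBar (m * q)
  letI i2 := heckeModuleBar m
  refine map_inclS_smul (pullN m q) S 0 (fun ℓ hℓ x _ => ?_) t x (zero_nsmul x)
  rw [heckeModuleBar_heckeGen_smul (HeckeComm.heckeOperatorsCommuteBar (m * q)) ℓ (pullN m q x),
    heckeModuleBar_heckeGen_smul (HeckeComm.heckeOperatorsCommuteBar m) ℓ x]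
  exact pullN_hecke ℓ (fun h => hℓ (hS ℓ ℓ.2 h)) x

/-- `α_*` commutes with the Hecke operators away from the level. -/
theorem pushN_inclS (hq : q.Prime) (hm : ¬ q ∣ m) (hS : ∀ ℓ : ℕ, ℓ.Prime → ℓ ∣ m * q → ℓ ∈ S)
    (t : HeckeAlgS S) (x : JZero (m * q)) :
    pushN m q ((letI := heckeModuleBar (m * q); inclS S t • x)) =
      (letI := heckeModuleBar m; inclS S t • pushN m q x) := by
  letI i1 := heckeModuleBar (m * q)
  letI i2 := heckeModuleBar m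
  refine map_inclS_smul (pushN m q) S 0 (fun ℓ hℓ x _ => ?_) t x (zero_nsmul x)
  rw [heckeModuleBar_heckeGen_smul (HeckeComm.heckeOperatorsCommuteBar (m * q)) ℓ x,
    heckeModuleBar_heckeGen_smul (HeckeComm.heckeOperatorsCommuteBar m) ℓ (pushN m q x)]
  exact pushN_hecke hq hm ℓ (fun h => hℓ (hS ℓ ℓ.2 h)) x

/-- `w` commutes with the Hecke operators away from the level. -/
theorem wJ_inclS_all (hq : q.Prime) (hm : ¬ q ∣ m) (hS : ∀ ℓ : ℕ, ℓ.Prime → ℓ ∣ m * q → ℓ ∈ S)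
    (t : HeckeAlgS S) (x : JZero (m * q)) :
    letI := heckeModuleBar (m * q)
    wJ hq hm (inclS S t • x) = inclS S t • wJ hq hm x := by
  letI i1 := heckeModuleBar (m * q)
  refine map_inclS_smul (wJ hq hm) S 0 (fun ℓ hℓ x _ => ?_) t x (zero_nsmul x)
  rw [heckeModuleBar_heckeGen_smul (HeckeComm.heckeOperatorsCommuteBar (m * q)) ℓ x,
    heckeModuleBar_heckeGen_smul (HeckeComm.heckeOperatorsCommuteBar (m * q)) ℓ (wJ hq hm x)]
  exact wJ_hecke_all hq hm ℓ (fun h => hℓ (hS ℓ ℓ.2 h)) x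

/-- `U_p` commutes with the Hecke operators away from the level. -/
theorem UJ_inclS (hq : q.Prime) (hm : ¬ q ∣ m) (hS : ∀ ℓ : ℕ, ℓ.Prime → ℓ ∣ m * q → ℓ ∈ S)
    (t : HeckeAlgS S) (x : JZero (m * q)) :
    letI := heckeModuleBar (m * q)
    UJ hq hm (inclS S t • x) = inclS S t • UJ hq hm x := by
  letI i1 := heckeModuleBar (m * q)
  letI i2 := heckeModuleBar m
  rw [UJ_apply, UJ_apply, wJ_inclS_all S hq hm hS, pushN_inclS S hq hm hS, pullN_inclS S hS,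
    smul_sub]

/-- `U_p` commutes with Galois. -/
theorem UJ_galois (hq : q.Prime) (hm : ¬ q ∣ m) (σ : 𝕂 ≃ₐ[ℚ] 𝕂) (x : JZero (m * q)) :
    UJ hq hm (σ • x) = σ • UJ hq hm x := by
  rw [UJ_apply, UJ_apply, wJ_galois, S34aux.pushN_smul, S34aux.pullN_smul, smul_sub]

end Fermat.Agent.S33aux
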