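import Fermat.Agent.S33.Lam

/-!
# Injectivity of reduction at level `pM`, up to the toric part

If `p E = div f` and `f` is arbitrarily close to `p`-th powers at both components then inertia acts
on the class of `E` through the cyclotomic character.
-/

set_option autoImplicit false
set_option linter.unusedSectionVars false

open AlgebraicCurve WithZero Module Polynomial
open scoped IntermediateField
open Fermat.Agent.RR Fermat.Agent.Deuring Fermat.Agent.FF Fermat.Agent.S33aux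

namespace Fermat.Agent.S33aux

theorem exists_pow_two_terms {S : Type*} [CommRing S] (x y : S) (m : ℕ) :
    ∃ G : S, (x + y) ^ m = x ^ m + m * (x ^ (m - 1) * y) + y ^ 2 * G := by
  induction m with
  | zero => exact ⟨0, by simp⟩
  | succ m ih =>
    obtain ⟨G, hG⟩ := ih
    refine ⟨m * x ^ (m - 1) + G * (x + y), ?_⟩
    rw [pow_succ, hG]
    rcases Nat.eq_zero_or_pos m with rfl | hm
    · simp; ring
    · obtain ⟨n, rfl⟩ : ∃ n, m = n + 1 := ⟨m - 1, by omega⟩
      simp only [Nat.add_sub_cancel]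
      push_cast
      ring

theorem exists_one_add_mul_pow {S : Type*} [CommRing S] (c w : S) (m : ℕ) :
    ∃ w' : S, (1 + c * w) ^ m = 1 + c * w' := by
  obtain ⟨G, hG⟩ := exists_pow_two_terms 1 (c * w) m
  exact ⟨m * w + c * w ^ 2 * G, by rw [hG]; simp; ring⟩

end Fermat.Agent.S33aux

namespace Fermat.Agent.TwoComp

namespace Data

variable {K Fm F k F' : Type*} [Field K] [Field Fm] [Algebra K Fm] [Field F]
    [Algebra K F] [Field k] [Field F'] [Algebra k F'] {q : ℕ} {D : Data K Fm F k F' q}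

section MM

variable [IsFF K F]

variable (D) in
/-- `h L(N E₀ + E)` -/
noncomputable def MM (h : F) (E : Divisor K F) (N : ℕ) : Submodule K F :=
  (riemannRochSpace (N • D.E₀ + E)).map (LinearMap.mulLeft K h)

theorem mem_MM {h : F} {E : Divisor K F} {N : ℕ} {x : F} :
    x ∈ D.MM h E N ↔ ∃ a ∈ riemannRochSpace (N • D.E₀ + E), h * a = x := Iff.rfl

instance (E : Divisor K F) : FiniteDimensional K (riemannRochSpace E) :=
  finite_riemannRochSpace E

instance (h : F) (E : Divisor K F) (N : ℕ) : FiniteDimensional K (D.MM h E N) := by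
  unfold MM; infer_instance

theorem finrank_MM {h : F} (hh : h ≠ 0) (E : Divisor K F) (N : ℕ) :
    finrank K (D.MM h E N) = finrank K (riemannRochSpace (N • D.E₀ + E)) :=
  LinearMap.finrank_map_eq_of_injective' hh E N
where
  LinearMap.finrank_map_eq_of_injective' {h : F} (hh : h ≠ 0) (E : Divisor K F) (N : ℕ) :
    finrank K (D.MM h E N) = finrank K (riemannRochSpace (N • D.E₀ + E)) := by
    have hinj : Function.Injective (LinearMap.mulLeft K h) := fun a b hab =>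
      mul_left_cancel₀ hh hab
    exact (Submodule.equivMapOfInjective _ hinj _).finrank_eq.symm

theorem exists_finrank_eq (hq : 0 < q) : ∃ N₀ : ℕ, ∀ (E : Divisor K F), Divisor.degree E = 0 →
    ∀ N : ℕ, N₀ ≤ N → ∀ h : F, h ≠ 0 →
      finrank K (D.MM h E N) = finrank K (riemannRochSpace (K := K) (N • D.E₀)) := by
  obtain ⟨c, d₀, hRR⟩ := exists_RR K F
  refine ⟨d₀.toNat, fun E hE N hN h hh => ?_⟩
  have hψ := D.ψ_pos
  have hdeg : Divisor.degree (N • D.E₀) = N * (2 * ((q + 1) * D.ψ : ℕ)) := by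
    rw [map_nsmul, D.degree_E₀ (D.αj_transcendental hq)
      (D.βj_transcendental hq), nsmul_eq_mul]
  have hdeg' : Divisor.degree (N • D.E₀ + E) = N * (2 * ((q + 1) * D.ψ : ℕ)) := by
    rw [map_add, hE, add_zero, hdeg]
  have h1 : (1 : ℤ) ≤ ((q + 1) * D.ψ : ℕ) := by
    have : 0 < (q + 1) * D.ψ := by positivity
    exact_mod_cast this
  have hNd : d₀ ≤ N := (Int.self_le_toNat d₀).trans (by exact_mod_cast hN)
  have hN0 : (0 : ℤ) ≤ N := by positivity
  have h2 := hRR (N • D.E₀) (by rw [hdeg]; nlinarith)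
  have h3 := hRR (N • D.E₀ + E) (by rw [hdeg']; nlinarith)
  rw [finrank_MM hh]
  rw [hdeg] at h2
  rw [hdeg', ← h2] at h3
  exact_mod_cast h3

/-- `p E = div f` with `f = h ^ p (1 + c w)`. -/
structure PApp (E : Divisor K F) (f h : F) (c : D.R.A) (w : D.R.O) : Prop where
  f_ne : f ≠ 0
  h_ne : h ≠ 0
  ord : ∀ v : Place K F, v.ord f = q * E v
  eq : f = h ^ q * (1 + D.R.algA c * w : D.R.O)

theorem PApp.pow_mem {E : Divisor K F} {f h : F} {c : D.R.A} {w : D.R.O} (hq : 0 < q)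
    (H : PApp E f h c w) {N : ℕ} {a : D.R.O} (ha : (a : F) ∈ D.MM h E N) :
    ((a ^ q - D.R.algA c * (-(w * a ^ q)) : D.R.O) : F) ∈
      riemannRochSpace (K := K) ((q * N) • D.E₀) := by
  obtain ⟨b, hb, hba⟩ := ha
  have h1 : ((a ^ q - D.R.algA c * (-(w * a ^ q)) : D.R.O) : F) = f * b ^ q := by
    have h2 : a ^ q - D.R.algA c * (-(w * a ^ q)) = a ^ q * (1 + D.R.algA c * w) := by ring
    have h3 : (a : F) = h * b := hba.symm
    rw [h2, Subring.coe_mul, Subring.coe_pow, h3, H.eq]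
    ring
  rw [h1]
  rcases eq_or_ne b 0 with rfl | hb0
  · rw [zero_pow hq.ne', mul_zero]
    exact Submodule.zero_mem _
  rw [SetLike.mem_coe, mem_L_iff hb0] at hb
  rw [mem_L_iff (mul_ne_zero H.f_ne (pow_ne_zero _ hb0))]
  intro v
  have h2 := hb v
  rw [Finsupp.add_apply, Finsupp.smul_apply, nsmul_eq_mul] at h2
  rw [v.ord_mul H.f_ne (pow_ne_zero _ hb0), ord_pow, H.ord, Finsupp.smul_apply, nsmul_eq_mul]
  have h3 : (0 : ℤ) ≤ q := Int.natCast_nonneg q
  have h4 := mul_le_mul_of_nonneg_left h2 h3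
  change -(((q * N : ℕ) : ℤ) * D.E₀ v) ≤ _
  push_cast
  change (q : ℤ) * -((N : ℤ) * D.E₀ v + E v) ≤ _ at h4
  linarith

end MM

section Stage

variable [IsFF K F] [IsFF k F'] [IsFF K Fm] [IsAlgClosed k] [CharP k q]

variable (D) in
/-- The constants `N` for which everything works. -/
structure GoodN (N : ℕ) : Prop where
  sn : ∀ x : F' × F', x ^ q ∈ D.Λ (q * N) → x ∈ D.Λ N
  sat : ∀ M : ℕ, N ≤ M → D.Λ M ⊓ D.U (N * (q + 1) : ℕ) = D.Λ N
  rank : ∀ (E : Divisor K F), Divisor.degree E = 0 → ∀ h : F, h ≠ 0 →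
      finrank K (D.MM h E N) = finrank K (riemannRochSpace (K := K) (N • D.E₀))

variable (D) in
theorem exists_goodN (hq : q.Prime) : ∃ N₀ : ℕ, ∀ N : ℕ, N₀ ≤ N → D.GoodN N := by
  obtain ⟨T⟩ := D.nonempty_nodeSet hq.two_le
  obtain ⟨N₁, h₁⟩ := T.exists_sn hq
  obtain ⟨N₂, h₂⟩ := D.exists_saturated hq.two_le
  obtain ⟨N₃, h₃⟩ := exists_finrank_eq (D := D) hq.pos
  exact ⟨max N₁ (max N₂ N₃), fun N hN => ⟨h₁ N (by omega), h₂ N (by omega),
    fun E hE => h₃ E hE N (by omega)⟩⟩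

theorem isUnit_of_res {a : D.R.A} (h : D.R.res a ≠ 0) : IsUnit a := by
  by_contra hn
  apply h
  rw [D.R.res_eq_zero_iff]
  rw [ValuationSubring.mem_nonunits_iff]
  rcases (D.R.A.valuation_le_one a).lt_or_eq with h1 | h1
  · exact h1
  · exact absurd ((D.R.A.valuation_eq_one_iff a).mpr h1) hn

theorem nearBy_of_le {M M₀ : Submodule K F} (h : M ≤ M₀) (b : D.R.A) : D.R.NearBy M M₀ b :=
  fun a ha => ⟨a, h ha, 0, by rw [mul_zero, add_zero]⟩

variable {E : Divisor K F} {f h : F} {c : D.R.A} {w : D.R.O} {lam : D.R.A}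

/-- First stage. -/
theorem PApp.stage₁ (hq : q.Prime) {N : ℕ} (hN : D.GoodN N)
    (hlam : lam ^ (q - 1) = -(q : D.R.A)) {c' : D.R.A} (hc : c = lam ^ q * c')
    (hc' : D.R.res c' = 0) (H : PApp E f h c w) {b : D.R.A} (hb : b ≠ 0)
    (htriple : ∃ a a₀ t : D.R.O, (a : F) ∈ D.MM h E N ∧
      (a₀ : F) ∈ riemannRochSpace (K := K) (N • D.E₀) ∧ a = a₀ + D.R.algA b * t ∧
      D.R.ρ t ∉ D.Λ N) : lam ∣ b := by
  rcases ValuationRing.dvd_total lam b with h1 | h1
  · exact h1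
  obtain ⟨d, hd⟩ := h1
  by_cases hd0 : D.R.res d = 0
  · exfalso
    obtain ⟨a, a₀, t, ha, ha₀, hat, ht⟩ := htriple
    apply ht
    apply hN.sn
    refine RedRing.rel_large (M := D.MM h E N) (M₀ := riemannRochSpace (K := K) (N • D.E₀))
      (c := c) hq ?_ ?_ hlam hb hd hd0 (c' := d ^ q * c') ?_ ?_ (w := (D.R.ρ a₀, D.R.ρ t)) ?_
    · intro a ha
      exact pow_mem_L ha q
    · intro a ha
      exact ⟨_, H.pow_mem hq.pos ha⟩
    · rw [hc, hd]; ring
    · rw [map_mul, hc', mul_zero]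
    · exact ⟨a₀, t, ha₀, by rw [← hat]; exact ha, rfl⟩
  · obtain ⟨u, hu⟩ := isUnit_of_res hd0
    exact ⟨(u⁻¹ : (D.R.A)ˣ), by rw [hd, ← hu, mul_assoc, Units.mul_inv, mul_one]⟩

theorem PApp.nearBy_lam (hq : q.Prime) {N : ℕ} (hN : D.GoodN N)
    (hlam : lam ^ (q - 1) = -(q : D.R.A)) {c' : D.R.A} (hc : c = lam ^ q * c')
    (hc' : D.R.res c' = 0) (H : PApp E f h c w) :
    D.R.NearBy (D.MM h E N) (riemannRochSpace (K := K) (N • D.E₀)) lam := by
  by_cases hle : D.MM h E N ≤ riemannRochSpace (K := K) (N • D.E₀)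
  · exact nearBy_of_le hle _
  obtain ⟨b, hb, hnear, htriple⟩ := (D.ortho hq.pos).exists_scale_nearBy hle
  exact hnear.mono (H.stage₁ hq hN hlam hc hc' hb htriple)

/-- Second stage. -/
theorem PApp.stage₂ (hq : q.Prime) {N : ℕ} (hN : D.GoodN N) (hE : Divisor.degree E = 0)
    (hq0 : (q : D.R.A) ≠ 0)
    (hlam : lam ^ (q - 1) = -(q : D.R.A)) {c' : D.R.A} (hc : c = lam ^ q * c')
    (hc' : D.R.res c' = 0) (H : PApp E f h c w)
    (h10 : ((1 : F' × F'), (0 : F' × F')) ∈ D.R.rel (D.MM h E N)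
      (riemannRochSpace (K := K) (N • D.E₀)) lam) :
    ∃ b : D.R.A, c ∣ q * b ∧
      D.R.NearBy (D.MM h E N) (riemannRochSpace (K := K) (N • D.E₀)) b := by
  by_cases hle : D.MM h E N ≤ riemannRochSpace (K := K) (N • D.E₀)
  · exact ⟨c, Dvd.intro_left _ rfl, nearBy_of_le hle _⟩
  have : Infinite k := IsAlgClosed.instInfinite
  have hlam0 : D.R.res lam = 0 := by
    have h1 := congrArg D.R.res hlam
    rw [map_pow, map_neg, map_natCast, CharP.cast_eq_zero, neg_zero] at h1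
    exact (pow_eq_zero_iff (by have := hq.two_le; omega)).mp h1
  have hlamne : lam ≠ 0 := by
    rintro rfl
    rw [zero_pow (by have := hq.two_le; omega)] at hlam
    exact hq0 (by rw [← neg_eq_zero, ← hlam])
  have hrank := hN.rank E hE h H.h_ne
  have hpow₀ : ∀ a : D.R.O, (a : F) ∈ riemannRochSpace (K := K) (N • D.E₀) →
      ((a ^ q : D.R.O) : F) ∈ riemannRochSpace (K := K) ((q * N) • D.E₀) :=
    fun a ha => pow_mem_L ha q
  have hpow : ∀ a : D.R.O, (a : F) ∈ D.MM h E N → ∃ w : D.R.O,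
      ((a ^ q - D.R.algA c * w : D.R.O) : F) ∈ riemannRochSpace (K := K) ((q * N) • D.E₀) :=
    fun a ha => ⟨_, H.pow_mem hq.pos ha⟩
  have hfst : ∀ (b : D.R.A), ∀ w ∈ D.R.rel (D.MM h E N)
      (riemannRochSpace (K := K) (N • D.E₀)) b, w.1 ∈ D.Λ N := by
    rintro b _ ⟨a₀, t, ha₀, -, rfl⟩
    exact RedRing.ρ_mem_red ha₀
  obtain ⟨b, hb, hnear, htriple⟩ := (D.ortho hq.pos).exists_scale_nearBy hle
  refine ⟨b, ?_, hnear⟩
  obtain ⟨d, hd⟩ := H.stage₁ hq hN hlam hc hc' hb htriple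
  obtain ⟨a, a₀, t, ha, ha₀, hat, ht⟩ := htriple
  by_cases hd0 : D.R.res d = 0
  · by_contra hcb
    rcases ValuationRing.dvd_total c ((q : D.R.A) * b) with h1 | h1
    · exact hcb h1
    obtain ⟨e, he⟩ := h1
    have he0 : D.R.res e = 0 := by
      by_contra he0
      obtain ⟨u, hu⟩ := isUnit_of_res he0
      exact hcb ⟨(u⁻¹ : (D.R.A)ˣ), by rw [he, ← hu, mul_assoc, Units.mul_inv, mul_one]⟩
    apply ht
    have hb0 : D.R.res b = 0 := by rw [hd, map_mul, hlam0, zero_mul]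
    refine lin_Λ hq (hN.sat _ (by nlinarith)) (D.R.rel (D.MM h E N)
      (riemannRochSpace (K := K) (N • D.E₀)) b) (hfst b) ?_ ?_ (D.R.ρ a₀, D.R.ρ t)
      ⟨a₀, t, ha₀, by rw [← hat]; exact ha, rfl⟩
    · intro z hz
      have h2 := (D.ortho hq.pos).red_eq_of_nearBy hrank hb0 hnear
      rw [Λ, ← h2] at hz
      obtain ⟨a', ha', rfl⟩ := hz
      obtain ⟨a₀', ha₀', t', ht'⟩ := hnear a' ha'
      refine ⟨D.R.ρ t', a₀', t', ha₀', by rw [← ht']; exact ha', ?_⟩
      rw [ht', map_add, RedRing.ρ_eq_zero_of_mul hb0, add_zero]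
    · intro w hw
      exact RedRing.rel_small hq hpow₀ hpow hlam hlam0 hb hq0 hd hd0 he he0 hw
  · exfalso
    obtain ⟨u, hu⟩ := isUnit_of_res hd0
    have h2 : D.R.ρ (D.R.algA d * t) ∈ D.Λ N := by
      refine mid_Λ hq (hN.sat _ (Nat.le_mul_of_pos_left _ hq.pos)) (D.R.rel (D.MM h E N)
        (riemannRochSpace (K := K) (N • D.E₀)) lam) (hfst lam) h10 ?_
        (D.R.ρ a₀, D.R.ρ (D.R.algA d * t)) ⟨a₀, D.R.algA d * t, ha₀, ?_, rfl⟩
      · intro w hw
        exact RedRing.rel_mid hq hpow₀ hpow hlam hlam0 hlamne hc hc' hw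
      · have h3 : a₀ + D.R.algA lam * (D.R.algA d * t) = a := by
          rw [hat, hd, map_mul]; ring
        rw [h3]; exact ha
    apply ht
    rw [map_mul, RedRing.ρ_algA, ← Algebra.smul_def] at h2
    have h3 := Submodule.smul_mem _ (D.R.res d)⁻¹ h2
    rwa [smul_smul, inv_mul_cancel₀ hd0, one_smul] at h3

/-- Finishing argument. -/
theorem PApp.finish (hq : q.Prime) {N : ℕ} (hN : D.GoodN N) (hE : Divisor.degree E = 0)
    (hq0 : (q : D.R.A) ≠ 0) (hlam : lam ^ (q - 1) = -(q : D.R.A))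
    (happ : ∀ c : D.R.A, c ≠ 0 → ∃ (f h : F) (c' : D.R.A) (w : D.R.O), h ∈ D.R.O ∧ h⁻¹ ∈ D.R.O ∧
      c' ≠ 0 ∧ c ∣ c' ∧ D.R.res c' = 0 ∧ PApp E f h (lam ^ q * c') w ∧
      ((1 : F' × F'), (0 : F' × F')) ∈ D.R.rel (D.MM h E N)
        (riemannRochSpace (K := K) (N • D.E₀)) lam) :
    Divisor.IsPrincipal E := by
  set y : F := ((D.yy : D.R.O) : F) ^ N with hy
  have hy0 : y ≠ 0 := pow_ne_zero _ yy_ne_zero
  set V : Submodule K F := riemannRochSpace (N • D.E₀ + E) with hV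
  have hlamne : lam ≠ 0 := by
    rintro rfl
    rw [zero_pow (by have := hq.two_le; omega)] at hlam
    exact hq0 (by rw [← neg_eq_zero, ← hlam])
  by_cases hd : V.map (LinearMap.mulLeft K y) ⊓ V = ⊥
  · exfalso
    have hq0' : D.R.res (q : D.R.A) = 0 := by rw [map_natCast, CharP.cast_eq_zero]
    obtain ⟨c₁, hc₁, hsep⟩ := (D.ortho hq.pos).exists_sep hd hq0 hq0'
    obtain ⟨f, h, c', w, hh, hh', hc'0, hcc', hc', H, h10⟩ := happ (q * c₁) (mul_ne_zero hq0 hc₁)
    obtain ⟨b, hb, hnear⟩ := H.stage₂ hq hN hE hq0 hlam rfl hc' h10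
    have hrank := hN.rank E hE h H.h_ne
    -- `c₁ ∣ b`
    have hcb : (lam ^ q * c₁) ∣ b := by
      obtain ⟨r, hr⟩ := hcc'
      obtain ⟨s, hs⟩ := hb
      refine ⟨r * s, ?_⟩
      apply mul_left_cancel₀ hq0
      rw [hs, hr]
      ring
    obtain ⟨r, hr⟩ := hcb
    have hlam0 : D.R.res lam = 0 := by
      have h1 := congrArg D.R.res hlam
      rw [map_pow, map_neg, map_natCast, CharP.cast_eq_zero, neg_zero] at h1
      exact (pow_eq_zero_iff (by have := hq.two_le; omega)).mp h1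
    have hb0 : D.R.res b = 0 := by
      rw [hr, map_mul, map_mul, map_pow, hlam0, zero_pow hq.ne_zero, zero_mul, zero_mul]
    have hsymm := (D.ortho hq.pos).nearBy_symm hrank hb0 hnear
    obtain ⟨m, hm, t, hmt⟩ := hsymm 1 (one_mem_L N)
    obtain ⟨m₁, hm₁, t₁, hmt₁⟩ := hsymm (D.yy ^ N) (yy_pow_mem_L N)
    obtain ⟨v, hv, hvm⟩ := hm
    obtain ⟨v₁, hv₁, hvm₁⟩ := hm₁
    change h * v = m at hvm
    change h * v₁ = m₁ at hvm₁
    have hvO : v ∈ D.R.O := by
      have : v = h⁻¹ * m := by rw [← hvm, inv_mul_cancel_left₀ H.h_ne]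
      rw [this]; exact D.R.O.mul_mem hh' m.2
    have hv₁O : v₁ ∈ D.R.O := by
      have : v₁ = h⁻¹ * m₁ := by rw [← hvm₁, inv_mul_cancel_left₀ H.h_ne]
      rw [this]; exact D.R.O.mul_mem hh' m₁.2
    have h1 := hsep (D.yy ^ N * ⟨v, hvO⟩) ⟨v₁, hv₁O⟩ ⟨v, hv, rfl⟩ hv₁
      (D.R.algA (lam ^ q) * D.R.algA r * ⟨h⁻¹, hh'⟩ * (t₁ - D.yy ^ N * t)) (by
        apply Subtype.ext
        have e1 : (D.yy : F) ^ N * m - m₁ = algebraMap K F b * (t₁ - (D.yy : F) ^ N * t) := by
          have e2 := congrArg (fun x : D.R.O => (x : F)) hmt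
          have e3 := congrArg (fun x : D.R.O => (x : F)) hmt₁
          simp only [Subring.coe_add, Subring.coe_mul, RedRing.coe_algA, Subring.coe_one,
            Subring.coe_pow] at e2 e3
          linear_combination (-(D.yy : F) ^ N) * e2 + e3
        have e4 : algebraMap K F b = algebraMap K F lam ^ q * algebraMap K F c₁ *
            algebraMap K F r := by
          rw [hr, ← map_pow, ← map_mul, ← map_mul]
          rfl
        simp only [AddSubgroupClass.coe_sub, Subring.coe_mul, RedRing.coe_algA, Subring.coe_pow,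
          map_pow]
        rw [e4, ← hvm, ← hvm₁] at e1
        have hh0 := H.h_ne
        field_simp
        linear_combination e1)
    have h2 : D.R.ρ m = 1 := by
      have e2 := congrArg D.R.ρ hmt
      rw [map_add, RedRing.ρ_eq_zero_of_mul hb0, add_zero, map_one] at e2
      exact e2.symm
    have h3 : (D.yy ^ N * ⟨v, hvO⟩ : D.R.O) * ⟨h, hh⟩ = D.yy ^ N * m := by
      apply Subtype.ext
      simp only [Subring.coe_mul]
      rw [← hvm]; ring
    have h4 := congrArg D.R.ρ h3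
    rw [map_mul, h1, zero_mul, map_mul, h2, mul_one, map_pow, ρ_yy'] at h4
    have h5 := congrArg Prod.fst h4
    rw [Prod.pow_fst] at h5
    exact pow_ne_zero _ (pow_ne_zero _ D.jb_ne_zero) h5.symm
  · obtain ⟨x, hx, hx0⟩ := (Submodule.ne_bot_iff _).mp hd
    obtain ⟨⟨g, hg, hgx⟩, hxV⟩ := hx
    change y * g = x at hgx
    have hg0 : g ≠ 0 := by rintro rfl; exact hx0 (by rw [← hgx, mul_zero])
    -- `g ∈ L(E)`
    have h1 : g ∈ riemannRochSpace E := by
      rw [SetLike.mem_coe, hV, mem_L_iff hg0] at hg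
      rw [SetLike.mem_coe, hV, mem_L_iff hx0] at hxV
      rw [mem_L_iff hg0]
      intro v
      have h2 := hg v
      have h3 := hxV v
      have h4 : D.E₀ v = max (- v.ord ((D.yy : D.R.O) : F)) 0 := by
        rw [← zeroDiv_yy, zeroDiv_apply, v.ord_inv]
      rw [Finsupp.add_apply, Finsupp.smul_apply, nsmul_eq_mul] at h2 h3
      rw [← hgx, v.ord_mul hy0 hg0, hy, ord_pow] at h3
      rcases le_or_gt 0 (v.ord ((D.yy : D.R.O) : F)) with h5 | h5
      · rw [max_eq_right (by omega)] at h4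
        rw [h4] at h2
        simpa using h2
      · rw [max_eq_left (by omega)] at h4
        rw [h4] at h3
        change -((N : ℤ) * -(v.ord ((D.yy : D.R.O) : F)) + E v) ≤ _ at h3
        linarith
    have h2 : (div g⁻¹ : Divisor K F) ≤ E := by
      intro v
      rw [div_apply, v.ord_inv]
      have := (mem_L_iff hg0).mp h1 v
      omega
    have : ∀ v : Place K F, v.FiniteResidue := QX.finiteResidue_place
    have h3 : (div g⁻¹ : Divisor K F) = E :=
      eq_of_le_of_degree_le h2 (by rw [degree_div, hE])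
    rw [← h3]
    exact ⟨g⁻¹, inv_ne_zero hg0, fun v => div_apply _ v⟩

/-- `g` acts on `A`. -/
structure ActA (D : Data K Fm F k F' q) (g : SemilinearAut K F) (lam : D.R.A) (n : ℕ) : Prop where
  act : D.Act g id
  scale : ∀ c : D.R.A, ∃ r : D.R.A, SemilinearAut.baseAut g (c : K) = (r : K) * c
  lam : ∃ r : D.R.A, SemilinearAut.baseAut g (lam : K) = (r : K) * lam ∧ D.R.res r = (n : k)

omit [IsFF K F] [IsFF k F'] [IsFF K Fm] [IsAlgClosed k] [CharP k q] in
theorem Act.ρ_app_id {g : SemilinearAut K F} (hg : D.Act g id) (x : D.R.O) :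
    D.R.ρ (hg.app x) = D.R.ρ x := hg.ρ_app x

omit [IsFF K F] [IsFF k F'] [IsFF K Fm] [IsAlgClosed k] [CharP k q] in
theorem Act.app_mul {g : SemilinearAut K F} (hg : D.Act g id) (x y : D.R.O) :
    hg.app (x * y) = hg.app x * hg.app y := Subtype.ext (smul_mul' g (x : F) (y : F))

omit [IsFF K F] [IsFF k F'] [IsFF K Fm] [IsAlgClosed k] [CharP k q] in
theorem Act.app_add {g : SemilinearAut K F} (hg : D.Act g id) (x y : D.R.O) :
    hg.app (x + y) = hg.app x + hg.app y := Subtype.ext (smul_add g (x : F) (y : F))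

omit [IsFF K F] [IsFF k F'] [IsFF K Fm] [IsAlgClosed k] [CharP k q] in
theorem Act.app_one {g : SemilinearAut K F} (hg : D.Act g id) :
    hg.app 1 = 1 := Subtype.ext (smul_one g)

omit [IsFF K F] [IsFF k F'] [IsFF K Fm] [IsAlgClosed k] [CharP k q] in
theorem Act.app_algA {g : SemilinearAut K F} (hg : D.Act g id) {c r : D.R.A}
    (h : SemilinearAut.baseAut g (c : K) = (r : K) * c) :
    hg.app (D.R.algA c) = D.R.algA c * D.R.algA r := by
  apply Subtype.ext
  change g • algebraMap K F (c : K) = algebraMap K F c * algebraMap K F r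
  rw [SemilinearAut.smul_algebraMap, h, map_mul, mul_comm]

omit [IsFF k F'] [IsFF K Fm] [IsAlgClosed k] [CharP k q] in
theorem pow_mem_L' (D : Data K Fm F k F' q) {E : Divisor K F} {b : F}
    (hb : b ∈ riemannRochSpace E) (m : ℕ) :
    b ^ m ∈ riemannRochSpace (m • E) := by
  induction m with
  | zero =>
    rw [pow_zero, zero_smul]
    have := one_mem_L (D := D) 0
    rwa [zero_smul] at this
  | succ m ih =>
    rw [pow_succ, add_smul, one_smul]
    exact mem_L_mul ih hb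

/-- **Inertia acts by the cyclotomic character on classes close to `p`-th powers.** -/
theorem isPrincipal_twist (hq : q.Prime) (hE : Divisor.degree E = 0)
    (hq0 : (q : D.R.A) ≠ 0) (hlam : lam ^ (q - 1) = -(q : D.R.A)) {g : SemilinearAut K F} {n : ℕ}
    (hn : n ≤ q) (hg : D.ActA g lam n) (hord : ∀ v : Place K F, v.ord f = q * E v)
    (happ : ∀ c : D.R.A, c ≠ 0 → ∃ (h : F) (w : D.R.O), h ∈ D.R.O ∧ h⁻¹ ∈ D.R.O ∧ h ≠ 0 ∧
      f = h ^ q * (1 + D.R.algA c * w : D.R.O)) :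
    Divisor.IsPrincipal (g • E + (q - n) • E) := by
  obtain ⟨N₀, hN₀⟩ := exists_goodN D hq
  set m := q - n with hm
  have hlamne : lam ≠ 0 := by
    rintro rfl
    rw [zero_pow (by have := hq.two_le; omega)] at hlam
    exact hq0 (by rw [← neg_eq_zero, ← hlam])
  have hqres : D.R.res (q : D.R.A) = 0 := by rw [map_natCast, CharP.cast_eq_zero]
  have hlam0 : D.R.res lam = 0 := by
    have h1 := congrArg D.R.res hlam
    rw [map_pow, map_neg, map_natCast, CharP.cast_eq_zero, neg_zero] at h1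
    exact (pow_eq_zero_iff (by have := hq.two_le; omega)).mp h1
  have hgoodN₀ := hN₀ N₀ le_rfl
  have hgood : D.GoodN ((1 + m) * N₀) := hN₀ _ (Nat.le_mul_of_pos_left _ (by omega))
  have hE'' : Divisor.degree (g • E + m • E) = 0 := by
    rw [map_add, SemilinearAut.degree_smul, map_nsmul, hE, smul_zero, add_zero]
  refine PApp.finish hq hgood hE'' hq0 hlam fun c hc => ?_
  have hcne : lam ^ q * ((q : D.R.A) * c) ≠ 0 := mul_ne_zero (pow_ne_zero _ hlamne) (mul_ne_zero hq0 hc)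
  obtain ⟨h, w, hh, hh', hh0, hf⟩ := happ (lam ^ q * ((q : D.R.A) * c)) hcne
  have hqcres : D.R.res ((q : D.R.A) * c) = 0 := by rw [map_mul, hqres, zero_mul]
  have hf0 : f ≠ 0 := by
    rw [hf]
    refine mul_ne_zero (pow_ne_zero _ hh0) ?_
    intro h0
    have h1 : (1 + D.R.algA (lam ^ q * ((q : D.R.A) * c)) * w : D.R.O) = 0 := Subtype.ext h0
    have h2 := congrArg D.R.ρ h1
    rw [map_add, map_one, RedRing.ρ_eq_zero_of_mul (by rw [map_mul, hqcres, mul_zero]), add_zero,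
      map_zero] at h2
    exact one_ne_zero h2
  have H : PApp E f h (lam ^ q * ((q : D.R.A) * c)) w := ⟨hf0, hh0, hord, hf⟩
  -- the twisted data
  have hgO : ∀ x : F, x ∈ D.R.O → g • x ∈ D.R.O := fun x hx => (hg.act.app ⟨x, hx⟩).2
  have hh'' : (g • h) * h ^ m ∈ D.R.O := D.R.O.mul_mem (hgO _ hh) (D.R.O.pow_mem hh m)
  have hh''' : ((g • h) * h ^ m)⁻¹ ∈ D.R.O := by
    rw [mul_inv, ← inv_pow]
    refine D.R.O.mul_mem ?_ (D.R.O.pow_mem hh' m)
    have h1 : (g • h)⁻¹ = g • h⁻¹ := (smul_inv'' g h).symm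
    rw [h1]
    exact hgO _ hh'
  obtain ⟨r, hr⟩ := hg.scale (lam ^ q * ((q : D.R.A) * c))
  obtain ⟨w₁, hw₁⟩ := exists_one_add_mul_pow (D.R.algA (lam ^ q * ((q : D.R.A) * c))) w m
  set w'' : D.R.O := D.R.algA r * hg.act.app w + w₁ +
    D.R.algA (lam ^ q * ((q : D.R.A) * c)) * (D.R.algA r * hg.act.app w) * w₁ with hw''
  have hgh0 : g • h ≠ 0 := by
    rw [ne_eq, smul_eq_zero_iff_eq]
    exact hh0
  have hgf0 : g • f ≠ 0 := by
    rw [ne_eq, smul_eq_zero_iff_eq]
    exact hf0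
  have H'' : PApp (g • E + m • E) ((g • f) * f ^ m) ((g • h) * h ^ m) (lam ^ q * ((q : D.R.A) * c)) w'' := by
    refine ⟨mul_ne_zero hgf0 (pow_ne_zero _ hf0), mul_ne_zero hgh0 (pow_ne_zero _ hh0), ?_, ?_⟩
    · intro v
      rw [v.ord_mul hgf0 (pow_ne_zero _ hf0), ord_pow, hord, Finsupp.add_apply, Finsupp.smul_apply,
        nsmul_eq_mul]
      obtain ⟨v', rfl⟩ : ∃ v' : Place K F, v = g • v' := ⟨g⁻¹ • v, (smul_inv_smul g v).symm⟩
      rw [SemilinearAut.divisor_smul_apply_smul, SemilinearAut.ord_smul, hord]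
      ring
    · have e1 : g • f = (g • h) ^ q * ((hg.act.app (1 + D.R.algA (lam ^ q * ((q : D.R.A) * c)) * w) :
          D.R.O) : F) := by
        conv_lhs => rw [hf]
        rw [smul_mul', smul_pow']
        rfl
      have e2 : (hg.act.app (1 + D.R.algA (lam ^ q * ((q : D.R.A) * c)) * w)) *
          (1 + D.R.algA (lam ^ q * ((q : D.R.A) * c)) * w) ^ m =
          1 + D.R.algA (lam ^ q * ((q : D.R.A) * c)) * w'' := by
        rw [hg.act.app_add, hg.act.app_one, hg.act.app_mul, hg.act.app_algA hr, hw₁, hw'']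
        ring
      rw [← e2, e1]
      conv_lhs => rw [hf]
      rw [Subring.coe_mul, Subring.coe_pow]
      ring
  refine ⟨_, _, (q : D.R.A) * c, w'', hh'', hh''', mul_ne_zero hq0 hc, Dvd.intro_left _ rfl, hqcres, H'', ?_⟩
  -- the generic element
  have hnear := H.nearBy_lam hq hgoodN₀ hlam rfl hqcres
  have hred := (D.ortho hq.pos).red_eq_of_nearBy (hgoodN₀.rank E hE h hh0) hlam0 hnear
  obtain ⟨a, ha, hρa⟩ : (1 : F' × F') ∈ D.R.red (D.MM h E N₀) := by
    rw [hred]; exact one_mem_Λ N₀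
  obtain ⟨a₀, ha₀, t, hat⟩ := hnear a ha
  have hρa₀ : D.R.ρ a₀ = 1 := by
    rw [← hρa, hat, map_add, RedRing.ρ_eq_zero_of_mul hlam0, add_zero]
  obtain ⟨s, hs, hsn⟩ := hg.lam
  obtain ⟨G, hG⟩ := exists_pow_two_terms a₀ (D.R.algA lam * t) m
  set A := hg.act.app a₀ with hA
  set T := hg.act.app t with hT
  refine ⟨A * a₀ ^ m, D.R.algA s * T * a₀ ^ m + m * A * a₀ ^ (m - 1) * t + D.R.algA lam *
    (A * t ^ 2 * G + D.R.algA s * T * (m * a₀ ^ (m - 1) * t) + D.R.algA lam * (D.R.algA s * T *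
      t ^ 2 * G)), ?_, ?_, ?_⟩
  · -- `A a₀ ^ m ∈ L`
    rw [add_mul, one_mul, add_smul, Subring.coe_mul, Subring.coe_pow]
    refine mem_L_mul ?_ (pow_mem_L ha₀ m)
    have h1 := smul_mem_L g ha₀
    have h2 : g • (N₀ • D.E₀) = N₀ • D.E₀ := by
      rw [smul_comm, hg.act.smul_E₀]
    rw [h2] at h1
    exact h1
  · -- the product is in `M''`
    have h1 : A * a₀ ^ m + D.R.algA lam * (D.R.algA s * T * a₀ ^ m + m * A * a₀ ^ (m - 1) * t +
        D.R.algA lam * (A * t ^ 2 * G + D.R.algA s * T * (m * a₀ ^ (m - 1) * t) +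
          D.R.algA lam * (D.R.algA s * T * t ^ 2 * G))) = hg.act.app a * a ^ m := by
      rw [hat, hg.act.app_add, hg.act.app_mul, hg.act.app_algA hs, hG]
      ring
    rw [h1]
    obtain ⟨b, hb, hba⟩ := ha
    change h * b = a at hba
    refine ⟨(g • b) * b ^ m, ?_, ?_⟩
    · have h2 := smul_mem_L g hb
      rw [smul_add, smul_comm, hg.act.smul_E₀] at h2
      have h4 := mem_L_mul h2 (pow_mem_L' D hb m)
      have h5 : N₀ • D.E₀ + g • E + m • (N₀ • D.E₀ + E) =
          ((1 + m) * N₀) • D.E₀ + (g • E + m • E) := by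
        rw [smul_add, add_mul, one_mul, add_smul, mul_smul]
        abel
      rw [h5] at h4
      exact h4
    · change (g • h) * h ^ m * ((g • b) * b ^ m) = ((hg.act.app a * a ^ m : D.R.O) : F)
      rw [Subring.coe_mul, Subring.coe_pow, ← hba]
      change _ = g • (a : F) * _
      rw [← hba, smul_mul']
      ring
  · refine Prod.ext ?_ ?_
    · rw [map_mul, map_pow, hA, hg.act.ρ_app_id, hρa₀, one_pow, mul_one]
    · have h1 : D.R.ρ T = D.R.ρ t := hg.act.ρ_app_id t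
      have h2 : D.R.ρ A = 1 := by rw [hA, hg.act.ρ_app_id, hρa₀]
      have h3 : ((q : ℕ) : F' × F') = 0 := by
        rw [← map_natCast (algebraMap k (F' × F')), CharP.cast_eq_zero, map_zero]
      have h4 : D.R.ρ (D.R.algA s * T * a₀ ^ m + m * A * a₀ ^ (m - 1) * t) =
          (n : F' × F') * D.R.ρ t + (m : F' × F') * D.R.ρ t := by
        simp only [map_add, map_mul, map_pow, map_natCast, h1, h2, hρa₀, one_pow, mul_one,
          RedRing.ρ_algA, hsn]
      rw [map_add, RedRing.ρ_eq_zero_of_mul hlam0, add_zero, h4, ← add_mul, ← Nat.cast_add, hm,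
        Nat.add_sub_cancel' hn, h3, zero_mul]

end Stage

end Data

end Fermat.Agent.TwoComp
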