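import Fermat.Agent.S33.LadMain

/-!
# S33, good reduction at `p`: the ladder theorem and the supersingular theorem
-/

set_option autoImplicit false

open Module

namespace Fermat.Agent.S33aux

open Fermat.Agent.RedInj

namespace Lad

variable {K F k F' : Type*} [Field K] [Field F] [Field k] [Field F'] [Algebra K F] [Algebra k F']
  {R : RedField K F k F'} {p e : ℕ}

section hecke

variable (H : HeckeP R p)

theorem V_eq (w : F') : H.V w = (H.σ.symm w) ^ p := by
  rw [← H.V_σ, RingEquiv.apply_symm_apply]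

theorem V_iter_eq {r : ℕ} (hr : 0 < r) (w : F') : ∃ u : F', (H.V^[r]) w = u ^ p := by
  obtain ⟨r, rfl⟩ : ∃ r', r = r' + 1 := ⟨r - 1, by omega⟩
  rw [Function.iterate_succ_apply', V_eq]
  exact ⟨_, rfl⟩

theorem σ_const (c : k) : H.σ (algebraMap k F' c) = algebraMap k F' (c ^ p) := by
  have hinj : Function.Injective H.V := H.V.toRingHom.injective
  apply hinj
  rw [H.V_σ, AlgHom.commutes, map_pow]

theorem const_of_V [IsAlgClosed k] (hp : p.Prime) (hpk : (p : k) = 0) {x : F'} {c : k}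
    (h : H.V x = algebraMap k F' c) : ∃ c' : k, x = algebraMap k F' c' := by
  rw [V_eq] at h
  obtain ⟨c', hc'⟩ := const_of_pow hp hpk h
  refine ⟨c' ^ p, ?_⟩
  rw [← σ_const H, ← hc', RingEquiv.apply_symm_apply]

theorem T_iter_const (r : ℕ) (c : K) :
    ∃ c' : K, (H.T^[r]) (algebraMap K F c) = algebraMap K F c' := by
  induction r with
  | zero => exact ⟨c, rfl⟩
  | succ r ih =>
    obtain ⟨c', hc'⟩ := ih
    exact ⟨c' ^ (p + 1), by rw [Function.iterate_succ_apply', hc', H.T_const]⟩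

theorem T_iter_ne (r : ℕ) {f : F} (hf : f ≠ 0) : (H.T^[r]) f ≠ 0 := by
  induction r with
  | zero => exact hf
  | succ r ih => rw [Function.iterate_succ_apply']; exact H.T_ne_zero _ ih

theorem T_iter_near (r : ℕ) {s : K} (hs : s ∈ R.A) (hs1 : R.res s = 0) {x : F} (hx : x ∈ R.O) :
    ∃ x' ∈ R.O, (H.T^[r]) (1 + s • x) = 1 + s • x' ∧ R.red x' = (H.V^[r]) (R.red x) := by
  induction r with
  | zero => exact ⟨x, hx, rfl, rfl⟩
  | succ r ih =>
    obtain ⟨x', hx', h1, h2⟩ := ih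
    obtain ⟨x'', hx'', h3, h4⟩ := H.T_near s hs hs1 x' hx'
    exact ⟨x'', hx'', by rw [Function.iterate_succ_apply', h1, h3], by
      rw [h4, h2, Function.iterate_succ_apply']⟩

theorem T_iter_mem {D : DiscSub R p e} (hT : ∀ f ∈ D.FH, H.T f ∈ D.FH) (r : ℕ) {f : F}
    (hf : f ∈ D.FH) : (H.T^[r]) f ∈ D.FH := by
  induction r with
  | zero => exact hf
  | succ r ih => rw [Function.iterate_succ_apply']; exact hT _ ih

end hecke

/-- the level is at least `p / (p - 1)` -/
theorem level_bound (hp : p.Prime) {lam : K} (hl : lam ^ (p - 1) = -(p : K)) {s : K}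
    (h : vv R (s ^ (p - 1)) ≤ vv R ((p : K) ^ p)) : vv R s ≤ vv R (lam ^ p) := by
  have hp1 := hp.one_lt
  have h1 : vv R ((p : K) ^ p) = vv R (lam ^ p) ^ (p - 1) := by
    rw [← map_pow, ← pow_mul, mul_comm p, pow_mul, hl]
    rw [map_pow, map_pow, Valuation.map_neg]
  rw [map_pow, h1] at h
  exact le_of_pow_le_pow_left₀ (by omega) zero_le h

end Lad

open Lad

variable {K F k F' : Type*} [Field K] [Field F] [Field k] [Field F'] [Algebra K F] [Algebra k F']
  {R : RedField K F k F'} {p e : ℕ}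

/-- **The ladder**. -/
theorem ladder [IsAlgClosed k] (hp : p.Prime) (hpK : (p : K) ≠ 0) (hpk : (p : k) = 0) {lam : K}
    (hl : lam ^ (p - 1) = -(p : K)) (D : DiscSub R p e) (he : 0 < e) (H : HeckeP R p)
    (hT : ∀ f ∈ D.FH, H.T f ∈ D.FH) {f : F} (hf : f ∈ D.FH) (hf0 : f ≠ 0)
    (h0 : ∃ c : K, c ≠ 0 ∧ c • f ∈ R.O ∧ ∃ g : F', g ≠ 0 ∧ R.red (c • f) = g ^ p)
    {r : ℕ} (hr : 0 < r) (hrel : ∃ c : K, ∃ h : F, f = (H.T^[r] f) * c • h ^ p) :
    ∃ c : K, c ≠ 0 ∧ ∃ g : F, g ≠ 0 ∧ ∃ w ∈ R.O, f = c • g ^ p * (1 + (lam ^ p) • w) := by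
  obtain ⟨s₀, hs₀, hs₀0, hs₀1, hL₀⟩ := exists_lev D hp hpK hpk hf hf0 h0
  obtain ⟨c', h', hrel⟩ := hrel
  obtain ⟨s, hs, hs0, hs1, hle, c, hc, hc0, g, hg, hg0, x, hx, hxO, hfx⟩ :=
    iterate D hp hpK hpk he (f := f) (fun s hs hs0 hs1 hs2 hL => by
      obtain ⟨c, hc, hc0, g, hg, hg0, x, hx, hxO, hfx⟩ := hL
      have hsA := mem_of_lt R hs1
      obtain ⟨x', hx'O, hTx, hx'r⟩ := T_iter_near H r hsA (res_of_lt R hs1) hxO
      obtain ⟨c'', hc''⟩ := T_iter_const H r c
      obtain ⟨r1, r2, r3, r4, r5⟩ := red_one_add hs1 hx'O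
      set y : F := (x - x') * (1 + s • x')⁻¹ with hy
      have hyO : y ∈ R.O := mul_mem (sub_mem hxO hx'O) r4
      have hyr : R.red y = R.red x - (H.V^[r]) (R.red x) := by
        rw [hy, R.red_mul (sub_mem hxO hx'O) r4, R.red_sub hxO hx'O, r5, mul_one, hx'r]
      have hy1 : (1 + s • y) * (1 + s • x') = 1 + s • x := by
        rw [hy]
        simp only [Algebra.smul_def] at r3 ⊢
        field_simp
        ring
      have hxF : 1 + s • x ∈ D.FH := add_mem (one_mem _) (smul_mem_FH D hs hx)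
      have hx'F : 1 + s • x' ∈ D.FH := by rw [← hTx]; exact T_iter_mem H hT r hxF
      have hyF : 1 + s • y ∈ D.FH := by
        have : 1 + s • y = (1 + s • x) * (1 + s • x')⁻¹ := by
          rw [← hy1, mul_assoc, mul_inv_cancel₀ r3, mul_one]
        rw [this]; exact mul_mem hxF (inv_mem hx'F)
      obtain ⟨-, -, y3, -, -⟩ := red_one_add hs1 hyO
      -- the relation
      have hTf : (H.T^[r]) f = algebraMap K F c'' * ((H.T^[r]) g) ^ p * (1 + s • x') := by
        rw [hfx, iterate_map_mul, Algebra.smul_def, iterate_map_mul, hc'', iterate_map_pow, hTx]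
      have hpow : 1 + s • y = (c'' * c' / c) • (((H.T^[r]) g) * h' / g) ^ p := by
        have h1 : algebraMap K F c * g ^ p * ((1 + s • y) * (1 + s • x')) =
            algebraMap K F c'' * ((H.T^[r]) g) ^ p * (1 + s • x') * (algebraMap K F c' * h' ^ p) := by
          rw [hy1, ← hTf, ← Algebra.smul_def c', ← hrel, hfx, Algebra.smul_def c]
        have h2 : algebraMap K F c ≠ 0 := (map_ne_zero _).mpr hc0
        rw [Algebra.smul_def (c'' * c' / c), map_div₀, map_mul, div_pow, mul_pow]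
        have h3 : algebraMap K F c * g ^ p * (1 + s • y) =
            algebraMap K F c'' * ((H.T^[r]) g) ^ p * (algebraMap K F c' * h' ^ p) := by
          apply mul_right_cancel₀ r3
          linear_combination h1
        field_simp
        linear_combination h3
      obtain ⟨c₁, hc₁, h₁, hh₁, hch⟩ := D.pow _ hyF y3 _ _ hpow
      rcases cmp D hp hpK hpk hs0 hs1 hs2 hyO hc₁ hh₁ hch with ⟨d, hd⟩ |
        ⟨t, ht, ht0, hts, hpt, ζ, hζ⟩
      · rw [hyr] at hd
        obtain ⟨d', hd'⟩ := H.V_const r hr _ ⟨d, hd⟩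
        exact absorb_const D hpK hpk hs hs0 hs1 hc hc0 hg hg0 hx hxO hfx hd'
      · have hq : Fact p.Prime := ⟨hp⟩
        have hck : CharP k p := (CharP.charP_iff_prime_eq_zero (R := k) hp).mpr hpk
        have hcF : CharP F' p := charP_of_injective_algebraMap (algebraMap k F').injective p
        obtain ⟨u, hu⟩ := V_iter_eq H hr (R.red x)
        refine absorb_pow D hp hpK hpk hs hs0 hs1 hc hc0 hg hg0 hx hxO hfx ht ht0 hts hpt
          (ξ := ζ + u) ?_
        rw [add_pow_char, ← hu, ← hζ, hyr]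
        ring) hs₀ hs₀0 hs₀1 hL₀
  have hlam0 : lam ^ p ≠ 0 := by
    have hp1 := hp.one_lt
    refine pow_ne_zero _ ?_
    rintro rfl
    rw [zero_pow (by omega)] at hl
    exact hpK (neg_eq_zero.mp hl.symm)
  have h1 := level_bound hp hl hle
  exact ⟨c, hc0, g, hg0, (s / lam ^ p) • x, R.smul_mem (div_mem R hlam0 h1) hxO, by
    rw [smul_smul, mul_div_cancel₀ _ hlam0, hfx]⟩

/-- **The supersingular case**. -/
theorem supersingular [IsAlgClosed k] (hp : p.Prime) (hpK : (p : K) ≠ 0) (hpk : (p : k) = 0)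
    {lam : K} (hl : lam ^ (p - 1) = -(p : K)) (D : DiscSub R p (p - 1)) (H : HeckeP R p)
    (hT : ∀ f ∈ D.FH, H.T f ∈ D.FH) {f : F} (hf : f ∈ D.FH) (hf0 : f ≠ 0)
    (h0 : ∃ c : K, c ≠ 0 ∧ c • f ∈ R.O ∧ ∃ g : F', g ≠ 0 ∧ R.red (c • f) = g ^ p)
    (hrel : ∃ c : K, ∃ h : F, H.T f = c • h ^ p) :
    ∃ c : K, c ≠ 0 ∧ ∃ g : F, g ≠ 0 ∧ ∃ w ∈ R.O, ∃ ε ∈ R.A, R.res ε = 0 ∧
      f = c • g ^ p * (1 + (lam ^ p * ε) • w) := by
  have hp1 := hp.one_lt
  have hq : Fact p.Prime := ⟨hp⟩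
  have hck : CharP k p := (CharP.charP_iff_prime_eq_zero (R := k) hp).mpr hpk
  have hcF : CharP F' p := charP_of_injective_algebraMap (algebraMap k F').injective p
  have hlam : lam ≠ 0 := by
    rintro rfl
    rw [zero_pow (by omega)] at hl
    exact hpK (neg_eq_zero.mp hl.symm)
  have hlam0 : lam ^ p ≠ 0 := pow_ne_zero _ hlam
  have hvl : vv R lam ^ (p - 1) = vv R (p : K) := by rw [← map_pow, hl, Valuation.map_neg]
  have hvl1 : vv R lam < 1 := by
    by_contra hcon
    rw [not_lt] at hcon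
    have h1 : 1 ≤ vv R lam ^ (p - 1) := one_le_pow₀ hcon
    rw [hvl] at h1
    exact absurd (vv_p (R := R) hpk) (not_lt.mpr h1)
  have hlA := mem_of_lt R hvl1
  obtain ⟨s₀, hs₀, hs₀0, hs₀1, hL₀⟩ := exists_lev D hp hpK hpk hf hf0 h0
  obtain ⟨c', h', hrel⟩ := hrel
  -- the relation for `1 + s x`
  have hmain : ∀ s ∈ D.KH, s ≠ 0 → vv R s < 1 → ∀ c ∈ D.KH, c ≠ 0 → ∀ g ∈ D.FH, g ≠ 0 →
      ∀ x ∈ D.FH, x ∈ R.O → f = c • g ^ p * (1 + s • x) →
      ∃ x' ∈ R.O, R.red x' = H.V (R.red x) ∧ ∃ c₁ ∈ D.KH, ∃ h₁ ∈ D.FH,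
        1 + s • x' = c₁ • h₁ ^ p := by
    intro s hs hs0 hs1 c hc hc0 g hg hg0 x hx hxO hfx
    have hsA := mem_of_lt R hs1
    obtain ⟨x', hx'O, hTx, hx'r⟩ := H.T_near s hsA (res_of_lt R hs1) x hxO
    refine ⟨x', hx'O, hx'r, ?_⟩
    have hxF : 1 + s • x ∈ D.FH := add_mem (one_mem _) (smul_mem_FH D hs hx)
    have hx'F : 1 + s • x' ∈ D.FH := by rw [← hTx]; exact hT _ hxF
    obtain ⟨-, -, y3, -, -⟩ := red_one_add hs1 hx'O
    have hTf : H.T f = algebraMap K F (c ^ (p + 1)) * (H.T g) ^ p * (1 + s • x') := by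
      rw [hfx, map_mul, Algebra.smul_def, map_mul, H.T_const, map_pow H.T, hTx]
    have hTg := H.T_ne_zero g hg0
    have hpow : 1 + s • x' = (c' / c ^ (p + 1)) • (h' / H.T g) ^ p := by
      have h2 : algebraMap K F (c ^ (p + 1)) ≠ 0 := (map_ne_zero _).mpr (pow_ne_zero _ hc0)
      rw [Algebra.smul_def (c' / c ^ (p + 1)), map_div₀, div_pow]
      rw [hTf, Algebra.smul_def c'] at hrel
      field_simp
      linear_combination hrel
    exact D.pow _ hx'F y3 _ _ hpow
  obtain ⟨s, hs, hs0, hs1, hle, c, hc, hc0, g, hg, hg0, x, hx, hxO, hfx⟩ :=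
    iterate D hp hpK hpk (by omega) (f := f) (fun s hs hs0 hs1 hs2 hL => by
      obtain ⟨c, hc, hc0, g, hg, hg0, x, hx, hxO, hfx⟩ := hL
      obtain ⟨x', hx'O, hx'r, c₁, hc₁, h₁, hh₁, hch⟩ :=
        hmain s hs hs0 hs1 c hc hc0 g hg hg0 x hx hxO hfx
      rcases cmp D hp hpK hpk hs0 hs1 hs2 hx'O hc₁ hh₁ hch with ⟨d, hd⟩ |
        ⟨t, ht, ht0, hts, hpt, ζ, hζ⟩
      · rw [hx'r] at hd
        obtain ⟨d', hd'⟩ := const_of_V H hp hpk hd
        exact absorb_const D hpK hpk hs hs0 hs1 hc hc0 hg hg0 hx hxO hfx hd'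
      · -- impossible: `v(s) = p v(t)`, `v(t) ∈ ℤ / (p - 1)`, `0 < v(s) < p / (p - 1)`
        exfalso
        obtain ⟨n, h1, h2⟩ := D.val t ht ht0
        have hvp0 : 0 < vv R (p : K) := vv_pos R hpK
        have hvp1 : vv R (p : K) < 1 := vv_p hpk
        have hn : vv R t ^ (p - 1) = vv R (p : K) ^ n := by
          rw [mem_iff_vv, map_mul, map_inv₀, map_pow, map_zpow₀] at h1
          rw [mem_iff_vv, map_mul, map_inv₀, map_pow, map_zpow₀] at h2
          have h3 : 0 < vv R (p : K) ^ n := zpow_pos hvp0 _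
          have h4 : 0 < vv R t ^ (p - 1) := pow_pos (vv_pos R ht0) _
          apply le_antisymm
          · rwa [inv_mul_le_iff₀ h3, mul_one] at h1
          · rwa [mul_inv_le_iff₀ h4, one_mul] at h2
        have h5 : vv R (s ^ (p - 1)) = (vv R (p : K) ^ n) ^ p := by
          rw [map_pow, ← hts, ← hn, map_pow, ← pow_mul, ← pow_mul, mul_comm]
        rw [h5] at hs2
        have ht1 : vv R t < 1 := by
          by_contra hcon
          rw [not_lt] at hcon
          have h1 : 1 ≤ vv R (t ^ p) := by rw [map_pow]; exact one_le_pow₀ hcon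
          rw [hts] at h1
          exact absurd hs1 (not_lt.mpr h1)
        have h6 : vv R (p : K) ^ n < 1 := by
          rw [← hn]; exact pow_lt_one₀ zero_le ht1 (by omega)
        have h7 : 0 < n := by
          by_contra hcon
          rw [not_lt] at hcon
          exact absurd h6 (not_lt.mpr (one_le_zpow_of_nonpos₀ hvp0 hvp1.le hcon))
        apply absurd hs2
        rw [not_lt, map_pow]
        refine pow_le_pow_left₀ zero_le ?_ _
        calc vv R (p : K) ^ n ≤ vv R (p : K) ^ (1 : ℤ) :=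
              zpow_le_zpow_right_of_le_one₀ hvp0 hvp1.le (by omega)
          _ = vv R (p : K) := zpow_one _) hs₀ hs₀0 hs₀1 hL₀
  have h1 := level_bound hp hl hle
  rcases h1.lt_or_eq with hlt | heq
  · have h2 := div_lt R hlam0 hlt
    exact ⟨c, hc0, g, hg0, x, hxO, s / lam ^ p, mem_of_lt R h2, res_of_lt R h2, by
      rw [mul_div_cancel₀ _ hlam0, hfx]⟩
  -- level exactly `p / (p - 1)`
  obtain ⟨x', hx'O, hx'r, c₁, hc₁, h₁, hh₁, hch⟩ :=
    hmain s hs hs0 hs1 c hc hc0 g hg hg0 x hx hxO hfx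
  rcases cmp0 D hp hpk hs0 hs1 hx'O hc₁ hh₁ hch with ⟨d, hd⟩ |
    ⟨c₂, hc₂, hc₂A, hc₂r, t, ht, ht0, ht1, η, hη, hηO, hηc, hst⟩
  · rw [hx'r] at hd
    obtain ⟨d', hd'⟩ := const_of_V H hp hpk hd
    obtain ⟨s', hs', hs'0, hlt, c, hc, hc0, g, hg, hg0, x, hx, hxO, hfx⟩ :=
      absorb_const D hpK hpk hs hs0 hs1 hc hc0 hg hg0 hx hxO hfx hd'
    rw [heq] at hlt
    have h2 := div_lt R hlam0 hlt
    exact ⟨c, hc0, g, hg0, x, hxO, s' / lam ^ p, mem_of_lt R h2, res_of_lt R h2, by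
      rw [mul_div_cancel₀ _ hlam0, hfx]⟩
  · -- `|t| ≤ |λ|`
    have htA := mem_of_lt R ht1
    have htl : vv R t ≤ vv R lam := by
      rcases le_or_gt (vv R (t ^ p)) (vv R ((p : K) * t)) with hle2 | hgt
      · have h2 : vv R t ^ (p - 1) ≤ vv R lam ^ (p - 1) := by
          rw [hvl]
          have h3 : vv R t ^ (p - 1) * vv R t ≤ vv R (p : K) * vv R t := by
            rw [← pow_succ, Nat.sub_add_cancel hp1.le, ← map_pow, ← map_mul]
            exact hle2
          exact le_of_mul_le_mul_right h3 (vv_pos R ht0)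
        exact le_of_pow_le_pow_left₀ (by omega) zero_le h2
      · obtain ⟨z, hz, hexp⟩ := one_add_pow (R := R) hp htA hηO
        have htp0 : t ^ p ≠ 0 := pow_ne_zero _ ht0
        have hq1 : vv R ((p : K) * t / t ^ p) < 1 := div_lt R htp0 hgt
        have hqA := mem_of_lt R hq1
        set z' : F := η ^ p + ((p : K) * t / t ^ p) • z with hz'
        have hz'O : z' ∈ R.O := add_mem (pow_mem hηO _) (R.smul_mem hqA hz)
        have hz'r : R.red z' = R.red η ^ p := by
          rw [hz', R.red_add (pow_mem hηO _) (R.smul_mem hqA hz), R.red_pow hηO,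
            R.red_smul hqA hz, res_of_lt R hq1, zero_smul, add_zero]
        have hexp' : (1 + t • η) ^ p = 1 + (t ^ p) • z' := by
          rw [hexp, hz', smul_add, smul_smul, mul_div_cancel₀ _ htp0, add_assoc]
        rw [hexp'] at hst
        by_contra hcon
        rw [not_le] at hcon
        have h4 : vv R s < vv R (t ^ p) := by
          rw [heq, map_pow, map_pow]
          exact pow_lt_pow_left₀ hcon zero_le (by omega)
        have hc₂0 : c₂ ≠ 0 := by rintro rfl; rw [R.res_zero] at hc₂r; exact zero_ne_one hc₂r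
        have hv : vv R c₂ = 1 := vv_eq_one_of_res R hc₂A (by rw [hc₂r]; exact one_ne_zero)
        have hc₂i : c₂⁻¹ ∈ R.A := by rw [mem_iff_vv, map_inv₀, hv, inv_one]
        have h2 : 1 + (t ^ p) • z' = c₂⁻¹ • (1 + s • x') := by
          rw [hst, smul_smul, inv_mul_cancel₀ hc₂0, one_smul]
        obtain ⟨b, hb⟩ := cmp_lt htp0 hz'O hc₂i hx'O h4 h2
        rw [hz'r] at hb
        obtain ⟨b', hb'⟩ := const_of_pow hp hpk hb
        exact hηc b' hb'
    have htlA : t / lam ∈ R.A := div_mem R hlam htl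
    set η' : F := (t / lam) • η with hη'
    have hη'O : η' ∈ R.O := R.smul_mem htlA hηO
    obtain ⟨z, hz, hexp⟩ := one_add_lam_pow (R := R) hp hlA hl hη'O
    have htη : t • η = lam • η' := by rw [hη', smul_smul, mul_div_cancel₀ _ hlam]
    set w : F := (η' ^ p - η') + lam • z with hw
    have hwO : w ∈ R.O := add_mem (sub_mem (pow_mem hη'O _) hη'O) (R.smul_mem hlA hz)
    have hwr : R.red w = R.red η' ^ p - R.red η' := by
      rw [hw, R.red_add (sub_mem (pow_mem hη'O _) hη'O) (R.smul_mem hlA hz),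
        R.red_sub (pow_mem hη'O _) hη'O, R.red_pow hη'O, R.red_smul hlA hz, res_of_lt R hvl1,
        zero_smul, add_zero]
    have hexp' : (1 + t • η) ^ p = 1 + (lam ^ p) • w := by
      rw [htη, hexp, hw, smul_add (lam ^ p), smul_smul, ← pow_succ, add_assoc]
    rw [hexp'] at hst
    obtain ⟨b, hb⟩ := cmp_eq hs0 hx'O hc₂A hc₂r hwO heq.symm hst
    -- residues
    have huA : s / lam ^ p ∈ R.A := div_mem R hlam0 heq.le
    have huA' : lam ^ p / s ∈ R.A := div_mem R hs0 heq.ge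
    set u : k := R.res (s / lam ^ p) with hu
    have huu : u * R.res (lam ^ p / s) = 1 := by
      rw [hu, ← R.res_mul huA huA', div_mul_div_cancel₀ hlam0, div_self hs0, R.res_one]
    -- `V (u x̄) = u b + (η'^p - η')`
    have hV : H.V (u • R.red x) = algebraMap k F' (u * b) + (R.red η' ^ p - R.red η') := by
      rw [map_smul, ← hx'r, hb, hwr, smul_add, smul_smul, huu, one_smul, Algebra.smul_def, ← map_mul]
    set w₀ : F' := H.σ.symm (u • R.red x) with hw₀
    have hw₀p : w₀ ^ p = algebraMap k F' (u * b) + (R.red η' ^ p - R.red η') := by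
      rw [← hV, V_eq]
    set v₀ : F' := R.red η' - w₀ with hv₀
    have hv₀p : w₀ = algebraMap k F' (u * b) + (v₀ ^ p - v₀) := by
      rw [hv₀, sub_pow_char]
      linear_combination hw₀p
    have hux : u • R.red x = algebraMap k F' ((u * b) ^ p) + ((H.σ v₀) ^ p - H.σ v₀) := by
      have : u • R.red x = H.σ w₀ := by rw [hw₀, RingEquiv.apply_symm_apply]
      rw [this, hv₀p, map_add, map_sub, map_pow, σ_const]
    obtain ⟨β, hβ⟩ : ∃ β : k, β ^ p - β = (u * b) ^ p := by
      have hdeg : (Polynomial.X ^ p - Polynomial.X - Polynomial.C ((u * b) ^ p) :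
          Polynomial k).degree ≠ 0 := by
        have h2 : (Polynomial.X ^ p - Polynomial.X - Polynomial.C ((u * b) ^ p) :
            Polynomial k).degree = p := by
          rw [sub_sub]
          rw [Polynomial.degree_sub_eq_left_of_degree_lt]
          · exact Polynomial.degree_X_pow p
          · rw [Polynomial.degree_X_pow]
            rw [Polynomial.degree_X_add_C]
            exact_mod_cast hp1
        rw [h2]
        exact_mod_cast hp.ne_zero
      obtain ⟨β, hβ⟩ := IsAlgClosed.exists_root _ hdeg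
      refine ⟨β, ?_⟩
      simp only [Polynomial.IsRoot, Polynomial.eval_sub, Polynomial.eval_pow, Polynomial.eval_X,
        Polynomial.eval_C] at hβ
      linear_combination hβ
    obtain ⟨ψ, hψO, hψr⟩ := R.exists_red (algebraMap k F' β + H.σ v₀)
    have hψp : R.red ψ ^ p - R.red ψ = u • R.red x := by
      rw [hψr, add_pow_char, hux, ← hβ, map_sub (algebraMap k F'), map_pow (algebraMap k F')]
      ring
    obtain ⟨z₂, hz₂, hexp₂⟩ := one_add_lam_pow (R := R) hp hlA hl hψO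
    set w₂ : F := (ψ ^ p - ψ) + lam • z₂ with hw₂
    have hw₂O : w₂ ∈ R.O := add_mem (sub_mem (pow_mem hψO _) hψO) (R.smul_mem hlA hz₂)
    have hw₂r : R.red w₂ = u • R.red x := by
      rw [hw₂, R.red_add (sub_mem (pow_mem hψO _) hψO) (R.smul_mem hlA hz₂),
        R.red_sub (pow_mem hψO _) hψO, R.red_pow hψO, R.red_smul hlA hz₂, res_of_lt R hvl1,
        zero_smul, add_zero, hψp]
    have hexp₂' : (1 + lam • ψ) ^ p = 1 + (lam ^ p) • w₂ := by
      rw [hexp₂, hw₂, smul_add (lam ^ p), smul_smul, ← pow_succ, add_assoc]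
    have hlp1 : vv R (lam ^ p) < 1 := by rw [← heq]; exact hs1
    obtain ⟨q1, q2, q3, q4, q5⟩ := red_one_add hlp1 hw₂O
    set y : F := ((s / lam ^ p) • x - w₂) * (1 + (lam ^ p) • w₂)⁻¹ with hy
    have huxO : (s / lam ^ p) • x ∈ R.O := R.smul_mem huA hxO
    have hyO : y ∈ R.O := mul_mem (sub_mem huxO hw₂O) q4
    have hyr : R.red y = 0 := by
      rw [hy, R.red_mul (sub_mem huxO hw₂O) q4, R.red_sub huxO hw₂O, R.red_smul huA hxO, hw₂r,
        sub_self, zero_mul]
    obtain ⟨ε, hε, hε0, w₃, hw₃, hyw⟩ := exists_eps R hyO hyr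
    obtain ⟨-, -, ψ3, -, -⟩ := red_one_add hvl1 hψO
    refine ⟨c, hc0, g * (1 + lam • ψ), mul_ne_zero hg0 ψ3, w₃, hw₃, ε, hε, hε0, ?_⟩
    have hkey : 1 + s • x = (1 + (lam ^ p) • w₂) * (1 + (lam ^ p) • y) := by
      have h5 : s • x = (lam ^ p) • ((s / lam ^ p) • x) := by
        rw [smul_smul, mul_div_cancel₀ _ hlam0]
      rw [h5, hy]
      generalize (s / lam ^ p) • x = X
      simp only [Algebra.smul_def] at q3 ⊢
      field_simp
      ring
    rw [hfx, hkey, mul_smul (lam ^ p) ε, ← hyw, mul_pow, hexp₂']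
    simp only [Algebra.smul_def]
    ring

end Fermat.Agent.S33aux
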