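import Fermat.Agent.S33.Ladder

/-!
# S33, good reduction at `p`: the ladder and the supersingular case
-/

set_option autoImplicit false

open Module

namespace Fermat.Agent.S33aux

open Fermat.Agent.RedInj

namespace Lad

variable {K F k F' : Type*} [Field K] [Field F] [Field k] [Field F'] [Algebra K F] [Algebra k F']
  {R : RedField K F k F'} {p e : ℕ}

/-- `f = c g ^ p (1 + s x)` inside `FH` -/
def Lev (D : DiscSub R p e) (f : F) (s : K) : Prop :=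
  ∃ c ∈ D.KH, c ≠ 0 ∧ ∃ g ∈ D.FH, g ≠ 0 ∧ ∃ x ∈ D.FH, x ∈ R.O ∧ f = c • g ^ p * (1 + s • x)

theorem vv_p (hpk : (p : k) = 0) : vv R (p : K) < 1 := by
  have hpA : (p : K) ∈ R.A := natCast_mem _ _
  refine lt_of_res R hpA ?_
  rw [R.res_of_mem hpA]
  have : (⟨(p : K), hpA⟩ : R.A) = (p : R.A) := by ext; simp
  rw [this, map_natCast, hpk]

section step

variable (D : DiscSub R p e)
include D

theorem smul_mem_FH {c : K} (hc : c ∈ D.KH) {x : F} (hx : x ∈ D.FH) : c • x ∈ D.FH := by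
  rw [Algebra.smul_def]; exact mul_mem (D.algebraMap_mem c hc) hx

/-- an element of `FH` with zero residue. -/
theorem scale_small (hpK : (p : K) ≠ 0) (hpk : (p : k) = 0) {y : F} (hy : y ∈ D.FH)
    (hyO : y ∈ R.O) (hred : R.red y = 0) :
    ∃ s ∈ D.KH, s ≠ 0 ∧ vv R s < 1 ∧ ∃ x ∈ D.FH, x ∈ R.O ∧ y = s • x := by
  by_cases hy0 : y = 0
  · exact ⟨p, natCast_mem _ _, hpK, vv_p hpk, 0, zero_mem _, zero_mem _, by rw [hy0, smul_zero]⟩
  obtain ⟨c, hc, hc0, hcy, hcr⟩ := D.scale y hy hy0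
  have h1 : vv R c⁻¹ < 1 := by
    rw [map_inv₀]
    refine inv_lt_one_of_one_lt₀ ?_
    by_contra hcon
    rw [not_lt] at hcon
    have hcA := (mem_iff_vv R).mpr hcon
    apply hcr
    rw [R.red_smul hcA hyO, hred, smul_zero]
  exact ⟨c⁻¹, inv_mem hc, inv_ne_zero hc0, h1, c • y, smul_mem_FH D hc hy, hcy, by
    rw [smul_smul, inv_mul_cancel₀ hc0, one_smul]⟩

/-- absorb the residue of `x` -/
theorem absorb (hpK : (p : K) ≠ 0) (hpk : (p : k) = 0) {f : F} {s : K} (hs : s ∈ D.KH)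
    (hs0 : s ≠ 0) (hs1 : vv R s < 1) {c : K} (hc : c ∈ D.KH) (hc0 : c ≠ 0) {g : F} (hg : g ∈ D.FH)
    (hg0 : g ≠ 0) {x : F} (hx : x ∈ D.FH) (hxO : x ∈ R.O) (hf : f = c • g ^ p * (1 + s • x))
    {c₁ : K} (hc₁ : c₁ ∈ D.KH) {g₁ : F} (hg₁ : g₁ ∈ D.FH) {w : F} (hw : w ∈ R.O)
    (hw1 : c₁ • g₁ ^ p = 1 + s • w) (hwx : R.red w = R.red x) :
    ∃ s' ∈ D.KH, s' ≠ 0 ∧ vv R s' < vv R s ∧ Lev D f s' := by
  obtain ⟨r1, r2, r3, r4, r5⟩ := red_one_add hs1 hw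
  have hwF : 1 + s • w ∈ D.FH := by rw [← hw1]; exact smul_mem_FH D hc₁ (pow_mem hg₁ _)
  have hwF' : w ∈ D.FH := by
    have h1 : w = s⁻¹ • ((1 + s • w) - 1) := by
      rw [add_sub_cancel_left, smul_smul, inv_mul_cancel₀ hs0, one_smul]
    rw [h1]
    exact smul_mem_FH D (inv_mem hs) (sub_mem hwF (one_mem _))
  set y : F := (x - w) * (1 + s • w)⁻¹ with hy
  have hyF : y ∈ D.FH := mul_mem (sub_mem hx hwF') (inv_mem hwF)
  have hyO : y ∈ R.O := mul_mem (sub_mem hxO hw) r4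
  have hyr : R.red y = 0 := by
    rw [hy, R.red_mul (sub_mem hxO hw) r4, R.red_sub hxO hw, hwx, sub_self, zero_mul]
  obtain ⟨s₁, hs₁, hs₁0, hs₁1, x₁, hx₁, hx₁O, hyx⟩ := scale_small D hpK hpk hyF hyO hyr
  have hkey : 1 + s • x = c₁ • g₁ ^ p * (1 + (s * s₁) • x₁) := by
    rw [hw1, mul_smul, ← hyx, hy]
    simp only [Algebra.smul_def] at r3 ⊢
    field_simp
    ring
  have hc₁0 : c₁ ≠ 0 := by
    rintro rfl
    rw [zero_smul] at hw1
    exact r3 hw1.symm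
  have hg₁0 : g₁ ≠ 0 ∨ p = 0 := by
    by_cases hp0 : p = 0
    · exact Or.inr hp0
    · left
      rintro rfl
      rw [zero_pow hp0, smul_zero] at hw1
      exact r3 hw1.symm
  refine ⟨s * s₁, mul_mem hs hs₁, mul_ne_zero hs0 hs₁0, ?_, c * c₁, mul_mem hc hc₁,
    mul_ne_zero hc0 hc₁0, g * g₁, mul_mem hg hg₁, mul_ne_zero hg0 (hg₁0.resolve_right ?_), x₁, hx₁,
    hx₁O, ?_⟩
  · rw [map_mul]
    exact mul_lt_of_lt_one_right (vv_pos R hs0) hs₁1
  · rintro rfl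
    exact hpK (by simp)
  · rw [hf, hkey, mul_pow, mul_smul]
    simp only [Algebra.smul_def, map_mul]
    ring

theorem absorb_const (hpK : (p : K) ≠ 0) (hpk : (p : k) = 0) {f : F} {s : K} (hs : s ∈ D.KH)
    (hs0 : s ≠ 0) (hs1 : vv R s < 1) {c : K} (hc : c ∈ D.KH) (hc0 : c ≠ 0) {g : F} (hg : g ∈ D.FH)
    (hg0 : g ≠ 0) {x : F} (hx : x ∈ D.FH) (hxO : x ∈ R.O) (hf : f = c • g ^ p * (1 + s • x))
    {d : k} (hd : R.red x = algebraMap k F' d) :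
    ∃ s' ∈ D.KH, s' ≠ 0 ∧ vv R s' < vv R s ∧ Lev D f s' := by
  obtain ⟨a, ha, haA, har⟩ := D.surj' d
  refine absorb D hpK hpk hs hs0 hs1 hc hc0 hg hg0 hx hxO hf (c₁ := 1 + s * a)
    (add_mem (one_mem _) (mul_mem hs ha)) (one_mem _) (R.algebraMap_mem haA) ?_ ?_
  · simp only [Algebra.smul_def, map_add, map_mul, map_one, one_pow, mul_one]
  · rw [R.red_algebraMap haA, har, hd]

theorem absorb_pow [IsAlgClosed k] (hp : p.Prime) (hpK : (p : K) ≠ 0) (hpk : (p : k) = 0) {f : F}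
    {s : K} (hs : s ∈ D.KH)
    (hs0 : s ≠ 0) (hs1 : vv R s < 1) {c : K} (hc : c ∈ D.KH) (hc0 : c ≠ 0) {g : F} (hg : g ∈ D.FH)
    (hg0 : g ≠ 0) {x : F} (hx : x ∈ D.FH) (hxO : x ∈ R.O) (hf : f = c • g ^ p * (1 + s • x))
    {t : K} (ht : t ∈ D.KH) (ht0 : t ≠ 0) (hts : vv R (t ^ p) = vv R s)
    (hpt : vv R ((p : K) * t) < vv R (t ^ p)) {ξ : F'} (hξ : R.red x = ξ ^ p) :
    ∃ s' ∈ D.KH, s' ≠ 0 ∧ vv R s' < vv R s ∧ Lev D f s' := by
  have htp0 : t ^ p ≠ 0 := pow_ne_zero _ ht0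
  have ht1 : vv R t < 1 := by
    by_contra hcon
    rw [not_lt] at hcon
    have h1 : 1 ≤ vv R (t ^ p) := by rw [map_pow]; exact one_le_pow₀ hcon
    rw [hts] at h1
    exact absurd hs1 (not_lt.mpr h1)
  have htA := mem_of_lt R ht1
  -- `u = s / t ^ p`
  have huA : s / t ^ p ∈ R.A := div_mem R htp0 hts.ge
  have huA' : t ^ p / s ∈ R.A := div_mem R hs0 hts.le
  obtain ⟨d, hd⟩ := IsAlgClosed.exists_pow_nat_eq (R.res (s / t ^ p)) hp.pos
  obtain ⟨ξ₂, hξ₂, hξ₂O, hξ₂r⟩ := D.surj (d • ξ)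
  obtain ⟨z, hz, hexp⟩ := one_add_pow (R := R) hp htA hξ₂O
  have hq1 : vv R ((p : K) * t / s) < 1 := div_lt R hs0 (by rw [← hts]; exact hpt)
  have hqA := mem_of_lt R hq1
  refine absorb D hpK hpk hs hs0 hs1 hc hc0 hg hg0 hx hxO hf (c₁ := 1) (one_mem _)
    (g₁ := 1 + t • ξ₂) (add_mem (one_mem _) (smul_mem_FH D ht hξ₂))
    (w := (t ^ p / s) • ξ₂ ^ p + ((p : K) * t / s) • z)
    (add_mem (R.smul_mem huA' (pow_mem hξ₂O _)) (R.smul_mem hqA hz)) ?_ ?_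
  · rw [one_smul, hexp, smul_add, smul_smul, smul_smul, mul_div_cancel₀ _ hs0,
      mul_div_cancel₀ _ hs0, add_assoc]
  · rw [R.red_add (R.smul_mem huA' (pow_mem hξ₂O _)) (R.smul_mem hqA hz),
      R.red_smul huA' (pow_mem hξ₂O _), R.red_smul hqA hz, res_of_lt R hq1, zero_smul, add_zero,
      R.red_pow hξ₂O, hξ₂r, _root_.smul_pow, hd, smul_smul, ← R.res_mul huA' huA]
    have : t ^ p / s * (s / t ^ p) = 1 := by field_simp
    rw [this, R.res_one, one_smul, hξ]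

end step

section mono

variable (D : DiscSub R p e)
include D

/-- initial form -/
theorem exists_lev [IsAlgClosed k] (hp : p.Prime) (hpK : (p : K) ≠ 0) (hpk : (p : k) = 0) {f : F}
    (hf : f ∈ D.FH) (hf0 : f ≠ 0)
    (h0 : ∃ c : K, c ≠ 0 ∧ c • f ∈ R.O ∧ ∃ g : F', g ≠ 0 ∧ R.red (c • f) = g ^ p) :
    ∃ s ∈ D.KH, s ≠ 0 ∧ vv R s < 1 ∧ Lev D f s := by
  obtain ⟨c, hc0, hcO, g, hg0, hcg⟩ := h0
  obtain ⟨a, ha, ha0, haO, har⟩ := D.scale f hf hf0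
  -- `a • f = (a / c) • (c • f)`
  have hcr : R.red (c • f) ≠ 0 := by rw [hcg]; exact pow_ne_zero _ hg0
  have hcf0 : c • f ≠ 0 := smul_ne_zero hc0 hf0
  have h1 : algebraMap K F (a / c) = (a • f) * (c • f)⁻¹ := by
    rw [Algebra.smul_def, Algebra.smul_def, map_div₀]
    have hc' : algebraMap K F c ≠ 0 := (map_ne_zero _).mpr hc0
    field_simp
  have h2 : algebraMap K F (a / c) ∈ R.O := by
    rw [h1]; exact mul_mem haO (R.inv_mem_of_red_ne hcO hcr)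
  have h3 := (R.mem_iff _).mp h2
  have h4 : a • f = (a / c) • (c • f) := by rw [smul_smul, div_mul_cancel₀ _ hc0]
  obtain ⟨d, hd⟩ := IsAlgClosed.exists_pow_nat_eq (R.res (a / c)) hp.pos
  have h5 : R.red (a • f) = (d • g) ^ p := by
    rw [h4, R.red_smul h3 hcO, hcg, _root_.smul_pow, hd]
  have hdg : d • g ≠ 0 := by
    intro h6
    rw [h6, zero_pow hp.ne_zero] at h5
    exact har h5
  obtain ⟨g₁, hg₁, hg₁O, hg₁r⟩ := D.surj (d • g)
  have hg₁0 : R.red g₁ ≠ 0 := by rw [hg₁r]; exact hdg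
  have hg₁F : g₁ ≠ 0 := by rintro rfl; exact hg₁0 R.red_zero
  have hg₁i := R.inv_mem_of_red_ne hg₁O hg₁0
  set y : F := (a • f) * (g₁⁻¹) ^ p - 1 with hy
  have hyO : y ∈ R.O := sub_mem (mul_mem haO (pow_mem hg₁i _)) (one_mem _)
  have hyF : y ∈ D.FH := sub_mem (mul_mem (smul_mem_FH D ha hf) (pow_mem (inv_mem hg₁) _))
    (one_mem _)
  have hyr : R.red y = 0 := by
    rw [hy, R.red_sub (mul_mem haO (pow_mem hg₁i _)) (one_mem _),
      R.red_mul haO (pow_mem hg₁i _), R.red_pow hg₁i, R.red_inv hg₁O hg₁0, R.red_one, h5, hg₁r,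
      ← mul_pow, mul_inv_cancel₀ hdg, one_pow, sub_self]
  obtain ⟨s, hs, hs0, hs1, x, hx, hxO, hyx⟩ := scale_small D hpK hpk hyF hyO hyr
  refine ⟨s, hs, hs0, hs1, a⁻¹, inv_mem ha, inv_ne_zero ha0, g₁, hg₁, hg₁F, x, hx, hxO, ?_⟩
  rw [← hyx, hy, add_sub_cancel, smul_mul_assoc, smul_mul_assoc, mul_smul_comm, smul_smul,
    inv_mul_cancel₀ ha0, one_smul, mul_comm f, ← mul_assoc, ← mul_pow, mul_inv_cancel₀ hg₁F,
    one_pow, one_mul]

/-- iterate an improvement step until the level is `≥ p / (p - 1)`. -/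
theorem iterate (hp : p.Prime) (hpK : (p : K) ≠ 0) (hpk : (p : k) = 0) (he : 0 < e) {f : F}
    (step : ∀ s ∈ D.KH, s ≠ 0 → vv R s < 1 → vv R ((p : K) ^ p) < vv R (s ^ (p - 1)) →
      Lev D f s → ∃ s' ∈ D.KH, s' ≠ 0 ∧ vv R s' < vv R s ∧ Lev D f s')
    {s : K} (hs : s ∈ D.KH) (hs0 : s ≠ 0) (hs1 : vv R s < 1) (hL : Lev D f s) :
    ∃ s' ∈ D.KH, s' ≠ 0 ∧ vv R s' < 1 ∧ vv R (s' ^ (p - 1)) ≤ vv R ((p : K) ^ p) ∧
      Lev D f s' := by
  have hp1 := hp.one_lt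
  have hvp0 : 0 < vv R (p : K) := vv_pos R hpK
  have hvp1 : vv R (p : K) < 1 := vv_p hpk
  have key : ∀ m : ℕ, ∀ s ∈ D.KH, s ≠ 0 → vv R s < 1 → Lev D f s → ∀ n : ℤ,
      vv R s ^ e = vv R (p : K) ^ n → (p * e : ℤ) - m ≤ n →
      ∃ s' ∈ D.KH, s' ≠ 0 ∧ vv R s' < 1 ∧ vv R (s' ^ (p - 1)) ≤ vv R ((p : K) ^ p) ∧
        Lev D f s' := by
    intro m
    induction m with
    | zero =>
      intro s hs hs0 hs1 hL n hn hmn
      refine ⟨s, hs, hs0, hs1, ?_, hL⟩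
      -- `|s| ^ e ≤ |p| ^ (p e)`
      have h1 : vv R s ^ e ≤ (vv R (p : K) ^ p) ^ e := by
        rw [hn, ← pow_mul, ← zpow_natCast]
        refine zpow_le_zpow_right_of_le_one₀ hvp0 hvp1.le ?_
        push_cast
        simpa using hmn
      have h2 : vv R s ≤ vv R (p : K) ^ p := le_of_pow_le_pow_left₀ he.ne' zero_le h1
      rw [map_pow, map_pow]
      calc vv R s ^ (p - 1) ≤ (vv R (p : K) ^ p) ^ (p - 1) := pow_le_pow_left₀ zero_le h2 _
        _ ≤ vv R (p : K) ^ p := by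
          refine pow_le_of_le_one zero_le (pow_le_one₀ zero_le hvp1.le) (by omega)
    | succ m ih =>
      intro s hs hs0 hs1 hL n hn hmn
      by_cases hcase : vv R ((p : K) ^ p) < vv R (s ^ (p - 1))
      · obtain ⟨s', hs', hs'0, hlt, hL'⟩ := step s hs hs0 hs1 hcase hL
        obtain ⟨n', h1, h2⟩ := D.val s' hs' hs'0
        have hpn : (p : K) ^ n' ≠ 0 := zpow_ne_zero _ hpK
        have hn' : vv R s' ^ e = vv R (p : K) ^ n' := by
          rw [mem_iff_vv, map_mul, map_inv₀, map_pow, map_zpow₀] at h1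
          rw [mem_iff_vv, map_mul, map_inv₀, map_pow, map_zpow₀] at h2
          have h3 : 0 < vv R (p : K) ^ n' := zpow_pos hvp0 _
          have h4 : 0 < vv R s' ^ e := pow_pos (vv_pos R hs'0) _
          apply le_antisymm
          · rwa [inv_mul_le_iff₀ h3, mul_one] at h1
          · rwa [mul_inv_le_iff₀ h4, one_mul] at h2
        refine ih s' hs' hs'0 (hlt.trans hs1) hL' n' hn' ?_
        have h5 : vv R s' ^ e < vv R s ^ e := pow_lt_pow_left₀ hlt zero_le he.ne'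
        rw [hn, hn'] at h5
        have h6 : n < n' := (zpow_lt_zpow_iff_right_of_lt_one₀ hvp0 hvp1).mp h5
        push_cast at hmn ⊢
        omega
      · exact ⟨s, hs, hs0, hs1, not_lt.mp hcase, hL⟩
  obtain ⟨n, h1, h2⟩ := D.val s hs hs0
  have hn : vv R s ^ e = vv R (p : K) ^ n := by
    rw [mem_iff_vv, map_mul, map_inv₀, map_pow, map_zpow₀] at h1
    rw [mem_iff_vv, map_mul, map_inv₀, map_pow, map_zpow₀] at h2
    have h3 : 0 < vv R (p : K) ^ n := zpow_pos hvp0 _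
    have h4 : 0 < vv R s ^ e := pow_pos (vv_pos R hs0) _
    apply le_antisymm
    · rwa [inv_mul_le_iff₀ h3, mul_one] at h1
    · rwa [mul_inv_le_iff₀ h4, one_mul] at h2
  refine key ((p * e : ℤ) - n).toNat s hs hs0 hs1 hL n hn ?_
  have := Int.self_le_toNat ((p * e : ℤ) - n)
  omega

end mono

end Lad

end Fermat.Agent.S33aux
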