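import Fermat.Agent.S33.Disc

/-!
# S33, good reduction at `p`: valuations and binomial expansions
-/

set_option autoImplicit false

open Module

namespace Fermat.Agent.S33aux

open Fermat.Agent.RedInj

namespace Lad

variable {K F k F' : Type*} [Field K] [Field F] [Field k] [Field F'] [Algebra K F] [Algebra k F']

section val

variable (R : RedField K F k F')

/-- the valuation of `K`. -/
noncomputable abbrev vv : Valuation K R.A.ValueGroup := R.A.valuation

theorem mem_iff_vv {a : K} : a ∈ R.A ↔ vv R a ≤ 1 := (R.A.valuation_le_one_iff a).symm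

theorem mem_of_lt {a : K} (h : vv R a < 1) : a ∈ R.A := (mem_iff_vv R).mpr h.le

theorem res_of_lt {a : K} (h : vv R a < 1) : R.res a = 0 :=
  (R.res_eq_zero_iff (mem_of_lt R h)).mpr h

theorem lt_of_res {a : K} (ha : a ∈ R.A) (h : R.res a = 0) : vv R a < 1 :=
  (R.res_eq_zero_iff ha).mp h

theorem vv_pos {a : K} (h : a ≠ 0) : 0 < vv R a := zero_lt_iff.mpr ((vv R).ne_zero_iff.mpr h)

theorem div_mem {a b : K} (hb : b ≠ 0) (h : vv R a ≤ vv R b) : a / b ∈ R.A := by
  rw [mem_iff_vv, map_div₀]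
  exact div_le_one_of_le₀ h zero_le

theorem div_lt {a b : K} (hb : b ≠ 0) (h : vv R a < vv R b) : vv R (a / b) < 1 := by
  rw [map_div₀]
  exact (div_lt_one₀ (vv_pos R hb)).mpr h

theorem res_ne_zero {a : K} (h : vv R a = 1) : R.res a ≠ 0 := by
  intro h1
  have h2 : a ∈ R.A := (mem_iff_vv R).mpr h.le
  exact absurd (lt_of_res R h2 h1) (by rw [h]; exact lt_irrefl _)

theorem vv_eq_one_of_res {a : K} (ha : a ∈ R.A) (h : R.res a ≠ 0) : vv R a = 1 := by
  rcases ((mem_iff_vv R).mp ha).lt_or_eq with h1 | h1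
  · exact absurd (res_of_lt R h1) h
  · exact h1

/-- scaling in `F` -/
theorem exists_scale {z : F} (hz : z ≠ 0) : ∃ c : K, c ≠ 0 ∧ c • z ∈ R.O ∧ R.red (c • z) ≠ 0 := by
  have hfin : finrank K (Submodule.span K {z}) = 1 := finrank_span_singleton hz
  obtain ⟨n, e, he, hli, hn⟩ := R.exists_basis (Submodule.span K {z}) inferInstance
  have hn1 : n = 1 := by rw [← hn, hfin]
  subst hn1
  obtain ⟨c, hc⟩ := Submodule.mem_span_singleton.mp (he 0)
  have h1 := hli.ne_zero 0
  refine ⟨c, ?_, ?_, ?_⟩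
  · rintro rfl
    apply h1
    have : e 0 = 0 := by
      apply Subtype.ext
      rw [← hc, zero_smul]
      rfl
    simp [this]
  · rw [hc]; exact (e 0).2
  · rw [hc, R.red_coe]; exact h1

/-- elements of the maximal ideal -/
theorem exists_eps {z : F} (hz : z ∈ R.O) (h : R.red z = 0) :
    ∃ ε : K, ε ∈ R.A ∧ R.res ε = 0 ∧ ∃ w ∈ R.O, z = ε • w := by
  by_cases hz0 : z = 0
  · exact ⟨0, zero_mem _, R.res_zero, 0, zero_mem _, by rw [hz0, smul_zero]⟩
  obtain ⟨c, hc, hcz, hred⟩ := exists_scale R hz0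
  have h1 : vv R c⁻¹ < 1 := by
    rw [map_inv₀]
    refine inv_lt_one_of_one_lt₀ ?_
    by_contra hcon
    rw [not_lt] at hcon
    have hcA := (mem_iff_vv R).mpr hcon
    apply hred
    rw [R.red_smul hcA hz, h, smul_zero]
  exact ⟨c⁻¹, mem_of_lt R h1, res_of_lt R h1, c • z, hcz, by
    rw [smul_smul, inv_mul_cancel₀ hc, one_smul]⟩

end val

section binom

variable {R : RedField K F k F'}

/-- `(1 + t η) ^ p = 1 + t ^ p η ^ p + p t z` -/
theorem one_add_pow {p : ℕ} (hp : p.Prime) {t : K} (ht : t ∈ R.A) {η : F} (hη : η ∈ R.O) :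
    ∃ z ∈ R.O, (1 + t • η) ^ p = 1 + (t ^ p) • η ^ p + ((p : K) * t) • z := by
  have hchoose : ∀ i, ∃ q : ℕ, 1 ≤ i → i < p → p.choose i = p * q := by
    intro i
    by_cases h : 1 ≤ i ∧ i < p
    · obtain ⟨q, hq⟩ := hp.dvd_choose_self (by omega) h.2
      exact ⟨q, fun _ _ => hq⟩
    · exact ⟨0, fun h1 h2 => absurd ⟨h1, h2⟩ h⟩
  choose q hq using hchoose
  have hp1 := hp.one_lt
  obtain ⟨r, rfl⟩ : ∃ r, p = r + 1 := ⟨p - 1, by omega⟩
  refine ⟨∑ i ∈ Finset.range r, ((q (i + 1) : ℕ) : F) * (t • η) ^ i * η, ?_, ?_⟩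
  · exact R.sum_mem fun i _ => mul_mem (mul_mem (natCast_mem _ _)
      (pow_mem (R.smul_mem ht hη) _)) hη
  · rw [add_comm (1 : F), add_pow, Finset.sum_range_succ, Finset.sum_range_succ']
    simp only [one_pow, mul_one, Nat.choose_self, Nat.cast_one, pow_zero,
      Nat.choose_zero_right]
    have h2 : ∑ i ∈ Finset.range r, (t • η) ^ (i + 1) * (((r + 1).choose (i + 1) : ℕ) : F) =
        (((r + 1 : ℕ) : K) * t) • ∑ i ∈ Finset.range r, ((q (i + 1) : ℕ) : F) * (t • η) ^ i * η := by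
      rw [Finset.smul_sum]
      refine Finset.sum_congr rfl fun i hi => ?_
      rw [Finset.mem_range] at hi
      rw [hq (i + 1) (by omega) (by omega)]
      simp only [Algebra.smul_def, map_mul, map_natCast, Nat.cast_mul]
      ring
    rw [h2, _root_.smul_pow]
    ring

/-- `(1 + λ η) ^ p = 1 + λ ^ p (η ^ p - η) + λ ^ (p + 1) z` if `λ ^ (p - 1) = -p`. -/
theorem one_add_lam_pow {p : ℕ} (hp : p.Prime) {lam : K} (hlA : lam ∈ R.A)
    (hl : lam ^ (p - 1) = -(p : K)) {η : F} (hη : η ∈ R.O) :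
    ∃ z ∈ R.O, (1 + lam • η) ^ p = 1 + (lam ^ p) • (η ^ p - η) + (lam ^ (p + 1)) • z := by
  have hchoose : ∀ i, ∃ q : ℕ, 1 ≤ i → i < p → p.choose i = p * q := by
    intro i
    by_cases h : 1 ≤ i ∧ i < p
    · obtain ⟨q, hq⟩ := hp.dvd_choose_self (by omega) h.2
      exact ⟨q, fun _ _ => hq⟩
    · exact ⟨0, fun h1 h2 => absurd ⟨h1, h2⟩ h⟩
  choose q hq using hchoose
  have hp1 := hp.one_lt
  obtain ⟨r, rfl⟩ : ∃ r, p = r + 2 := ⟨p - 2, by omega⟩
  have hl' : ((r + 2 : ℕ) : K) * lam = -(lam ^ (r + 2)) := by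
    have : lam ^ (r + 2) = lam ^ (r + 2 - 1) * lam := by
      rw [← pow_succ]; rfl
    rw [this, hl]; ring
  refine ⟨-∑ i ∈ Finset.range r, ((q (i + 2) : ℕ) : F) * (lam • η) ^ i * η ^ 2, ?_, ?_⟩
  · exact neg_mem (R.sum_mem fun i _ => mul_mem (mul_mem (natCast_mem _ _)
      (pow_mem (R.smul_mem hlA hη) _)) (pow_mem hη _))
  · rw [add_comm (1 : F), add_pow, Finset.sum_range_succ, Finset.sum_range_succ',
      Finset.sum_range_succ']
    simp only [one_pow, mul_one, Nat.choose_self, Nat.cast_one, pow_zero, zero_add,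
      Nat.choose_zero_right, Nat.choose_one_right, pow_one]
    have h2 : ∑ i ∈ Finset.range r, (lam • η) ^ (i + 1 + 1) *
          (((r + 2).choose (i + 1 + 1) : ℕ) : F) =
        (lam ^ (r + 2 + 1)) •
          (-∑ i ∈ Finset.range r, ((q (i + 2) : ℕ) : F) * (lam • η) ^ i * η ^ 2) := by
      have h3 : lam ^ (r + 2 + 1) = -(((r + 2 : ℕ) : K) * lam * lam) := by
        rw [pow_succ, hl']; ring
      rw [h3, smul_neg, neg_smul, neg_neg, Finset.smul_sum]
      refine Finset.sum_congr rfl fun i hi => ?_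
      rw [Finset.mem_range] at hi
      rw [hq (i + 2) (by omega) (by omega)]
      simp only [Algebra.smul_def, map_mul, map_natCast, Nat.cast_mul]
      ring
    have h4 : (lam • η) * ((r + 2 : ℕ) : F) = -((lam ^ (r + 2)) • η) := by
      rw [← neg_smul, ← hl', Algebra.smul_def, Algebra.smul_def, map_mul, map_natCast]
      ring
    rw [h2, h4, _root_.smul_pow, smul_sub]
    ring

end binom

end Lad

end Fermat.Agent.S33aux
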