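import Fermat.Agent.S33.LadVal

/-!
# S33, good reduction at `p`: the ladder
-/

set_option autoImplicit false

open Module

namespace Fermat.Agent.S33aux

open Fermat.Agent.RedInj

namespace Lad

variable {K F k F' : Type*} [Field K] [Field F] [Field k] [Field F'] [Algebra K F] [Algebra k F']
  {R : RedField K F k F'} {p e : ℕ}

section aux

/-- `p`-th powers are constants only for constants. -/
theorem const_of_pow [IsAlgClosed k] (hp : p.Prime) (hpk : (p : k) = 0) {ζ : F'} {c : k}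
    (h : ζ ^ p = algebraMap k F' c) : ∃ c' : k, ζ = algebraMap k F' c' := by
  have : Fact p.Prime := ⟨hp⟩
  have : CharP k p := by
    have h1 := (CharP.charP_iff_prime_eq_zero (R := k) hp).mpr hpk
    exact h1
  have : CharP F' p := charP_of_injective_algebraMap (algebraMap k F').injective p
  obtain ⟨c', hc'⟩ := IsAlgClosed.exists_pow_nat_eq c hp.pos
  refine ⟨c', ?_⟩
  apply frobenius_inj F' p
  rw [frobenius_def, frobenius_def, h, ← map_pow, hc']

theorem add_const_pow [IsAlgClosed k] (hp : p.Prime) (hpk : (p : k) = 0) (c d : k) (ζ : F') :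
    ∃ ξ : F', algebraMap k F' c + d • ζ ^ p = ξ ^ p := by
  have : Fact p.Prime := ⟨hp⟩
  have : CharP k p := (CharP.charP_iff_prime_eq_zero (R := k) hp).mpr hpk
  have : CharP F' p := charP_of_injective_algebraMap (algebraMap k F').injective p
  obtain ⟨c', hc'⟩ := IsAlgClosed.exists_pow_nat_eq c hp.pos
  obtain ⟨d', hd'⟩ := IsAlgClosed.exists_pow_nat_eq d hp.pos
  refine ⟨algebraMap k F' c' + d' • ζ, ?_⟩
  rw [add_pow_char, _root_.smul_pow, hd', ← map_pow, hc']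

/-- the residue of `y` is constant if `1 + s y = c₂ (1 + u z)` with `|u| < |s|`. -/
theorem cmp_lt {s : K} (hs : s ≠ 0) {y : F} (hy : y ∈ R.O) {c₂ : K} (hc₂ : c₂ ∈ R.A) {u : K}
    {z : F} (hz : z ∈ R.O) (hu : vv R u < vv R s) (h : 1 + s • y = c₂ • (1 + u • z)) :
    ∃ c : k, R.red y = algebraMap k F' c := by
  have h1 : y = algebraMap K F ((c₂ - 1) / s) + (c₂ * (u / s)) • z := by
    have hs' : algebraMap K F s ≠ 0 := (map_ne_zero _).mpr hs
    simp only [Algebra.smul_def] at h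
    simp only [Algebra.smul_def, map_mul, map_div₀, map_sub, map_one]
    field_simp
    linear_combination h
  have hus : vv R (u / s) < 1 := div_lt R hs hu
  have husA : u / s ∈ R.A := mem_of_lt R hus
  have h6 : (c₂ * (u / s)) • z ∈ R.O := R.smul_mem (mul_mem hc₂ husA) hz
  have h7 : algebraMap K F ((c₂ - 1) / s) ∈ R.O := by
    have : algebraMap K F ((c₂ - 1) / s) = y - (c₂ * (u / s)) • z := by rw [h1]; ring
    rw [this]; exact sub_mem hy h6
  refine ⟨R.res ((c₂ - 1) / s), ?_⟩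
  rw [h1, R.red_add h7 h6, R.red_algebraMap ((R.mem_iff _).mp h7),
    R.red_smul (mul_mem hc₂ husA) hz, R.res_mul hc₂ husA, res_of_lt R hus, mul_zero, zero_smul,
    add_zero]

theorem cmp_eq {s : K} (hs : s ≠ 0) {y : F} (hy : y ∈ R.O) {c₂ : K} (hc₂ : c₂ ∈ R.A)
    (hc₂' : R.res c₂ = 1) {u : K}
    {z : F} (hz : z ∈ R.O) (hu : vv R u = vv R s) (h : 1 + s • y = c₂ • (1 + u • z)) :
    ∃ c : k, R.red y = algebraMap k F' c + (R.res (u / s)) • R.red z := by
  have h1 : y = algebraMap K F ((c₂ - 1) / s) + (c₂ * (u / s)) • z := by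
    have hs' : algebraMap K F s ≠ 0 := (map_ne_zero _).mpr hs
    simp only [Algebra.smul_def] at h
    simp only [Algebra.smul_def, map_mul, map_div₀, map_sub, map_one]
    field_simp
    linear_combination h
  have husA : u / s ∈ R.A := div_mem R hs hu.le
  have h6 : (c₂ * (u / s)) • z ∈ R.O := R.smul_mem (mul_mem hc₂ husA) hz
  have h7 : algebraMap K F ((c₂ - 1) / s) ∈ R.O := by
    have : algebraMap K F ((c₂ - 1) / s) = y - (c₂ * (u / s)) • z := by rw [h1]; ring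
    rw [this]; exact sub_mem hy h6
  refine ⟨R.res ((c₂ - 1) / s), ?_⟩
  rw [h1, R.red_add h7 h6, R.red_algebraMap ((R.mem_iff _).mp h7),
    R.red_smul (mul_mem hc₂ husA) hz, R.res_mul hc₂ husA, hc₂', one_mul]

theorem red_one_add {s : K} (hs1 : vv R s < 1) {y : F} (hy : y ∈ R.O) :
    1 + s • y ∈ R.O ∧ R.red (1 + s • y) = 1 ∧ 1 + s • y ≠ 0 ∧ (1 + s • y)⁻¹ ∈ R.O ∧
      R.red (1 + s • y)⁻¹ = 1 := by
  have hsA := mem_of_lt R hs1
  have h1 : 1 + s • y ∈ R.O := add_mem (one_mem _) (R.smul_mem hsA hy)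
  have h2 : R.red (1 + s • y) = 1 := by
    rw [R.red_add (one_mem _) (R.smul_mem hsA hy), R.red_smul hsA hy, res_of_lt R hs1, zero_smul,
      add_zero, R.red_one]
  have h3 : R.red (1 + s • y) ≠ 0 := by rw [h2]; exact one_ne_zero
  refine ⟨h1, h2, ?_, R.inv_mem_of_red_ne h1 h3, ?_⟩
  · intro h; rw [h] at h3; exact h3 R.red_zero
  · rw [R.red_inv h1 h3, h2, inv_one]

/-- a constant `c₂` with `1 + s y = c₂ (1 + t η) ^ p` is congruent to `1`. -/
theorem const_res {s t : K} (hs1 : vv R s < 1) (ht1 : vv R t < 1) {y η : F} (hy : y ∈ R.O)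
    (hη : η ∈ R.O) {c₂ : K} {n : ℕ} (h : 1 + s • y = c₂ • (1 + t • η) ^ n) :
    c₂ ∈ R.A ∧ R.res c₂ = 1 := by
  obtain ⟨h1, h2, -, -, -⟩ := red_one_add hs1 hy
  obtain ⟨g1, g2, g3, g4, g5⟩ := red_one_add ht1 hη
  have h3 : algebraMap K F c₂ = (1 + s • y) * ((1 + t • η)⁻¹) ^ n := by
    rw [h, Algebra.smul_def, mul_assoc, ← mul_pow, mul_inv_cancel₀ g3, one_pow, mul_one]
  have h4 : algebraMap K F c₂ ∈ R.O := by rw [h3]; exact mul_mem h1 (pow_mem g4 _)
  have h5 := (R.mem_iff _).mp h4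
  refine ⟨h5, ?_⟩
  apply (algebraMap k F').injective
  rw [← R.red_algebraMap h5, h3, R.red_mul h1 (pow_mem g4 _), R.red_pow g4, g5, h2, one_pow,
    mul_one, map_one]

end aux

section cmp

variable [IsAlgClosed k] (D : DiscSub R p e)
include D

theorem cmp0 (hp : p.Prime) (hpk : (p : k) = 0) {s : K} (hs : s ≠ 0) (hs1 : vv R s < 1) {y : F}
    (hy : y ∈ R.O) {c₁ : K} {h₁ : F} (hc₁ : c₁ ∈ D.KH) (hh₁ : h₁ ∈ D.FH)
    (h : 1 + s • y = c₁ • h₁ ^ p) :
    (∃ c : k, R.red y = algebraMap k F' c) ∨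
    ∃ c₂ ∈ D.KH, c₂ ∈ R.A ∧ R.res c₂ = 1 ∧ ∃ t ∈ D.KH, t ≠ 0 ∧ vv R t < 1 ∧
      ∃ η ∈ D.FH, η ∈ R.O ∧ (∀ c : k, R.red η ≠ algebraMap k F' c) ∧
        1 + s • y = c₂ • (1 + t • η) ^ p := by
  obtain ⟨r1, r2, r3, r4, r5⟩ := red_one_add hs1 hy
  by_cases hconst : ∃ c : K, h₁ = algebraMap K F c
  · left
    obtain ⟨c, rfl⟩ := hconst
    have h1 : 1 + s • y = (c₁ * c ^ p) • (1 + (0 : K) • (1 : F)) := by
      rw [h, zero_smul, add_zero, mul_smul, Algebra.smul_def (c ^ p), map_pow, mul_one]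
    have h2 : algebraMap K F (c₁ * c ^ p) ∈ R.O := by
      have : algebraMap K F (c₁ * c ^ p) = 1 + s • y := by
        rw [h1, zero_smul, add_zero, Algebra.smul_def, mul_one]
      rw [this]; exact r1
    exact cmp_lt hs hy ((R.mem_iff _).mp h2) (one_mem _) (by
      rw [map_zero]; exact vv_pos R hs) h1
  push Not at hconst
  obtain ⟨a, ha, s₀, hs₀, η, hη, hs₀0, hηO, hηc, hh⟩ := D.approx h₁ hh₁ hconst
  rcases le_or_gt (vv R a) (vv R s₀) with hle | hlt
  · -- `h₁ = s₀ ζ`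
    exfalso
    have haA : a / s₀ ∈ R.A := div_mem R hs₀0 hle
    set ζ : F := algebraMap K F (a / s₀) + η with hζ
    have hζO : ζ ∈ R.O := add_mem (R.algebraMap_mem haA) hηO
    have hζr : R.red ζ = algebraMap k F' (R.res (a / s₀)) + R.red η := by
      rw [hζ, R.red_add (R.algebraMap_mem haA) hηO, R.red_algebraMap haA]
    have hζc : ∀ c : k, R.red ζ ≠ algebraMap k F' c := by
      intro c hc
      apply hηc (c - R.res (a / s₀))
      rw [map_sub, ← hc, hζr]; ring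
    have hζ0 : R.red ζ ≠ 0 := by
      intro h0; exact hζc 0 (by rw [h0, map_zero])
    have hζF : ζ ≠ 0 := by intro h0; rw [h0] at hζ0; exact hζ0 R.red_zero
    have hhζ : h₁ = s₀ • ζ := by
      rw [hh, hζ, smul_add, Algebra.smul_def s₀ (algebraMap K F (a / s₀)), ← map_mul,
        mul_div_cancel₀ _ hs₀0]
    have h1 : 1 + s • y = (c₁ * s₀ ^ p) • ζ ^ p := by
      rw [h, hhζ, _root_.smul_pow, smul_smul]
    have h2 : algebraMap K F (c₁ * s₀ ^ p) = (1 + s • y) * (ζ⁻¹) ^ p := by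
      rw [h1, Algebra.smul_def, mul_assoc, ← mul_pow, mul_inv_cancel₀ hζF, one_pow, mul_one]
    have hζi := R.inv_mem_of_red_ne hζO hζ0
    have h3 : algebraMap K F (c₁ * s₀ ^ p) ∈ R.O := by rw [h2]; exact mul_mem r1 (pow_mem hζi _)
    have h4 := (R.mem_iff _).mp h3
    have h5 : algebraMap k F' (R.res (c₁ * s₀ ^ p)) = ((R.red ζ)⁻¹) ^ p := by
      rw [← R.red_algebraMap h4, h2, R.red_mul r1 (pow_mem hζi _), r2, one_mul, R.red_pow hζi,
        R.red_inv hζO hζ0]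
    obtain ⟨c', hc'⟩ := const_of_pow hp hpk h5.symm
    exact hζc c'⁻¹ (by rw [map_inv₀, ← hc', inv_inv])
  · -- `h₁ = a (1 + t η)`
    right
    have ha0 : a ≠ 0 := by
      rintro rfl
      rw [map_zero] at hlt
      exact absurd hlt (not_lt.mpr zero_le)
    have ht1 : vv R (s₀ / a) < 1 := div_lt R ha0 hlt
    have hha : h₁ = a • (1 + (s₀ / a) • η) := by
      rw [hh, smul_add, smul_smul, mul_div_cancel₀ _ ha0, Algebra.smul_def a, mul_one]
    have h1 : 1 + s • y = (c₁ * a ^ p) • (1 + (s₀ / a) • η) ^ p := by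
      rw [h, hha, _root_.smul_pow, smul_smul]
    obtain ⟨g1, g2⟩ := const_res hs1 ht1 hy hηO h1
    exact ⟨c₁ * a ^ p, mul_mem hc₁ (pow_mem ha _), g1, g2, s₀ / a, _root_.div_mem hs₀ ha,
      div_ne_zero hs₀0 ha0, ht1, η, hη, hηO, hηc, h1⟩

theorem cmp (hp : p.Prime) (hpK : (p : K) ≠ 0) (hpk : (p : k) = 0) {s : K} (hs : s ≠ 0)
    (hs1 : vv R s < 1)
    (hs2 : vv R ((p : K) ^ p) < vv R (s ^ (p - 1))) {y : F}
    (hy : y ∈ R.O) {c₁ : K} {h₁ : F} (hc₁ : c₁ ∈ D.KH) (hh₁ : h₁ ∈ D.FH)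
    (h : 1 + s • y = c₁ • h₁ ^ p) :
    (∃ c : k, R.red y = algebraMap k F' c) ∨
    ∃ t ∈ D.KH, t ≠ 0 ∧ vv R (t ^ p) = vv R s ∧ vv R ((p : K) * t) < vv R (t ^ p) ∧
      ∃ ζ : F', R.red y = ζ ^ p := by
  rcases cmp0 D hp hpk hs hs1 hy hc₁ hh₁ h with h0 |
    ⟨c₂, hc₂, hc₂A, hc₂r, t, ht, ht0, ht1, η, hη, hηO, hηc, hst⟩
  · exact Or.inl h0
  have htA := mem_of_lt R ht1
  obtain ⟨z, hz, hexp⟩ := one_add_pow (R := R) hp htA hηO
  have hpt0 : (p : K) * t ≠ 0 := mul_ne_zero hpK ht0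
  have htp0 : t ^ p ≠ 0 := pow_ne_zero _ ht0
  rcases lt_or_ge (vv R ((p : K) * t)) (vv R (t ^ p)) with hlt | hge
  · -- dominant term `t ^ p`
    have hq1 : vv R ((p : K) * t / t ^ p) < 1 := div_lt R htp0 hlt
    have hqA := mem_of_lt R hq1
    set z' : F := η ^ p + ((p : K) * t / t ^ p) • z with hz'
    have hz'O : z' ∈ R.O := add_mem (pow_mem hηO _) (R.smul_mem hqA hz)
    have hz'r : R.red z' = R.red η ^ p := by
      rw [hz', R.red_add (pow_mem hηO _) (R.smul_mem hqA hz), R.red_pow hηO, R.red_smul hqA hz,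
        res_of_lt R hq1, zero_smul, add_zero]
    have hexp' : (1 + t • η) ^ p = 1 + (t ^ p) • z' := by
      rw [hexp, hz', smul_add, smul_smul, mul_div_cancel₀ _ htp0, add_assoc]
    rw [hexp'] at hst
    rcases lt_trichotomy (vv R (t ^ p)) (vv R s) with h1 | h1 | h1
    · exact Or.inl (cmp_lt hs hy hc₂A hz'O h1 hst)
    · right
      obtain ⟨c, hc⟩ := cmp_eq hs hy hc₂A hc₂r hz'O h1 hst
      obtain ⟨ξ, hξ⟩ := add_const_pow (F' := F') hp hpk c (R.res (t ^ p / s)) (R.red η)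
      exact ⟨t, ht, ht0, h1, hlt, ξ, by rw [hc, hz'r, hξ]⟩
    · exfalso
      have hc₂0 : c₂ ≠ 0 := by rintro rfl; rw [R.res_zero] at hc₂r; exact zero_ne_one hc₂r
      have hv : vv R c₂ = 1 := vv_eq_one_of_res R hc₂A (by rw [hc₂r]; exact one_ne_zero)
      have hc₂i : c₂⁻¹ ∈ R.A := by rw [mem_iff_vv, map_inv₀, hv, inv_one]
      have h2 : 1 + (t ^ p) • z' = c₂⁻¹ • (1 + s • y) := by
        rw [hst, smul_smul, inv_mul_cancel₀ hc₂0, one_smul]
      obtain ⟨c, hc⟩ := cmp_lt htp0 hz'O hc₂i hy h1 h2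
      rw [hz'r] at hc
      obtain ⟨c', hc'⟩ := const_of_pow hp hpk hc
      exact hηc c' hc'
  · -- `|t ^ p| ≤ |p t|`
    left
    have hqA : t ^ p / ((p : K) * t) ∈ R.A := div_mem R hpt0 hge
    have hexp' : (1 + t • η) ^ p =
        1 + ((p : K) * t) • (z + (t ^ p / ((p : K) * t)) • η ^ p) := by
      rw [hexp, smul_add, smul_smul, mul_div_cancel₀ _ hpt0]
      ring
    rw [hexp'] at hst
    refine cmp_lt hs hy hc₂A (add_mem hz (R.smul_mem hqA (pow_mem hηO _))) ?_ hst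
    -- `|p t| < |s|`
    by_contra hcon
    rw [not_lt] at hcon
    apply absurd hs2
    rw [not_lt]
    have hp1 := hp.one_lt
    have h1 : vv R (t ^ (p - 1)) ≤ vv R (p : K) := by
      have h2 : vv R (t ^ (p - 1)) * vv R t ≤ vv R (p : K) * vv R t := by
        rw [← map_mul, ← map_mul, ← pow_succ, Nat.sub_add_cancel hp1.le]
        exact hge
      exact le_of_mul_le_mul_right h2 (vv_pos R ht0)
    calc vv R (s ^ (p - 1)) = vv R s ^ (p - 1) := map_pow _ _ _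
      _ ≤ vv R ((p : K) * t) ^ (p - 1) := pow_le_pow_left₀ zero_le hcon _
      _ = vv R (p : K) ^ (p - 1) * vv R (t ^ (p - 1)) := by
          rw [map_mul, mul_pow, map_pow]
      _ ≤ vv R (p : K) ^ (p - 1) * vv R (p : K) := mul_le_mul_right h1 _
      _ = vv R ((p : K) ^ p) := by
          rw [← pow_succ, Nat.sub_add_cancel hp1.le, map_pow]

end cmp

end Lad

end Fermat.Agent.S33aux
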