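import Fermat.Agent.S33.ScaleB
import Fermat.Agent.TwoComp.Gal

/-!
# Power properties of the spaces `Λ N`
-/

set_option autoImplicit false
set_option linter.unusedSectionVars false

open AlgebraicCurve WithZero Module Polynomial
open scoped IntermediateField
open Fermat.Agent.RR Fermat.Agent.Deuring Fermat.Agent.FF

namespace Fermat.Agent.TwoComp

namespace Data

variable {K Fm F k F' : Type*} [Field K] [Field Fm] [Algebra K Fm] [Field F]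
    [Algebra K F] [Field k] [Field F'] [Algebra k F'] {q : ℕ} {D : Data K Fm F k F' q}

section K

variable [IsFF K F]

theorem one_mem_L (N : ℕ) : (1 : F) ∈ riemannRochSpace (K := K) (N • D.E₀) := by
  rw [mem_L_iff one_ne_zero]
  intro v
  rw [v.ord_one, Finsupp.smul_apply, nsmul_eq_mul]
  have := D.E₀_nonneg v
  have h0 : (0 : ℤ) ≤ N := Int.natCast_nonneg N
  have h1 := mul_nonneg h0 this
  change (0 : ℤ) ≤ N * D.E₀ v at h1
  omega

theorem one_mem_Λ (N : ℕ) : (1 : F' × F') ∈ D.Λ N :=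
  ⟨1, one_mem_L N, map_one _⟩

theorem mul_mem_Λ {M N : ℕ} {x y : F' × F'} (hx : x ∈ D.Λ M) (hy : y ∈ D.Λ N) :
    x * y ∈ D.Λ (M + N) := by
  refine RedRing.mul_mem_red ?_ hx hy
  intro v hv w hw
  rw [add_smul]
  exact mem_L_mul hv hw

theorem pow_mem_Λ {N : ℕ} {x : F' × F'} (hx : x ∈ D.Λ N) (n : ℕ) : x ^ n ∈ D.Λ (n * N) := by
  induction n with
  | zero => rw [pow_zero]; exact one_mem_Λ _
  | succ n ih =>
    rw [pow_succ, add_mul, one_mul]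
    exact mul_mem_Λ ih hx

theorem pow_mem_L {N : ℕ} {x : F} (hx : x ∈ riemannRochSpace (K := K) (N • D.E₀)) (n : ℕ) :
    x ^ n ∈ riemannRochSpace (K := K) ((n * N) • D.E₀) := by
  induction n with
  | zero => rw [pow_zero]; exact one_mem_L _
  | succ n ih =>
    rw [pow_succ, add_mul, one_mul, add_smul]
    exact mem_L_mul ih hx

theorem yy_pow_mem_L (N : ℕ) : ((D.yy : D.R.O) : F) ^ N ∈ riemannRochSpace (K := K) (N • D.E₀) := by
  rw [mem_L_iff (pow_ne_zero _ yy_ne_zero)]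
  intro v
  rw [ord_pow, Finsupp.smul_apply, nsmul_eq_mul]
  have h1 : D.E₀ v = max (- v.ord ((D.yy : D.R.O) : F)) 0 := by
    rw [← zeroDiv_yy, zeroDiv_apply, v.ord_inv]
  have h2 : -(D.E₀ v) ≤ v.ord ((D.yy : D.R.O) : F) := by
    have := le_max_left (- v.ord ((D.yy : D.R.O) : F)) 0
    omega
  have h0 : (0 : ℤ) ≤ N := Int.natCast_nonneg N
  have h3 := mul_le_mul_of_nonneg_left h2 h0
  change -((N : ℤ) * D.E₀ v) ≤ N * v.ord _
  linarith

variable (D) in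
/-- the reduction of `j j_q` -/
noncomputable def uu : F' × F' := (D.jb ^ (q + 1), D.jb ^ (q + 1))

theorem ρ_yy' : D.R.ρ D.yy = D.uu := ρ_yy

theorem uu_pow_mem (N : ℕ) : D.uu ^ N ∈ D.Λ N :=
  ⟨D.yy ^ N, yy_pow_mem_L N, by rw [map_pow, ρ_yy']⟩

end K

variable [IsFF K F] [IsFF k F']

/-- Pole orders at a solution of `x ^ p - z ^ (p - 1) x = w`. -/
theorem int_Lp {y : F'} {p : ℕ} (hp : p.Prime) {n : ℤ} {x z : F'} (hz : z ∈ Lp (K := k) y n)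
    (h : x ^ p - z ^ (p - 1) * x ∈ Lp (K := k) y (p * n)) : x ∈ Lp (K := k) y n := by
  rw [mem_Lp] at hz h ⊢
  intro v
  by_contra hv
  rw [not_le] at hv
  have hp1 : p - 1 + 1 = p := by have := hp.two_le; omega
  have hp2 : p - 1 ≠ 0 := by have := hp.two_le; omega
  set B := exp (n * max (-v.ord y) 0) with hB
  have h1 : v.adicValuation (z ^ (p - 1) * x) < v.adicValuation (x ^ p) := by
    rw [map_mul, map_pow, map_pow]
    conv_rhs => rw [← hp1, pow_succ]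
    have hx0 : 0 < v.adicValuation x := lt_of_le_of_lt zero_le hv
    refine mul_lt_mul_of_pos_right ?_ hx0
    exact pow_lt_pow_left₀ (lt_of_le_of_lt (hz v) hv) zero_le hp2
  have h2 := h v
  rw [Valuation.map_sub_eq_of_lt_left _ h1, map_pow, mul_assoc, ← nsmul_eq_mul, exp_nsmul,
    ← hB] at h2
  exact absurd (pow_lt_pow_left₀ hv zero_le hp.ne_zero) (not_lt.mpr h2)

theorem int_U {p : ℕ} (hp : p.Prime) {n : ℤ} {x z : F' × F'} (hz : z ∈ D.U n)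
    (h : x ^ p - z ^ (p - 1) * x ∈ D.U (p * n)) : x ∈ D.U n :=
  ⟨int_Lp hp hz.1 h.1, int_Lp hp hz.2 h.2⟩

/-- `INT` -/
theorem int_Λ (hq : q.Prime) {N M : ℕ} (hs : D.Λ M ⊓ D.U (N * (q + 1) : ℕ) = D.Λ N)
    {x z : F' × F'} (hx : x ∈ D.Λ M) (hz : z ∈ D.Λ N)
    (h : x ^ q - z ^ (q - 1) * x ∈ D.Λ (q * N)) : x ∈ D.Λ N := by
  rw [← hs]
  refine ⟨hx, ?_⟩
  have h1 := D.Λ_le hq.pos _ h
  rw [mul_assoc, Nat.cast_mul] at h1
  exact int_U hq (D.Λ_le hq.pos _ hz) h1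

/-- Saturation with respect to the reduction of `j j_q`. -/
theorem sat_Λ [IsFF K Fm] (hq : q.Prime) {N M c : ℕ} (hs : D.Λ M ⊓ D.U (N * (q + 1) : ℕ) = D.Λ N)
    {x : F' × F'} (hx : x ∈ D.Λ M) (h : D.uu ^ c * x ∈ D.Λ (N + c)) : x ∈ D.Λ N := by
  rw [← hs]
  refine ⟨hx, ?_⟩
  have hU1 := D.Λ_le hq.pos _ hx
  have hU2 := D.Λ_le hq.pos _ h
  rw [SetLike.mem_coe, mem_U]
  rw [mem_U] at hU1 hU2
  have hfst : (D.uu ^ c * x).1 = D.jb ^ (c * (q + 1)) * x.1 := by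
    rw [Prod.fst_mul, Prod.pow_fst, uu, ← pow_mul, mul_comm (q + 1)]
  have hsnd : (D.uu ^ c * x).2 = D.jb ^ (c * (q + 1)) * x.2 := by
    rw [Prod.snd_mul, Prod.pow_snd, uu, ← pow_mul, mul_comm (q + 1)]
  rw [hfst, hsnd, add_mul] at hU2
  exact ⟨mem_Lp_of_jb_pow_mul hU1.1 hU2.1, mem_Lp_of_jb_pow_mul hU1.2 hU2.2⟩

/-- `LIN` -/
theorem lin_Λ [IsFF K Fm] [Infinite k] (hq : q.Prime) {N : ℕ}
    (hs : D.Λ ((q + 1) * N) ⊓ D.U (N * (q + 1) : ℕ) = D.Λ N)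
    (T : Submodule k ((F' × F') × (F' × F'))) (h1 : ∀ w ∈ T, w.1 ∈ D.Λ N)
    (h2 : ∀ z ∈ D.Λ N, ∃ y, (z, y) ∈ T)
    (h3 : ∀ w ∈ T, w.1 ^ (q - 1) * w.2 ∈ D.Λ (q * N)) : ∀ w ∈ T, w.2 ∈ D.Λ N := by
  -- polarisation
  have hpol : ∀ w ∈ T, ∀ w' ∈ T,
      ((q - 1 : ℕ) : F' × F') * w.1 ^ (q - 1 - 1) * w'.1 * w.2 + w.1 ^ (q - 1) * w'.2 ∈
        D.Λ (q * N) := by
    intro w hw w' hw'
    set P : (F' × F')[X] := (C w.1 + C w'.1 * X) ^ (q - 1) * (C w.2 + C w'.2 * X) with hP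
    have h4 : ∀ s : k, P.eval (algebraMap k (F' × F') s) ∈ D.Λ (q * N) := by
      intro s
      have h5 := h3 (w + s • w') (T.add_mem hw (T.smul_mem s hw'))
      have e1 : (w + s • w').1 = w.1 + w'.1 * algebraMap k (F' × F') s := by
        rw [Prod.fst_add, Prod.smul_fst, Algebra.smul_def, mul_comm]
      have e2 : (w + s • w').2 = w.2 + w'.2 * algebraMap k (F' × F') s := by
        rw [Prod.snd_add, Prod.smul_snd, Algebra.smul_def, mul_comm]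
      rw [e1, e2] at h5
      simpa only [hP, eval_mul, eval_pow, eval_add, eval_C, eval_X] using h5
    have h5 := RedRing.coeff_mem_of_eval_mem _ P h4 1
    have h6 : P.coeff 1 = (derivative P).eval 0 := by
      rw [← coeff_zero_eq_eval_zero, coeff_derivative]; simp
    rw [h6] at h5
    convert h5 using 1
    simp [hP, derivative_pow]
  obtain ⟨y₁, hy₁⟩ := h2 1 (one_mem_Λ N)
  obtain ⟨y₂, hy₂⟩ := h2 (D.uu ^ N) (uu_pow_mem N)
  intro w hw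
  have hN : N + q * N = (q + 1) * N := by ring
  have e1 : w.2 ∈ D.Λ ((q + 1) * N) := by
    have e2 := hpol _ hy₁ w hw
    have e3 := h3 _ hy₁
    simp only [one_pow, one_mul, mul_one] at e2 e3
    have e4 : ((q - 1 : ℕ) : F' × F') * w.1 * y₁ ∈ D.Λ ((q + 1) * N) := by
      rw [mul_assoc, ← nsmul_eq_mul, ← hN]
      exact Submodule.smul_of_tower_mem _ _ (mul_mem_Λ (h1 _ hw) e3)
    have e5 := Submodule.sub_mem _ (D.Λ_mono (by rw [← hN]; omega) e2) e4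
    rwa [add_sub_cancel_left] at e5
  refine sat_Λ hq hs e1 (c := q * N) ?_
  have e2 := hpol _ hy₂ w hw
  have e3 := h3 _ hy₂
  simp only at e2 e3
  have e6 := mul_mem_Λ (uu_pow_mem (D := D) N) e2
  have hp1 : q - 1 - 1 + 1 = q - 1 := by have := hq.two_le; omega
  have hp2 : q - 1 + 1 = q := by have := hq.two_le; omega
  have e7 : D.uu ^ N * (((q - 1 : ℕ) : F' × F') * (D.uu ^ N) ^ (q - 1 - 1) * w.1 * y₂ +
      (D.uu ^ N) ^ (q - 1) * w.2) = ((q - 1 : ℕ) : F' × F') * (w.1 * ((D.uu ^ N) ^ (q - 1) * y₂)) +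
      D.uu ^ (q * N) * w.2 := by
    have e8 : (D.uu ^ N) ^ (q - 1) = D.uu ^ N * (D.uu ^ N) ^ (q - 1 - 1) := by
      rw [← pow_succ', hp1]
    have e9 : D.uu ^ (q * N) = D.uu ^ N * (D.uu ^ N) ^ (q - 1) := by
      rw [← pow_succ', hp2, ← pow_mul, mul_comm]
    rw [e9, mul_add, ← mul_assoc (D.uu ^ N) ((D.uu ^ N) ^ (q - 1)) w.2, e8]
    ring
  rw [e7] at e6
  have e4 : ((q - 1 : ℕ) : F' × F') * (w.1 * ((D.uu ^ N) ^ (q - 1) * y₂)) ∈ D.Λ (N + q * N) := by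
    rw [← nsmul_eq_mul]
    exact Submodule.smul_of_tower_mem _ _ (mul_mem_Λ (h1 _ hw) e3)
  have e5 := Submodule.sub_mem _ e6 e4
  rwa [add_sub_cancel_left] at e5

/-- `MID` -/
theorem mid_Λ [Infinite k] (hq : q.Prime) {N : ℕ}
    (hs : D.Λ (q * N) ⊓ D.U (N * (q + 1) : ℕ) = D.Λ N)
    (T : Submodule k ((F' × F') × (F' × F'))) (h1 : ∀ w ∈ T, w.1 ∈ D.Λ N)
    (h2 : ((1 : F' × F'), (0 : F' × F')) ∈ T)
    (h3 : ∀ w ∈ T, w.2 ^ q - w.1 ^ (q - 1) * w.2 ∈ D.Λ (q * N)) : ∀ w ∈ T, w.2 ∈ D.Λ N := by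
  intro w hw
  set P : (F' × F')[X] := C (w.2 ^ q) - (X + C w.1) ^ (q - 1) * C w.2 with hP
  have h4 : ∀ s : k, P.eval (algebraMap k (F' × F') s) ∈ D.Λ (q * N) := by
    intro s
    have h5 := h3 (w + s • ((1 : F' × F'), (0 : F' × F'))) (T.add_mem hw (T.smul_mem s h2))
    have e1 : (w + s • ((1 : F' × F'), (0 : F' × F'))).1 = algebraMap k (F' × F') s + w.1 := by
      change w.1 + s • (1 : F' × F') = _
      rw [Algebra.smul_def, mul_one, add_comm]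
    have e2 : (w + s • ((1 : F' × F'), (0 : F' × F'))).2 = w.2 := by
      change w.2 + s • (0 : F' × F') = _
      rw [smul_zero, add_zero]
    rw [e1, e2] at h5
    simpa only [hP, eval_sub, eval_mul, eval_pow, eval_add, eval_C, eval_X] using h5
  have h5 := RedRing.coeff_mem_of_eval_mem _ P h4 (q - 1)
  have hp1 : q - 1 ≠ 0 := by have := hq.two_le; omega
  have h6 : P.coeff (q - 1) = - w.2 := by
    rw [hP, coeff_sub, coeff_C, if_neg hp1, coeff_mul_C, coeff_X_add_C_pow, Nat.sub_self,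
      pow_zero, Nat.choose_self]
    simp
  rw [h6] at h5
  exact int_Λ hq hs ((Submodule.neg_mem_iff _).mp h5) (h1 w hw) (h3 w hw)

variable [IsFF K Fm]

/-- `SN` -/
theorem NodeSet.exists_sn [CharP k q] (T : D.NodeSet) (hq : q.Prime) : ∃ N₂ : ℕ, ∀ N : ℕ, N₂ ≤ N →
    ∀ x : F' × F', x ^ q ∈ D.Λ (q * N) → x ∈ D.Λ N := by
  obtain ⟨N₂, h₂⟩ := T.exists_Λ_eq hq.two_le
  refine ⟨N₂, fun N hN x hx => ?_⟩
  have hU := D.Λ_le hq.pos _ hx
  rw [mul_assoc, Nat.cast_mul, mem_U] at hU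
  have hU1 : x.1 ∈ Lp (K := k) D.jb ((N * (q + 1) : ℕ) : ℤ) := mem_Lp_of_pow_mem hq.pos hU.1
  have hU2 : x.2 ∈ Lp (K := k) D.jb ((N * (q + 1) : ℕ) : ℤ) := mem_Lp_of_pow_mem hq.pos hU.2
  let a : D.Rb := ⟨x.1, mem_of_mem_Lp hU1⟩
  let b : D.Rb := ⟨x.2, mem_of_mem_Lp hU2⟩
  have hS : (a ^ q, b ^ q) ∈ D.S := ⟨q * N, hx⟩
  rw [h₂ N hN]
  refine ⟨⟨hU1, hU2⟩, a, b, rfl, fun s hs => ?_⟩
  have h1 := (T.mem_S_iff _ _).mp hS s hs
  rw [map_pow, map_pow, map_pow] at h1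
  rw [one_mul]
  have : Fact q.Prime := ⟨hq⟩
  exact frobenius_inj k q h1

end Data

end Fermat.Agent.TwoComp
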