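import Fermat.Agent.S33.Approx
import Fermat.Agent.S33.InertiaMu
import Fermat.Agent.S30_Charpoly

/-!
# Ordinarity of `ρ` from a "connected part" of the torsion of an Eichler--Shimura module
-/

set_option autoImplicit false

noncomputable section

open CuspForm ModularCurve Polynomial Fermat.Agent.GalRep

namespace Fermat.Agent.S33aux

/-! ### Idempotents of trace one in rank two -/

section RankOne

variable {T V : Type*} [CommRing T] [IsLocalRing T] [AddCommGroup V] [Module T V]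

omit [IsLocalRing T] in
lemma ker_eq_span (b : Module.Basis (Fin 2) T V) (e : Module.End T V) (h0 : e (b 0) = 0)
    (h1 : e (b 1) = b 1) : LinearMap.ker e = T ∙ b 0 := by
  apply le_antisymm
  · intro w hw
    rw [LinearMap.mem_ker] at hw
    have h := b.sum_repr w
    rw [Fin.sum_univ_two] at h
    rw [← h, map_add, map_smul, map_smul, h0, h1, smul_zero, zero_add] at hw
    rw [← h, hw, add_zero]
    exact Submodule.smul_mem _ _ (Submodule.mem_span_singleton_self _)
  · rw [Submodule.span_singleton_le_iff_mem, LinearMap.mem_ker]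
    exact h0

/-- The kernel of an idempotent of trace one in rank two is spanned by a basis vector. -/
lemma exists_basis_ker (b : Module.Basis (Fin 2) T V) (e : Module.End T V) (he : e * e = e)
    (htr : LinearMap.trace T V e = 1) :
    ∃ b' : Module.Basis (Fin 2) T V, LinearMap.ker e = T ∙ b' 0 := by
  classical
  set M := LinearMap.toMatrix b b e with hM
  have hMM : M * M = M := by rw [hM, ← LinearMap.toMatrix_mul, he]
  have htrM : M 0 0 + M 1 1 = 1 := by
    rw [← htr, LinearMap.trace_eq_matrix_trace T b, Matrix.trace_fin_two]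
  have h00 : M 0 0 * M 0 0 + M 0 1 * M 1 0 = M 0 0 := by
    have := congrFun (congrFun hMM 0) 0
    rwa [Matrix.mul_apply, Fin.sum_univ_two] at this
  have h11 : M 1 0 * M 0 1 + M 1 1 * M 1 1 = M 1 1 := by
    have := congrFun (congrFun hMM 1) 1
    rwa [Matrix.mul_apply, Fin.sum_univ_two] at this
  have heb : ∀ j, e (b j) = M 0 j • b 0 + M 1 j • b 1 := by
    intro j
    have := b.sum_repr (e (b j))
    rw [Fin.sum_univ_two] at this
    rw [← this, hM, LinearMap.toMatrix_apply, LinearMap.toMatrix_apply]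
  have hee : ∀ v, e (e v) = e v := fun v => LinearMap.congr_fun he v
  have key : ∀ i j : Fin 2, IsUnit (b.det ![b i - e (b i), e (b j)]) →
      ∃ b' : Module.Basis (Fin 2) T V, LinearMap.ker e = T ∙ b' 0 := by
    intro i j hu
    obtain ⟨hli, hsp⟩ := (Module.Basis.is_basis_iff_det b).mpr hu
    refine ⟨Module.Basis.mk hli hsp.ge, ker_eq_span _ e ?_ ?_⟩
    · rw [Module.Basis.mk_apply]
      change e (b i - e (b i)) = 0
      rw [map_sub, hee, sub_self]
    · rw [Module.Basis.mk_apply]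
      exact hee _
  rcases IsLocalRing.isUnit_or_isUnit_of_add_one htrM with hu | hu
  · refine key 1 0 ?_
    have : b.det ![b 1 - e (b 1), e (b 0)] = - M 0 0 := by
      rw [Module.Basis.det_apply, Matrix.det_fin_two]
      simp only [Module.Basis.toMatrix_apply, Matrix.cons_val_zero, Matrix.cons_val_one, heb,
        map_sub, map_add, map_smul, Finsupp.sub_apply, Finsupp.add_apply, Finsupp.smul_apply,
        b.repr_self, Finsupp.single_apply, smul_eq_mul]
      simp
      linear_combination -h00 + M 0 0 * htrM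
    rw [this]
    exact hu.neg
  · refine key 0 1 ?_
    have : b.det ![b 0 - e (b 0), e (b 1)] = M 1 1 := by
      rw [Module.Basis.det_apply, Matrix.det_fin_two]
      simp only [Module.Basis.toMatrix_apply, Matrix.cons_val_zero, Matrix.cons_val_one, heb,
        map_sub, map_add, map_smul, Finsupp.sub_apply, Finsupp.add_apply, Finsupp.smul_apply,
        b.repr_self, Finsupp.single_apply, smul_eq_mul]
      simp
      linear_combination h11 - M 1 1 * htrM
    rw [this]
    exact hu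

end RankOne

section Main

variable {N p : ℕ} [NeZero N] {S : Finset ℕ}
  {J : Type*} [AddCommGroup J] [Module HeckeAlg J] [DistribMulAction GQ J]
  [SMulCommClass GQ HeckeAlg J]
  {T : Type} [CommRing T] [IsLocalRing T] [IsNoetherianRing T]

omit [Module HeckeAlg J] [DistribMulAction GQ J] [SMulCommClass GQ HeckeAlg J] in
lemma cyc_mul_smul (hp : p.Prime) (m : ℕ) {ζ : AlgebraicClosure ℚ}
    (hζ : IsPrimitiveRoot ζ (p ^ m)) (g h : GQ) (x : J) (hx : p ^ m • x = 0) :
    cycExp p hp m hζ (g * h) • x = (cycExp p hp m hζ g * cycExp p hp m hζ h) • x := by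
  have h1 : ((p ^ m : ℕ) : ℤ) ∣ (cycExp p hp m hζ (g * h) : ℤ) -
      ((cycExp p hp m hζ g * cycExp p hp m hζ h : ℕ) : ℤ) := by
    rw [← ZMod.intCast_zmod_eq_zero_iff_dvd]
    have := sub_eq_zero.mpr (cycExp_mul p hp m hζ g h)
    push_cast at this ⊢
    rw [mul_comm (cycExp p hp m hζ g : ZMod (p ^ m))]
    exact this
  obtain ⟨e, he⟩ := h1
  have h2 : (cycExp p hp m hζ (g * h) : ℤ) • x -
      ((cycExp p hp m hζ g * cycExp p hp m hζ h : ℕ) : ℤ) • x = 0 := by
    rw [← sub_smul, he, mul_comm, mul_smul, natCast_zsmul, hx, smul_zero]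
  rw [natCast_zsmul, natCast_zsmul] at h2
  exact sub_eq_zero.mp h2

omit [Module HeckeAlg J] [SMulCommClass GQ HeckeAlg J] in
lemma eight_identity (σ τ g : GQ) (c ct cg : ℤ) (x : J) :
    (1 : ℤ) • ((σ * (τ * (g * σ))) • x + (c * (ct * (cg * c))) • ((σ * (τ * (g * σ)))⁻¹ • x)) +
    (-1 : ℤ) • ((σ * (g * σ)) • x + (c * (cg * c)) • ((σ * (g * σ))⁻¹ • x)) +
    (-c) • ((τ * (g * σ)) • x + (ct * (cg * c)) • ((τ * (g * σ))⁻¹ • x)) +
    c • ((g * σ) • x + (cg * c) • ((g * σ)⁻¹ • x)) +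
    (-c) • ((σ * (τ * g)) • x + (c * (ct * cg)) • ((σ * (τ * g))⁻¹ • x)) +
    c • ((σ * g) • x + (c * cg) • ((σ * g)⁻¹ • x)) +
    (c * c) • ((τ * g) • x + (ct * cg) • ((τ * g)⁻¹ • x)) +
    (-(c * c)) • (g • x + cg • (g⁻¹ • x)) =
    σ • (τ • (g • σ • x - c • g • x) - (g • σ • x - c • g • x)) -
        c • (τ • (g • σ • x - c • g • x) - (g • σ • x - c • g • x)) +
      (c * c * cg) •
        (σ⁻¹ • (ct • g⁻¹ • τ⁻¹ • (σ⁻¹ • x - x) - g⁻¹ • (σ⁻¹ • x - x)) -
          (ct • g⁻¹ • τ⁻¹ • (σ⁻¹ • x - x) - g⁻¹ • (σ⁻¹ • x - x))) := by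
  have hcomm : ∀ (a : GQ) (k : ℤ) (y : J), a • (k • y) = k • (a • y) :=
    fun a k y => smul_comm a k y
  have hm : ∀ (a b : GQ) (y : J), (a * b) • y = a • (b • y) := fun a b y => mul_smul a b y
  simp only [mul_inv_rev, hm, smul_sub (_ : GQ), hcomm]
  generalize σ • τ • g • σ • x = a1
  generalize σ • g • σ • x = a2
  generalize τ • g • σ • x = a3
  generalize g • σ • x = a4
  generalize σ • τ • g • x = a5
  generalize σ • g • x = a6
  generalize τ • g • x = a7
  generalize g • x = a8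
  generalize σ⁻¹ • g⁻¹ • τ⁻¹ • σ⁻¹ • x = b1
  generalize σ⁻¹ • g⁻¹ • σ⁻¹ • x = b2
  generalize σ⁻¹ • g⁻¹ • τ⁻¹ • x = b3
  generalize σ⁻¹ • g⁻¹ • x = b4
  generalize g⁻¹ • τ⁻¹ • σ⁻¹ • x = b5
  generalize g⁻¹ • σ⁻¹ • x = b6
  generalize g⁻¹ • τ⁻¹ • x = b7
  generalize g⁻¹ • x = b8
  module

/-- A `ℤ`-combination `y = ∑ k_i g_i` such that `y + y*` maps `J[p^m]` into `W` has small trace. -/
lemma trace_mem_of_W (hJ : ESInput N p (↑S : Set ℕ) J) (hp : p.Prime)
    (hpS : p ∈ S) (hNS : ∀ q : ℕ, q.Prime → q ∣ N → q ∈ S)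
    {π : heckeAlgebra N 2 (↑S : Set ℕ) →+* T} {ρ : GaloisRepAdic T}
    (hfrob : HasFrobCharpoly π ρ) {m n : ℕ} {ζ : AlgebraicClosure ℚ}
    (hζ : IsPrimitiveRoot ζ (p ^ m)) (W : AddSubgroup J)
    (hm : ∀ t : HeckeAlgS (↑S : Set ℕ), (∀ x : J, p ^ m • x = 0 → inclS (↑S : Set ℕ) t • x ∈ W) →
      π (evS N (↑S : Set ℕ) t) ∈ Ideal.span {(p : T) ^ n})
    {ι : Type*} (I : Finset ι) (k : ι → ℤ) (g : ι → GQ)
    (h : ∀ x : J, p ^ m • x = 0 →
      ∑ i ∈ I, k i • (g i • x + cycExp p hp m hζ (g i) • ((g i)⁻¹ • x)) ∈ W) :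
    ∑ i ∈ I, k i • LinearMap.trace T ρ.V (ρ.ρ (g i)) ∈ Ideal.span {(p : T) ^ n} := by
  refine mem_of_forall_mem_sup_pow _ _ fun n' => ?_
  obtain ⟨t, ht, ht'⟩ := exists_heckeApprox' hJ hp hpS hNS hfrob m n' hζ
  have h1 := hm (∑ i ∈ I, k i • t (g i)) (fun x hx => by
    have h2 := h x hx
    rw [map_sum, Finset.sum_smul]
    convert h2 using 1
    refine Finset.sum_congr rfl fun i _ => ?_
    rw [map_zsmul, smul_assoc, ht _ _ hx])
  have h3 : ∑ i ∈ I, k i • LinearMap.trace T ρ.V (ρ.ρ (g i)) =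
      π (evS N (↑S : Set ℕ) (∑ i ∈ I, k i • t (g i))) +
      ∑ i ∈ I, k i • (LinearMap.trace T ρ.V (ρ.ρ (g i)) - π (evS N (↑S : Set ℕ) (t (g i)))) := by
    rw [map_sum, map_sum, ← Finset.sum_add_distrib]
    refine Finset.sum_congr rfl fun i _ => ?_
    rw [map_zsmul, map_zsmul, smul_sub]; abel
  rw [h3]
  refine Submodule.add_mem_sup h1 (Ideal.sum_mem _ fun i _ => ?_)
  exact zsmul_mem (ht' _) _

lemma mem_decomposition_of_inertia {P : ValuationSubring (AlgebraicClosure ℚ)} {σ : GQ}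
    (h : σ ∈ P.inertiaSubgroupIn ℚ) : σ ∈ P.decompositionSubgroup ℚ := by
  obtain ⟨σ', -, rfl⟩ := h
  exact σ'.2

lemma conj_mem_inertia {P : ValuationSubring (AlgebraicClosure ℚ)} {σ g : GQ}
    (h : σ ∈ P.inertiaSubgroupIn ℚ) (hg : g ∈ P.decompositionSubgroup ℚ) :
    g * σ * g⁻¹ ∈ P.inertiaSubgroupIn ℚ := by
  obtain ⟨σ', hσ', rfl⟩ := h
  refine ⟨⟨g, hg⟩ * σ' * ⟨g, hg⟩⁻¹, ?_, rfl⟩
  have : (ValuationSubring.inertiaSubgroup ℚ P).Normal := MonoidHom.normal_ker _
  exact this.conj_mem _ hσ' _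

set_option maxHeartbeats 1000000 in
/-- **Ordinarity criterion.** -/
theorem isOrdinaryAt_of_W (hJ : ESInput N p (↑S : Set ℕ) J) (hp : p.Prime) (hp2 : p ≠ 2)
    (hpS : p ∈ S) (hpT : (p : T) ∈ IsLocalRing.maximalIdeal T)
    (hNS : ∀ q : ℕ, q.Prime → q ∣ N → q ∈ S)
    {π : heckeAlgebra N 2 (↑S : Set ℕ) →+* T} {ρ : GaloisRepAdic T}
    (hfrob : HasFrobCharpoly π ρ) (habs : ρ.residual.IsAbsolutelyIrreducible)
    (hW : ∀ P : ValuationSubring (AlgebraicClosure ℚ), P.LiesOverPrime p → ∃ W : AddSubgroup J,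
      (∀ g ∈ P.decompositionSubgroup ℚ, ∀ x ∈ W, g • x ∈ W) ∧
      (∀ τ ∈ P.inertiaSubgroupIn ℚ, ∀ m : ℕ, ∀ x : J, p ^ m • x = 0 → τ • x - x ∈ W) ∧
      (∀ n : ℕ, ∃ m : ℕ, ∀ t : HeckeAlgS (↑S : Set ℕ),
        (∀ x : J, p ^ m • x = 0 → inclS (↑S : Set ℕ) t • x ∈ W) →
          π (evS N (↑S : Set ℕ) t) ∈ Ideal.span {(p : T) ^ n})) :
    ρ.IsOrdinaryAt p := by
  classical
  intro P hP
  obtain ⟨W, hWD, hWI, hWt⟩ := hW P hP
  have hp0 : NeZero p := ⟨hp.ne_zero⟩
  obtain ⟨ζ₁, hζ₁⟩ := HasEnoughRootsOfUnity.exists_primitiveRoot (AlgebraicClosure ℚ) p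
  obtain ⟨σ₀, hσ₀, hσ₀ζ⟩ := exists_inertia_inv hp hP hζ₁
  have hσ₀D := mem_decomposition_of_inertia hσ₀
  have hdet := detIsCyclotomic hfrob hp hpS hpT hNS
  set f : Module.End T ρ.V := ρ.ρ σ₀ with hf
  set ε : T := LinearMap.det f with hε
  -- `2` and `1 - ε` are units
  have h2u : IsUnit (2 : T) := by
    by_contra h
    have h2m := (IsLocalRing.mem_maximalIdeal _).mpr h
    obtain ⟨k, hk⟩ := hp.odd_of_ne_two hp2
    have h1 : (1 : T) = p - 2 * k := by rw [hk]; push_cast; ring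
    have h3 : (1 : T) ∈ IsLocalRing.maximalIdeal T := by
      rw [h1]; exact Ideal.sub_mem _ hpT (Ideal.mul_mem_right _ _ h2m)
    exact (IsLocalRing.mem_maximalIdeal _).mp h3 isUnit_one
  have hεu : IsUnit (1 - ε) := by
    have h1 := hdet.2 1 σ₀ (p - 1) (fun μ hμ => by
      rw [pow_one] at hμ
      obtain ⟨i, -, hi⟩ := hζ₁.eq_pow_of_pow_eq_one hμ
      have hμ0 : μ ≠ 0 := by
        rintro rfl
        rw [zero_pow hp.ne_zero] at hμ
        exact zero_ne_one hμ
      have h2 : σ₀ μ = μ⁻¹ := by rw [← hi, map_pow, hσ₀ζ, inv_pow]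
      rw [h2]
      refine inv_eq_of_mul_eq_one_right ?_
      rw [← pow_succ', Nat.sub_add_cancel hp.one_le, hμ])
    have h2 : ε + 1 ∈ IsLocalRing.maximalIdeal T := by
      have h3 : (((p - 1 : ℕ) : T)) = p - 1 := by rw [Nat.cast_sub hp.one_le, Nat.cast_one]
      rw [h3] at h1
      have h4 : ((p ^ 1 : ℕ) : T) ∈ IsLocalRing.maximalIdeal T := by rw [pow_one]; exact hpT
      have h5 := (Ideal.span_singleton_le_iff_mem _).mpr h4 h1
      have h6 : ε + 1 = (ε - (p - 1)) + p := by ring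
      rw [h6]; exact Ideal.add_mem _ h5 hpT
    by_contra h
    have h3 := (IsLocalRing.mem_maximalIdeal _).mpr h
    have h4 : (2 : T) = (1 - ε) + (ε + 1) := by ring
    have h5 : (2 : T) ∈ IsLocalRing.maximalIdeal T := by rw [h4]; exact Ideal.add_mem _ h3 h2
    exact (IsLocalRing.mem_maximalIdeal _).mp h5 h2u
  -- zero test
  have hzero : ∀ x : T, (∀ n : ℕ, x ∈ Ideal.span {(p : T) ^ n}) → x = 0 := by
    intro x hx
    have h := Ideal.iInf_pow_eq_bot_of_isLocalRing (IsLocalRing.maximalIdeal T)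
      (Ideal.IsPrime.ne_top inferInstance)
    have : x ∈ ⨅ n : ℕ, IsLocalRing.maximalIdeal T ^ n := by
      rw [Submodule.mem_iInf]
      intro n
      exact (Ideal.span_singleton_le_iff_mem _).mpr (Ideal.pow_mem_pow hpT n) (hx n)
    rw [h] at this
    exact this
  -- the two trace computations at level `n`
  have hlevel : ∀ n : ℕ, (LinearMap.trace T ρ.V f - (1 + ε) ∈ Ideal.span {(p : T) ^ n}) ∧
      ∀ τ ∈ P.inertiaSubgroupIn ℚ, ∀ g : GQ,
        LinearMap.trace T ρ.V ((f - ε • 1) * ((ρ.ρ τ - 1) * ρ.ρ g) * (f - ε • 1)) ∈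
          Ideal.span {(p : T) ^ n} := by
    intro n
    obtain ⟨m₀, hm₀⟩ := hWt n
    set m := max m₀ n with hmdef
    have hm : ∀ t : HeckeAlgS (↑S : Set ℕ),
        (∀ x : J, p ^ m • x = 0 → inclS (↑S : Set ℕ) t • x ∈ W) →
          π (evS N (↑S : Set ℕ) t) ∈ Ideal.span {(p : T) ^ n} := by
      intro t ht
      refine hm₀ t fun x hx => ht x ?_
      have : p ^ m = p ^ (m - m₀) * p ^ m₀ := by
        rw [← pow_add, Nat.sub_add_cancel (le_max_left _ _)]
      rw [this, mul_smul, hx, smul_zero]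
    have : NeZero (p ^ m) := ⟨pow_ne_zero _ hp.ne_zero⟩
    obtain ⟨ζ, hζ⟩ := HasEnoughRootsOfUnity.exists_primitiveRoot (AlgebraicClosure ℚ) (p ^ m)
    set χ := cycExp p hp m hζ with hχ
    have hχmul : ∀ (g h : GQ) (x : J), p ^ m • x = 0 → χ (g * h) • x = (χ g * χ h) • x :=
      fun g h x hx => cyc_mul_smul hp m hζ g h x hx
    set c := χ σ₀ with hc
    have htors : ∀ (g : GQ) (x : J), p ^ m • x = 0 → p ^ m • (g • x) = 0 := by
      intro g x hx
      rw [smul_comm, hx, smul_zero]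
    have hεc : ε - c ∈ Ideal.span {(p : T) ^ n} := by
      have h1 := hdet.2 m σ₀ c (fun μ hμ => by
        obtain ⟨i, -, hi⟩ := hζ.eq_pow_of_pow_eq_one hμ
        rw [← hi, map_pow, hc, hχ, cycExp_spec p hp m hζ σ₀, ← pow_mul, ← pow_mul, mul_comm])
      refine (Ideal.span_singleton_le_span_singleton.mpr ?_) h1
      push_cast
      exact pow_dvd_pow _ (le_max_right _ _)
    have hσinvW : ∀ x : J, p ^ m • x = 0 → σ₀⁻¹ • x - x ∈ W := fun x hx =>
      hWI _ (inv_mem hσ₀) m x hx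
    refine ⟨?_, ?_⟩
    · -- trace of `f`
      have hχ1 : ∀ x : J, p ^ m • x = 0 → χ 1 • x = x := by
        intro x hx
        have h1 : ζ ^ 1 = ζ ^ (χ 1) := by
          rw [hχ, ← cycExp_spec p hp m hζ 1, pow_one, AlgEquiv.one_apply]
        have h2 := natCast_eq_of_pow_eq p hp m hζ h1
        have h3 : ((p ^ m : ℕ) : ℤ) ∣ ((1 : ℕ) : ℤ) - (χ 1 : ℤ) := by
          rw [← ZMod.intCast_zmod_eq_zero_iff_dvd]
          have := sub_eq_zero.mpr h2
          push_cast at this ⊢
          exact this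
        obtain ⟨e, he⟩ := h3
        have h4 : ((1 : ℕ) : ℤ) • x - (χ 1 : ℤ) • x = 0 := by
          rw [← sub_smul, he, mul_comm, mul_smul, natCast_zsmul, hx, smul_zero]
        rw [natCast_zsmul, natCast_zsmul, one_smul] at h4
        exact (sub_eq_zero.mp h4).symm
      have h1 := trace_mem_of_W hJ hp hpS hNS hfrob hζ W hm (Finset.univ : Finset (Fin 2))
        ![2, -(1 + (c : ℤ))] ![σ₀, 1] (fun x hx => by
          rw [Fin.sum_univ_two]
          simp only [Matrix.cons_val_zero, Matrix.cons_val_one]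
          rw [← hχ, inv_one, one_smul, hχ1 x hx, ← hc]
          have e : (2 : ℤ) • (σ₀ • x + c • σ₀⁻¹ • x) + -(1 + (c : ℤ)) • (x + x) =
              (2 : ℤ) • (σ₀ • x - x) + (2 * (c : ℤ)) • (σ₀⁻¹ • x - x) := by
            rw [← natCast_zsmul]
            generalize σ₀ • x = a
            generalize σ₀⁻¹ • x = b
            module
          rw [e]
          exact W.add_mem (W.zsmul_mem (hWI _ hσ₀ m x hx) _) (W.zsmul_mem (hσinvW x hx) _))
      rw [Fin.sum_univ_two] at h1
      simp only [Matrix.cons_val_zero, Matrix.cons_val_one] at h1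
      rw [map_one, LinearMap.trace_one, ρ.finrank_eq, ← hf] at h1
      have h2 : (2 : T) * (LinearMap.trace T ρ.V f - (1 + c)) ∈ Ideal.span {(p : T) ^ n} := by
        convert h1 using 1
        rw [zsmul_eq_mul, zsmul_eq_mul]
        push_cast
        ring
      have h3 := (Ideal.unit_mul_mem_iff_mem _ h2u).mp h2
      have h4 : LinearMap.trace T ρ.V f - (1 + ε) =
        (LinearMap.trace T ρ.V f - (1 + c)) - (ε - c) := by ring
      rw [h4]
      exact Ideal.sub_mem _ h3 hεc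
    · intro τ hτ g
      have h1 := trace_mem_of_W hJ hp hpS hNS hfrob hζ W hm (Finset.univ : Finset (Fin 8))
        ![1, -1, -(c : ℤ), c, -(c : ℤ), c, (c : ℤ) * c, -((c : ℤ) * c)]
        ![σ₀ * (τ * (g * σ₀)), σ₀ * (g * σ₀), τ * (g * σ₀), g * σ₀, σ₀ * (τ * g), σ₀ * g,
          τ * g, g] (fun x hx => by
          rw [Fin.sum_univ_eight]
          simp only [Matrix.cons_val_zero, Matrix.cons_val_one, Matrix.cons_val]
          rw [← hχ]
          -- first part
          have w1 : ∀ z : J, p ^ m • z = 0 → σ₀ • (τ • z - z) - (c : ℤ) • (τ • z - z) ∈ W :=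
            fun z hz => W.sub_mem (hWD _ hσ₀D _ (hWI _ hτ m z hz)) (W.zsmul_mem (hWI _ hτ m z hz) _)
          have hz : p ^ m • (g • (σ₀ • x) - (c : ℤ) • (g • x)) = 0 := by
            rw [smul_sub, htors _ _ (htors _ _ hx), smul_comm, htors _ _ hx, smul_zero, sub_zero]
          have w1' := w1 _ hz
          -- second part
          have hv1 : p ^ m • (σ₀⁻¹ • x - x) = 0 := by
            rw [smul_sub, htors _ _ hx, hx, sub_zero]
          have hv2 : p ^ m • ((χ τ : ℤ) • (g⁻¹ • (τ⁻¹ • (σ₀⁻¹ • x - x))) - g⁻¹ • (σ₀⁻¹ • x - x)) =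
              0 := by
            rw [smul_sub, smul_comm, htors _ _ (htors _ _ hv1), htors _ _ hv1, smul_zero, sub_zero]
          have w2 := W.zsmul_mem (hσinvW _ hv2) ((c : ℤ) * c * χ g)
          have w := W.add_mem w1' w2
          have q1 : ∀ (a b : GQ) (y : J), p ^ m • y = 0 → χ (a * b) • y =
              ((χ a : ℤ) * (χ b : ℤ)) • y := by
            intro a b y hy
            rw [hχmul a b y hy, ← natCast_zsmul]
            push_cast
            rfl
          have t1 : p ^ m • (σ₀⁻¹ • x) = 0 := htors _ _ hx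
          have t2 : p ^ m • (τ⁻¹ • (σ₀⁻¹ • x)) = 0 := htors _ _ t1
          have t3 : p ^ m • (g⁻¹ • (τ⁻¹ • (σ₀⁻¹ • x))) = 0 := htors _ _ t2
          have t4 : p ^ m • (σ₀⁻¹ • (g⁻¹ • (τ⁻¹ • (σ₀⁻¹ • x)))) = 0 := htors _ _ t3
          have q2 : ∀ (k : ℤ) (a : GQ) (y : J), (k * (χ a : ℤ)) • y = k • (χ a • y) := by
            intro k a y
            rw [mul_smul, natCast_zsmul]
          have q3 : ∀ (a b : GQ) (y : J), p ^ m • y = 0 → χ (a * b) • y = (χ a : ℤ) • χ b • y := by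
            intro a b y hy
            rw [q1 a b y hy, q2]
          have u2 : ∀ (a b d : GQ) (y : J), p ^ m • y = 0 → χ (a * (b * d)) • y =
              ((χ a : ℤ) * ((χ b : ℤ) * χ d)) • y := by
            intro a b d y hy
            rw [q3 _ _ y hy, q1 _ _ y hy, smul_smul]
          have u1 : ∀ (a b d e : GQ) (y : J), p ^ m • y = 0 → χ (a * (b * (d * e))) • y =
              ((χ a : ℤ) * ((χ b : ℤ) * ((χ d : ℤ) * χ e))) • y := by
            intro a b d e y hy
            rw [q3 _ _ y hy, u2 _ _ _ y hy, smul_smul]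
          rw [u1 _ _ _ _ _ (htors _ _ hx), u2 _ _ _ _ (htors _ _ hx), u2 _ _ _ _ (htors _ _ hx),
            q1 _ _ _ (htors _ _ hx), u2 _ _ _ _ (htors _ _ hx), q1 _ _ _ (htors _ _ hx),
            q1 _ _ _ (htors _ _ hx), ← natCast_zsmul _ (χ g)]
          rw [← eight_identity] at w
          exact w)
      rw [Fin.sum_univ_eight] at h1
      simp only [Matrix.cons_val_zero, Matrix.cons_val_one, Matrix.cons_val, map_mul ρ.ρ,
        ← hf] at h1
      set X : Module.End T ρ.V := (ρ.ρ τ - 1) * ρ.ρ g with hX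
      have h2 : LinearMap.trace T ρ.V ((f - (c : T) • 1) * X * (f - (c : T) • 1)) ∈
          Ideal.span {(p : T) ^ n} := by
        convert h1 using 1
        have e : (f - (c : T) • 1) * X * (f - (c : T) • 1) =
            f * (ρ.ρ τ * (ρ.ρ g * f)) - f * (ρ.ρ g * f) - (c : T) • (ρ.ρ τ * (ρ.ρ g * f)) +
            (c : T) • (ρ.ρ g * f) - (c : T) • (f * (ρ.ρ τ * ρ.ρ g)) + (c : T) • (f * ρ.ρ g) +
            ((c : T) * c) • (ρ.ρ τ * ρ.ρ g) - ((c : T) * c) • (ρ.ρ g) := by
          rw [hX]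
          simp only [sub_mul, mul_sub, one_mul, mul_one, smul_mul_assoc, mul_smul_comm, smul_sub,
            smul_smul, mul_assoc]
          abel
        rw [e]
        simp only [map_sub, map_add, map_smul, smul_eq_mul, zsmul_eq_mul]
        push_cast
        ring
      set δ : T := ε - c with hδ
      have e : (f - ε • 1) * X * (f - ε • 1) = (f - (c : T) • 1) * X * (f - (c : T) • 1) -
          δ • (X * (f - (c : T) • 1) + (f - (c : T) • 1) * X - δ • X) := by
        have e1 : ε = c + δ := by rw [hδ]; ring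
        rw [e1]
        simp only [sub_mul, mul_sub, one_mul, mul_one, smul_mul_assoc, mul_smul_comm, smul_sub,
          smul_smul, mul_assoc, add_smul, smul_add, add_mul, mul_add]
        module
      rw [e, map_sub, map_smul, smul_eq_mul]
      exact Ideal.sub_mem _ h2 (Ideal.mul_mem_right _ _ hεc)
  have htr : LinearMap.trace T ρ.V f = 1 + ε :=
    sub_eq_zero.mp (hzero _ fun n => (hlevel n).1)
  set A : Module.End T ρ.V := f - ε • 1 with hA
  have hff := S30aux.mul_self_eq ρ.finrank_eq f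
  rw [htr, ← hε] at hff
  have hA2 : A * A = (1 - ε) • A := by
    rw [hA]
    simp only [sub_mul, mul_sub, one_mul, mul_one, smul_mul_assoc, mul_smul_comm, smul_sub, hff]
    module
  have hAf : A * (f - 1) = 0 := by
    rw [hA]
    simp only [sub_mul, mul_sub, one_mul, mul_one, smul_mul_assoc, mul_smul_comm, smul_sub, hff]
    module
  have hAτ : ∀ τ ∈ P.inertiaSubgroupIn ℚ, A * (ρ.ρ τ - 1) = 0 := by
    intro τ hτ
    refine eq_zero_of_trace_mul_eq_zero _ fun X => ?_
    have hX : X ∈ Submodule.span T (Set.range ρ.ρ) := by rw [span_range_eq_top ρ habs]; trivial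
    induction hX using Submodule.span_induction with
    | mem x hx =>
      obtain ⟨g, rfl⟩ := hx
      have h1 := hzero _ fun n => (hlevel n).2 τ hτ g
      rw [LinearMap.trace_mul_comm, ← mul_assoc, hA2, smul_mul_assoc, map_smul, smul_eq_mul,
        hεu.mul_right_eq_zero, ← mul_assoc] at h1
      rw [LinearMap.trace_mul_comm]
      exact h1
    | zero => simp
    | add x y _ _ hx hy => rw [add_mul, map_add, hx, hy, add_zero]
    | smul c x _ hx => rw [smul_mul_assoc, map_smul, hx, smul_zero]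
  obtain ⟨u, hu⟩ := hεu
  set e : Module.End T ρ.V := ((u⁻¹ : Tˣ) : T) • A with he
  have hee : e * e = e := by
    rw [he, smul_mul_assoc, mul_smul_comm, hA2, ← hu, smul_smul, smul_smul, mul_assoc,
      Units.inv_mul, mul_one]
  have htre : LinearMap.trace T ρ.V e = 1 := by
    rw [he, map_smul, hA, map_sub, map_smul, htr, LinearMap.trace_one, ρ.finrank_eq, smul_eq_mul,
      smul_eq_mul]
    have : (1 + ε - ε * ((2 : ℕ) : T)) = u := by rw [hu]; push_cast; ring
    rw [this, Units.inv_mul]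
  obtain ⟨b', hb'⟩ := exists_basis_ker (Module.finBasisOfFinrankEq T ρ.V ρ.finrank_eq) e hee htre
  have hker : ∀ v, v ∈ LinearMap.ker e ↔ A v = 0 := by
    intro v
    rw [LinearMap.mem_ker, he, LinearMap.smul_apply]
    constructor
    · intro h
      have h1 := congrArg (fun w => (u : T) • w) h
      simp only [smul_smul, Units.mul_inv, one_smul, smul_zero] at h1
      exact h1
    · intro h
      rw [h, smul_zero]
  have hrange : ∀ τ ∈ P.inertiaSubgroupIn ℚ, ∀ v : ρ.V, ρ.ρ τ v - v ∈ LinearMap.ker e := by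
    intro τ hτ v
    rw [hker]
    exact LinearMap.congr_fun (hAτ τ hτ) v
  refine ⟨LinearMap.ker e, ⟨b', hb'⟩, ?_, hrange⟩
  intro g hg v hv
  rw [hker] at hv
  -- `v = (f - 1) w`
  have h1 : f v = ε • v := by
    have : A v = f v - ε • v := rfl
    rw [this, sub_eq_zero] at hv
    exact hv
  set w : ρ.V := -((u⁻¹ : Tˣ) : T) • v with hw
  have h2 : v = f w - w := by
    rw [hw, map_smul, h1, ← smul_sub]
    have : ε • v - v = -((u : T) • v) := by rw [hu]; module
    rw [this, neg_smul, smul_neg, neg_neg, smul_smul, Units.inv_mul, one_smul]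
  have h3 : ρ.ρ g v = ρ.ρ (g * σ₀ * g⁻¹) (ρ.ρ g w) - ρ.ρ g w := by
    have : ρ.ρ (g * σ₀ * g⁻¹) (ρ.ρ g w) = ρ.ρ g (f w) := by
      rw [← Module.End.mul_apply, ← map_mul, inv_mul_cancel_right, map_mul]
      rfl
    rw [this, ← map_sub, ← h2]
  rw [h3]
  exact hrange _ (conj_mem_inertia hσ₀ hg) _

end Main

end Fermat.Agent.S33aux

end
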