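import Fermat.Agent.TwoComp.Red
import Mathlib.LinearAlgebra.Dimension.Constructions

/-!
# Comparison of two lattices in a reduction ring
-/

set_option autoImplicit false

open Module Polynomial

namespace Fermat.Agent.TwoComp

namespace RedRing

variable {K F k E : Type*} [Field K] [Field F] [Algebra K F] [Field k] [CommRing E]
  [Algebra k E] {R : RedRing K F k E}

/-- Expansion in an orthonormal family. -/
theorem exists_coeff {ι : Type*} [Fintype ι] {b : ι → R.O}
    (hli : LinearIndependent k (fun i => R.ρ (b i))) {x : R.O}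
    (hx : (x : F) ∈ Submodule.span K (Set.range fun i => (b i : F))) :
    ∃ c : ι → R.A, x = ∑ i, R.algA (c i) * b i := by
  rw [Submodule.mem_span_range_iff_exists_fun] at hx
  obtain ⟨c, hc⟩ := hx
  have h1 : ∀ i, c i ∈ R.A := coord_mem hli (by rw [hc]; exact x.2)
  refine ⟨fun i => ⟨c i, h1 i⟩, Subtype.ext ?_⟩
  rw [← hc, AddSubmonoidClass.coe_finsetSum]
  exact Finset.sum_congr rfl fun i _ => Algebra.smul_def _ _

/-- Orthonormal basis in the form of a family. -/
theorem Ortho.exists_family (h : R.Ortho) (V : Submodule K F) [FiniteDimensional K V] :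
    ∃ b : Fin (finrank K V) → R.O, (∀ i, (b i : F) ∈ V) ∧
      LinearIndependent k (fun i => R.ρ (b i)) ∧
      V = Submodule.span K (Set.range fun i => (b i : F)) := by
  obtain ⟨b, hb, hli⟩ := h V
  refine ⟨fun i => ⟨_, hb i⟩, fun i => (b i).2, hli, ?_⟩
  apply le_antisymm
  · intro x hx
    have h1 : x = ∑ i, b.repr ⟨x, hx⟩ i • ((b i : V) : F) := by
      conv_lhs => rw [show x = ((⟨x, hx⟩ : V) : F) from rfl, ← b.sum_repr ⟨x, hx⟩]
      rw [Submodule.coe_sum]
      rfl
    rw [h1]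
    exact Submodule.sum_mem _ fun i _ => Submodule.smul_mem _ _ (Submodule.subset_span ⟨i, rfl⟩)
  · rw [Submodule.span_le]
    rintro _ ⟨i, rfl⟩
    exact (b i).2

/-- A family of the right cardinality in `V` with independent reductions spans `V`. -/
theorem span_eq_of_card {V : Submodule K F} [FiniteDimensional K V] {ι : Type*} [Fintype ι]
    {b : ι → R.O} (hbV : ∀ i, (b i : F) ∈ V) (hli : LinearIndependent k (fun i => R.ρ (b i)))
    (hcard : Fintype.card ι = finrank K V) :
    V = Submodule.span K (Set.range fun i => (b i : F)) := by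
  have h1 := linearIndependent_of_ρ hli
  have h2 : Submodule.span K (Set.range fun i => (b i : F)) ≤ V := by
    rw [Submodule.span_le]
    rintro _ ⟨i, rfl⟩
    exact hbV i
  exact (Submodule.eq_of_le_of_finrank_eq h2 (by rw [finrank_span_eq_card h1, hcard])).symm

/-- Adapted orthonormal bases. -/
theorem Ortho.exists_adapted (h : R.Ortho) {M₀ V : Submodule K F} [FiniteDimensional K V]
    (hM : M₀ ≤ V) : ∃ (n m : ℕ) (e : Fin n → R.O) (g : Fin m → R.O),
      (∀ i, (e i : F) ∈ M₀) ∧ (∀ i, (g i : F) ∈ V) ∧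
      LinearIndependent k (fun i : Fin n ⊕ Fin m => R.ρ (Sum.elim e g i)) ∧
      M₀ = Submodule.span K (Set.range fun i => (e i : F)) ∧
      V = Submodule.span K (Set.range fun i : Fin n ⊕ Fin m => ((Sum.elim e g i : R.O) : F)) := by
  have hfd₀ : FiniteDimensional K M₀ := Submodule.finiteDimensional_of_le hM
  have hfdr := finiteDimensional_red h V
  have hfdr₀ := finiteDimensional_red h M₀
  have hle : R.red M₀ ≤ R.red V := red_mono hM
  set W : Submodule k (R.red V) := (R.red M₀).submoduleOf (R.red V) with hW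
  have : Module.Free k W := Module.Free.of_divisionRing k W
  let bW : Basis (Fin (finrank k W)) k W := finBasis k W
  let bQ : Basis (Fin (finrank k (R.red V ⧸ W))) k (R.red V ⧸ W) := finBasis k _
  let b := bW.sumQuot bQ
  have h1 : ∀ i : Fin (finrank k W), ∃ e : R.O, (e : F) ∈ M₀ ∧ R.ρ e = (b (Sum.inl i) : E) := by
    intro i
    have : ((b (Sum.inl i) : R.red V) : E) ∈ R.red M₀ := by
      rw [Basis.sumQuot_inl]
      exact (bW i).2
    exact this
  choose e heM heρ using h1
  have h2 : ∀ i : Fin (finrank k (R.red V ⧸ W)), ∃ g : R.O, (g : F) ∈ V ∧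
      R.ρ g = (b (Sum.inr i) : E) := fun i => (b (Sum.inr i)).2
  choose g hgV hgρ using h2
  have hli : LinearIndependent k (fun i : Fin (finrank k W) ⊕ Fin (finrank k (R.red V ⧸ W)) =>
      R.ρ (Sum.elim e g i)) := by
    have h3 : (fun i : Fin (finrank k W) ⊕ Fin (finrank k (R.red V ⧸ W)) =>
        R.ρ (Sum.elim e g i)) = fun i => ((b i : R.red V) : E) := by
      funext i
      rcases i with i | i
      · exact heρ i
      · exact hgρ i
    rw [h3]
    exact LinearIndependent.map' b.linearIndependent (R.red V).subtype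
      (Submodule.ker_subtype _)
  refine ⟨_, _, e, g, heM, hgV, hli, ?_, ?_⟩
  · refine span_eq_of_card heM ?_ ?_
    · exact hli.comp Sum.inl Sum.inl_injective
    · rw [Fintype.card_fin, hW, (Submodule.submoduleOfEquivOfLe hle).finrank_eq, finrank_red h]
  · refine span_eq_of_card ?_ hli ?_
    · rintro (i | i)
      · exact hM (heM i)
      · exact hgV i
    · rw [← finrank_red h V, finrank_eq_card_basis b]

variable (R) in
/-- `M ∩ O ⊆ (M₀ ∩ O) + b O`. -/
def NearBy (M M₀ : Submodule K F) (b : R.A) : Prop :=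
  ∀ a : R.O, (a : F) ∈ M → ∃ a₀ : R.O, (a₀ : F) ∈ M₀ ∧ ∃ t : R.O, a = a₀ + R.algA b * t

/-- **Comparison of two lattices.** -/
theorem Ortho.exists_scale_nearBy (h : R.Ortho) {M M₀ : Submodule K F} [FiniteDimensional K M]
    [FiniteDimensional K M₀] (hne : ¬ M ≤ M₀) :
    ∃ b : R.A, b ≠ 0 ∧ R.NearBy M M₀ b ∧ ∃ a a₀ t : R.O, (a : F) ∈ M ∧ (a₀ : F) ∈ M₀ ∧
      a = a₀ + R.algA b * t ∧ R.ρ t ∉ R.red M₀ := by
  classical
  obtain ⟨n, m, e, g, heM, hgV, hli, hM₀, hV⟩ :=
    h.exists_adapted (M₀ := M₀) (V := M ⊔ M₀) le_sup_right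
  obtain ⟨c, hcM, hcli, hM⟩ := h.exists_family M
  have h1 : ∀ j, ∃ d : Fin n ⊕ Fin m → R.A, c j = ∑ i, R.algA (d i) * Sum.elim e g i := by
    intro j
    refine exists_coeff hli ?_
    rw [← hV]
    exact (le_sup_left : M ≤ M ⊔ M₀) (hcM j)
  choose d hd using h1
  -- the maximal entry
  have hne' : (fun p : Fin (finrank K M) × Fin m => ((d p.1 (Sum.inr p.2) : R.A) : K)) ≠ 0 := by
    intro h0
    apply hne
    rw [hM, Submodule.span_le]
    rintro _ ⟨j, rfl⟩
    have h2 : ∀ i, d j (Sum.inr i) = 0 := fun i => Subtype.ext (congrFun h0 (j, i))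
    have h3 := hd j
    rw [Fintype.sum_sum_type] at h3
    simp only [h2, map_zero, zero_mul, Finset.sum_const_zero, add_zero, Sum.elim_inl] at h3
    change (c j : F) ∈ M₀
    rw [h3, AddSubmonoidClass.coe_finsetSum]
    refine Submodule.sum_mem _ fun i _ => ?_
    rw [Subring.coe_mul, coe_algA, ← Algebra.smul_def]
    exact Submodule.smul_mem _ _ (heM i)
  obtain ⟨⟨j₀, i₀⟩, hb0, hmax⟩ := exists_max R.A _ hne'
  set b : R.A := d j₀ (Sum.inr i₀) with hb
  have hb0' : b ≠ 0 := fun h0 => hb0 (by rw [h0]; rfl)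
  let r : Fin (finrank K M) → Fin m → R.A := fun j i => ⟨_, hmax (j, i)⟩
  have hr : ∀ j i, b * r j i = d j (Sum.inr i) := by
    intro j i
    apply Subtype.ext
    change (b : K) * ((b : K)⁻¹ * _) = _
    exact mul_inv_cancel_left₀ hb0 _
  let a₀ : Fin (finrank K M) → R.O := fun j => ∑ i, R.algA (d j (Sum.inl i)) * e i
  let t : Fin (finrank K M) → R.O := fun j => ∑ i, R.algA (r j i) * g i
  have ha₀ : ∀ j, (a₀ j : F) ∈ M₀ := by
    intro j
    rw [AddSubmonoidClass.coe_finsetSum]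
    refine Submodule.sum_mem _ fun i _ => ?_
    rw [Subring.coe_mul, coe_algA, ← Algebra.smul_def]
    exact Submodule.smul_mem _ _ (heM i)
  have hct : ∀ j, c j = a₀ j + R.algA b * t j := by
    intro j
    rw [hd j, Fintype.sum_sum_type]
    simp only [Sum.elim_inl, Sum.elim_inr, a₀, t, Finset.mul_sum]
    congr 1
    refine Finset.sum_congr rfl fun i _ => ?_
    rw [← hr, map_mul]
    ring
  refine ⟨b, hb0', ?_, c j₀, a₀ j₀, t j₀, hcM j₀, ha₀ j₀, hct j₀, ?_⟩
  · intro a ha
    obtain ⟨s, hs⟩ := exists_coeff (R := R) hcli (x := a) (by rw [← hM]; exact ha)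
    refine ⟨∑ j, R.algA (s j) * a₀ j, ?_, ∑ j, R.algA (s j) * t j, ?_⟩
    · rw [AddSubmonoidClass.coe_finsetSum]
      refine Submodule.sum_mem _ fun i _ => ?_
      rw [Subring.coe_mul, coe_algA, ← Algebra.smul_def]
      exact Submodule.smul_mem _ _ (ha₀ i)
    · rw [hs, Finset.mul_sum, ← Finset.sum_add_distrib]
      refine Finset.sum_congr rfl fun j _ => ?_
      rw [hct j]
      ring
  · rintro ⟨x, hx, hxt⟩
    obtain ⟨s, hs⟩ := exists_coeff (R := R) (b := e) (hli.comp Sum.inl Sum.inl_injective) (x := x)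
      (by rw [← hM₀]; exact hx)
    have h3 : R.ρ (t j₀) = ∑ i, R.res (r j₀ i) • R.ρ (g i) := ρ_sum_smul _ _
    have h4 : R.ρ x = ∑ i, R.res (s i) • R.ρ (e i) := by rw [hs]; exact ρ_sum_smul _ _
    have h5 : ∑ i : Fin n ⊕ Fin m, (Sum.elim (fun i => R.res (s i)) (fun i => - R.res (r j₀ i)) i) •
        R.ρ (Sum.elim e g i) = 0 := by
      rw [Fintype.sum_sum_type]
      simp only [Sum.elim_inl, Sum.elim_inr, neg_smul, Finset.sum_neg_distrib]
      rw [← h4, ← h3, hxt, add_neg_cancel]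
    have h6 := Fintype.linearIndependent_iff.mp hli _ h5 (Sum.inr i₀)
    rw [Sum.elim_inr, neg_eq_zero] at h6
    have h7 : r j₀ i₀ = 1 := by
      apply Subtype.ext
      change (b : K)⁻¹ * (b : K) = 1
      exact inv_mul_cancel₀ hb0
    rw [h7, map_one] at h6
    exact one_ne_zero h6

/-- If `M ⊆ M₀ + b O` with `|b| < 1` and the dimensions agree then `M₀ ⊆ M + b O`. -/
theorem Ortho.nearBy_symm (h : R.Ortho) {M M₀ : Submodule K F} [FiniteDimensional K M]
    [FiniteDimensional K M₀] (hrank : finrank K M = finrank K M₀) {b : R.A} (hb : R.res b = 0)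
    (hn : R.NearBy M M₀ b) : R.NearBy M₀ M b := by
  obtain ⟨c, hcM, hcli, hM⟩ := h.exists_family M
  choose a₀ ha₀ t ht using fun j => hn (c j) (hcM j)
  have hρ : ∀ j, R.ρ (c j) = R.ρ (a₀ j) := by
    intro j
    rw [ht j, map_add, ρ_eq_zero_of_mul hb, add_zero]
  have hli : LinearIndependent k (fun j => R.ρ (a₀ j)) := by
    simpa only [hρ] using hcli
  have hM₀ := span_eq_of_card ha₀ hli (by rw [Fintype.card_fin, hrank])
  intro x hx
  obtain ⟨s, hs⟩ := exists_coeff (R := R) hli (x := x) (by rw [← hM₀]; exact hx)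
  refine ⟨∑ j, R.algA (s j) * c j, ?_, - ∑ j, R.algA (s j) * t j, ?_⟩
  · rw [AddSubmonoidClass.coe_finsetSum]
    refine Submodule.sum_mem _ fun i _ => ?_
    rw [Subring.coe_mul, coe_algA, ← Algebra.smul_def]
    exact Submodule.smul_mem _ _ (hcM i)
  · rw [mul_neg, ← sub_eq_add_neg, eq_sub_iff_add_eq, hs, Finset.mul_sum,
      ← Finset.sum_add_distrib]
    refine Finset.sum_congr rfl fun j _ => ?_
    rw [ht j]
    ring

theorem NearBy.mono {M M₀ : Submodule K F} {b b' : R.A} (hn : R.NearBy M M₀ b) (hb : b' ∣ b) :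
    R.NearBy M M₀ b' := by
  obtain ⟨r, rfl⟩ := hb
  intro a ha
  obtain ⟨a₀, ha₀, t, ht⟩ := hn a ha
  exact ⟨a₀, ha₀, R.algA r * t, by rw [ht, map_mul]; ring⟩

/-- The reductions of near lattices agree. -/
theorem Ortho.red_eq_of_nearBy (h : R.Ortho) {M M₀ : Submodule K F} [FiniteDimensional K M]
    [FiniteDimensional K M₀] (hrank : finrank K M = finrank K M₀) {b : R.A} (hb : R.res b = 0)
    (hn : R.NearBy M M₀ b) : R.red M = R.red M₀ := by
  have hle : ∀ {M M₀ : Submodule K F}, R.NearBy M M₀ b → R.red M ≤ R.red M₀ := by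
    rintro M M₀ hn _ ⟨a, ha, rfl⟩
    obtain ⟨a₀, ha₀, t, ht⟩ := hn a ha
    refine ⟨a₀, ha₀, ?_⟩
    rw [ht, map_add, ρ_eq_zero_of_mul hb, add_zero]
  exact le_antisymm (hle hn) (hle (h.nearBy_symm hrank hb hn))

/-- Separation of independent subspaces. -/
theorem Ortho.exists_sep (h : R.Ortho) {V V' : Submodule K F} [FiniteDimensional K V]
    [FiniteDimensional K V'] (hd : V ⊓ V' = ⊥) {π : R.A} (hπ0 : π ≠ 0) (hπ : R.res π = 0) :
    ∃ c : R.A, c ≠ 0 ∧ ∀ v v' : R.O, (v : F) ∈ V → (v' : F) ∈ V' → ∀ w : R.O,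
      v - v' = R.algA c * w → R.ρ v = 0 := by
  classical
  obtain ⟨b, hbV, hbli, hV⟩ := h.exists_family (V ⊔ V')
  have h1 : ∀ i, ∃ y ∈ V, ∃ z ∈ V', y + z = (b i : F) := fun i => Submodule.mem_sup.mp (hbV i)
  choose y hy z hz hyz using h1
  have h2 : ∀ g : F, ∃ c : R.A, c ≠ 0 ∧ algebraMap K F c * g ∈ R.O := by
    intro g
    rcases eq_or_ne g 0 with rfl | hg
    · exact ⟨1, one_ne_zero, by rw [mul_zero]; exact R.O.zero_mem⟩
    obtain ⟨c, hc0, hc, -⟩ := exists_scale h hg
    rcases R.A.mem_or_inv_mem c with hcA | hcA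
    · exact ⟨⟨c, hcA⟩, fun h0 => hc0 (congrArg Subtype.val h0), by
        rw [← Algebra.smul_def]; exact hc⟩
    · refine ⟨1, one_ne_zero, ?_⟩
      have h3 : g = algebraMap K F c⁻¹ * (c • g) := by
        rw [Algebra.smul_def, ← mul_assoc, ← map_mul, inv_mul_cancel₀ hc0, map_one, one_mul]
      rw [OneMemClass.coe_one, map_one, one_mul, h3]
      exact R.O.mul_mem ((R.mem_O_iff _).mpr hcA) hc
  choose s hs0 hs using fun i => h2 (y i)
  refine ⟨π * ∏ i, s i, mul_ne_zero hπ0 (Finset.prod_ne_zero_iff.mpr fun i _ => hs0 i), ?_⟩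
  intro v v' hv hv' w hw
  have hne : algebraMap K F ((π * ∏ i, s i : R.A) : K) ≠ 0 := by
    rw [_root_.map_ne_zero]
    intro h0
    exact mul_ne_zero hπ0 (Finset.prod_ne_zero_iff.mpr fun i _ => hs0 i) (Subtype.ext h0)
  have hwV : (w : F) ∈ V ⊔ V' := by
    have h3 : (w : F) = (((π * ∏ i, s i : R.A) : K)⁻¹) • ((v : F) - v') := by
      have h4 := congrArg (fun x : R.O => (x : F)) hw
      simp only [Subring.coe_mul, coe_algA, AddSubgroupClass.coe_sub] at h4
      rw [h4, Algebra.smul_def, map_inv₀, inv_mul_cancel_left₀ hne]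
    rw [h3]
    exact Submodule.smul_mem _ _ (Submodule.sub_mem _ ((le_sup_left : V ≤ _) hv)
      ((le_sup_right : V' ≤ V ⊔ V') hv'))
  obtain ⟨d, hdw⟩ := exists_coeff (R := R) hbli (x := w) (by rw [← hV]; exact hwV)
  -- `v = c * ∑ d i * y i`
  have h5 : (v : F) - algebraMap K F ((π * ∏ i, s i : R.A) : K) * ∑ i, algebraMap K F (d i) * y i =
      v' + algebraMap K F ((π * ∏ i, s i : R.A) : K) * ∑ i, algebraMap K F (d i) * z i := by
    have h4 := congrArg (fun x : R.O => (x : F)) hw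
    simp only [AddSubgroupClass.coe_sub, Subring.coe_mul, coe_algA] at h4
    have h6 : (w : F) = ∑ i, algebraMap K F (d i) * y i + ∑ i, algebraMap K F (d i) * z i := by
      rw [hdw, AddSubmonoidClass.coe_finsetSum, ← Finset.sum_add_distrib]
      refine Finset.sum_congr rfl fun i _ => ?_
      rw [Subring.coe_mul, coe_algA, ← mul_add, hyz]
    rw [h6, mul_add] at h4
    linear_combination h4
  have h6 : (v : F) - algebraMap K F ((π * ∏ i, s i : R.A) : K) * ∑ i, algebraMap K F (d i) * y i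
      ∈ V ⊓ V' := by
    refine ⟨Submodule.sub_mem _ hv ?_, ?_⟩
    · rw [← Algebra.smul_def]
      refine Submodule.smul_mem _ _ (Submodule.sum_mem _ fun i _ => ?_)
      rw [← Algebra.smul_def]
      exact Submodule.smul_mem _ _ (hy i)
    · rw [SetLike.mem_coe, h5]
      refine Submodule.add_mem _ hv' ?_
      rw [← Algebra.smul_def]
      refine Submodule.smul_mem _ _ (Submodule.sum_mem _ fun i _ => ?_)
      rw [← Algebra.smul_def]
      exact Submodule.smul_mem _ _ (hz i)
  rw [hd, Submodule.mem_bot, sub_eq_zero] at h6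
  have h7 : v = ∑ i, R.algA π * (R.algA (d i) * (∏ l ∈ Finset.univ.erase i, R.algA (s l)) *
      ⟨_, hs i⟩) := by
    apply Subtype.ext
    rw [h6, AddSubmonoidClass.coe_finsetSum, Finset.mul_sum]
    refine Finset.sum_congr rfl fun i _ => ?_
    have h8 : (((∏ l ∈ Finset.univ.erase i, R.algA (s l) : R.O)) : F) =
        ∏ l ∈ Finset.univ.erase i, algebraMap K F (s l) := by
      rw [SubmonoidClass.coe_finsetProd]
      rfl
    have h9 : algebraMap K F ((π * ∏ i, s i : R.A) : K) =
        algebraMap K F π * (algebraMap K F (s i) * ∏ l ∈ Finset.univ.erase i,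
          algebraMap K F (s l)) := by
      rw [Finset.mul_prod_erase Finset.univ (fun l => algebraMap K F (s l)) (Finset.mem_univ i),
        ← map_prod, ← map_mul]
      congr 1
      push_cast
      rfl
    rw [h9]
    simp only [Subring.coe_mul, coe_algA, h8]
    ring
  rw [h7, map_sum]
  exact Finset.sum_eq_zero fun i _ => ρ_eq_zero_of_mul hπ _

end RedRing

end Fermat.Agent.TwoComp
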