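import Fermat.Agent.S33.RLat
import Mathlib.Data.Nat.Choose.Dvd

/-!
# Power maps and two lattices
-/

set_option autoImplicit false

open Module Polynomial

namespace Fermat.Agent.S33aux

/-- The binomial expansion of a `p`-th power with its first terms. -/
theorem exists_add_pow {S : Type*} [CommRing S] {p : ℕ} (hp : p.Prime) (x y : S) :
    ∃ G : S, (x + y) ^ p = x ^ p + y ^ p + p * (x ^ (p - 1) * y) + p * (y ^ 2 * G) := by
  obtain ⟨n, rfl⟩ : ∃ n, p = n + 2 := ⟨p - 2, by have := hp.two_le; omega⟩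
  have h1 : ∀ m < n, (n + 2) ∣ (n + 2).choose (m + 1) := fun m hm =>
    Nat.Prime.dvd_choose_self hp (by omega) (by omega)
  refine ⟨∑ m ∈ Finset.range n, x ^ (m + 1) * y ^ (n - 1 - m) *
    (((n + 2).choose (m + 1) / (n + 2) : ℕ) : S), ?_⟩
  rw [add_pow, Finset.sum_range_succ, Finset.sum_range_succ, Finset.sum_range_succ']
  have h2 : ∑ k ∈ Finset.range n, x ^ (k + 1) * y ^ (n + 2 - (k + 1)) *
      (((n + 2).choose (k + 1) : ℕ) : S) = ((n + 2 : ℕ) : S) * (y ^ 2 *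
        ∑ m ∈ Finset.range n, x ^ (m + 1) * y ^ (n - 1 - m) *
          (((n + 2).choose (m + 1) / (n + 2) : ℕ) : S)) := by
    rw [Finset.mul_sum, Finset.mul_sum]
    refine Finset.sum_congr rfl fun m hm => ?_
    rw [Finset.mem_range] at hm
    have h3 : (((n + 2).choose (m + 1) : ℕ) : S) =
        ((n + 2 : ℕ) : S) * (((n + 2).choose (m + 1) / (n + 2) : ℕ) : S) := by
      rw [← Nat.cast_mul, Nat.mul_div_cancel' (h1 m hm)]
    have h4 : n + 2 - (m + 1) = 2 + (n - 1 - m) := by omega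
    rw [h3, h4, pow_add]
    ring
  rw [h2]
  have h5 : (n + 2).choose (n + 1) = n + 2 := Nat.choose_succ_self_right _
  rw [h5]
  simp only [pow_zero, Nat.choose_zero_right, Nat.choose_self, Nat.cast_one, mul_one,
    Nat.sub_self, one_mul]
  have h6 : n + 2 - (n + 1) = 1 := by omega
  have h7 : n + 2 - 1 = n + 1 := by omega
  rw [h6, h7, Nat.sub_zero, pow_one]
  ring

end Fermat.Agent.S33aux

namespace Fermat.Agent.TwoComp

open Fermat.Agent.S33aux

namespace RedRing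

variable {K F k E : Type*} [Field K] [Field F] [Algebra K F] [Field k] [CommRing E]
  [Algebra k E] {R : RedRing K F k E}

variable (R) in
/-- The relation attached to two lattices. -/
def rel (M M₀ : Submodule K F) (b : R.A) : Submodule k (E × E) where
  carrier := {w | ∃ a₀ t : R.O, (a₀ : F) ∈ M₀ ∧ ((a₀ + R.algA b * t : R.O) : F) ∈ M ∧
    w = (R.ρ a₀, R.ρ t)}
  zero_mem' := ⟨0, 0, M₀.zero_mem, by simp, by rw [map_zero]; rfl⟩
  add_mem' := by
    rintro _ _ ⟨a, t, ha, hat, rfl⟩ ⟨a', t', ha', hat', rfl⟩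
    refine ⟨a + a', t + t', M₀.add_mem ha ha', ?_, by rw [map_add, map_add]; rfl⟩
    have h1 := M.add_mem hat hat'
    rw [← Subring.coe_add] at h1
    convert h1 using 2
    ring
  smul_mem' := by
    rintro c _ ⟨a, t, ha, hat, rfl⟩
    obtain ⟨s, rfl⟩ := R.res_surj c
    refine ⟨R.algA s * a, R.algA s * t, ?_, ?_, ?_⟩
    · rw [Subring.coe_mul, coe_algA, ← Algebra.smul_def]
      exact M₀.smul_mem _ ha
    · have h1 : (R.algA s * a + R.algA b * (R.algA s * t) : R.O) =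
        R.algA s * (a + R.algA b * t) := by ring
      rw [h1, Subring.coe_mul, coe_algA, ← Algebra.smul_def]
      exact M.smul_mem _ hat
    · rw [map_mul, map_mul, ρ_algA, Prod.smul_mk, Algebra.smul_def, Algebra.smul_def]

theorem mem_rel {M M₀ : Submodule K F} {b : R.A} {w : E × E} : w ∈ R.rel M M₀ b ↔
    ∃ a₀ t : R.O, (a₀ : F) ∈ M₀ ∧ ((a₀ + R.algA b * t : R.O) : F) ∈ M ∧
    w = (R.ρ a₀, R.ρ t) := Iff.rfl

theorem mem_red_of_mul_mem {P : Submodule K F} {μ c' : R.A} (hμ : μ ≠ 0) (hc' : R.res c' = 0)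
    {X w : R.O} (h : ((R.algA μ * X - R.algA (μ * c') * w : R.O) : F) ∈ P) : R.ρ X ∈ R.red P := by
  refine ⟨X - R.algA c' * w, ?_, ?_⟩
  · have h1 : R.algA μ * X - R.algA (μ * c') * w = R.algA μ * (X - R.algA c' * w) := by
      rw [map_mul]; ring
    rw [h1, Subring.coe_mul, coe_algA, ← Algebra.smul_def] at h
    have h2 := P.smul_mem ((μ : K)⁻¹) h
    rwa [smul_smul, inv_mul_cancel₀ (fun h0 => hμ (Subtype.ext h0)), one_smul] at h2
  · rw [map_sub, ρ_eq_zero_of_mul hc', sub_zero]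

section power

variable {M M₀ P : Submodule K F} {p : ℕ} (hp : p.Prime) {lam c : R.A}
  (hlam : lam ^ (p - 1) = -(p : R.A)) (h₀ : ∀ a : R.O, (a : F) ∈ M₀ → ((a ^ p : R.O) : F) ∈ P)
  (h : ∀ a : R.O, (a : F) ∈ M → ∃ w : R.O, ((a ^ p - R.algA c * w : R.O) : F) ∈ P)

include hp h₀ h

/-- Large `b`. -/
theorem rel_large (hlam : lam ^ (p - 1) = -(p : R.A)) {b d c' : R.A} (hb : b ≠ 0)
    (hd : lam = b * d) (hd0 : R.res d = 0) (hc : c = b ^ p * c') (hc' : R.res c' = 0)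
    {w : E × E} (hw : w ∈ R.rel M M₀ b) : w.2 ^ p ∈ R.red P := by
  obtain ⟨a₀, t, ha₀, hat, rfl⟩ := hw
  obtain ⟨w, hw⟩ := h _ hat
  obtain ⟨G, hG⟩ := exists_add_pow hp a₀ (R.algA b * t)
  have hp1 : p - 1 + 1 = p := by have := hp.two_le; omega
  have hp2 : 0 < p - 1 := by have := hp.two_le; omega
  -- `p b = - b ^ p d ^ (p - 1)`
  have hpb : ((p : R.O) * R.algA b) = - (R.algA b ^ p * R.algA (d ^ (p - 1))) := by
    have h1 : (p : R.A) * b = - (b ^ p * d ^ (p - 1)) := by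
      have h2 : (p : R.A) = - lam ^ (p - 1) := by rw [hlam, neg_neg]
      rw [h2, hd, mul_pow]
      conv_rhs => rw [← hp1, pow_succ, Nat.add_sub_cancel]
      ring
    have h2 := congrArg R.algA h1
    rw [map_mul, map_natCast, map_neg, map_mul, map_pow] at h2
    exact h2
  set X : R.O := t ^ p - R.algA (d ^ (p - 1)) * (a₀ ^ (p - 1) * t + R.algA b * (t ^ 2 * G)) with hX
  have h1 : R.ρ X = R.ρ t ^ p := by
    rw [hX, map_sub, ρ_eq_zero_of_mul (by rw [map_pow, hd0, zero_pow hp2.ne']), sub_zero, map_pow]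
  have h2 : (a₀ + R.algA b * t) ^ p = a₀ ^ p + R.algA (b ^ p) * X := by
    rw [hG, hX, map_pow, mul_pow]
    linear_combination (a₀ ^ (p - 1) * t + R.algA b * (t ^ 2 * G)) * hpb
  change R.ρ t ^ p ∈ R.red P
  rw [← h1]
  refine mem_red_of_mul_mem (μ := b ^ p) (c' := c') (w := w) (pow_ne_zero _ hb) hc' ?_
  have h3 : R.algA (b ^ p) * X - R.algA (b ^ p * c') * w =
      ((a₀ + R.algA b * t) ^ p - R.algA c * w) - a₀ ^ p := by
    rw [h2, hc]; ring
  rw [h3, AddSubgroupClass.coe_sub]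
  exact P.sub_mem hw (h₀ _ ha₀)

/-- Medium `b`. -/
theorem rel_mid (hlam : lam ^ (p - 1) = -(p : R.A)) (hlam0 : R.res lam = 0) {c' : R.A}
    (hb : lam ≠ 0) (hc : c = lam ^ p * c') (hc' : R.res c' = 0)
    {w : E × E} (hw : w ∈ R.rel M M₀ lam) : w.2 ^ p - w.1 ^ (p - 1) * w.2 ∈ R.red P := by
  obtain ⟨a₀, t, ha₀, hat, rfl⟩ := hw
  obtain ⟨w, hw⟩ := h _ hat
  obtain ⟨G, hG⟩ := exists_add_pow hp a₀ (R.algA lam * t)
  have hp1 : p - 1 + 1 = p := by have := hp.two_le; omega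
  have hpb : ((p : R.O) * R.algA lam) = - (R.algA lam ^ p) := by
    have h1 : (p : R.A) * lam = - lam ^ p := by
      have h2 : (p : R.A) = - lam ^ (p - 1) := by rw [hlam, neg_neg]
      rw [h2]
      conv_rhs => rw [← hp1, pow_succ]
      ring
    have h2 := congrArg R.algA h1
    rw [map_mul, map_natCast, map_neg, map_pow] at h2
    exact h2
  set X : R.O := t ^ p - a₀ ^ (p - 1) * t - R.algA lam * (t ^ 2 * G) with hX
  have h1 : R.ρ X = R.ρ t ^ p - R.ρ a₀ ^ (p - 1) * R.ρ t := by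
    rw [hX, map_sub, ρ_eq_zero_of_mul hlam0, sub_zero, map_sub, map_mul, map_pow, map_pow]
  have h2 : (a₀ + R.algA lam * t) ^ p = a₀ ^ p + R.algA (lam ^ p) * X := by
    rw [hG, hX, map_pow, mul_pow]
    linear_combination (a₀ ^ (p - 1) * t + R.algA lam * (t ^ 2 * G)) * hpb
  change R.ρ t ^ p - R.ρ a₀ ^ (p - 1) * R.ρ t ∈ R.red P
  rw [← h1]
  refine mem_red_of_mul_mem (μ := lam ^ p) (c' := c') (w := w) (pow_ne_zero _ hb) hc' ?_
  have h3 : R.algA (lam ^ p) * X - R.algA (lam ^ p * c') * w =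
      ((a₀ + R.algA lam * t) ^ p - R.algA c * w) - a₀ ^ p := by
    rw [h2, hc]; ring
  rw [h3, AddSubgroupClass.coe_sub]
  exact P.sub_mem hw (h₀ _ ha₀)

/-- Small `b`. -/
theorem rel_small (hlam : lam ^ (p - 1) = -(p : R.A)) (hlam0 : R.res lam = 0)
    {b d c' : R.A} (hb : b ≠ 0) (hp0 : (p : R.A) ≠ 0)
    (hd : b = lam * d) (hd0 : R.res d = 0) (hc : c = (p * b) * c') (hc' : R.res c' = 0)
    {w : E × E} (hw : w ∈ R.rel M M₀ b) : w.1 ^ (p - 1) * w.2 ∈ R.red P := by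
  obtain ⟨a₀, t, ha₀, hat, rfl⟩ := hw
  obtain ⟨w, hw⟩ := h _ hat
  obtain ⟨G, hG⟩ := exists_add_pow hp a₀ (R.algA b * t)
  have hp1 : p - 1 + 1 = p := by have := hp.two_le; omega
  have hp2 : 0 < p - 1 := by have := hp.two_le; omega
  have hpb : R.algA b ^ p = - ((p : R.O) * R.algA b * R.algA (d ^ (p - 1))) := by
    have h1 : b ^ p = - ((p : R.A) * b * d ^ (p - 1)) := by
      have h2 : (p : R.A) = - lam ^ (p - 1) := by rw [hlam, neg_neg]
      have h3 : b ^ p = b ^ (p - 1) * b := by rw [← pow_succ, hp1]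
      rw [h2, h3]
      have h4 : b ^ (p - 1) = lam ^ (p - 1) * d ^ (p - 1) := by rw [← mul_pow, ← hd]
      rw [h4]
      ring
    have h2 := congrArg R.algA h1
    rw [map_neg, map_mul, map_mul, map_natCast, map_pow] at h2
    exact h2
  set X : R.O := a₀ ^ (p - 1) * t - R.algA (d ^ (p - 1)) * t ^ p + R.algA b * (t ^ 2 * G) with hX
  have hb0 : R.res b = 0 := by rw [hd, map_mul, hlam0, zero_mul]
  have h1 : R.ρ X = R.ρ a₀ ^ (p - 1) * R.ρ t := by
    rw [hX, map_add, ρ_eq_zero_of_mul hb0, add_zero, map_sub,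
      ρ_eq_zero_of_mul (by rw [map_pow, hd0, zero_pow hp2.ne']), sub_zero, map_mul, map_pow]
  have h2 : (a₀ + R.algA b * t) ^ p = a₀ ^ p + R.algA ((p : R.A) * b) * X := by
    rw [hG, hX, map_mul, map_natCast, mul_pow]
    linear_combination (t ^ p) * hpb
  change R.ρ a₀ ^ (p - 1) * R.ρ t ∈ R.red P
  rw [← h1]
  refine mem_red_of_mul_mem (μ := (p : R.A) * b) (c' := c') (w := w) (mul_ne_zero hp0 hb) hc' ?_
  have h3 : R.algA ((p : R.A) * b) * X - R.algA ((p : R.A) * b * c') * w =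
      ((a₀ + R.algA b * t) ^ p - R.algA c * w) - a₀ ^ p := by
    rw [h2, hc]; ring
  rw [h3, AddSubgroupClass.coe_sub]
  exact P.sub_mem hw (h₀ _ ha₀)

end power

/-- Polarisation: a polynomial with values in a subspace has coefficients in it. -/
theorem coeff_mem_of_eval_mem [Infinite k] (W : Submodule k E) (P : E[X])
    (h : ∀ s : k, P.eval (algebraMap k E s) ∈ W) (n : ℕ) : P.coeff n ∈ W := by
  by_contra hn
  obtain ⟨φ, hφ, hW⟩ := Submodule.exists_le_ker_of_notMem hn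
  apply hφ
  set Q : k[X] := ∑ i ∈ P.support, C (φ (P.coeff i)) * X ^ i with hQ
  have h1 : Q = 0 := by
    apply Polynomial.funext
    intro s
    rw [eval_zero]
    have h2 : φ (P.eval (algebraMap k E s)) = 0 := hW (h s)
    rw [hQ, eval_finsetSum, ← h2, eval_eq_sum, Polynomial.sum, map_sum]
    refine Finset.sum_congr rfl fun i _ => ?_
    rw [eval_mul, eval_C, eval_pow, eval_X, ← map_pow, mul_comm (P.coeff i), ← Algebra.smul_def,
      map_smul, smul_eq_mul, mul_comm]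
  have h3 : Q.coeff n = φ (P.coeff n) := by
    rw [hQ, finsetSum_coeff]
    simp only [coeff_C_mul, coeff_X_pow, mul_ite, mul_one, mul_zero]
    rw [Finset.sum_ite_eq]
    split_ifs with h4
    · rfl
    · rw [notMem_support_iff] at h4
      rw [h4, map_zero]
  rw [← h3, h1, coeff_zero]

end RedRing

end Fermat.Agent.TwoComp
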