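import Fermat.Agent.S33.Disc

/-!
# S33, good reduction at `p`: the supersingular case
-/

set_option autoImplicit false

open Module

namespace Fermat.Agent.S33aux

open Fermat.Agent.RedInj

namespace SuperS

variable {K F k F' : Type*} [Field K] [Field F] [Field k] [Field F'] [Algebra K F] [Algebra k F']

lemma const_of_isIntegral [IsAlgClosed k] {y : F'} (hy : IsIntegral k y) :
    ∃ c : k, y = algebraMap k F' c := by
  obtain ⟨c, hc⟩ := minpoly.mem_range_of_degree_eq_one k y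
    (IsAlgClosed.degree_eq_one_of_irreducible k (minpoly.irreducible hy))
  exact ⟨c, hc.symm⟩

lemma const_of_pow [IsAlgClosed k] {p : ℕ} (hp : 0 < p) {y : F'} {c : k}
    (h : y ^ p = algebraMap k F' c) : ∃ c : k, y = algebraMap k F' c := by
  apply const_of_isIntegral
  refine ⟨Polynomial.X ^ p - Polynomial.C c, Polynomial.monic_X_pow_sub_C c hp.ne', ?_⟩
  simp [h]

variable {R : RedField K F k F'} {p : ℕ}

/-- expansion of `(1 + λ y) ^ p` -/
lemma expand (hp : p.Prime) {lam : K} (hl : lam ^ (p - 1) = -(p : K)) (hlA : lam ∈ R.A) {y : F}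
    (hy : y ∈ R.O) : ∃ z ∈ R.O, (1 + lam • y) ^ p = 1 + lam ^ p • (y ^ p - y + lam • z) := by
  have hchoose : ∀ i, ∃ q : ℕ, 1 ≤ i → i < p → p.choose i = p * q := by
    intro i
    by_cases h : 1 ≤ i ∧ i < p
    · obtain ⟨q, hq⟩ := hp.dvd_choose_self (by omega) h.2
      exact ⟨q, fun _ _ => hq⟩
    · exact ⟨0, fun h1 h2 => absurd ⟨h1, h2⟩ h⟩
  choose q hq using hchoose
  have hp1 := hp.one_lt
  obtain ⟨r, rfl⟩ : ∃ r, p = r + 2 := ⟨p - 2, by omega⟩
  have hexp : (1 + lam • y) ^ (r + 2) = 1 + (lam • y) * ((r + 2 : ℕ) : F) +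
      (∑ i ∈ Finset.range r, (lam • y) ^ (i + 2) * (((r + 2).choose (i + 2) : ℕ) : F)) +
      (lam • y) ^ (r + 2) := by
    rw [add_comm (1 : F), add_pow, Finset.sum_range_succ, Finset.sum_range_succ',
      Finset.sum_range_succ']
    simp only [one_pow, mul_one, Nat.choose_self, Nat.cast_one, pow_zero, zero_add,
      Nat.choose_zero_right, Nat.choose_one_right, pow_one]
    ring
  have hlF : ((r + 2 : ℕ) : F) = -(algebraMap K F lam) ^ (r + 1) := by
    have h2 : r + 2 - 1 = r + 1 := by omega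
    rw [h2] at hl
    rw [← map_pow, hl, map_neg, map_natCast, neg_neg]
  have hlyO : lam • y ∈ R.O := R.smul_mem hlA hy
  refine ⟨-∑ i ∈ Finset.range r, ((q (i + 2) : ℕ) : F) * ((lam • y) ^ i * y ^ 2), ?_, ?_⟩
  · refine neg_mem (R.sum_mem fun i _ => ?_)
    exact mul_mem (natCast_mem _ _) (mul_mem (pow_mem hlyO _) (pow_mem hy _))
  · rw [hexp]
    have h3 : ∑ i ∈ Finset.range r, (lam • y) ^ (i + 2) * (((r + 2).choose (i + 2) : ℕ) : F) =
        (algebraMap K F lam) ^ (r + 3) *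
          -∑ i ∈ Finset.range r, ((q (i + 2) : ℕ) : F) * ((lam • y) ^ i * y ^ 2) := by
      rw [← Finset.sum_neg_distrib, Finset.mul_sum]
      refine Finset.sum_congr rfl fun i hi => ?_
      rw [Finset.mem_range] at hi
      rw [hq (i + 2) (by omega) (by omega), Nat.cast_mul, hlF, Algebra.smul_def]
      ring
    rw [h3, hlF]
    simp only [Algebra.smul_def, map_pow]
    ring

/-- the value group of `KH` -/
lemma val_le {e : ℕ} (D : DiscSub R p e) (he : 0 < e) {lam : K} (hl : lam ^ e = -(p : K))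
    (hp0 : (p : K) ≠ 0) (hpv : R.A.valuation (p : K) < 1)
    {c : K} (hc : c ∈ D.KH) (h : R.A.valuation c < 1) : R.A.valuation c ≤ R.A.valuation lam := by
  rcases eq_or_ne c 0 with rfl | hc0
  · rw [map_zero]; exact zero_le'
  obtain ⟨n, h1, h2⟩ := D.val c hc hc0
  have hvp : R.A.valuation (p : K) = R.A.valuation lam ^ e := by
    rw [← map_pow, hl, Valuation.map_neg]
  have h3 : R.A.valuation c ^ e ≤ R.A.valuation (p : K) ^ n := by
    rw [← ValuationSubring.valuation_le_one_iff, map_mul, map_inv₀, map_zpow₀, map_pow] at h1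
    have hpn : R.A.valuation (p : K) ^ n ≠ 0 := zpow_ne_zero _ ((Valuation.ne_zero_iff _).2 hp0)
    rwa [inv_mul_le_iff₀ (zero_lt_iff.2 hpn), mul_one] at h1
  have h4 : R.A.valuation (p : K) ^ n ≤ R.A.valuation c ^ e := by
    rw [← ValuationSubring.valuation_le_one_iff, map_mul, map_inv₀, map_zpow₀, map_pow] at h2
    have hcn : R.A.valuation c ^ e ≠ 0 := pow_ne_zero _ ((Valuation.ne_zero_iff _).2 hc0)
    rwa [mul_inv_le_iff₀ (zero_lt_iff.2 hcn), one_mul] at h2
  have hn : 1 ≤ n := by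
    by_contra hn
    push_neg at hn
    have h5 : R.A.valuation c ^ e < 1 := pow_lt_one₀ zero_le' h he.ne'
    have h6 : (1 : R.A.ValueGroup) ≤ R.A.valuation (p : K) ^ n := by
      obtain ⟨m, rfl⟩ : ∃ m : ℕ, n = -(m : ℤ) := ⟨n.natAbs, by omega⟩
      rw [zpow_neg, zpow_natCast]
      have h7 : R.A.valuation (p : K) ^ m ≤ 1 := pow_le_one₀ zero_le' hpv.le
      exact (one_le_inv₀ (zero_lt_iff.2 (pow_ne_zero _ ((Valuation.ne_zero_iff _).2 hp0)))).2 h7
    exact absurd (h6.trans h4) (not_le.2 h5)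
  have h8 : R.A.valuation (p : K) ^ n ≤ R.A.valuation (p : K) := by
    obtain ⟨m, rfl⟩ : ∃ m : ℕ, n = ((m + 1 : ℕ) : ℤ) := ⟨(n - 1).toNat, by omega⟩
    rw [zpow_natCast, pow_succ]
    exact mul_le_of_le_one_left' (pow_le_one₀ zero_le' hpv.le)
  have h9 : R.A.valuation c ^ e ≤ R.A.valuation lam ^ e := by
    rw [← hvp]
    exact h3.trans h8
  exact le_of_pow_le_pow_left₀ he.ne' zero_le' h9

end SuperS

end Fermat.Agent.S33aux
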