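import Fermat.Agent.S33.WSub
import Fermat.Agent.RibetE.Hecke
import Fermat.Agent.TwoGauss.Uncond

/-!
# The Hecke operators preserve the classes split at the first component
-/

set_option autoImplicit false
set_option linter.unusedSectionVars false

noncomputable section

open ModularCurve AlgebraicCurve
open Fermat.Agent.QX4 (Split)
open Fermat.Agent.TwoGauss (twoComp)
open Fermat.Agent.RibetE

namespace Fermat.Agent.S33aux

/-- the algebraic numbers -/
local notation "𝕂" => AlgebraicClosure ℚ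

section Abs

variable {K F F' : Type*} [Field K] [Field F] [Algebra K F] [Field F']

/-- a compatible operator preserves split classes -/
theorem split_map {O : ValuationSubring F} {ρ : O →+* F'} {T : F →* F}
    {τ : Pic0 K F → Pic0 K F} {T' : F' →* F'} (C : Compatible O ρ T τ T') {n : ℕ} {x : Pic0 K F}
    (hx : Split O ρ n x) : Split O ρ n (τ x) := by
  rw [split_iff_isK] at hx ⊢
  have h := hx.map C
  rwa [map_one] at h

end Abs

variable {m p : ℕ} [NeZero m] [Fact p.Prime] (hp : p.Prime) (hm : ¬ p ∣ m)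
  {A : ValuationSubring (AlgebraicClosure ℚ)} (hA : A.LiesOverPrime p)
  [CharP (IsLocalRing.ResidueField A) p]

/-- **(W1)** `T_ℓ` preserves the classes split at the first component by a power of `p`. -/
theorem heckeOperatorBar_mem_WSub {ℓ : ℕ} (hℓ : ℓ.Prime) (hℓN : ¬ ℓ ∣ m * p) {x : JZero (m * p)}
    (hx : x ∈ (twoComp hp hm hA).WSub) :
    heckeOperatorBar (m * p) ⟨ℓ, hℓ⟩ x ∈ (twoComp hp hm hA).WSub := by
  have : NeZero ℓ := ⟨hℓ.ne_zero⟩
  obtain ⟨j, hj⟩ := hx
  exact ⟨j, split_map (compatible₁ hp hm hA (GoodRed.degThm_res hp hA (NeZero.ne m) hm) hℓ hℓN) hj⟩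

/-- `T_ℓ` preserves the classes split at the first component, at a fixed level. -/
theorem heckeOperatorBar_split₁ {ℓ : ℕ} (hℓ : ℓ.Prime) (hℓN : ¬ ℓ ∣ m * p) {n : ℕ}
    {x : JZero (m * p)}
    (hx : Split (twoComp hp hm hA).O₁ (twoComp hp hm hA).ρ₁ n x) :
    Split (twoComp hp hm hA).O₁ (twoComp hp hm hA).ρ₁ n
      (heckeOperatorBar (m * p) ⟨ℓ, hℓ⟩ x) := by
  have : NeZero ℓ := ⟨hℓ.ne_zero⟩
  exact split_map (compatible₁ hp hm hA (GoodRed.degThm_res hp hA (NeZero.ne m) hm) hℓ hℓN) hx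

/-- `T_ℓ` preserves the classes split at the second component, at a fixed level. -/
theorem heckeOperatorBar_split₂ {ℓ : ℕ} (hℓ : ℓ.Prime) (hℓN : ¬ ℓ ∣ m * p) {n : ℕ}
    {x : JZero (m * p)}
    (hx : Split (twoComp hp hm hA).O₂ (twoComp hp hm hA).ρ₂ n x) :
    Split (twoComp hp hm hA).O₂ (twoComp hp hm hA).ρ₂ n
      (heckeOperatorBar (m * p) ⟨ℓ, hℓ⟩ x) := by
  have : NeZero ℓ := ⟨hℓ.ne_zero⟩
  exact split_map (compatible₂ hp hm hA (GoodRed.degThm_res hp hA (NeZero.ne m) hm) hℓ hℓN) hx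

/-- the submodule form: the stabilising operators -/
theorem WSub_le_comap {ℓ : ℕ} (hℓ : ℓ.Prime) (hℓN : ¬ ℓ ∣ m * p) :
    (twoComp hp hm hA).WSub ≤
      ((twoComp hp hm hA).WSub).comap (heckeOperatorBar (m * p) ⟨ℓ, hℓ⟩).toAddMonoidHom :=
  fun _ hx => heckeOperatorBar_mem_WSub hp hm hA hℓ hℓN hx

end Fermat.Agent.S33aux
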