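import Fermat.Agent.TwoComp.Torus
import Fermat.Agent.TwoComp.Bridge
import Fermat.Agent.GalRep.JZ1_Kummer

/-!
# The subgroup `W` of classes split at the first component
-/

set_option autoImplicit false
set_option linter.unusedSectionVars false

open AlgebraicCurve Fermat.Agent.GalRep
open Fermat.Agent.QX4 (Split)

namespace Fermat.Agent.S33aux

section Split

variable {K F F' : Type*} [Field K] [Field F] [Algebra K F] [Field F']

theorem split_iff {O : ValuationSubring F} {ρ : O →+* F'} {n : ℕ} {x : Pic0 K F} :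
    Split O ρ n x ↔ ∃ (f : F) (hf : f ∈ O) (u : F'), IsKummer n x f ∧ u ≠ 0 ∧ ρ ⟨f, hf⟩ = u ^ n := by
  constructor
  · rintro ⟨D, f, hf, u, rfl, hu, ho, hr⟩
    refine ⟨f, hf, u, ⟨D, rfl, ?_, fun v => (ho v).symm⟩, hu, hr⟩
    rintro rfl
    have h0 : (⟨0, hf⟩ : O) = 0 := rfl
    rw [h0, map_zero] at hr
    exact pow_ne_zero n hu hr.symm
  · rintro ⟨f, hf, u, ⟨D, rfl, -, ho⟩, hu, hr⟩
    exact ⟨D, f, hf, u, rfl, hu, fun v => (ho v).symm, hr⟩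

theorem Split.zero (O : ValuationSubring F) (ρ : O →+* F') (n : ℕ) :
    Split O ρ n (0 : Pic0 K F) := by
  rw [split_iff]
  refine ⟨1, O.one_mem, 1, IsKummer.zero n, one_ne_zero, ?_⟩
  have h0 : (⟨1, O.one_mem⟩ : O) = 1 := rfl
  rw [h0, map_one, one_pow]

theorem Split.add {O : ValuationSubring F} {ρ : O →+* F'} {n : ℕ} {x y : Pic0 K F}
    (hx : Split O ρ n x) (hy : Split O ρ n y) : Split O ρ n (x + y) := by
  rw [split_iff] at hx hy ⊢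
  obtain ⟨f, hf, u, hfx, hu, hr⟩ := hx
  obtain ⟨g, hg, v, hgy, hv, hr'⟩ := hy
  refine ⟨f * g, O.mul_mem _ _ hf hg, u * v, hfx.mul hgy, mul_ne_zero hu hv, ?_⟩
  have h0 : (⟨f * g, O.mul_mem _ _ hf hg⟩ : O) = ⟨f, hf⟩ * ⟨g, hg⟩ := rfl
  rw [h0, map_mul, hr, hr', mul_pow]

theorem Split.mul {O : ValuationSubring F} {ρ : O →+* F'} {n : ℕ} {x : Pic0 K F}
    (hx : Split O ρ n x) (k : ℕ) : Split O ρ (n * k) x := by
  rw [split_iff] at hx ⊢
  obtain ⟨f, hf, u, ⟨D, rfl, h0, hD⟩, hu, hr⟩ := hx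
  refine ⟨f ^ k, pow_mem hf k, u, ⟨D, rfl, pow_ne_zero k h0, fun v => ?_⟩, hu, ?_⟩
  · rw [← zpow_natCast, v.ord_zpow, ← hD v]
    push_cast
    ring
  · have h0 : (⟨f ^ k, pow_mem hf k⟩ : O) = ⟨f, hf⟩ ^ k := rfl
    rw [h0, map_pow, hr, pow_mul]

theorem Split.neg {O : ValuationSubring F} {ρ : O →+* F'} {n : ℕ} {x : Pic0 K F}
    (hinv : ∀ (f : F) (hf : f ∈ O), ρ ⟨f, hf⟩ ≠ 0 → f⁻¹ ∈ O)
    (hx : Split O ρ n x) : Split O ρ n (-x) := by
  rw [split_iff] at hx ⊢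
  obtain ⟨f, hf, u, hfx, hu, hr⟩ := hx
  have hm := hinv f hf (by rw [hr]; exact pow_ne_zero n hu)
  refine ⟨f⁻¹, hm, u⁻¹, hfx.inv, inv_ne_zero hu, ?_⟩
  have h1 : ρ ⟨f⁻¹, hm⟩ * ρ ⟨f, hf⟩ = 1 := by
    rw [← map_mul, ← map_one ρ]
    exact congrArg ρ (Subtype.ext (inv_mul_cancel₀ hfx.ne_zero))
  rw [hr] at h1
  rw [inv_pow]
  exact eq_inv_of_mul_eq_one_left h1

end Split

end Fermat.Agent.S33aux

namespace Fermat.Agent.TwoComp

open Fermat.Agent.S33aux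

namespace Data

variable {K Fm F k F' : Type*} [Field K] [Field Fm] [Algebra K Fm] [Field F]
    [Algebra K F] [Field k] [Field F'] [Algebra k F'] {q : ℕ}

/-- The subgroup of classes split at the first component by a power of `q`. -/
def WSub (D : Data K Fm F k F' q) : AddSubgroup (Pic0 K F) where
  carrier := {x | ∃ j : ℕ, Split D.O₁ D.ρ₁ (q ^ j) x}
  zero_mem' := ⟨0, Split.zero _ _ _⟩
  add_mem' := by
    rintro x y ⟨i, hx⟩ ⟨j, hy⟩
    refine ⟨i + j, ?_⟩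
    have h1 := Split.mul hx (q ^ j)
    have h2 := Split.mul hy (q ^ i)
    rw [← pow_add] at h1 h2
    rw [add_comm j i] at h2
    exact Split.add h1 h2
  neg_mem' := by
    rintro x ⟨i, hx⟩
    exact ⟨i, Split.neg (fun f hf h => D.inv_mem_O₁ hf h) hx⟩

variable {D : Data K Fm F k F' q}

theorem mem_WSub {x : Pic0 K F} : x ∈ D.WSub ↔ ∃ j : ℕ, Split D.O₁ D.ρ₁ (q ^ j) x := Iff.rfl

/-- elements of `W` are `q`-power torsion -/
theorem torsion_of_mem_WSub {x : Pic0 K F} (hx : x ∈ D.WSub) : ∃ j : ℕ, q ^ j • x = 0 := by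
  obtain ⟨j, hj⟩ := hx
  rw [split_iff] at hj
  obtain ⟨f, hf, u, hfx, -⟩ := hj
  exact ⟨j, hfx.nsmul_eq_zero⟩

/-- `W` is stable under the decomposition group. -/
theorem ActS.smul_mem_WSub {g : SemilinearAut K F} {e : F' →+* F'} {s : k →+* k}
    (hg : D.ActS g e s) {x : Pic0 K F} (hx : x ∈ D.WSub) : g • x ∈ D.WSub := by
  obtain ⟨j, hj⟩ := hx
  rw [split_iff] at hj
  obtain ⟨f, hf, u, hfx, hu, hr⟩ := hj
  refine ⟨j, ?_⟩
  rw [split_iff]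
  refine ⟨g • f, hg.mem₁ f hf, e u, hfx.smul g, (_root_.map_ne_zero e).mpr hu, ?_⟩
  rw [hg.ρ₁ f hf, hr, map_pow]

/-- `(τ - 1) J[q^j] ⊆ W` for inertia. -/
theorem Act.sub_mem_WSub [Fermat.Agent.FF.IsFF K F] (hq : 0 < q) {g : SemilinearAut K F}
    (hg : D.Act g id) {j : ℕ} {x : Pic0 K F} (hx : q ^ j • x = 0) : g • x - x ∈ D.WSub :=
  ⟨j, split_of_inertia₁ hq hg hx⟩

/-- Comparison of two operators inducing the same map on the first component. -/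
theorem sub_mem_WSub_of {j : ℕ} {y z : Pic0 K F} {f₁ f₂ : F}
    (hy : IsKummer (q ^ j) y f₁) (hz : IsKummer (q ^ j) z f₂)
    (h₁ : f₁ ∈ D.O₁) (h₂ : f₂ ∈ D.O₁) (h0 : D.ρ₁ ⟨f₁, h₁⟩ ≠ 0)
    (h : D.ρ₁ ⟨f₁, h₁⟩ = D.ρ₁ ⟨f₂, h₂⟩) : y - z ∈ D.WSub := by
  refine ⟨j, ?_⟩
  rw [split_iff]
  have hi := D.inv_mem_O₁ h₂ (h ▸ h0)
  refine ⟨f₁ / f₂, by rw [div_eq_mul_inv]; exact D.O₁.mul_mem _ _ h₁ hi, 1, hy.div hz,
    one_ne_zero, ?_⟩
  have e : (⟨f₁ / f₂, by rw [div_eq_mul_inv]; exact D.O₁.mul_mem _ _ h₁ hi⟩ : D.O₁) =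
    ⟨f₁, h₁⟩ * ⟨f₂⁻¹, hi⟩ := Subtype.ext (div_eq_mul_inv _ _)
  rw [e, map_mul, h, ← map_mul, one_pow, ← map_one D.ρ₁]
  exact congrArg D.ρ₁ (Subtype.ext (mul_inv_cancel₀ hz.ne_zero))

/-- Classes in `W` killed by `q` are close to `q`-th powers. -/
theorem exists_near_of_mem_WSub [IsAlgClosed K] [Fermat.Agent.FF.IsFF K F] (hq : q.Prime)
    [CharP k q] {x : Pic0 K F} (hx : x ∈ D.WSub) (hqx : q • x = 0) :
    ∃ (f : F) (_ : IsKummer q x f) (hf : f ∈ D.O₁), D.ρ₁ ⟨f, hf⟩ = 1 := by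
  obtain ⟨j, hj⟩ := hx
  rw [split_iff] at hj
  obtain ⟨f, hf, u, hfx, hu, hr⟩ := hj
  haveI : CharP F' q := charP_of_injective_algebraMap (algebraMap k F').injective q
  haveI : Fact q.Prime := ⟨hq⟩
  haveI : ExpChar F' q := ExpChar.prime hq
  rcases j with _ | j
  · rw [pow_zero] at hfx
    have h0 : x = 0 := by have := hfx.nsmul_eq_zero; rwa [one_smul] at this
    subst h0
    exact ⟨1, IsKummer.zero q, D.O₁.one_mem, map_one _⟩
  · obtain ⟨g, hg⟩ := exists_isKummer hqx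
    -- `f = (c g) ^ (q ^ j)` up to `q ^ (j + 1)`-th powers
    have hg' : IsKummer (q ^ (j + 1)) x (g ^ q ^ j) := by
      obtain ⟨D, rfl, h0, hD⟩ := hg
      refine ⟨D, rfl, pow_ne_zero _ h0, fun v => ?_⟩
      rw [← zpow_natCast, v.ord_zpow, ← hD v]
      push_cast
      ring
    have h1 := hfx.div hg'
    rw [sub_self] at h1
    obtain ⟨w, hw, hw'⟩ := h1.exists_pow_of_zero (pow_ne_zero _ hq.ne_zero)
    have hfg : f = (g * w ^ q) ^ q ^ j := by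
      rw [mul_pow, ← pow_mul, ← pow_succ', ← hw', mul_div_cancel₀ _ hg'.ne_zero]
    have hg1 : IsKummer q x (g * w ^ q) := hg.mul_pow hw
    have hmem : g * w ^ q ∈ D.O₁ := by
      rw [hfg, ← ValuationSubring.valuation_le_one_iff, map_pow] at hf
      rw [← ValuationSubring.valuation_le_one_iff]
      exact (pow_le_one_iff_of_nonneg zero_le (pow_ne_zero _ hq.ne_zero)).mp hf
    have hr1 : D.ρ₁ ⟨_, hmem⟩ ^ q ^ j = (u ^ q) ^ q ^ j := by
      rw [← pow_mul u, ← pow_succ', ← hr, ← map_pow]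
      exact congrArg D.ρ₁ (Subtype.ext hfg.symm)
    have hr2 : D.ρ₁ ⟨_, hmem⟩ = u ^ q := by
      have := iterateFrobenius_inj F' q j
      apply this
      rw [iterateFrobenius_def, iterateFrobenius_def, hr1]
    obtain ⟨v, hv, hm, hρ⟩ := normalise₁ hmem hu hr2
    refine ⟨g * w ^ q / v ^ q, ?_, hm, hρ⟩
    have := hg1.mul_pow (inv_ne_zero hv)
    rwa [inv_pow, ← div_eq_mul_inv] at this

end Data

end Fermat.Agent.TwoComp
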